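import Fermat.Agent.MazD.H90
import Fermat.Agent.GalRep.Cyclo
import Fermat.Agent.Flat.Theta
import Fermat.Agent.Places.InertiaLift
import Fermat.Agent.TW.Tame

/-!
# Minkowski's theorem with two exceptional places, rational numbers with divisible valuations
-/

set_option autoImplicit false
set_option linter.unusedSectionVars false
set_option linter.style.haveILetI false

noncomputable section

namespace Fermat.Agent.MazD

open Fermat.Agent.Places Fermat.Agent.RedMod Fermat.Agent.FlatRam Fermat.Agent.Flat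
  Fermat.Agent.GalRep

open scoped Pointwise

local notation "Ω" => AlgebraicClosure ℚ

/-- inertia groups of conjugate places -/
theorem mem_inertia_smul {A : ValuationSubring (AlgebraicClosure ℚ)} {g τ : GQ}
    (hτ : τ ∈ (g • A).inertiaSubgroupIn ℚ) : g⁻¹ * τ * g ∈ A.inertiaSubgroupIn ℚ := by
  rw [mem_inertia_iff] at hτ ⊢
  intro x hx
  have h1 := hτ (g x) ((mem_smul_iff g A _).2 (by
    change g⁻¹ (g x) ∈ A
    rwa [show g⁻¹ (g x) = x from g.symm_apply_apply x]))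
  rw [mem_nonunits_smul_iff] at h1
  have h2 : (g⁻¹ * τ * g) x - x = g⁻¹ • (τ (g x) - g x) := by
    change g⁻¹ (τ (g x)) - x = g⁻¹ (τ (g x) - g x)
    rw [map_sub]
    congr 1
    exact (g.symm_apply_apply x).symm
  rw [h2]
  exact h1

/-- **Minkowski** -/
theorem eq_top_of_two {r N : ℕ} [hr : Fact r.Prime] [hN : Fact N.Prime]
    {A AN : ValuationSubring (AlgebraicClosure ℚ)} (hA : A.LiesOverPrime r)
    (hAN : AN.LiesOverPrime N) (U : Subgroup GQ) [hU : U.Normal] (hop : IsOpen (U : Set GQ))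
    (h : ∀ q : ℕ, q.Prime → q ≠ r → q ≠ N → ∀ B : ValuationSubring (AlgebraicClosure ℚ),
      B.LiesOverPrime q → B.inertiaSubgroupIn ℚ ≤ U)
    (h1 : A.inertiaSubgroupIn ℚ ≤ U) (h2 : AN.inertiaSubgroupIn ℚ ≤ U) : U = ⊤ := by
  refine eq_top_of_inertia_le U hop fun q hq B hB => ?_
  have key : ∀ {C : ValuationSubring (AlgebraicClosure ℚ)} (_ : C.LiesOverPrime q),
      C.inertiaSubgroupIn ℚ ≤ U → B.inertiaSubgroupIn ℚ ≤ U := by
    intro C hC hCU τ hτ
    obtain ⟨g, rfl⟩ := exists_smul_eq_of_liesOverPrime hq C B hC hB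
    have h3 := hU.conj_mem _ (hCU (mem_inertia_smul hτ)) g
    rwa [show g * (g⁻¹ * τ * g) * g⁻¹ = τ by group] at h3
  rcases eq_or_ne q r with rfl | hqr
  · exact key hA h1
  · rcases eq_or_ne q N with rfl | hqN
    · exact key hAN h2
    · exact h q hq hqr hqN B hB

/-- natural numbers with divisible valuations -/
theorem exists_pow_of_fact {r n : ℕ} (hn : n ≠ 0) (h : ∀ ℓ : ℕ, ℓ.Prime → r ∣ n.factorization ℓ) :
    ∃ m : ℕ, m ≠ 0 ∧ n = m ^ r := by
  refine ⟨n.factorization.prod fun ℓ e => ℓ ^ (e / r), ?_, ?_⟩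
  · rw [Finsupp.prod, Finset.prod_ne_zero_iff]
    intro ℓ hℓ
    exact pow_ne_zero _ (Nat.prime_of_mem_primeFactors hℓ).ne_zero
  · conv_lhs => rw [← Nat.prod_factorization_pow_eq_self hn]
    rw [Finsupp.prod, Finsupp.prod, ← Finset.prod_pow]
    refine Finset.prod_congr rfl fun ℓ hℓ => ?_
    rw [← pow_mul, Nat.div_mul_cancel (h ℓ (Nat.prime_of_mem_primeFactors hℓ))]

/-- valuations of natural numbers -/
theorem w_natCast_eq {p : ℕ} [hp : Fact p.Prime] {A : ValuationSubring (AlgebraicClosure ℚ)}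
    (hA : A.LiesOverPrime p) {n : ℕ} (hn : n ≠ 0) :
    (rval A p hA).w (n : Ω) = n.factorization p := by
  have h1 := Nat.ordProj_mul_ordCompl_eq_self n p
  have h2 : (n : Ω) = (p : Ω) ^ n.factorization p * ((n / p ^ n.factorization p : ℕ) : Ω) := by
    rw [← Nat.cast_pow, ← Nat.cast_mul, h1]
  have h3 : ¬ p ∣ n / p ^ n.factorization p := Nat.not_dvd_ordCompl hp.out hn
  have h4 : ((n / p ^ n.factorization p : ℕ) : Ω) ≠ 0 := Nat.cast_ne_zero.2 (by
    intro h
    apply h3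
    rw [h]
    exact dvd_zero p)
  have hp0 : (p : Ω) ≠ 0 := Nat.cast_ne_zero.2 hp.out.ne_zero
  rw [h2, RVal.w_mul (pow_ne_zero _ hp0) h4, RVal.w_pow hp0, (rval A p hA).w_p,
    RVal.w_natCast h3, add_zero, mul_one]

/-- rational numbers all of whose valuations are divisible by `r` -/
theorem exists_root_of_w {r : ℕ} (hr : r ≠ 0) {y : Ω} (hy0 : y ≠ 0) {q : ℚ}
    (hq : y ^ r = algebraMap ℚ Ω q)
    (h : ∀ p : ℕ, ∀ [Fact p.Prime], ∃ (B : ValuationSubring (AlgebraicClosure ℚ))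
      (hB : B.LiesOverPrime p) (n : ℤ), (rval B p hB).w y = n) :
    ∃ s : ℚ, s ≠ 0 ∧ (q = s ^ r ∨ q = - s ^ r) := by
  have hq0 : q ≠ 0 := by
    rintro rfl
    rw [map_zero] at hq
    exact hy0 (pow_eq_zero_iff hr |>.1 hq)
  have hnum : q.num.natAbs ≠ 0 := Int.natAbs_ne_zero.2 (Rat.num_ne_zero.2 hq0)
  have key : ∀ p : ℕ, p.Prime →
      r ∣ q.num.natAbs.factorization p ∧ r ∣ q.den.factorization p := by
    intro p hp
    haveI : Fact p.Prime := ⟨hp⟩
    obtain ⟨B, hB, n, hn⟩ := h p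
    have h1 : (rval B p hB).w (y ^ r) = r * n := by rw [RVal.w_pow hy0, hn]
    have h2 : (algebraMap ℚ Ω q) = ((q.num : ℤ) : Ω) / ((q.den : ℕ) : Ω) := by
      rw [eq_ratCast, Rat.cast_def]
    have hden0 : ((q.den : ℕ) : Ω) ≠ 0 := Nat.cast_ne_zero.2 q.den_ne_zero
    have hnum0 : ((q.num : ℤ) : Ω) ≠ 0 := Int.cast_ne_zero.2 (Rat.num_ne_zero.2 hq0)
    have h3 : (rval B p hB).w ((q.num : ℤ) : Ω) = q.num.natAbs.factorization p := by
      rw [← w_natCast_eq hB hnum]
      rcases Int.natAbs_eq q.num with h4 | h4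
      · conv_lhs => rw [h4]
        rw [Int.cast_natCast]
      · conv_lhs => rw [h4]
        rw [Int.cast_neg, Int.cast_natCast, RVal.w_neg]
    rw [hq, h2, RVal.w_div hnum0 hden0, h3, w_natCast_eq hB q.den_ne_zero] at h1
    have h5 : ((q.num.natAbs.factorization p : ℕ) : ℤ) - ((q.den.factorization p : ℕ) : ℤ) =
        r * n := by exact_mod_cast h1
    have hcop := q.reduced
    have h6 : q.num.natAbs.factorization p = 0 ∨ q.den.factorization p = 0 := by
      by_contra hcon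
      push Not at hcon
      have h7 : p ∣ q.num.natAbs := Nat.dvd_of_factorization_pos hcon.1
      have h8 : p ∣ q.den := Nat.dvd_of_factorization_pos hcon.2
      exact hp.one_lt.ne' (Nat.dvd_one.1 (hcop ▸ Nat.dvd_gcd h7 h8))
    rcases h6 with h6 | h6
    · rw [h6, Nat.cast_zero] at h5
      rw [h6]
      refine ⟨dvd_zero r, ?_⟩
      have : (r : ℤ) ∣ ((q.den.factorization p : ℕ) : ℤ) := ⟨-n, by linarith⟩
      exact_mod_cast this
    · rw [h6, Nat.cast_zero] at h5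
      rw [h6]
      refine ⟨?_, dvd_zero r⟩
      have : (r : ℤ) ∣ ((q.num.natAbs.factorization p : ℕ) : ℤ) := ⟨n, by linarith⟩
      exact_mod_cast this
  obtain ⟨a, ha0, ha⟩ := exists_pow_of_fact hnum fun ℓ hℓ => (key ℓ hℓ).1
  obtain ⟨b, hb0, hb⟩ := exists_pow_of_fact q.den_ne_zero fun ℓ hℓ => (key ℓ hℓ).2
  refine ⟨(a : ℚ) / b, div_ne_zero (Nat.cast_ne_zero.2 ha0) (Nat.cast_ne_zero.2 hb0), ?_⟩
  rw [div_pow]
  have hd : (q.den : ℚ) = (b : ℚ) ^ r := by rw [← Nat.cast_pow, ← hb]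
  rcases Int.natAbs_eq q.num with h4 | h4
  · left
    rw [← Nat.cast_pow, ← ha, ← hd]
    conv_lhs => rw [← Rat.num_div_den q, h4]
    rw [Int.cast_natCast]
  · right
    rw [← Nat.cast_pow, ← ha, ← hd]
    conv_lhs => rw [← Rat.num_div_den q, h4]
    rw [Int.cast_neg, Int.cast_natCast, neg_div]

end Fermat.Agent.MazD
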