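import Fermat.Agent.MazD.Res

/-!
# Multiplicative type modules: dévissage
-/

set_option autoImplicit false
set_option linter.unusedSectionVars false
set_option linter.style.haveILetI false

noncomputable section

namespace Fermat.Agent.MazD

open Fermat.Agent.GalRep

local notation "Ω" => AlgebraicClosure ℚ

variable {r : ℕ} [hr : Fact r.Prime]

theorem exists_dual_ne {M : Type*} [AddCommGroup M] [Module (ZMod r) M] {x : M} (hx : x ≠ 0) :
    ∃ φ : M →ₗ[ZMod r] ZMod r, φ x ≠ 0 := by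
  by_contra hcon
  push Not at hcon
  exact hx ((Module.forall_dual_apply_eq_zero_iff (ZMod r) _).1 hcon)

theorem exists_hom_ne_zero {V : Type*} [AddCommGroup V] [Nontrivial V] (k : ℕ)
    (hk : ∀ x : V, r ^ k • x = 0) : ∃ ψ : V →+ ZMod r, ψ ≠ 0 := by
  let W : AddSubgroup V := (nsmulAddMonoidHom (α := V) r).range
  obtain ⟨v, hv⟩ : ∃ v : V, v ∉ W := by
    by_contra hcon
    push Not at hcon
    have h1 : ∀ n : ℕ, ∀ v : V, ∃ w, v = r ^ n • w := by
      intro n
      induction n with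
      | zero => intro v; exact ⟨v, by simp⟩
      | succ n ih =>
        intro v
        obtain ⟨w, hw⟩ := ih v
        obtain ⟨w', hw'⟩ := hcon w
        refine ⟨w', ?_⟩
        rw [pow_succ, mul_smul, hw]
        congr 1
        exact hw'.symm
    obtain ⟨v, hv⟩ := exists_ne (0 : V)
    obtain ⟨w, hw⟩ := h1 k v
    exact hv (by rw [hw, hk])
  letI : Module (ZMod r) (V ⧸ W) := AddCommGroup.zmodModule (by
    intro x
    obtain ⟨x, rfl⟩ := QuotientAddGroup.mk_surjective x
    rw [← QuotientAddGroup.mk_nsmul, QuotientAddGroup.eq_zero_iff]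
    exact ⟨x, rfl⟩)
  have h1 : (QuotientAddGroup.mk v : V ⧸ W) ≠ 0 := by
    rwa [Ne, QuotientAddGroup.eq_zero_iff]
  obtain ⟨φ, hφ⟩ := exists_dual_ne (r := r) h1
  refine ⟨φ.toAddMonoidHom.comp (QuotientAddGroup.mk' W), fun h0 => hφ ?_⟩
  exact DFunLike.congr_fun h0 v

theorem end_pow {E : Type*} [Ring E] {a b v : E} (h1 : a * b = 1) (h2 : b * a = 1)
    (hv : ∀ x, Commute v x) (M : ℕ) (h : ((a - 1) * (a - v)) ^ M = 0) :
    ((v * b - v) * (v * b - 1)) ^ M = 0 := by
  have e1 : (v * b - v) * (v * b - 1) = (v * (b * b)) * ((a - 1) * (a - v)) := by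
    have e2 : b * (a - 1) = 1 - b := by rw [mul_sub, h2, mul_one]
    have e3 : b * (a - v) = 1 - v * b := by rw [mul_sub, h2, (hv b).eq]
    have e4 : b * (1 - b) = (1 - b) * b := by noncomm_ring
    calc (v * b - v) * (v * b - 1) = v * ((1 - b) * (1 - v * b)) := by noncomm_ring
      _ = v * ((1 - b) * (b * (a - v))) := by rw [e3]
      _ = v * ((b * (1 - b)) * (a - v)) := by rw [e4]; noncomm_ring
      _ = v * ((b * (b * (a - 1))) * (a - v)) := by rw [e2]
      _ = (v * (b * b)) * ((a - 1) * (a - v)) := by noncomm_ring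
  have hba : Commute b a := by rw [Commute, SemiconjBy, h1, h2]
  have hc : Commute (v * (b * b)) ((a - 1) * (a - v)) := by
    have h3 : Commute b ((a - 1) * (a - v)) :=
      (hba.sub_right (Commute.one_right _)).mul_right (hba.sub_right (hv b).symm)
    exact (hv _).mul_left (h3.mul_left h3)
  rw [e1, hc.mul_pow, h, mul_zero]

/-- the twisted dual -/
def dualAct {V : Type*} [AddCommGroup V] (ρ : GQ →* AddMonoid.End V) :
    GQ →* AddMonoid.End (V →+ ZMod r) where
  toFun σ := AddMonoidHom.mk' (fun ψ => (AddMonoidHom.mulLeft (cyc r σ)).comp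
    (ψ.comp (ρ σ⁻¹))) fun a b => by
      ext x
      change cyc r σ * (a _ + b _) = cyc r σ * a _ + cyc r σ * b _
      rw [mul_add]
  map_one' := by
    ext ψ x
    change cyc r 1 * ψ (ρ 1⁻¹ x) = ψ x
    rw [inv_one, map_one, map_one, one_mul]
    rfl
  map_mul' σ τ := by
    ext ψ x
    change cyc r (σ * τ) * ψ (ρ (σ * τ)⁻¹ x) = cyc r σ * (cyc r τ * ψ (ρ τ⁻¹ (ρ σ⁻¹ x)))
    rw [map_mul, mul_assoc, mul_inv_rev, map_mul]
    rfl

theorem dualAct_apply {V : Type*} [AddCommGroup V] (ρ : GQ →* AddMonoid.End V) (σ : GQ)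
    (ψ : V →+ ZMod r) (x : V) : dualAct ρ σ ψ x = cyc r σ * ψ (ρ σ⁻¹ x) := rfl

theorem end_natCast_apply {V : Type*} [AddCommGroup V] (n : ℕ) (x : V) :
    ((n : AddMonoid.End V)) x = n • x := by
  rw [← nsmul_one]
  rfl

theorem dualAct_nilp {V : Type*} [AddCommGroup V] (ρ : GQ →* AddMonoid.End V) (σ : GQ) (M : ℕ)
    (hM : ((ρ σ - 1) * (ρ σ - ((cyc r σ).val : AddMonoid.End V))) ^ M = 0) :
    ((dualAct (r := r) ρ σ - 1) * (dualAct (r := r) ρ σ -
      ((cyc r σ).val : AddMonoid.End (V →+ ZMod r)))) ^ M = 0 := by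
  haveI : NeZero r := ⟨hr.out.ne_zero⟩
  set v : ℕ := (cyc r σ).val with hv
  have hvc : (v : ZMod r) = cyc r σ := ZMod.natCast_zmod_val _
  set b : AddMonoid.End V := ρ σ⁻¹ with hb
  have h1 : ρ σ * b = 1 := by rw [hb, ← map_mul, mul_inv_cancel, map_one]
  have h2 : b * ρ σ = 1 := by rw [hb, ← map_mul, inv_mul_cancel, map_one]
  have h3 := end_pow h1 h2 (v := (v : AddMonoid.End V)) (fun x => Nat.cast_commute v x) M hM
  have hD : ∀ ψ : V →+ ZMod r, dualAct ρ σ ψ = ψ.comp ((v : AddMonoid.End V) * b : V →+ V) := by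
    intro ψ
    ext x
    rw [dualAct_apply]
    change _ = ψ (((v : AddMonoid.End V)) (b x))
    rw [end_natCast_apply, map_nsmul, nsmul_eq_mul, hvc]
  have key : ∀ n : ℕ, ∀ ψ : V →+ ZMod r, ∀ x, (((dualAct (r := r) ρ σ - 1) * (dualAct (r := r) ρ σ -
      (v : AddMonoid.End (V →+ ZMod r)))) ^ n) ψ x =
      ψ (((((v : AddMonoid.End V) * b - v) * ((v : AddMonoid.End V) * b - 1)) ^ n) x) := by
    intro n
    induction n with
    | zero => intro ψ x; rfl
    | succ n ih =>
      intro ψ x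
      rw [pow_succ, pow_succ']
      set X := ((((v : AddMonoid.End V) * b - v) * ((v : AddMonoid.End V) * b - 1)) ^ n) x with hX
      change (((dualAct (r := r) ρ σ - 1) * (dualAct (r := r) ρ σ -
        (v : AddMonoid.End (V →+ ZMod r)))) ^ n) (((dualAct (r := r) ρ σ - 1) * (dualAct (r := r) ρ σ -
        (v : AddMonoid.End (V →+ ZMod r)))) ψ) x = ψ ((((v : AddMonoid.End V) * b - v) *
        ((v : AddMonoid.End V) * b - 1)) X)
      rw [ih, ← hX]
      set ψ' : V →+ ZMod r := (dualAct (r := r) ρ σ - (v : AddMonoid.End (V →+ ZMod r))) ψ with hψ'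
      have h4 : ∀ y, ψ' y = ψ (((v : AddMonoid.End V) * b - v) y) := by
        intro y
        change dualAct ρ σ ψ y - ((v : AddMonoid.End (V →+ ZMod r)) ψ) y =
          ψ (((v : AddMonoid.End V) * b) y - (v : AddMonoid.End V) y)
        rw [hD, end_natCast_apply, map_sub, end_natCast_apply, map_nsmul]
        rfl
      change (dualAct ρ σ ψ' - ψ') X = _
      rw [hD]
      change ψ' (((v : AddMonoid.End V) * b) X) - ψ' X = _
      rw [← map_sub, h4]
      rfl
  ext ψ x
  rw [key, h3]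
  change ψ 0 = 0
  rw [map_zero]

theorem cyc_ne_zero (σ : GQ) : cyc r σ ≠ 0 := by
  intro h0
  have h1 : cyc r σ * cyc r σ⁻¹ = 1 := by rw [← map_mul, mul_inv_cancel, map_one]
  rw [h0, zero_mul] at h1
  haveI : Fact (1 < r) := ⟨hr.out.one_lt⟩
  exact zero_ne_one h1

/-- **A line in the dual** -/
theorem exists_dual_line {V : Type*} [AddCommGroup V] [Finite V] [Nontrivial V] (k : ℕ)
    (hk : ∀ x : V, r ^ k • x = 0) (ρ : GQ →* AddMonoid.End V) (M : ℕ)
    (hM : ∀ σ : GQ, ((ρ σ - 1) * (ρ σ - ((cyc r σ).val : AddMonoid.End V))) ^ M = 0) :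
    ∃ ψ : V →+ ZMod r, ψ ≠ 0 ∧ ((∀ σ x, ψ (ρ σ x) = ψ x) ∨ (∀ σ x, ψ (ρ σ x) = cyc r σ * ψ x)) := by
  haveI : NeZero r := ⟨hr.out.ne_zero⟩
  haveI : Finite (V →+ ZMod r) := DFunLike.finite _
  obtain ⟨ψ₀, hψ₀⟩ := exists_hom_ne_zero (r := r) k hk
  haveI : Nontrivial (V →+ ZMod r) := ⟨ψ₀, 0, hψ₀⟩
  obtain ⟨ψ, h0, -, h1⟩ := exists_line (r := r) 1 (fun x : V →+ ZMod r => by
    ext y
    change (r ^ 1 • x) y = 0
    rw [pow_one, AddMonoidHom.nsmul_apply, nsmul_eq_mul, CharP.cast_eq_zero, zero_mul])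
    (dualAct ρ) M (fun σ => dualAct_nilp ρ σ M (hM σ))
  have hinv : ∀ σ x, ρ σ⁻¹ (ρ σ x) = x := fun σ x => by
    change (ρ σ⁻¹ * ρ σ) x = x
    rw [← map_mul, inv_mul_cancel, map_one]
    rfl
  refine ⟨ψ, h0, ?_⟩
  rcases h1 with h1 | h1
  · right
    intro σ x
    have h2 := DFunLike.congr_fun (h1 σ) (ρ σ x)
    rw [dualAct_apply, hinv] at h2
    exact h2.symm
  · left
    intro σ x
    have h2 := DFunLike.congr_fun (h1 σ) (ρ σ x)
    rw [dualAct_apply, hinv, AddMonoidHom.nsmul_apply, nsmul_eq_mul, ZMod.natCast_zmod_val] at h2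
    exact (mul_left_cancel₀ (cyc_ne_zero σ) h2).symm

theorem zmod_two_eq_one {a : ZMod 2} (h : a ≠ 0) : a = 1 := by
  revert a; decide

/-- **multiplicative type** -/
theorem nilp_of (n : ℕ) : ∀ (V : Type) [AddCommGroup V] [Finite V] (_ : Nat.card V ≤ n) (k : ℕ)
    (_ : ∀ x : V, r ^ k • x = 0) (ρ : GQ →* AddMonoid.End V) (M : ℕ)
    (_ : ∀ σ : GQ, ((ρ σ - 1) * (ρ σ - ((cyc r σ).val : AddMonoid.End V))) ^ M = 0)
    (_ : r ≠ 2 → ∀ (S : Type) [AddCommGroup S] [Finite S] (ρS : GQ →* AddMonoid.End S) (i : S →+ V),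
      Function.Injective i → (∀ σ x, i (ρS σ x) = ρ σ (i x)) →
      ∀ ψ : S →+ ZMod r, (∀ σ x, ψ (ρS σ x) = ψ x) → ψ = 0),
    ∀ σ, ∃ m, (ρ σ - ((cyc r σ).val : AddMonoid.End V)) ^ m = 0 := by
  induction n with
  | zero =>
    intro V _ _ hV
    exact absurd hV (not_le_of_gt Nat.card_pos)
  | succ n ih =>
    intro V _ _ hV k hk ρ M hM ha σ
    haveI : NeZero r := ⟨hr.out.ne_zero⟩
    rcases subsingleton_or_nontrivial V with hs | hs
    · exact ⟨1, AddMonoidHom.ext fun x => Subsingleton.elim _ _⟩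
    obtain ⟨ψ, hψ0, hψ⟩ := exists_dual_line (r := r) k hk ρ M hM
    have hψ : ∀ σ x, ψ (ρ σ x) = cyc r σ * ψ x := by
      rcases hψ with h | h
      · by_cases hr2 : r = 2
        · subst hr2
          intro σ x
          rw [h]
          rw [zmod_two_eq_one (cyc_ne_zero σ), one_mul]
        · exact absurd (ha hr2 V ρ (AddMonoidHom.id V) Function.injective_id (fun _ _ => rfl) ψ h) hψ0
      · exact h
    have hst : ∀ σ, ∀ x ∈ ψ.ker, ρ σ x ∈ ψ.ker := fun σ x hx => by
      rw [AddMonoidHom.mem_ker] at hx ⊢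
      rw [hψ, hx, mul_zero]
    let ρ' : GQ →* AddMonoid.End ψ.ker :=
      { toFun := fun σ => (AddMonoidHom.codRestrict ((ρ σ : V →+ V).comp ψ.ker.subtype) ψ.ker
          (fun x => hst σ x x.2) : ψ.ker →+ ψ.ker)
        map_one' := AddMonoidHom.ext fun x => Subtype.ext (by
          change ρ 1 (x : V) = x
          rw [map_one]; rfl)
        map_mul' := fun a b => AddMonoidHom.ext fun x => Subtype.ext (by
          change ρ (a * b) (x : V) = ρ a (ρ b x)
          rw [map_mul]; rfl) }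
    have hρ' : ∀ σ (x : ψ.ker), ((ρ' σ x : ψ.ker) : V) = ρ σ x := fun _ _ => rfl
    have hnc : ∀ (m : ℕ) (x : ψ.ker), ((((m : AddMonoid.End ψ.ker)) x : ψ.ker) : V) =
        (m : AddMonoid.End V) (x : V) := by
      intro m x
      rw [end_natCast_apply, end_natCast_apply, AddSubgroup.coe_nsmul]
    have hcard : Nat.card ψ.ker ≤ n := by
      have h1 : Nat.card ψ.ker < Nat.card V := by
        refine Nat.lt_of_le_of_ne (Nat.card_le_card_of_injective _ Subtype.val_injective) ?_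
        intro h
        have h2 : ψ.ker = ⊤ := AddSubgroup.eq_top_of_card_eq _ h
        exact hψ0 (AddMonoidHom.ext fun x => by
          have : x ∈ ψ.ker := by rw [h2]; trivial
          exact this)
      omega
    obtain ⟨m, hm⟩ := ih ψ.ker hcard k (fun x => Subtype.ext (by
      rw [AddSubgroup.coe_nsmul, hk]; rfl)) ρ' M (fun σ => by
        have h1 : ∀ (j : ℕ) (x : ψ.ker), (((((ρ' σ - 1) * (ρ' σ - ((cyc r σ).val :
          AddMonoid.End ψ.ker))) ^ j) x : ψ.ker) : V) =
          (((ρ σ - 1) * (ρ σ - ((cyc r σ).val : AddMonoid.End V))) ^ j) (x : V) := by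
          intro j
          induction j with
          | zero => intro x; rfl
          | succ j ihj =>
            intro x
            rw [pow_succ, pow_succ]
            change (((((ρ' σ - 1) * (ρ' σ - ((cyc r σ).val :
              AddMonoid.End ψ.ker))) ^ j) (((ρ' σ - 1) * (ρ' σ - ((cyc r σ).val :
              AddMonoid.End ψ.ker))) x) : ψ.ker) : V) =
              (((ρ σ - 1) * (ρ σ - ((cyc r σ).val : AddMonoid.End V))) ^ j)
                (((ρ σ - 1) * (ρ σ - ((cyc r σ).val : AddMonoid.End V))) (x : V))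
            rw [ihj]
            congr 1
        refine AddMonoidHom.ext fun x => Subtype.ext ((h1 M x).trans ?_)
        rw [hM]
        rfl) (fun hr2 S _ _ ρS i hi hS ψ' hψ' => by
        refine ha hr2 S ρS (ψ.ker.subtype.comp i) (Subtype.val_injective.comp hi) (fun σ x => ?_) ψ' hψ'
        change ((i (ρS σ x) : ψ.ker) : V) = ρ σ (i x)
        rw [hS, hρ']) σ
    refine ⟨m + 1, AddMonoidHom.ext fun x => ?_⟩
    have h2 : (ρ σ - ((cyc r σ).val : AddMonoid.End V)) x ∈ ψ.ker := by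
      rw [AddMonoidHom.mem_ker]
      change ψ (ρ σ x - ((cyc r σ).val : AddMonoid.End V) x) = 0
      rw [map_sub, hψ, end_natCast_apply, map_nsmul, nsmul_eq_mul, ZMod.natCast_zmod_val, sub_self]
    have h3 : ∀ (j : ℕ) (x : ψ.ker), ((((ρ' σ - ((cyc r σ).val :
          AddMonoid.End ψ.ker)) ^ j) x : ψ.ker) : V) =
          ((ρ σ - ((cyc r σ).val : AddMonoid.End V)) ^ j) (x : V) := by
      intro j
      induction j with
      | zero => intro x; rfl
      | succ j ihj =>
        intro x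
        rw [pow_succ, pow_succ]
        change ((((ρ' σ - ((cyc r σ).val :
              AddMonoid.End ψ.ker)) ^ j) ((ρ' σ - ((cyc r σ).val :
              AddMonoid.End ψ.ker)) x) : ψ.ker) : V) =
              ((ρ σ - ((cyc r σ).val : AddMonoid.End V)) ^ j)
                ((ρ σ - ((cyc r σ).val : AddMonoid.End V)) (x : V))
        rw [ihj]
        congr 1
    rw [pow_succ]
    change ((ρ σ - ((cyc r σ).val : AddMonoid.End V)) ^ m)
      ((ρ σ - ((cyc r σ).val : AddMonoid.End V)) x) = 0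
    have h4 := h3 m ⟨_, h2⟩
    rw [hm] at h4
    exact h4.symm

end Fermat.Agent.MazD
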