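import Fermat.Agent.MazD.Lam
import Fermat.Agent.Cheb.Places

/-!
# Abstract Eisenstein lattices: traces, scalar case
-/

set_option autoImplicit false
set_option linter.unusedSectionVars false
set_option linter.style.haveILetI false

noncomputable section

namespace Fermat.Agent.MazD

open Fermat.Agent.Places Fermat.Agent.RedMod Fermat.Agent.FlatRam Fermat.Agent.Flat
  Fermat.Agent.GalRep

local notation "Ω" => AlgebraicClosure ℚ

variable {r N : ℕ} [hr : Fact r.Prime] {A AN : ValuationSubring (AlgebraicClosure ℚ)}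
  {O : Type*} [CommRing O] [IsDomain O] {Λ : Type*} [AddCommGroup Λ] [Module O Λ]

/-- an Eisenstein lattice -/
structure IsE (r N : ℕ) [Fact r.Prime] (AN : ValuationSubring (AlgebraicClosure ℚ))
    (I : Ideal O) (χ : ℕ → O) (c : GQ →* O) (ρ : GQ →* Module.End O Λ) : Prop where
  cyc : ∀ σ (k : ℕ), ∃ z, c σ = ((GalRep.cyc (r ^ k) σ).val : O) + (r : O) ^ k * z
  lev : ∀ k : ℕ, ∃ L : IntermediateField ℚ Ω, FiniteDimensional ℚ L ∧
    ∀ σ : GQ, (∀ x ∈ L, σ x = x) → ∀ x, ∃ y, ρ σ x - x = (r : O) ^ k • y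
  unr : ∀ q : ℕ, q.Prime → q ≠ r → q ≠ N → ∀ B : ValuationSubring (AlgebraicClosure ℚ),
    B.LiesOverPrime q → ∀ σ ∈ B.inertiaSubgroupIn ℚ, ρ σ = 1
  unip : ∀ σ ∈ AN.inertiaSubgroupIn ℚ, ∀ τ ∈ AN.inertiaSubgroupIn ℚ,
    (ρ σ - 1) * (ρ τ - 1) = 0
  frob : ∀ q : ℕ, q.Prime → q ≠ r → q ≠ N → ∀ B : ValuationSubring (AlgebraicClosure ℚ),
    B.LiesOverPrime q → ∀ σ : GQ, B.IsFrobeniusAt σ q → ∀ x,
      ρ σ (ρ σ x) - χ q • ρ σ x + (q : O) • x = 0
  eis : ∀ q : ℕ, q.Prime → q ≠ r → q ≠ N → χ q - 1 - q ∈ I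
  ne : ∀ q : ℕ, q.Prime → q ≠ r → q ≠ N → χ q ≠ 1 + q

namespace IsE

variable {I : Ideal O} {χ : ℕ → O} {c : GQ →* O} {ρ : GQ →* Module.End O Λ}
  (h : IsE r N AN I χ c ρ) (hO : IsO r O)

include hO in
theorem eq_of_forall {x y : O} (hxy : ∀ k : ℕ, ∃ z, x = y + (r : O) ^ k * z) : x = y := by
  rw [← sub_eq_zero]
  refine hO.sep _ fun k => ?_
  obtain ⟨z, hz⟩ := hxy k
  exact ⟨z, by rw [hz]; ring⟩

theorem natCast_of_cyc {k : ℕ} {a : ZMod (r ^ k)} {n : ℕ} (ha : a = n) :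
    ∃ z, ((a.val : ℕ) : O) = (n : O) + (r : O) ^ k * z := by
  have h1 : ((a.val : ℤ) : ZMod (r ^ k)) = ((n : ℤ) : ZMod (r ^ k)) := by
    haveI : NeZero (r ^ k) := ⟨pow_ne_zero _ hr.out.ne_zero⟩
    push_cast
    rw [ZMod.natCast_zmod_val, ha]
  rw [ZMod.intCast_eq_intCast_iff_dvd_sub] at h1
  obtain ⟨z, hz⟩ := h1
  refine ⟨-(z : O), ?_⟩
  have h2 := congrArg (fun t : ℤ => (t : O)) hz
  push_cast at h2
  linear_combination -h2

include hO in
theorem c_eq_of_cyc (hc : ∀ σ (k : ℕ), ∃ z, c σ = ((GalRep.cyc (r ^ k) σ).val : O) +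
    (r : O) ^ k * z) {σ : GQ} {n : ℕ} (hn : ∀ k : ℕ, GalRep.cyc (r ^ k) σ = n) : c σ = n := by
  refine eq_of_forall hO fun k => ?_
  obtain ⟨z, hz⟩ := hc σ k
  obtain ⟨w, hw⟩ := natCast_of_cyc (O := O) (hn k)
  exact ⟨w + z, by rw [hz, hw]; ring⟩

include hO in
theorem c_frob (hc : ∀ σ (k : ℕ), ∃ z, c σ = ((GalRep.cyc (r ^ k) σ).val : O) +
    (r : O) ^ k * z) {q : ℕ} (hq : q.Prime) (hqr : q ≠ r)
    {B : ValuationSubring (AlgebraicClosure ℚ)} (hB : B.LiesOverPrime q) {σ : GQ}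
    (hσ : B.IsFrobeniusAt σ q) : c σ = q :=
  c_eq_of_cyc hO hc fun _ => cyc_frobenius (Nat.Coprime.pow_right _
    ((Nat.coprime_primes hq hr.out).2 hqr)) hB hσ

include hO in
theorem c_iner (hc : ∀ σ (k : ℕ), ∃ z, c σ = ((GalRep.cyc (r ^ k) σ).val : O) +
    (r : O) ^ k * z) {q : ℕ} (hq : q.Prime) (hqr : q ≠ r)
    {B : ValuationSubring (AlgebraicClosure ℚ)} (hB : B.LiesOverPrime q) {σ : GQ}
    (hσ : σ ∈ B.inertiaSubgroupIn ℚ) : c σ = 1 := by
  have := c_eq_of_cyc (n := 1) hO hc (σ := σ) fun _ => by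
    rw [Nat.cast_one]
    exact cyc_inertia (Nat.Coprime.pow_right _ ((Nat.coprime_primes hq hr.out).2 hqr)) hB hσ
  simpa using this

/-! ### characters unramified everywhere -/

include hO in
/-- **characters which are unramified everywhere are trivial** -/
theorem char_eq_one [hN : Fact N.Prime] (hA : A.LiesOverPrime r) (hAN : AN.LiesOverPrime N)
    (ψ : GQ →* O) (hl : ∀ k : ℕ, ∃ L : IntermediateField ℚ Ω, FiniteDimensional ℚ L ∧
      ∀ σ : GQ, (∀ x ∈ L, σ x = x) → ∃ y, ψ σ - 1 = (r : O) ^ k * y)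
    (h1 : ∀ q : ℕ, q.Prime → q ≠ r → q ≠ N → ∀ B : ValuationSubring (AlgebraicClosure ℚ),
      B.LiesOverPrime q → ∀ σ ∈ B.inertiaSubgroupIn ℚ, ψ σ = 1)
    (h2 : ∀ σ ∈ A.inertiaSubgroupIn ℚ, ψ σ = 1) (h3 : ∀ σ ∈ AN.inertiaSubgroupIn ℚ, ψ σ = 1)
    (σ : GQ) : ψ σ = 1 := by
  refine eq_of_forall hO fun k => ?_
  let π : O →* (O ⧸ Ideal.span {(r : O) ^ k}) := (Ideal.Quotient.mk _).toMonoidHom
  have hU : (π.comp ψ).ker = ⊤ := by
    refine eq_top_of_two hA hAN _ ?_ ?_ ?_ ?_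
    · obtain ⟨L, hL, h4⟩ := hl k
      haveI := hL
      refine Subgroup.isOpen_mono (H₁ := L.fixingSubgroup) ?_ L.fixingSubgroup_isOpen
      intro σ hσ
      rw [IntermediateField.mem_fixingSubgroup_iff] at hσ
      obtain ⟨y, hy⟩ := h4 σ hσ
      rw [MonoidHom.mem_ker]
      change Ideal.Quotient.mk _ (ψ σ) = 1
      rw [← map_one (Ideal.Quotient.mk _), Ideal.Quotient.eq, hy]
      exact Ideal.mul_mem_right _ _ (Ideal.mem_span_singleton_self _)
    · intro q hq hqr hqN B hB τ hτ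
      rw [MonoidHom.mem_ker, MonoidHom.comp_apply, h1 q hq hqr hqN B hB τ hτ, map_one]
    · intro τ hτ
      rw [MonoidHom.mem_ker, MonoidHom.comp_apply, h2 τ hτ, map_one]
    · intro τ hτ
      rw [MonoidHom.mem_ker, MonoidHom.comp_apply, h3 τ hτ, map_one]
  have h4 : σ ∈ (π.comp ψ).ker := by rw [hU]; trivial
  rw [MonoidHom.mem_ker] at h4
  have h5 : (Ideal.Quotient.mk (Ideal.span {(r : O) ^ k})) (ψ σ) = Ideal.Quotient.mk _ 1 := by
    rw [map_one]; exact h4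
  rw [Ideal.Quotient.eq, Ideal.mem_span_singleton] at h5
  obtain ⟨z, hz⟩ := h5
  exact ⟨z, by rw [← hz]; ring⟩

theorem c_lev (hc : ∀ σ (k : ℕ), ∃ z, c σ = ((GalRep.cyc (r ^ k) σ).val : O) +
    (r : O) ^ k * z) (k : ℕ) : ∃ L : IntermediateField ℚ Ω, FiniteDimensional ℚ L ∧
      ∀ σ : GQ, (∀ x ∈ L, σ x = x) → ∃ y, c σ - 1 = (r : O) ^ k * y := by
  haveI : NeZero (r ^ k) := ⟨pow_ne_zero _ hr.out.ne_zero⟩
  obtain ⟨L, hL, h1⟩ := exists_level_cyc (r ^ k)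
  refine ⟨L, hL, fun σ hσ => ?_⟩
  obtain ⟨z, hz⟩ := hc σ k
  obtain ⟨w, hw⟩ := natCast_of_cyc (O := O) (k := k) (a := GalRep.cyc (r ^ k) σ) (n := 1)
    (by rw [h1 σ hσ, Nat.cast_one])
  exact ⟨w + z, by rw [hz, hw]; push_cast; ring⟩

theorem exists_prime (r N : ℕ) : ∃ q : ℕ, q.Prime ∧ q ≠ r ∧ q ≠ N := by
  obtain ⟨q, h1, h2⟩ := Nat.exists_infinite_primes (r + N + 1)
  exact ⟨q, h2, by omega, by omega⟩

include hO in
/-- the cyclotomic character is ramified at `r` -/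
theorem exists_c_ne [hN : Fact N.Prime] (hrN : r ≠ N) (hA : A.LiesOverPrime r)
    (hAN : AN.LiesOverPrime N) (hc : ∀ σ (k : ℕ), ∃ z, c σ = ((GalRep.cyc (r ^ k) σ).val : O) +
    (r : O) ^ k * z) : ∃ g ∈ A.inertiaSubgroupIn ℚ, c g ≠ 1 := by
  by_contra hcon
  push Not at hcon
  have h1 := char_eq_one hO hA hAN c (c_lev hc)
    (fun q hq hqr _ B hB σ hσ => c_iner hO hc hq hqr hB hσ) hcon
    (fun σ hσ => c_iner hO hc hN.out hrN.symm hAN hσ)
  obtain ⟨q, hq, hqr, hqN⟩ := exists_prime r N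
  obtain ⟨B, hB⟩ := exists_liesOverPrime (L := Ω) hq
  obtain ⟨σ, hσ⟩ := exists_isFrobeniusAt B hq hB
  have h2 := c_frob hO hc hq hqr hB hσ
  rw [h1] at h2
  have h3 : ((q - 1 : ℕ) : O) = 0 := by
    rw [Nat.cast_sub hq.one_lt.le, ← h2]
    simp
  exact hO.cz (q - 1) (Nat.sub_pos_of_lt hq.one_lt).ne' h3

/-! ### traces -/

include h

theorem lam_eq_of_forall {ι : Type*} [Finite ι] (e : Module.Basis ι O Λ) (hO : IsO r O) {x y : Λ}
    (hxy : ∀ k : ℕ, ∃ z, x = y + (r : O) ^ k • z) : x = y := by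
  apply e.repr.injective
  ext i
  refine eq_of_forall hO fun k => ?_
  obtain ⟨z, hz⟩ := hxy k
  exact ⟨e.repr z i, by rw [hz, map_add, map_smul, Finsupp.add_apply, Finsupp.smul_apply,
    smul_eq_mul]⟩

theorem rho_inv (g : GQ) (x : Λ) : ρ g⁻¹ (ρ g x) = x := by
  rw [← Module.End.mul_apply, ← map_mul, inv_mul_cancel, map_one, Module.End.one_apply]

theorem rho_inv' (g : GQ) (x : Λ) : ρ g (ρ g⁻¹ x) = x := by
  rw [← Module.End.mul_apply, ← map_mul, mul_inv_cancel, map_one, Module.End.one_apply]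

theorem frob_pow {q : ℕ} (hq : q.Prime) (hqr : q ≠ r) (hqN : q ≠ N)
    {B : ValuationSubring (AlgebraicClosure ℚ)} (hB : B.LiesOverPrime q) {σ : GQ}
    (hσ : B.IsFrobeniusAt σ q) (n : ℕ) : ∃ t : O, t - 1 - (q : O) ^ n ∈ I ∧
      ∀ x, ρ (σ ^ n) x + (q : O) ^ n • ρ (σ ^ n)⁻¹ x = t • x := by
  have h1 : ∀ x, ρ σ x + (q : O) • ρ σ⁻¹ x = χ q • x := by
    intro x
    have := h.frob q hq hqr hqN B hB σ hσ (ρ σ⁻¹ x)
    rw [h.rho_inv'] at this
    rw [← sub_eq_zero, ← this]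
    abel
  have key : ∀ n : ℕ, (∃ t : O, t - 1 - (q : O) ^ n ∈ I ∧
      ∀ x, ρ (σ ^ n) x + (q : O) ^ n • ρ (σ ^ n)⁻¹ x = t • x) ∧
      (∃ t : O, t - 1 - (q : O) ^ (n + 1) ∈ I ∧
      ∀ x, ρ (σ ^ (n + 1)) x + (q : O) ^ (n + 1) • ρ (σ ^ (n + 1))⁻¹ x = t • x) := by
    intro n
    induction n with
    | zero =>
      refine ⟨⟨2, ?_, fun x => ?_⟩, ⟨χ q, ?_, fun x => ?_⟩⟩
      · have : (2 : O) - 1 - (q : O) ^ 0 = 0 := by ring
        rw [this]; exact zero_mem _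
      · rw [pow_zero, pow_zero, inv_one, map_one, Module.End.one_apply, one_smul, two_smul]
      · rw [zero_add, pow_one]; exact h.eis q hq hqr hqN
      · rw [zero_add, pow_one, pow_one]; exact h1 x
    | succ n ih =>
      refine ⟨ih.2, ?_⟩
      obtain ⟨⟨t, ht, ht'⟩, ⟨s, hs, hs'⟩⟩ := ih
      refine ⟨χ q * s - q * t, ?_, fun x => ?_⟩
      · have e : χ q * s - q * t - 1 - (q : O) ^ (n + 1 + 1) =
            (χ q - 1 - q) * s + (1 + q) * (s - 1 - (q : O) ^ (n + 1)) -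
              q * (t - 1 - (q : O) ^ n) := by ring
        rw [e]
        exact sub_mem (add_mem (Ideal.mul_mem_right _ _ (h.eis q hq hqr hqN))
          (Ideal.mul_mem_left _ _ hs)) (Ideal.mul_mem_left _ _ ht)
      · have e1 : ∀ y, ρ (σ ^ (n + 1)) (ρ σ y) = ρ (σ ^ (n + 1 + 1)) y := fun y => by
          rw [pow_succ σ (n + 1), map_mul, Module.End.mul_apply]
        have e2 : ∀ y, ρ (σ ^ (n + 1)) (ρ σ⁻¹ y) = ρ (σ ^ n) y := fun y => by
          rw [← Module.End.mul_apply, ← map_mul, pow_succ, mul_assoc, mul_inv_cancel, mul_one]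
        have e3 : ∀ y, ρ (σ ^ (n + 1))⁻¹ (ρ σ y) = ρ (σ ^ n)⁻¹ y := fun y => by
          rw [← Module.End.mul_apply, ← map_mul, pow_succ', mul_inv_rev, mul_assoc,
            inv_mul_cancel, mul_one]
        have e4 : ∀ y, ρ (σ ^ (n + 1))⁻¹ (ρ σ⁻¹ y) = ρ (σ ^ (n + 1 + 1))⁻¹ y := fun y => by
          rw [← Module.End.mul_apply, ← map_mul, ← mul_inv_rev, ← pow_succ']
        have e5 := hs' (ρ σ x + (q : O) • ρ σ⁻¹ x)
        have e6 := h1 x
        rw [map_add, map_add, map_smul, map_smul, e1, e2, e3, e4, e6] at e5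
        have e7 := ht' x
        have e8 : ρ (σ ^ (n + 1 + 1)) x + (q : O) ^ (n + 1 + 1) • ρ (σ ^ (n + 1 + 1))⁻¹ x =
            s • χ q • x - (q : O) • (t • x) := by
          rw [← e5, ← e7]
          module
        rw [e8]
        module
  exact (key n).1

include hO in
/-- **the trace relation** -/
theorem exists_tr {ι : Type*} [Finite ι] [Nonempty ι] (e : Module.Basis ι O Λ)
    (hrI : (r : O) ∈ I) (g : GQ) : ∃ t : O, t - 1 - c g ∈ I ∧
      ∀ x, ρ g x + c g • ρ g⁻¹ x = t • x := by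
  have key : ∀ k : ℕ, k ≠ 0 → ∃ t : O, t - 1 - c g ∈ I ∧
      ∀ x, ∃ y, ρ g x + c g • ρ g⁻¹ x = t • x + (r : O) ^ k • y := by
    intro k hk
    obtain ⟨L, hL, hl⟩ := h.lev k
    obtain ⟨L', hL', hl'⟩ := c_lev h.cyc k
    haveI := hL
    haveI := hL'
    obtain ⟨q, hq, hqS, B, hB, τ, hτ, n, -, hn, -⟩ := Cheb.exists_isFrobeniusAt_pow_mem (L := Ω)
      ({r, N} : Set ℕ) (Set.toFinite _) (L ⊔ L' : IntermediateField ℚ Ω).fixingSubgroup
      (IntermediateField.fixingSubgroup_isOpen _) g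
    have hqr : q ≠ r := fun e => hqS (by simp [e])
    have hqN : q ≠ N := fun e => hqS (by simp [e])
    obtain ⟨t, ht, ht'⟩ := h.frob_pow hq hqr hqN hB hτ n
    set u : GQ := g⁻¹ * τ ^ n with hu
    rw [IntermediateField.mem_fixingSubgroup_iff] at hn
    have hτg : τ ^ n = g * u := by rw [hu, mul_inv_cancel_left]
    have hu1 : ∀ x, ∃ y, ρ u x - x = (r : O) ^ k • y := hl u fun x hx =>
      hn x ((le_sup_left : L ≤ L ⊔ L') hx)
    obtain ⟨z, hz⟩ := hl' u fun x hx => hn x ((le_sup_right : L' ≤ L ⊔ L') hx)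
    have hcq : (q : O) ^ n = c g * c u := by
      rw [← c_frob hO h.cyc hq hqr hB hτ, ← map_pow, hτg, map_mul]
    have hcu : c u = 1 + (r : O) ^ k * z := by rw [← hz]; ring
    refine ⟨t, ?_, fun x => ?_⟩
    · have e1 : t - 1 - c g = (t - 1 - (q : O) ^ n) + c g * z * (r : O) ^ (k - 1) * r := by
        obtain ⟨k, rfl⟩ := Nat.exists_eq_succ_of_ne_zero hk
        rw [hcq, hcu, Nat.succ_sub_one, Nat.succ_eq_add_one]
        ring
      rw [e1]
      exact add_mem ht (Ideal.mul_mem_left _ _ hrI)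
    · obtain ⟨y, hy⟩ := hu1 x
      obtain ⟨w, hw⟩ := hu1 (ρ (τ ^ n)⁻¹ x)
      have e2 : ρ (τ ^ n) x = ρ g x + (r : O) ^ k • ρ g y := by
        rw [hτg, map_mul, Module.End.mul_apply, ← map_smul, ← hy, map_sub]
        abel
      have e3 : ρ g⁻¹ x = ρ (τ ^ n)⁻¹ x + (r : O) ^ k • w := by
        rw [← hw, ← Module.End.mul_apply, ← map_mul, hτg, mul_inv_rev, mul_inv_cancel_left]
        abel
      have e4 := ht' x
      refine ⟨c g • w - ρ g y - (c g * z) • ρ (τ ^ n)⁻¹ x, ?_⟩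
      rw [e3, ← e4, e2, hcq, hcu]
      module
  obtain ⟨i0⟩ := ‹Nonempty ι›
  set T : Λ → Λ := fun x => ρ g x + c g • ρ g⁻¹ x with hT
  refine ⟨e.repr (T (e i0)) i0, ?_, fun x => ?_⟩
  · obtain ⟨t, ht, ht'⟩ := key 1 one_ne_zero
    obtain ⟨y, hy⟩ := ht' (e i0)
    have e1 : e.repr (T (e i0)) i0 = t + (r : O) * e.repr y i0 := by
      rw [hT]
      simp only
      rw [hy, map_add, map_smul, map_smul, Finsupp.add_apply, Finsupp.smul_apply,
        Finsupp.smul_apply, e.repr_self, Finsupp.single_eq_same, pow_one, smul_eq_mul,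
        smul_eq_mul, mul_one]
    have e2 : e.repr (T (e i0)) i0 - 1 - c g = (t - 1 - c g) + r * e.repr y i0 := by
      rw [e1]; ring
    rw [e2]
    exact add_mem ht (Ideal.mul_mem_right _ _ hrI)
  · refine h.lam_eq_of_forall e hO fun k => ?_
    obtain ⟨t, -, ht'⟩ := key (k + 1) (Nat.succ_ne_zero k)
    obtain ⟨y, hy⟩ := ht' (e i0)
    obtain ⟨z, hz⟩ := ht' x
    have e1 : e.repr (T (e i0)) i0 = t + (r : O) ^ (k + 1) * e.repr y i0 := by
      rw [hT]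
      simp only
      rw [hy, map_add, map_smul, map_smul, Finsupp.add_apply, Finsupp.smul_apply,
        Finsupp.smul_apply, e.repr_self, Finsupp.single_eq_same, smul_eq_mul,
        smul_eq_mul, mul_one]
    refine ⟨(r : O) • (z - e.repr y i0 • x), ?_⟩
    rw [hz, e1, pow_succ]
    module

/-! ### scalar inertia at `r` is impossible -/

include hO in
theorem no_scalar [hN : Fact N.Prime] (hrN : r ≠ N) {ι : Type*} [Finite ι] [Nonempty ι]
    (e : Module.Basis ι O Λ) (hrI : (r : O) ∈ I)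
    (hA : A.LiesOverPrime r) (hAN : AN.LiesOverPrime N) (ε : GQ →* O) (hε : ε = 1 ∨ ε = c)
    (hs : ∀ g ∈ A.inertiaSubgroupIn ℚ, ∀ x, ρ g x = ε g • x) : False := by
  classical
  obtain ⟨g₀, hg₀, hc₀⟩ := exists_c_ne (c := c) hO hrN hA hAN h.cyc
  have hunit : ∀ (ψ : GQ →* O) g, ψ g * ψ g⁻¹ = 1 := fun ψ g => by
    rw [← map_mul, mul_inv_cancel, map_one]
  have hcne : ∀ (ψ : GQ →* O) g, ψ g ≠ 0 := fun ψ g h0 => by
    have := hunit ψ g
    rw [h0, zero_mul] at this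
    exact zero_ne_one this
  have hκ : ε g₀ ^ 2 - c g₀ ≠ 0 := by
    rcases hε with rfl | rfl
    · rw [MonoidHom.one_apply, one_pow]
      exact sub_ne_zero.2 (Ne.symm hc₀)
    · have : ε g₀ ^ 2 - ε g₀ = ε g₀ * (ε g₀ - 1) := by ring
      rw [this]
      exact mul_ne_zero (hcne _ _) (sub_ne_zero.2 hc₀)
  -- everything is scalar
  have hscal : ∀ g, ∃ a : O, ∀ x, ρ g x = a • x := by
    intro g
    obtain ⟨t, -, ht⟩ := h.exists_tr hO e hrI g
    obtain ⟨s, -, hs'⟩ := h.exists_tr hO e hrI (g * g₀)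
    have e1 : ∀ x, ρ (g * g₀) x = ε g₀ • ρ g x := fun x => by
      rw [map_mul, Module.End.mul_apply, hs g₀ hg₀, map_smul]
    have e2 : ∀ x, ε g₀ • ρ (g * g₀)⁻¹ x = ρ g⁻¹ x := fun x => by
      rw [mul_inv_rev, map_mul, Module.End.mul_apply, hs g₀⁻¹ (inv_mem hg₀), smul_smul, hunit,
        one_smul]
    have e3 : ∀ x, (ε g₀ ^ 2 - c g₀) • ρ g x = (ε g₀ * s - c g₀ * t) • x := by
      intro x
      have h1 := ht x
      have h2 : ε g₀ • ρ (g * g₀) x + (c (g * g₀)) • (ε g₀ • ρ (g * g₀)⁻¹ x) = (ε g₀ * s) • x := by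
        rw [smul_comm (c _), ← smul_add, hs', smul_smul]
      rw [e1, e2, map_mul] at h2
      rw [sub_smul, sub_smul, ← h2, mul_smul (c g₀) t, ← h1]
      module
    obtain ⟨i0⟩ := ‹Nonempty ι›
    refine ⟨e.repr (ρ g (e i0)) i0, fun x => ?_⟩
    have e4 : ∀ i j, (ε g₀ ^ 2 - c g₀) * e.repr (ρ g (e i)) j =
        (ε g₀ * s - c g₀ * t) * (if i = j then 1 else 0) := by
      intro i j
      have h1 := congrArg (fun y => e.repr y j) (e3 (e i))
      simp only [map_smul, Finsupp.smul_apply, smul_eq_mul, e.repr_self] at h1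
      rw [h1]
      by_cases hij : i = j
      · subst hij; simp
      · rw [if_neg hij, Finsupp.single_eq_of_ne (Ne.symm hij)]
    have e5 : ∀ i, ρ g (e i) = e.repr (ρ g (e i0)) i0 • e i := by
      intro i
      apply e.repr.injective
      ext j
      rw [map_smul, Finsupp.smul_apply, e.repr_self, smul_eq_mul]
      apply mul_left_cancel₀ hκ
      have h2 : Finsupp.single i (1 : O) j = if i = j then 1 else 0 := by
        rw [Finsupp.single_apply]
      rw [h2, ← mul_assoc, e4, e4, if_pos rfl, mul_one]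
    have e6 : ρ g = e.repr (ρ g (e i0)) i0 • LinearMap.id := by
      apply e.ext
      intro i
      rw [e5]
      rfl
    exact LinearMap.congr_fun e6 x
  obtain ⟨i0⟩ := ‹Nonempty ι›
  have hinj : ∀ a b : O, a • e i0 = b • e i0 → a = b := by
    intro a b hab
    have := congrArg (fun y => e.repr y i0) hab
    simpa using this
  choose ψ₀ hψ₀ using hscal
  let ψ : GQ →* O :=
    { toFun := ψ₀
      map_one' := hinj _ _ (by rw [← hψ₀, map_one, one_smul]; rfl)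
      map_mul' := fun a b => hinj _ _ (by
        rw [← hψ₀, map_mul, Module.End.mul_apply, hψ₀, hψ₀, smul_smul, mul_comm]) }
  have hψ : ∀ g x, ρ g x = ψ g • x := hψ₀
  -- the quotient character
  let ω : GQ →* O :=
    { toFun := fun g => ψ g * ε g⁻¹
      map_one' := by rw [inv_one, map_one, map_one, mul_one]
      map_mul' := fun a b => by rw [mul_inv_rev, map_mul, map_mul]; ring }
  have hεlev : ∀ k : ℕ, ∃ L : IntermediateField ℚ Ω, FiniteDimensional ℚ L ∧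
      ∀ σ : GQ, (∀ x ∈ L, σ x = x) → ∃ y, ε σ - 1 = (r : O) ^ k * y := by
    intro k
    rcases hε with rfl | rfl
    · exact ⟨⊥, inferInstance, fun σ _ => ⟨0, by rw [MonoidHom.one_apply]; ring⟩⟩
    · exact c_lev h.cyc k
  have hεiner : ∀ q : ℕ, q.Prime → q ≠ r → ∀ B : ValuationSubring (AlgebraicClosure ℚ),
      B.LiesOverPrime q → ∀ σ ∈ B.inertiaSubgroupIn ℚ, ε σ = 1 := by
    intro q hq hqr B hB σ hσ
    rcases hε with rfl | rfl
    · rfl
    · exact c_iner hO h.cyc hq hqr hB hσ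
  have hω : ∀ g, ω g = 1 := by
    refine char_eq_one hO hA hAN ω ?_ ?_ ?_ ?_
    · intro k
      obtain ⟨L, hL, hl⟩ := h.lev k
      obtain ⟨L', hL', hl'⟩ := hεlev k
      haveI := hL
      haveI := hL'
      refine ⟨L ⊔ L', inferInstance, fun σ hσ => ?_⟩
      have hσ' : ∀ x ∈ L', σ⁻¹ x = x := fun x hx => by
        have := hσ x ((le_sup_right : L' ≤ L ⊔ L') hx)
        rw [AlgEquiv.aut_inv]
        exact (AlgEquiv.symm_apply_eq σ).2 this.symm
      obtain ⟨y, hy⟩ := hl σ (fun x hx => hσ x ((le_sup_left : L ≤ L ⊔ L') hx)) (e i0)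
      obtain ⟨z, hz⟩ := hl' σ⁻¹ hσ'
      rw [hψ] at hy
      have hy2 : ψ σ - 1 = (r : O) ^ k * e.repr y i0 := by
        have := congrArg (fun y => e.repr y i0) hy
        simpa using this
      refine ⟨ψ σ * z + e.repr y i0, ?_⟩
      change ψ σ * ε σ⁻¹ - 1 = _
      have e1 : ψ σ * ε σ⁻¹ - 1 = ψ σ * (ε σ⁻¹ - 1) + (ψ σ - 1) := by ring
      rw [e1, hz, hy2]
      ring
    · intro q hq hqr hqN B hB σ hσ
      change ψ σ * ε σ⁻¹ = 1
      rw [hεiner q hq hqr B hB _ (inv_mem hσ), mul_one]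
      apply hinj
      rw [← hψ, h.unr q hq hqr hqN B hB σ hσ, one_smul]
      rfl
    · intro σ hσ
      change ψ σ * ε σ⁻¹ = 1
      have : ψ σ = ε σ := hinj _ _ (by rw [← hψ, hs σ hσ])
      rw [this, hunit]
    · intro σ hσ
      change ψ σ * ε σ⁻¹ = 1
      rw [hεiner N hN.out hrN.symm AN hAN _ (inv_mem hσ), mul_one]
      have h1 := LinearMap.congr_fun (h.unip σ hσ σ hσ) (e i0)
      have h2 : ((ψ σ - 1) * (ψ σ - 1)) • e i0 = (0 : O) • e i0 := by
        rw [zero_smul, mul_smul]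
        have h3 : ∀ x, (ρ σ - 1) x = (ψ σ - 1) • x := fun x => by
          rw [LinearMap.sub_apply, hψ, Module.End.one_apply, sub_smul, one_smul]
        rw [Module.End.mul_apply, h3, h3] at h1
        exact h1
      have h3 := hinj _ _ h2
      rcases mul_eq_zero.1 h3 with h4 | h4 <;> exact sub_eq_zero.1 h4
  have hψε : ∀ g, ψ g = ε g := by
    intro g
    have h1 : ψ g * ε g⁻¹ = 1 := hω g
    have h2 := hunit ε g
    calc ψ g = ψ g * (ε g * ε g⁻¹) := by rw [h2, mul_one]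
      _ = ε g * (ψ g * ε g⁻¹) := by ring
      _ = ε g := by rw [h1, mul_one]
  obtain ⟨q, hq, hqr, hqN⟩ := exists_prime r N
  obtain ⟨B, hB⟩ := exists_liesOverPrime (L := Ω) hq
  obtain ⟨σ, hσ⟩ := exists_isFrobeniusAt B hq hB
  have h1 := h.frob q hq hqr hqN B hB σ hσ (e i0)
  rw [hψ, hψ] at h1
  have h2 : ψ σ * ψ σ - χ q * ψ σ + q = 0 := hinj _ _ (by
    rw [zero_smul, ← h1]; module)
  have hq0 : (q : O) ≠ 0 := hO.cz q hq.ne_zero
  apply h.ne q hq hqr hqN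
  rw [hψε] at h2
  rcases hε with rfl | rfl
  · rw [MonoidHom.one_apply] at h2
    linear_combination -h2
  · rw [c_frob hO h.cyc hq hqr hB hσ] at h2
    have h3 : (q : O) * (χ q - (1 + q)) = 0 := by linear_combination -h2
    rcases mul_eq_zero.1 h3 with h4 | h4
    · exact absurd h4 hq0
    · exact sub_eq_zero.1 h4

end IsE

end Fermat.Agent.MazD
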