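import Fermat.Agent.MazD.Abs

/-!
# Abstract Eisenstein lattices: the ordinary case
-/

set_option autoImplicit false
set_option linter.unusedSectionVars false
set_option linter.style.haveILetI false

noncomputable section

namespace Fermat.Agent.MazD

open Fermat.Agent.Places Fermat.Agent.RedMod Fermat.Agent.FlatRam Fermat.Agent.Flat
  Fermat.Agent.GalRep

local notation "Ω" => AlgebraicClosure ℚ

variable {r N : ℕ} [hr : Fact r.Prime] {A AN : ValuationSubring (AlgebraicClosure ℚ)}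
  {O : Type*} [CommRing O] [IsDomain O] {Λ : Type*} [AddCommGroup Λ] [Module O Λ]

theorem repr_mem_of_smul_top {ι : Type*} [Finite ι] (e : Module.Basis ι O Λ) {J : Ideal O} {x : Λ}
    (hx : x ∈ J • (⊤ : Submodule O Λ)) (i : ι) : e.repr x i ∈ J := by
  induction hx using Submodule.smul_induction_on' with
  | smul a ha n hn =>
    rw [map_smul, Finsupp.smul_apply, smul_eq_mul]
    exact Ideal.mul_mem_right _ _ ha
  | add x hx y hy h1 h2 =>
    rw [map_add, Finsupp.add_apply]
    exact add_mem h1 h2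

namespace IsE

variable {I : Ideal O} {χ : ℕ → O} {c : GQ →* O} {ρ : GQ →* Module.End O Λ}
  (h : IsE r N AN I χ c ρ) (hO : IsO r O)

theorem c_ne_zero (c : GQ →* O) (g : GQ) : c g ≠ 0 := by
  intro h0
  have h1 : c g * c g⁻¹ = 1 := by rw [← map_mul, mul_inv_cancel, map_one]
  rw [h0, zero_mul] at h1
  exact zero_ne_one h1

include h hO

variable [hN : Fact N.Prime] (hrN : r ≠ N) (hrI : (r : O) ∈ I) (hA : A.LiesOverPrime r)
  (hAN : AN.LiesOverPrime N) (e : Module.Basis (Fin 2) O Λ)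
  (hst : ∀ g ∈ A.inertiaSubgroupIn ℚ, e.coord 1 (ρ g (e 0)) = 0)
  (hin : ∀ g ∈ A.inertiaSubgroupIn ℚ, e.coord 1 (ρ g (e 1)) = 1)

include hrI e in
theorem exists_tr' (g : GQ) : ∃ t : O, t - 1 - c g ∈ I ∧
    ∀ x, ρ g (ρ g x) + c g • x = t • ρ g x := by
  obtain ⟨t, ht, ht'⟩ := h.exists_tr hO e hrI g
  refine ⟨t, ht, fun x => ?_⟩
  have := ht' (ρ g x)
  rwa [h.rho_inv] at this

include hrI hst hin in
theorem iner_rel {g : GQ} (hg : g ∈ A.inertiaSubgroupIn ℚ) :
    (e.coord 0 (ρ g (e 0)) - 1) * (e.coord 0 (ρ g (e 0)) - c g) = 0 ∧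
      e.coord 0 (ρ g (e 1)) * (e.coord 0 (ρ g (e 0)) - c g) = 0 := by
  obtain ⟨c00, c10, c01, c11⟩ := coord_self e
  obtain ⟨t, -, ht⟩ := h.exists_tr' hO hrI e g
  set l := e.coord 0 (ρ g (e 0)) with hl
  set b := e.coord 0 (ρ g (e 1)) with hb
  have h0 : ρ g (e 0) = l • e 0 := by
    rw [basis_sum e (ρ g (e 0)), hst g hg, zero_smul, add_zero]
  have h1 : ρ g (e 1) = b • e 0 + e 1 := by
    rw [basis_sum e (ρ g (e 1)), hin g hg, one_smul]
  have e0 := ht (e 0)
  have e1 := ht (e 1)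
  rw [h0, map_smul, h0] at e0
  rw [h1, map_add, map_smul, h0, h1] at e1
  have f0 := congrArg (e.coord 0) e0
  have f1 := congrArg (e.coord 0) e1
  have f2 := congrArg (e.coord 1) e1
  simp only [map_add, map_smul, smul_eq_mul, c00, c10, c01, c11, mul_one, mul_zero, add_zero,
    zero_add] at f0 f1 f2
  subst f2
  constructor
  · linear_combination f0
  · linear_combination f1

include hrI hrN hA hAN hst hin in
theorem iner_eq {g : GQ} (hg : g ∈ A.inertiaSubgroupIn ℚ) :
    e.coord 0 (ρ g (e 0)) = c g := by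
  obtain ⟨c00, c10, c01, c11⟩ := coord_self e
  have hmul : ∀ g₁ ∈ A.inertiaSubgroupIn ℚ, ∀ g₂ ∈ A.inertiaSubgroupIn ℚ,
      e.coord 0 (ρ (g₁ * g₂) (e 0)) = e.coord 0 (ρ g₁ (e 0)) * e.coord 0 (ρ g₂ (e 0)) := by
    intro g₁ h₁ g₂ h₂
    have h0 : ρ g₂ (e 0) = e.coord 0 (ρ g₂ (e 0)) • e 0 := by
      conv_lhs => rw [basis_sum e (ρ g₂ (e 0)), hst g₂ h₂, zero_smul, add_zero]
    rw [map_mul, Module.End.mul_apply]
    conv_lhs => rw [h0]
    rw [map_smul, map_smul, smul_eq_mul, mul_comm]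
  by_contra hne
  have hg1 : e.coord 0 (ρ g (e 0)) = 1 := by
    rcases mul_eq_zero.1 (h.iner_rel hO hrI e hst hin hg).1 with h1 | h1
    · exact sub_eq_zero.1 h1
    · exact absurd (sub_eq_zero.1 h1) hne
  have hcg : c g ≠ 1 := fun h1 => hne (by rw [h1, hg1])
  -- all `λ` are one
  have hall : ∀ g₁ ∈ A.inertiaSubgroupIn ℚ, e.coord 0 (ρ g₁ (e 0)) = 1 := by
    intro g₁ h₁
    by_contra hne1
    have h2 : e.coord 0 (ρ g₁ (e 0)) = c g₁ := by
      rcases mul_eq_zero.1 (h.iner_rel hO hrI e hst hin h₁).1 with h1 | h1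
      · exact absurd (sub_eq_zero.1 h1) hne1
      · exact sub_eq_zero.1 h1
    have h3 := hmul g₁ h₁ g hg
    rw [hg1, mul_one, h2] at h3
    rw [h2] at hne1
    rcases mul_eq_zero.1 (h.iner_rel hO hrI e hst hin (mul_mem h₁ hg)).1 with h4 | h4
    · rw [h3] at h4
      exact hne1 (sub_eq_zero.1 h4)
    · rw [h3, map_mul] at h4
      have h5 : c g₁ * (1 - c g) = 0 := by linear_combination h4
      rcases mul_eq_zero.1 h5 with h6 | h6
      · exact c_ne_zero c g₁ h6
      · exact hcg (sub_eq_zero.1 h6).symm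
  have hone : ∀ g₁ ∈ A.inertiaSubgroupIn ℚ, c g₁ ≠ 1 → ∀ x, ρ g₁ x = x := by
    intro g₁ h₁ hc₁ x
    have h2 := (h.iner_rel hO hrI e hst hin h₁).2
    rw [hall g₁ h₁] at h2
    rcases mul_eq_zero.1 h2 with h3 | h3
    · have h0 : ρ g₁ (e 0) = e 0 := by
        rw [basis_sum e (ρ g₁ (e 0)), hst g₁ h₁, zero_smul, add_zero, hall g₁ h₁, one_smul]
      have h1 : ρ g₁ (e 1) = e 1 := by
        rw [basis_sum e (ρ g₁ (e 1)), hin g₁ h₁, one_smul, h3, zero_smul, zero_add]
      conv_lhs => rw [basis_sum e x, map_add, map_smul, map_smul, h0, h1, ← basis_sum e x]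
    · exact absurd (sub_eq_zero.1 h3).symm hc₁
  refine h.no_scalar hO hrN e hrI hA hAN 1 (Or.inl rfl) fun g₁ h₁ x => ?_
  rw [MonoidHom.one_apply, one_smul]
  by_cases hc₁ : c g₁ = 1
  · have h2 := hone (g₁ * g) (mul_mem h₁ hg) (by rwa [map_mul, hc₁, one_mul]) x
    rwa [map_mul, Module.End.mul_apply, hone g hg hcg] at h2
  · exact hone g₁ h₁ hc₁ x

include hrI in
theorem det_or (g : GQ) : LinearMap.det (ρ g) = c g ∨ (e.coord 0 (ρ g (e 1)) = 0 ∧
    e.coord 1 (ρ g (e 0)) = 0 ∧ e.coord 0 (ρ g (e 0)) = e.coord 1 (ρ g (e 1))) := by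
  obtain ⟨c00, c10, c01, c11⟩ := coord_self e
  obtain ⟨t, -, ht⟩ := h.exists_tr' hO hrI e g
  rw [det_eq e]
  set a := e.coord 0 (ρ g (e 0)) with ha
  set b := e.coord 0 (ρ g (e 1)) with hb
  set c' := e.coord 1 (ρ g (e 0)) with hc'
  set d := e.coord 1 (ρ g (e 1)) with hd
  have h0 : ρ g (e 0) = a • e 0 + c' • e 1 := basis_sum e _
  have h1 : ρ g (e 1) = b • e 0 + d • e 1 := basis_sum e _
  have e0 := ht (e 0)
  have e1 := ht (e 1)
  rw [h0, map_add, map_smul, map_smul, h0, h1] at e0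
  rw [h1, map_add, map_smul, map_smul, h0, h1] at e1
  have f0 := congrArg (e.coord 0) e0
  have f1 := congrArg (e.coord 1) e0
  have f2 := congrArg (e.coord 0) e1
  have f3 := congrArg (e.coord 1) e1
  simp only [map_add, map_smul, smul_eq_mul, c00, c10, c01, c11, mul_one, mul_zero, add_zero,
    zero_add] at f0 f1 f2 f3
  by_cases hb0 : b = 0
  · by_cases hc0 : c' = 0
    · by_cases had : a = d
      · exact Or.inr ⟨hb0, hc0, had⟩
      · left
        rw [hb0, hc0] at f0 f3
        have h4 : (a - d) * (a + d - t) = 0 := by linear_combination f0 - f3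
        rcases mul_eq_zero.1 h4 with h5 | h5
        · exact absurd (sub_eq_zero.1 h5) had
        · have : t = a + d := (sub_eq_zero.1 h5).symm
          subst this
          rw [hb0]
          linear_combination -f0
    · left
      have h4 : c' * (a + d - t) = 0 := by linear_combination f1
      rcases mul_eq_zero.1 h4 with h5 | h5
      · exact absurd h5 hc0
      · have : t = a + d := (sub_eq_zero.1 h5).symm
        subst this
        linear_combination -f0
  · left
    have h4 : b * (a + d - t) = 0 := by linear_combination f2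
    rcases mul_eq_zero.1 h4 with h5 | h5
    · exact absurd h5 hb0
    · have : t = a + d := (sub_eq_zero.1 h5).symm
      subst this
      linear_combination -f0

include hrI hrN hA hAN hst hin in
theorem det_rho (g : GQ) : LinearMap.det (ρ g) = c g := by
  rcases h.det_or hO hrI e g with h1 | ⟨h1, h2, h3⟩
  · exact h1
  obtain ⟨g₀, hg₀, hc₀⟩ := exists_c_ne (c := c) hO hrN hA hAN h.cyc
  have hl := h.iner_eq hO hrN hrI hA hAN e hst hin hg₀
  set a := e.coord 0 (ρ g (e 0)) with ha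
  have k0 : ρ g (e 0) = a • e 0 := by
    rw [basis_sum e (ρ g (e 0)), h2, zero_smul, add_zero]
  have k1 : ρ g (e 1) = a • e 1 := by
    rw [basis_sum e (ρ g (e 1)), h1, zero_smul, zero_add, ← h3]
  have hsc : ρ g = a • (1 : Module.End O Λ) := by
    apply e.ext
    intro i
    fin_cases i
    · exact k0
    · exact k1
  obtain ⟨c00, c10, c01, c11⟩ := coord_self e
  have ha0 : a ≠ 0 := by
    intro h0
    have h4 : ρ g⁻¹ (ρ g (e 0)) = e 0 := h.rho_inv g _
    rw [k0, h0, zero_smul, map_zero] at h4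
    rw [← h4, map_zero] at c00
    exact zero_ne_one c00
  have k2 : ρ (g * g₀) = a • ρ g₀ := by rw [map_mul, hsc, smul_mul_assoc, one_mul]
  have hdet : LinearMap.det (ρ g) = a ^ 2 := by
    rw [det_eq e, k0, k1]
    simp only [map_smul, c00, c10, c01, c11, smul_eq_mul]
    ring
  rcases h.det_or hO hrI e (g * g₀) with h4 | ⟨-, -, h6⟩
  · have h5 : LinearMap.det (ρ (g * g₀)) = a ^ 2 * c g₀ := by
      rw [map_mul, map_mul, hdet]
      congr 1
      rw [det_eq e, hl, hst g₀ hg₀, hin g₀ hg₀]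
      ring
    rw [h4, map_mul] at h5
    rw [hdet]
    exact mul_right_cancel₀ (c_ne_zero c g₀) h5.symm
  · exfalso
    rw [k2] at h6
    simp only [LinearMap.smul_apply, map_smul, hl, hin g₀ hg₀, smul_eq_mul, mul_one] at h6
    have h7 : a * (c g₀ - 1) = 0 := by linear_combination h6
    rcases mul_eq_zero.1 h7 with h8 | h8
    · exact ha0 h8
    · exact hc₀ (sub_eq_zero.1 h8)

theorem cyc_one (σ : GQ) : ∃ z, c σ = ((GalRep.cyc r σ).val : O) + (r : O) * z := by
  obtain ⟨z, hz⟩ := h.cyc σ 1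
  have hcong : ∀ (m : ℕ) [NeZero m], m = r → (GalRep.cyc m σ).val = (GalRep.cyc r σ).val := by
    intro m _ hm
    subst hm
    rfl
  exact ⟨z, by rw [hz, hcong _ (pow_one r), pow_one]⟩

include hrI hrN hA hAN hst hin in
/-- **Eisenstein lattices of rank two, ordinary at `r`** -/
theorem isL (hI : ∀ k : ℕ, ∃ M : ℕ, ∀ x ∈ I ^ M, ∃ y, x = (r : O) ^ k * y)
    (hfr : ∃ Φ, Pres A Φ ∧ e.coord 1 (ρ Φ (e 0)) = 0 ∧ (e.coord 1 (ρ Φ (e 1))) ^ 2 ≠ 1) :
    IsL r N A AN ρ e where
  lev k := by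
    obtain ⟨L, h1, h2⟩ := h.lev k
    refine ⟨L, h1, fun σ hσ x => ?_⟩
    obtain ⟨y, hy⟩ := h2 σ hσ x
    refine ⟨y, ?_⟩
    rw [hy, ← Nat.cast_smul_eq_nsmul O, Nat.cast_pow]
  unr := h.unr
  res k := by
    obtain ⟨M, hM⟩ := hI k
    refine ⟨M, fun σ x => ?_⟩
    set v : ℕ := (GalRep.cyc r σ).val with hv
    have key : ∀ (n : ℕ) (x : Λ), (((ρ σ - 1) * (ρ σ - ((v : ℕ) : Module.End O Λ))) ^ n) x ∈
        I ^ n • (⊤ : Submodule O Λ) := by
      intro n
      induction n with
      | zero => intro x; rw [pow_zero, pow_zero, Ideal.one_eq_top, Submodule.top_smul]; trivial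
      | succ n ih =>
        intro x
        rw [pow_succ' ((ρ σ - 1) * (ρ σ - ((v : ℕ) : Module.End O Λ))) n, Module.End.mul_apply]
        have h1 := ih x
        generalize (((ρ σ - 1) * (ρ σ - ((v : ℕ) : Module.End O Λ))) ^ n) x = y at h1
        obtain ⟨t, ht, ht'⟩ := h.exists_tr' hO hrI e σ
        obtain ⟨z, hz⟩ := h.cyc_one hO σ
        have h2 : ∀ y, ((ρ σ - 1) * (ρ σ - ((v : ℕ) : Module.End O Λ))) y =
            ((t - 1 - c σ) + r * z) • ρ σ y - (r * z) • y := by
          intro y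
          have h3 := ht' y
          have h4 : ((v : ℕ) : Module.End O Λ) y = ((v : ℕ) : O) • y := by
            rw [Module.End.natCast_apply, Nat.cast_smul_eq_nsmul]
          rw [Module.End.mul_apply, LinearMap.sub_apply, LinearMap.sub_apply,
            Module.End.one_apply, h4, map_sub, map_smul]
          have h5 : ((v : ℕ) : O) = c σ - r * z := by rw [hz]; ring
          have h6 : ρ σ (ρ σ y) = t • ρ σ y - c σ • y := by rw [← h3]; abel
          rw [h5, h6]
          module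
        rw [h2]
        have h7 : ρ σ y ∈ I ^ n • (⊤ : Submodule O Λ) := by
          have : (I ^ n • (⊤ : Submodule O Λ)).map (ρ σ) ≤ I ^ n • (⊤ : Submodule O Λ) := by
            rw [Submodule.map_smul'']
            exact Submodule.smul_mono le_rfl le_top
          exact this ⟨y, h1, rfl⟩
        rw [pow_succ', mul_smul]
        have h8 : (r : O) * z ∈ I := Ideal.mul_mem_right _ _ hrI
        exact sub_mem (Submodule.smul_mem_smul (add_mem ht h8) h7)
          (Submodule.smul_mem_smul h8 h1)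
    have h1 := key M x
    choose y hy using fun i => hM _ (repr_mem_of_smul_top e h1 i)
    refine ⟨∑ i, y i • e i, ?_⟩
    rw [← e.sum_repr ((((ρ σ - 1) * (ρ σ - ((v : ℕ) : Module.End O Λ))) ^ M) x),
      ← Nat.cast_smul_eq_nsmul O, Finset.smul_sum]
    refine Finset.sum_congr rfl fun i _ => ?_
    rw [hy, mul_smul, Nat.cast_pow]
  detc k σ := by
    obtain ⟨z, hz⟩ := h.cyc σ k
    exact ⟨z, by rw [h.det_rho hO hrN hrI hA hAN e hst hin, hz]; ring⟩
  stab := hst
  iner := hin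
  frob := hfr
  unip := h.unip
  inj := by
    obtain ⟨q, hq, hqr, hqN⟩ := exists_prime r N
    obtain ⟨B, hB⟩ := exists_liesOverPrime (L := Ω) hq
    obtain ⟨σ, hσ⟩ := exists_isFrobeniusAt B hq hB
    refine ⟨σ, -(ρ σ + (1 - χ q) • 1), 1 + q - χ q, sub_ne_zero.2 (h.ne q hq hqr hqN).symm, ?_⟩
    ext x
    have h1 := h.frob q hq hqr hqN B hB σ hσ x
    have h2 : ρ σ (ρ σ x) = χ q • ρ σ x - (q : O) • x := by
      rw [← sub_eq_zero, ← h1]; abel
    simp only [Module.End.mul_apply, LinearMap.neg_apply, LinearMap.add_apply,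
      LinearMap.sub_apply, LinearMap.smul_apply, Module.End.one_apply, map_sub, h2]
    module

end IsE

end Fermat.Agent.MazD
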