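import Fermat.Agent.MazD.Kap

/-!
# The Eisenstein descent: final assembly
-/

set_option autoImplicit false
set_option linter.unusedSectionVars false
set_option linter.style.haveILetI false

noncomputable section

namespace Fermat.Agent.MazD

open AlgebraicCurve Fermat.Agent.RR Fermat.Agent.Curve Fermat.Agent.Kum Fermat.Agent.FFG ModularCurve
  Fermat.Agent.HeckeHom Fermat.Agent.GalRep Fermat.Agent.Flat IsLocalRing
open scoped TensorProduct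

local notation "Ω" => AlgebraicClosure ℚ

/-- the primes used -/
abbrev Idx (N r : ℕ) : Type := {l : Nat.Primes // (l : ℕ) ≠ N ∧ (l : ℕ) ≠ r}

/-- coefficient ring and eigenvector (pure algebra) -/
def CoefEig (r : ℕ) [Fact r.Prime] (M L : Type) [AddCommGroup M] (T : L → Module.End ℤ M)
    (ε : L → ℤ) : Prop :=
  (∀ E : FreeAlgebra ℤ L, FreeAlgebra.lift ℤ T E = 0 → (r : ℤ) ∣ FreeAlgebra.lift ℤ ε E) →
  ∃ (O : Type) (_ : CommRing O) (_ : IsDomain O) (_ : IsLocalRing O) (_ : IsNoetherianRing O)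
    (_ : IsPrincipalIdealRing O) (_ : IsAdicComplete (maximalIdeal O) O) (_ : CoefF r O)
    (j : O →+* ℂ) (c : GQ →* O) (χ : L → O) (x : O ⊗[ℤ] M),
    IsO r O ∧ (r : O) ∈ maximalIdeal O ∧
    (∀ k : ℕ, ∃ M : ℕ, ∀ x ∈ (maximalIdeal O) ^ M, ∃ y, x = (r : O) ^ k * y) ∧
    Function.Injective j ∧
    (∀ σ (k : ℕ), ∃ z, c σ = ((GalRep.cyc (r ^ k) σ).val : O) + (r : O) ^ k * z) ∧
    (∀ l, χ l - ε l ∈ maximalIdeal O) ∧ x ≠ 0 ∧ ∀ l, (T l).baseChange O x = χ l • x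

theorem lift_comp {L A B : Type} [AddCommGroup A] [AddCommGroup B] (φ : A →+ B)
    (T : L → Module.End ℤ A) (T' : L → Module.End ℤ B) (h : ∀ l a, φ (T l a) = T' l (φ a))
    (E : FreeAlgebra ℤ L) : ∀ a : A, φ (FreeAlgebra.lift ℤ T E a) = FreeAlgebra.lift ℤ T' E (φ a) := by
  induction E using FreeAlgebra.induction with
  | grade0 n =>
    intro a
    rw [AlgHom.commutes, AlgHom.commutes, Module.algebraMap_end_apply, Module.algebraMap_end_apply,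
      map_zsmul]
  | grade1 l =>
    intro a
    rw [FreeAlgebra.lift_ι_apply, FreeAlgebra.lift_ι_apply, h]
  | mul a b ha hb =>
    intro x
    rw [map_mul, map_mul, Module.End.mul_apply, Module.End.mul_apply, ha, hb]
  | add a b ha hb =>
    intro x
    rw [map_add, map_add, LinearMap.add_apply, LinearMap.add_apply, map_add, ha, hb]

variable {N r : ℕ} [NeZero N]

theorem lift_TJ (E : FreeAlgebra ℤ (Idx N r)) (P : JQ N) :
    (((FreeAlgebra.lift ℤ (fun l : Idx N r => TJ N l.1) E) P : JQ N) : JZero N) =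
      (FreeAlgebra.lift ℤ (fun l : Idx N r => heckeOperatorBar N l.1) E) (P : JZero N) :=
  lift_comp (JQ N).subtype.toAddMonoidHom _ _ (fun _ _ => rfl) E P

theorem lift_TM (E : FreeAlgebra ℤ (Idx N r)) (P : JQ N) :
    cl ((FreeAlgebra.lift ℤ (fun l : Idx N r => TJ N l.1) E) P) =
      (FreeAlgebra.lift ℤ (fun l : Idx N r => TM N l.1) E) (cl P) :=
  lift_comp (cl (N := N)).toAddMonoidHom _ _ (fun _ _ => rfl) E P

set_option maxHeartbeats 2000000 in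
/-- **The Eisenstein descent (α4).** -/
theorem alpha4_of [hr : Fact r.Prime] (hN : N.Prime) (hN5 : 5 ≤ N) (hrN : r ≠ N)
    (hcoef : (∀ l l' : Idx N r, Commute (TM N l.1) (TM N l'.1)) →
      CoefEig r (MQ N) (Idx N r) (fun l => TM N l.1) (fun l => ((l.1 : ℕ) : ℤ) + 1))
    (hsp : ∀ A : ValuationSubring (AlgebraicClosure ℚ), A.LiesOverPrime r →
      ∃ (P₀ : Type) (_ : AddCommGroup P₀) (f : JZero N →+ P₀) (Φ Φi : P₀ →+ P₀),
        IsSp r N A f Φ Φi) :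
    ∃ E : FreeAlgebra ℤ (Idx N r),
      ¬ ((r : ℤ) ∣ FreeAlgebra.lift ℤ (fun l : Idx N r => ((l.1 : ℕ) : ℤ) + 1) E) ∧
      ∀ P : JZero N, (∀ σ : Ω ≃ₐ[ℚ] Ω, σ • P = P) → ∃ n : ℕ, n ≠ 0 ∧
        n • (FreeAlgebra.lift ℤ (fun l : Idx N r => heckeOperatorBar N l.1) E :
          Module.End ℤ (JZero N)) P = 0 := by
  haveI : Fact N.Prime := ⟨hN⟩
  by_contra hcon
  push Not at hcon
  have h : ∀ E : FreeAlgebra ℤ (Idx N r), FreeAlgebra.lift ℤ (fun l : Idx N r => TM N l.1) E = 0 →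
      (r : ℤ) ∣ FreeAlgebra.lift ℤ (fun l : Idx N r => ((l.1 : ℕ) : ℤ) + 1) E := by
    intro E hE
    by_contra hE'
    obtain ⟨P, hP, hP'⟩ := hcon E hE'
    have h1 := lift_TM E ⟨P, hP⟩
    rw [hE] at h1
    obtain ⟨n, hn, h2⟩ := cl_eq_zero.1 h1
    rw [lift_TJ] at h2
    exact hP' n hn h2
  obtain ⟨O, i1, i2, i3, i4, i5, i6, F, j, c, χ, x, hO, hpO, hI, hj, hc, hχ, hx0, hx⟩ :=
    hcoef (fun l l' => TM_comm hN hN5 ((not_dvd_iff l.1.2 hN).2 l.2.1)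
      ((not_dvd_iff l'.1.2 hN).2 l'.2.1)) h
  obtain ⟨ι⟩ : Nonempty (AlgebraicClosure ℚ →+* ℂ) := RedMod.exists_ιC
  obtain ⟨A, hA⟩ := Places.exists_liesOverPrime Ω hr.out
  obtain ⟨AN, hAN⟩ := Places.exists_liesOverPrime Ω hN
  obtain ⟨P₀, _, f, Φ, Φi, hsp⟩ := hsp A hA
  classical
  apply hx0
  refine no_eig hN5 hO hA hAN hrN hj hc hI (χ := fun q => if h : ∃ (_ : q.Prime), q ≠ N ∧ q ≠ r then
    χ ⟨(⟨q, h.choose⟩ : Nat.Primes), h.choose_spec⟩ else 1 + q) ?_ hsp ι F hpO ?_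
  · intro q hq hqr hqN
    have h1 : ∃ (_ : q.Prime), q ≠ N ∧ q ≠ r := ⟨hq, hqN, hqr⟩
    simp only [h1, dif_pos]
    have h2 := hχ ⟨(⟨q, hq⟩ : Nat.Primes), hqN, hqr⟩
    have h3 : χ ⟨(⟨q, hq⟩ : Nat.Primes), hqN, hqr⟩ - 1 - q =
        χ ⟨(⟨q, hq⟩ : Nat.Primes), hqN, hqr⟩ - (((((q : ℕ) : ℤ) + 1 : ℤ)) : O) := by
      push_cast; ring
    rw [h3]
    exact h2
  · intro q hqr hqN
    have h1 : ∃ (_ : (q : ℕ).Prime), (q : ℕ) ≠ N ∧ (q : ℕ) ≠ r := ⟨q.2, hqN, hqr⟩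
    simp only [h1, dif_pos]
    exact hx ⟨q, hqN, hqr⟩

end Fermat.Agent.MazD
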