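import Fermat.Agent.MazD.Core
import Fermat.Agent.MzC.Main

/-!
# The specialization map has the required properties
-/

set_option autoImplicit false
set_option linter.unusedSectionVars false
set_option linter.style.haveILetI false

noncomputable section

namespace Fermat.Agent.MazD

open AlgebraicCurve ModularCurve Fermat.Agent.GalRep

local notation "Ω" => AlgebraicClosure ℚ

theorem nilp_shift {W : Type*} [AddCommGroup W] {r k : ℕ} (hk : ∀ w : W, r ^ k • w = 0)
    (a : AddMonoid.End W) (v c : ℕ) (h : ∃ z : ℤ, (c : ℤ) = v + r * z) {m : ℕ}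
    (hm : (a - (v : AddMonoid.End W)) ^ m = 0) : ∃ m', (a - (c : AddMonoid.End W)) ^ m' = 0 := by
  obtain ⟨z, hz⟩ := h
  have h1 : (c : AddMonoid.End W) = v + (((r : ℤ) * z : ℤ) : AddMonoid.End W) := by
    have := congrArg (fun t : ℤ => (t : AddMonoid.End W)) hz
    push_cast at this ⊢
    exact this
  have h2 : IsNilpotent (((r : ℤ) * z : ℤ) : AddMonoid.End W) := by
    refine ⟨k, ?_⟩
    rw [← Int.cast_pow, mul_pow, mul_comm, Int.cast_mul]
    ext w
    have h3 : (((r : ℤ) ^ k : ℤ) : AddMonoid.End W) w = 0 := by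
      have h4 : (((r : ℤ) ^ k : ℤ) : AddMonoid.End W) = ((r ^ k : ℕ) : AddMonoid.End W) := by
        push_cast; rfl
      rw [h4, end_natCast_apply, hk]
    change ((z ^ k : ℤ) : AddMonoid.End W) ((((r : ℤ) ^ k : ℤ) : AddMonoid.End W) w) = 0
    rw [h3, map_zero]
  have h3 : IsNilpotent ((a - (v : AddMonoid.End W)) - (((r : ℤ) * z : ℤ) : AddMonoid.End W)) :=
    Commute.isNilpotent_sub (Int.commute_cast _ _) ⟨m, hm⟩ h2
  obtain ⟨m', hm'⟩ := h3
  refine ⟨m', ?_⟩
  rw [h1, ← sub_sub]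
  exact hm'

theorem exists_isSp {r N : ℕ} [hr : Fact r.Prime] [NeZero N]
    {A : ValuationSubring (AlgebraicClosure ℚ)} (hA : A.LiesOverPrime r) (hrN : ¬ r ∣ N) :
    ∃ (P₀ : Type) (_ : AddCommGroup P₀) (f : JZero N →+ P₀) (Φ Φi : P₀ →+ P₀),
      IsSp r N A f Φ Φi := by
  obtain ⟨P₀, i, f, Φ, Φi, h⟩ := MzC.exists_isSp (N := N) hA hrN
  refine ⟨P₀, i, f, Φ, Φi, h.surj, h.inv, h.hecke, h.es, h.inertia, h.frob, ?_, ?_⟩
  · intro hr2 V _ _ act φ hφ hφeq k hk hf ψ hψ
    ext T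
    refine MzC.psi_eq_zero_J (ι := Unit) (act := act) hA hr2 h.conn
      (AddMonoidHom.mk' (fun v _ => φ v) fun a b => by funext; exact map_add φ a b)
      (fun a b hab => hφ (congrFun hab ())) (fun σ _ w _ => hφeq σ w) ψ hψ (fun _ => hf T)
  · intro V _ _ ρ φ hφ hφeq k hk hf hnil σ hσ v
    haveI : NeZero r := ⟨hr.out.ne_zero⟩
    refine MzC.act_eq_nsmul_J (ι := Unit) (act := fun σ v => ρ σ v) hA h.conn
      (AddMonoidHom.mk' (fun v _ => φ v) fun a b => by funext; exact map_add φ a b)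
      (fun a b hab => hφ (congrFun hab ())) (fun σ _ w _ => hφeq σ w) (fun w _ => hf w) hk ?_ hσ
      (fun ζ hζ => apply_eq_pow_cyc (r ^ k) σ hζ) v
    intro τ hτ c hc
    obtain ⟨m, hm⟩ := hnil τ hτ
    rcases Nat.eq_zero_or_pos k with hk0 | hk0
    · subst hk0
      refine ⟨0, fun w => ?_⟩
      have h0 : ∀ w : V, w = 0 := fun w => by simpa using hk w
      rw [h0 (ρ (τ ^ r ^ 0) w), h0 w, smul_zero]
    · have h1 : cyc r τ = c := cyc_eq_of_forall r τ c fun x hx => hc x (by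
        obtain ⟨k', rfl⟩ := Nat.exists_eq_succ_of_ne_zero hk0.ne'
        rw [pow_succ', pow_mul, hx, one_pow])
      have h2 : ∃ z : ℤ, (c : ℤ) = (cyc r τ).val + r * z := by
        have h3 : (((cyc r τ).val : ℤ) : ZMod r) = ((c : ℤ) : ZMod r) := by
          push_cast
          rw [ZMod.natCast_zmod_val, h1]
        rw [ZMod.intCast_eq_intCast_iff_dvd_sub] at h3
        obtain ⟨z, hz⟩ := h3
        exact ⟨z, by linarith⟩
      obtain ⟨m', hm'⟩ := nilp_shift hk (ρ τ) _ c h2 hm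
      obtain ⟨M, hM⟩ := MzC.exists_pow_eq hr.out hk (ρ τ) c m' hm'
      refine ⟨M, fun w => ?_⟩
      rw [map_pow]
      exact hM w

end Fermat.Agent.MazD
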