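import Fermat.Agent.MazD.Alpha
import Fermat.Agent.MazD.SpFin

/-!
# The Eisenstein descent, modulo the coefficient ring
-/

set_option autoImplicit false
set_option linter.unusedSectionVars false
set_option linter.style.haveILetI false

noncomputable section

namespace Fermat.Agent.MazD

open ModularCurve

/-- **The Eisenstein descent (α4).** -/
theorem alpha4_of_coef {N r : ℕ} [NeZero N] [hr : Fact r.Prime] (hN : N.Prime) (hN5 : 5 ≤ N)
    (hrN : r ≠ N)
    (hcoef : (∀ l l' : Idx N r, Commute (TM N l.1) (TM N l'.1)) →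
      CoefEig r (MQ N) (Idx N r) (fun l => TM N l.1) (fun l => ((l.1 : ℕ) : ℤ) + 1)) :
    ∃ E : FreeAlgebra ℤ (Idx N r),
      ¬ ((r : ℤ) ∣ FreeAlgebra.lift ℤ (fun l : Idx N r => ((l.1 : ℕ) : ℤ) + 1) E) ∧
      ∀ P : JZero N, (∀ σ : (AlgebraicClosure ℚ) ≃ₐ[ℚ] (AlgebraicClosure ℚ), σ • P = P) →
        ∃ n : ℕ, n ≠ 0 ∧
        n • (FreeAlgebra.lift ℤ (fun l : Idx N r => heckeOperatorBar N l.1) E :
          Module.End ℤ (JZero N)) P = 0 :=
  alpha4_of hN hN5 hrN hcoef fun _ hA => exists_isSp hA ((not_dvd_iff hr.out hN).2 hrN)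

end Fermat.Agent.MazD
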