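import Mathlib.FieldTheory.IsAlgClosed.Classification
import Mathlib.RingTheory.Localization.Cardinality
import Mathlib.NumberTheory.Padics.RingHoms
import Mathlib.Analysis.Complex.Polynomial.Basic
import Mathlib.Analysis.Complex.Cardinality
import Mathlib.RingTheory.Algebraic.Cardinality
import Mathlib.Algebra.MvPolynomial.Cardinal

/-!
# Embeddings of `p`-adic rings into the complex numbers
-/

set_option autoImplicit false

noncomputable section

namespace Fermat.Agent.MazD

open Cardinal

theorem exists_emb_C (O : Type) [CommRing O] [IsDomain O] [CharZero O] (h : #O ≤ 𝔠) :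
    ∃ j : O →+* ℂ, Function.Injective j := by
  let R := MvPolynomial ℝ O
  let K := FractionRing R
  let L := AlgebraicClosure K
  haveI : CharZero K := charZero_of_injective_algebraMap (IsFractionRing.injective R K)
  haveI : CharZero L := charZero_of_injective_algebraMap (algebraMap K L).injective
  have h1 : #R ≤ 𝔠 := by
    refine (MvPolynomial.cardinalMk_le_max (σ := ℝ) (R := O)).trans ?_
    rw [mk_real]
    exact max_le (max_le h le_rfl) aleph0_le_continuum
  have h2 : #K ≤ 𝔠 := by rw [show #K = #R from Cardinal.mk_fractionRing R]; exact h1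
  have h3 : #L ≤ 𝔠 := (Algebra.IsAlgebraic.cardinalMk_le_max K L).trans
    (max_le h2 aleph0_le_continuum)
  have h4 : 𝔠 ≤ #L := by
    rw [← mk_real]
    refine mk_le_of_injective (f := fun x : ℝ => algebraMap K L (algebraMap R K (MvPolynomial.X x)))
      fun x y hxy => ?_
    exact MvPolynomial.X_injective (IsFractionRing.injective R K ((algebraMap K L).injective hxy))
  have h5 : #L = #ℂ := by rw [Cardinal.mk_complex]; exact le_antisymm h3 h4
  obtain ⟨e⟩ := IsAlgClosed.ringEquiv_of_equiv_of_charZero (K := L) (L := ℂ)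
    (by rw [h5, Cardinal.mk_complex]; exact aleph0_lt_continuum) (Cardinal.eq.1 h5)
  refine ⟨e.toRingHom.comp ((algebraMap K L).comp ((algebraMap R K).comp MvPolynomial.C)), ?_⟩
  exact e.injective.comp ((algebraMap K L).injective.comp
    ((IsFractionRing.injective R K).comp (MvPolynomial.C_injective ℝ O)))

theorem mk_padicInt_le (r : ℕ) [Fact r.Prime] : #ℤ_[r] ≤ 𝔠 := by
  have h : Function.Injective (fun (x : ℤ_[r]) (n : ℕ) => (PadicInt.toZModPow n x).val) := by
    intro x y hxy
    refine PadicInt.ext_of_toZModPow.1 fun n => ?_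
    haveI : NeZero (r ^ n) := ⟨pow_ne_zero _ (Fact.out : r.Prime).ne_zero⟩
    exact ZMod.val_injective _ (congrFun hxy n)
  refine (mk_le_of_injective h).trans ?_
  simp

theorem mk_le_of_finite (r : ℕ) [Fact r.Prime] (O : Type) [CommRing O] [Algebra ℤ_[r] O]
    [Module.Finite ℤ_[r] O] : #O ≤ 𝔠 := by
  obtain ⟨n, f, hf⟩ := Module.Finite.exists_fin' ℤ_[r] O
  refine (mk_le_of_surjective hf).trans ?_
  rw [← power_def]
  refine (power_le_power_right (mk_padicInt_le r)).trans ?_
  rw [mk_fin]
  exact (power_nat_le aleph0_le_continuum)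

end Fermat.Agent.MazD
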