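import Fermat.Agent.MazD.Unit

/-!
# Lattices of rank two: cocycles and their valuations at `r`
-/

set_option autoImplicit false
set_option linter.unusedSectionVars false
set_option linter.style.haveILetI false

noncomputable section

namespace Fermat.Agent.MazD

open Fermat.Agent.Places Fermat.Agent.RedMod Fermat.Agent.FlatRam Fermat.Agent.Flat
  Fermat.Agent.GalRep

local notation "Ω" => AlgebraicClosure ℚ

variable {r N : ℕ} [hr : Fact r.Prime] {A AN : ValuationSubring (AlgebraicClosure ℚ)}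
  {O : Type*} [CommRing O] [IsDomain O] {Λ : Type*} [AddCommGroup Λ] [Module O Λ]

/-- hypotheses on the coefficient ring -/
structure IsO (r : ℕ) (O : Type*) [CommRing O] : Prop where
  dvd : ∀ a : O, a ≠ 0 → ∃ m : ℕ, ∃ s, (r : O) ^ m = a * s
  sep : ∀ x : O, (∀ k : ℕ, ∃ y, x = (r : O) ^ k * y) → x = 0
  fin : ∀ k : ℕ, Finite (O ⧸ (nsmulAddMonoidHom (α := O) (r ^ k)).range)
  nunit : ¬ IsUnit (r : O)
  ne_zero : (r : O) ≠ 0
  cz : ∀ n : ℕ, n ≠ 0 → (n : O) ≠ 0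
  tot : ∀ a b : O, a ∣ b ∨ b ∣ a

/-- a lattice of rank two with Galois action, ordinary at `r`, unipotent at `N` -/
structure IsL (r N : ℕ) [Fact r.Prime] (A AN : ValuationSubring (AlgebraicClosure ℚ))
    (ρ : GQ →* Module.End O Λ) (e : Module.Basis (Fin 2) O Λ) : Prop where
  lev : ∀ k : ℕ, ∃ L : IntermediateField ℚ Ω, FiniteDimensional ℚ L ∧
    ∀ σ : GQ, (∀ x ∈ L, σ x = x) → ∀ x, ∃ y, ρ σ x - x = r ^ k • y
  unr : ∀ q : ℕ, q.Prime → q ≠ r → q ≠ N → ∀ B : ValuationSubring (AlgebraicClosure ℚ),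
    B.LiesOverPrime q → ∀ σ ∈ B.inertiaSubgroupIn ℚ, ρ σ = 1
  res : ∀ k : ℕ, ∃ M : ℕ, ∀ (σ : GQ) (x : Λ), ∃ y,
    (((ρ σ - 1) * (ρ σ - ((cyc r σ).val : Module.End O Λ))) ^ M) x = r ^ k • y
  detc : ∀ (k : ℕ) (σ : GQ), ∃ z, LinearMap.det (ρ σ) - ((cyc (r ^ k) σ).val : O) = (r : O) ^ k * z
  stab : ∀ σ ∈ A.inertiaSubgroupIn ℚ, e.coord 1 (ρ σ (e 0)) = 0
  iner : ∀ σ ∈ A.inertiaSubgroupIn ℚ, e.coord 1 (ρ σ (e 1)) = 1
  frob : ∃ Φ, Pres A Φ ∧ e.coord 1 (ρ Φ (e 0)) = 0 ∧ (e.coord 1 (ρ Φ (e 1))) ^ 2 ≠ 1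
  unip : ∀ σ ∈ AN.inertiaSubgroupIn ℚ, ∀ τ ∈ AN.inertiaSubgroupIn ℚ,
    (ρ σ - 1) * (ρ τ - 1) = 0
  inj : ∃ (σ₀ : GQ) (S : Module.End O Λ) (a : O), a ≠ 0 ∧ S * (ρ σ₀ - 1) = a • 1

/-- (global) cocycles -/
structure IsK (r N : ℕ) (A : ValuationSubring (AlgebraicClosure ℚ))
    (ρ : GQ →* Module.End O Λ) (e : Module.Basis (Fin 2) O Λ) (c : GQ → Λ) : Prop where
  coc : ∀ σ τ, c (σ * τ) = c σ + ρ σ (c τ)
  lev : ∀ k : ℕ, ∃ L : IntermediateField ℚ Ω, FiniteDimensional ℚ L ∧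
    ∀ σ : GQ, (∀ x ∈ L, σ x = x) → ∃ y, c σ = r ^ k • y
  unr : ∀ q : ℕ, q.Prime → q ≠ r → q ≠ N → ∀ B : ValuationSubring (AlgebraicClosure ℚ),
    B.LiesOverPrime q → ∀ σ ∈ B.inertiaSubgroupIn ℚ, c σ = 0
  memr : ∀ σ ∈ A.inertiaSubgroupIn ℚ, e.coord 1 (c σ) = 0

variable {ρ : GQ →* Module.End O Λ} {e : Module.Basis (Fin 2) O Λ}

theorem basis_sum (e : Module.Basis (Fin 2) O Λ) (x : Λ) :
    x = e.coord 0 x • e 0 + e.coord 1 x • e 1 := by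
  conv_lhs => rw [← e.sum_repr x, Fin.sum_univ_two]
  rfl

theorem det_eq (e : Module.Basis (Fin 2) O Λ) (f : Module.End O Λ) :
    LinearMap.det f = e.coord 0 (f (e 0)) * e.coord 1 (f (e 1)) -
      e.coord 0 (f (e 1)) * e.coord 1 (f (e 0)) := by
  rw [← LinearMap.det_toMatrix e, Matrix.det_fin_two]
  simp only [LinearMap.toMatrix_apply, Module.Basis.coord_apply]

theorem coord_self (e : Module.Basis (Fin 2) O Λ) : e.coord 0 (e 0) = 1 ∧ e.coord 1 (e 0) = 0 ∧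
    e.coord 0 (e 1) = 0 ∧ e.coord 1 (e 1) = 1 := by
  simp [Module.Basis.coord_apply]

namespace IsL

variable (hL : IsL r N A AN ρ e)
include hL

theorem det_inertia {σ : GQ} (hσ : σ ∈ A.inertiaSubgroupIn ℚ) :
    e.coord 0 (ρ σ (e 0)) = LinearMap.det (ρ σ) := by
  rw [det_eq e, hL.iner σ hσ, hL.stab σ hσ, mul_one, mul_zero, sub_zero]

theorem det_pres {σ : GQ} (hσ : e.coord 1 (ρ σ (e 0)) = 0) :
    e.coord 0 (ρ σ (e 0)) * e.coord 1 (ρ σ (e 1)) = LinearMap.det (ρ σ) := by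
  rw [det_eq e, hσ, mul_zero, sub_zero]

theorem coord1_apply {σ : GQ} (hσ : e.coord 1 (ρ σ (e 0)) = 0) (x : Λ) :
    e.coord 1 (ρ σ x) = e.coord 1 x * e.coord 1 (ρ σ (e 1)) := by
  conv_lhs => rw [basis_sum e x]
  simp only [map_add, map_smul, hσ, smul_eq_mul, mul_zero, zero_add]

theorem coord0_apply {σ : GQ} (x : Λ) :
    e.coord 0 (ρ σ x) = e.coord 0 x * e.coord 0 (ρ σ (e 0)) +
      e.coord 1 x * e.coord 0 (ρ σ (e 1)) := by
  conv_lhs => rw [basis_sum e x]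
  simp only [map_add, map_smul, smul_eq_mul]

/-- coboundaries are cocycles -/
theorem cob (g : Λ) : IsK r N A ρ e (fun σ => ρ σ g - g) where
  coc σ τ := by
    rw [map_mul, map_sub]
    change ρ σ (ρ τ g) - g = _
    abel
  lev k := by
    obtain ⟨L, h1, h2⟩ := hL.lev k
    exact ⟨L, h1, fun σ hσ => h2 σ hσ g⟩
  unr q hq h1 h2 B hB σ hσ := by
    rw [hL.unr q hq h1 h2 B hB σ hσ]
    simp
  memr σ hσ := by
    rw [map_sub, hL.coord1_apply (hL.stab σ hσ), hL.iner σ hσ, mul_one, sub_self]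

variable {c : GQ → Λ} (hc : IsK r N A ρ e c)
include hc

theorem c_eq {σ : GQ} (hσ : σ ∈ A.inertiaSubgroupIn ℚ) : c σ = e.coord 0 (c σ) • e 0 := by
  conv_lhs => rw [basis_sum e (c σ), hc.memr σ hσ, zero_smul, add_zero]

theorem exists_VV (hA : A.LiesOverPrime r) {φ : O →+ Additive Ωˣ} {k : ℕ}
    (hφ : ∀ x, φ ((r : O) ^ k * x) = 0) :
    ∃ t, VV hA (fun σ => e.coord 0 (c σ)) φ t := by
  refine VV.exists' (ε := fun σ => LinearMap.det (ρ σ)) ?_ ?_ ?_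
  · intro σ hσ τ hτ
    rw [hc.coc, map_add, hL.coord0_apply (c τ), hc.memr τ hτ, zero_mul, add_zero,
      hL.det_inertia hσ, mul_comm]
  · intro σ hσ x
    exact phi_gal hφ σ (hL.detc k σ) x
  · obtain ⟨L, h1, h2⟩ := hc.lev k
    refine ⟨L, h1, fun σ _ hσ => ?_⟩
    obtain ⟨y, hy⟩ := h2 σ hσ
    rw [hy, map_nsmul, nsmul_eq_mul, Nat.cast_pow, hφ]

/-- the Frobenius twist of a cocycle -/
theorem frob_VV (hA : A.LiesOverPrime r) {φ : O →+ Additive Ωˣ} {k : ℕ}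
    (hφ : ∀ x, φ ((r : O) ^ k * x) = 0) {t : ℚ} (h : VV hA (fun σ => e.coord 0 (c σ)) φ t)
    {Φ : GQ} (hΦ : Pres A Φ) (hΦ0 : e.coord 1 (ρ Φ (e 0)) = 0) :
    VV hA (fun σ => e.coord 1 (ρ Φ (e 1)) * e.coord 0 (c σ) +
      e.coord 1 (ρ Φ (e 1)) * e.coord 1 (c Φ) * e.coord 0 (ρ σ (e 1))) φ t := by
  have h1 := (h.frob hφ hΦ (hL.detc k Φ)).add (VV.cob (hA := hA) hφ (fun σ => hL.detc k σ)
    (- (e.coord 1 (ρ Φ (e 1)) * e.coord 0 (c Φ))))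
  rw [add_zero] at h1
  refine h1.congr fun σ hσ => ?_
  congr 1
  have h2 : Φ⁻¹ * σ * Φ ∈ A.inertiaSubgroupIn ℚ := by
    have := conj_mem_inertia hΦ.inv hσ
    rwa [inv_inv] at this
  have h3 : c Φ + ρ Φ (c (Φ⁻¹ * σ * Φ)) = c σ + ρ σ (c Φ) := by
    rw [← hc.coc, ← hc.coc]
    congr 1
    group
  have h4 := congrArg (e.coord 0) h3
  rw [map_add, map_add, hL.coord0_apply (c (Φ⁻¹ * σ * Φ)), hc.memr _ h2, zero_mul, add_zero,
    hL.coord0_apply (c Φ), hL.det_inertia hσ] at h4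
  have h5 := hL.det_pres hΦ0
  rw [← h5]
  linear_combination (e.coord 1 (ρ Φ (e 1))) * h4

end IsL

/-- **The unit property.** -/
theorem IsL.unit (hO : IsO r O) (hL : IsL r N A AN ρ e) (hA : A.LiesOverPrime r) {c : GQ → Λ}
    (hc : IsK r N A ρ e c) {ψ : O →+ Additive Ωˣ} {k : ℕ}
    (hψ : ∀ x, ψ ((r : O) ^ k * x) = 0) : VV hA (fun σ => e.coord 0 (c σ)) ψ 0 := by
  obtain ⟨Φ, hΦ, hΦ0, hu⟩ := hL.frob
  set u := e.coord 1 (ρ Φ (e 1)) with hu_def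
  have hu2 : u ^ 2 - 1 ≠ 0 := sub_ne_zero.2 hu
  have hu1 : u - 1 ≠ 0 := fun h => hu2 (by
    have : u ^ 2 - 1 = (u - 1) * (u + 1) := by ring
    rw [this, h, zero_mul])
  obtain ⟨c00, c10, c01, c11⟩ := coord_self e
  -- the class of the extension
  have hb : ∀ (ψ : O →+ Additive Ωˣ) (k : ℕ), (∀ x, ψ ((r : O) ^ k * x) = 0) →
      VV hA (fun σ => e.coord 0 (ρ σ (e 1))) ψ 0 := by
    intro ψ k hψ
    obtain ⟨φ, k', hφ, hφψ⟩ := exists_div hu2 (hO.dvd _ hu2) hψ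
    have hcb := hL.cob (e 1)
    obtain ⟨t, ht⟩ := hL.exists_VV hcb hA hφ
    have h1 := hL.frob_VV hcb hA hφ ht hΦ hΦ0
    have h2 := h1.add (ht.neg_phi.congr (φ' := φ) (f' := fun σ => - e.coord 0 (ρ σ (e 1) - e 1))
      (fun σ _ => by rw [AddMonoidHom.neg_apply, map_neg]))
    rw [add_neg_cancel] at h2
    refine h2.congr fun σ _ => ?_
    rw [← hφψ]
    congr 1
    rw [map_sub, map_sub, c01, c11, ← hu_def]
    ring
  obtain ⟨φ, k', hφ, hφψ⟩ := exists_div hu1 (hO.dvd _ hu1) hψ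
  obtain ⟨t, ht⟩ := hL.exists_VV hc hA hφ
  have h1 := hL.frob_VV hc hA hφ ht hΦ hΦ0
  have h2 := h1.add (ht.neg_phi.congr (φ' := φ) (f' := fun σ => - e.coord 0 (c σ))
    (fun σ _ => by rw [AddMonoidHom.neg_apply, map_neg]))
  rw [add_neg_cancel] at h2
  have h3 := hb (φ.comp (AddMonoidHom.mulLeft (- (u * e.coord 1 (c Φ))))) k' (fun x => by
    change φ (_ * ((r : O) ^ k' * x)) = 0
    rw [mul_left_comm, hφ])
  have h4 := h2.add (h3.congr (φ' := φ)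
    (f' := fun σ => - (u * e.coord 1 (c Φ)) * e.coord 0 (ρ σ (e 1))) (fun σ _ => rfl))
  rw [add_zero] at h4
  refine h4.congr fun σ _ => ?_
  rw [← hφψ]
  congr 1
  ring

end Fermat.Agent.MazD
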