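import Fermat.Agent.MazD.LatJ
import Fermat.Agent.MazD.Lam
import Fermat.Agent.MazD.Emb
import Fermat.Agent.CL.Padic
import Fermat.Agent.TW.HL

/-!
# Coefficient rings and common eigenvectors
-/

set_option autoImplicit false
set_option linter.unusedSectionVars false
set_option linter.style.haveILetI false

noncomputable section

namespace Fermat.Agent.MazD

open IsLocalRing
open scoped TensorProduct

/-! ### eigenvectors -/

section eig

variable {A : Type} [CommRing A] [IsDomain A] [IsNoetherianRing A] [CharZero A]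
  {R : Type} [CommRing R] [Module.Finite ℤ R]
  {M : Type} [AddCommGroup M] [Module.Free ℤ M] [Module.Finite ℤ M]

/-- the action of `A ⊗ R` on `A ⊗ M` -/
def actR (ρ : R →+* Module.End ℤ M) : A ⊗[ℤ] R →ₐ[A] Module.End A (A ⊗[ℤ] M) :=
  Algebra.TensorProduct.lift (Algebra.ofId A _)
    ((Module.End.baseChangeHom ℤ A M).comp ρ.toIntAlgHom)
    (fun c t => Algebra.commute_algebraMap_left c _)

theorem actR_tmul (ρ : R →+* Module.End ℤ M) (a b : A) (t : R) (m : M) :
    actR ρ (a ⊗ₜ t) (b ⊗ₜ m) = (a * b) ⊗ₜ ρ t m := by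
  have h : actR (A := A) ρ (a ⊗ₜ t) = (Algebra.ofId A _) a *
      ((Module.End.baseChangeHom ℤ A M).comp ρ.toIntAlgHom) t :=
    Algebra.TensorProduct.lift_tmul _ _ _ _ _
  rw [h, Algebra.ofId_apply, ← Algebra.smul_def]
  rfl

/-- evaluation -/
def evR (ρ : R →+* Module.End ℤ M) {ι : Type} (b : ι → M) : R →ₗ[ℤ] (ι → M) where
  toFun t i := ρ t (b i)
  map_add' s t := by funext i; simp
  map_smul' n s := by funext i; simp

theorem actR_injective (ρ : R →+* Module.End ℤ M) (hρ : Function.Injective ρ) (β : A ⊗[ℤ] R)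
    (h : ∀ x, actR ρ β x = 0) : β = 0 := by
  classical
  let b := Module.Free.chooseBasis ℤ M
  have hinj : Function.Injective (evR ρ b) := by
    intro s t hst
    apply hρ
    exact b.ext fun i => congrFun hst i
  haveI : Module.IsTorsionFree ℤ A := inferInstance
  haveI : Module.Flat ℤ A := inferInstance
  have h1 : Function.Injective ((evR ρ b).lTensor A) :=
    Module.Flat.lTensor_preserves_injective_linearMap _ hinj
  apply h1
  rw [map_zero]
  apply (TensorProduct.piRight ℤ ℤ A (fun _ => M)).injective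
  rw [map_zero]
  funext i
  have h2 : ∀ γ : A ⊗[ℤ] R, (TensorProduct.piRight ℤ ℤ A (fun _ => M)) ((evR ρ b).lTensor A γ) i =
      actR ρ γ (1 ⊗ₜ b i) := by
    intro γ
    induction γ using TensorProduct.induction_on with
    | zero => simp
    | tmul a t =>
      rw [actR_tmul, mul_one, LinearMap.lTensor_tmul, TensorProduct.piRight_apply,
        TensorProduct.piRightHom_tmul]
      rfl
    | add x y hx hy => rw [map_add, map_add, Pi.add_apply, hx, hy, map_add, LinearMap.add_apply]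
  rw [h2, h, Pi.zero_apply]

/-- **Common eigenvectors** for a character of a commutative ring of endomorphisms. -/
theorem exists_eig (ρ : R →+* Module.End ℤ M) (hρ : Function.Injective ρ) (Θ : R →+* A) :
    ∃ x : A ⊗[ℤ] M, x ≠ 0 ∧ ∀ t, (ρ t).baseChange A x = Θ t • x := by
  classical
  let B := A ⊗[ℤ] R
  let act : B →ₐ[A] Module.End A (A ⊗[ℤ] M) := actR ρ
  letI : Module B (A ⊗[ℤ] M) := Module.compHom _ (act : B →+* Module.End A (A ⊗[ℤ] M))
  have hsm : ∀ (β : B) (x : A ⊗[ℤ] M), β • x = act β x := fun _ _ => rfl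
  haveI : IsScalarTower A B (A ⊗[ℤ] M) := ⟨fun c a f => by rw [hsm, hsm, map_smul]; rfl⟩
  haveI : IsNoetherianRing B := isNoetherian_of_isNoetherianRing_of_finite A B |> fun h =>
    isNoetherian_of_tower A h
  haveI : Module.Finite B (A ⊗[ℤ] M) := Module.Finite.of_restrictScalars_finite A B _
  have hann : Module.annihilator B (A ⊗[ℤ] M) = ⊥ := by
    rw [eq_bot_iff]
    intro a ha
    rw [Module.mem_annihilator] at ha
    rw [Ideal.mem_bot]
    exact actR_injective ρ hρ a ha
  let θ : B →ₐ[A] A := Algebra.TensorProduct.lift (AlgHom.id A A) Θ.toIntAlgHom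
    (fun c t => Commute.all _ _)
  set 𝔪 : Ideal B := RingHom.ker θ with h𝔪
  haveI hprime : 𝔪.IsPrime := RingHom.ker_isPrime _
  have hmin : 𝔪 ∈ (Module.annihilator B (A ⊗[ℤ] M)).minimalPrimes := by
    rw [hann]
    obtain ⟨𝔭, h𝔭, h𝔭𝔪⟩ := Ideal.exists_minimalPrimes_le (I := (⊥ : Ideal B)) (J := 𝔪) bot_le
    haveI h1 : 𝔭.IsPrime := h𝔭.1.1
    have h2 : 𝔭 = 𝔪 := by
      refine le_antisymm h𝔭𝔪 ?_
      intro x hx
      by_contra hx2
      have h3 := Ideal.comap_lt_comap_of_integral_mem_sdiff (R := A) h𝔭𝔪 ⟨hx, hx2⟩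
        (Algebra.IsIntegral.isIntegral x)
      have h4 : 𝔪.comap (algebraMap A B) = ⊥ := by
        rw [eq_bot_iff]
        intro a ha
        have h5 : θ (algebraMap A B a) = 0 := ha
        rwa [AlgHom.commutes] at h5
      rw [h4] at h3
      exact not_lt_bot h3
    rwa [h2] at h𝔭
  have hass := Module.associatedPrimes.minimalPrimes_annihilator_subset_associatedPrimes B
    (A ⊗[ℤ] M) hmin
  rw [AssociatedPrimes.mem_iff, isAssociatedPrime_iff] at hass
  obtain ⟨-, x, hx⟩ := hass
  have hx' : ∀ t : B, t ∈ 𝔪 ↔ t • x = 0 := by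
    intro t
    rw [hx, Submodule.mem_colon_singleton, Submodule.mem_bot]
  refine ⟨x, ?_, fun t => ?_⟩
  · rintro rfl
    exact hprime.ne_top (by rw [Ideal.eq_top_iff_one, hx', smul_zero])
  · have h1 : ((1 : A) ⊗ₜ[ℤ] t - algebraMap A B (Θ t) : B) ∈ 𝔪 := by
      rw [h𝔪, RingHom.mem_ker, map_sub, AlgHom.commutes]
      have : θ ((1 : A) ⊗ₜ[ℤ] t) = Θ t := by
        have h := Algebra.TensorProduct.lift_tmul (AlgHom.id A A) Θ.toIntAlgHom
          (fun c t => Commute.all _ _) (1 : A) t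
        rw [map_one, one_mul] at h
        exact h
      rw [this]
      exact sub_self _
    rw [hx', sub_smul, sub_eq_zero, algebraMap_smul, hsm] at h1
    rw [← h1]
    have h2 : ∀ y : A ⊗[ℤ] M, (ρ t).baseChange A y = act ((1 : A) ⊗ₜ[ℤ] t) y := by
      intro y
      induction y using TensorProduct.induction_on with
      | zero => rw [map_zero, map_zero]
      | tmul a m => rw [LinearMap.baseChange_tmul, actR_tmul, one_mul]
      | add y z hy hz => rw [map_add, map_add, hy, hz]
    exact h2 x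

end eig

/-! ### the coefficient ring -/

section coef

variable (r : ℕ) [hr : Fact r.Prime] (A : Type) [CommRing A] [IsDomain A]
  [IsDiscreteValuationRing A] [CharZero A] [Algebra ℤ_[r] A] [Module.Finite ℤ_[r] A]
  [Module.Free ℤ_[r] A]

/-- coordinate functionals -/
def coefF : CoefF r A where
  I := Module.Free.ChooseBasisIndex ℤ_[r] A
  fn i k := ((PadicInt.toZModPow k : ℤ_[r] →+* ZMod (r ^ k)) : ℤ_[r] →+ ZMod (r ^ k)).comp
    ((Module.Free.chooseBasis ℤ_[r] A).coord i : A →+ ℤ_[r])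
  cast i k j a := by
    set x : ℤ_[r] := (Module.Free.chooseBasis ℤ_[r] A).coord i a with hx
    haveI : NeZero (r ^ (k + j)) := ⟨pow_ne_zero _ hr.out.ne_zero⟩
    refine ⟨(PadicInt.toZModPow (k + j) x).val, ?_, ?_⟩
    · change PadicInt.toZModPow (k + j) x = _
      rw [ZMod.natCast_zmod_val]
    · change PadicInt.toZModPow k x = _
      have h1 := PadicInt.cast_toZModPow k (k + j) (Nat.le_add_right _ _) x
      rw [← h1, ← ZMod.natCast_val]
  sep k a h := by
    classical
    let b := Module.Free.chooseBasis ℤ_[r] A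
    have h1 : ∀ i, ∃ c, b.repr a i = (r : ℤ_[r]) ^ k * c := by
      intro i
      have h2 : PadicInt.toZModPow k (b.repr a i) = 0 := h i
      rw [← RingHom.mem_ker, PadicInt.ker_toZModPow, Ideal.mem_span_singleton] at h2
      exact h2
    choose c hc using h1
    refine ⟨∑ i, c i • b i, ?_⟩
    rw [← b.sum_repr a, Finset.mul_sum]
    refine Finset.sum_congr rfl fun i _ => ?_
    rw [hc, mul_smul, Algebra.smul_def ((r : ℤ_[r]) ^ k), map_pow, map_natCast]

variable {r A}

theorem pow_max_le (hrA : (r : A) ∈ maximalIdeal A) (k : ℕ) : ∃ m : ℕ, ∀ x ∈ (maximalIdeal A) ^ m,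
    ∃ y, x = (r : A) ^ k * y := by
  obtain ⟨ϖ, hϖ⟩ := IsDiscreteValuationRing.exists_irreducible A
  have h1 : (r : A) ^ k ≠ 0 := pow_ne_zero _ (Nat.cast_ne_zero.2 hr.out.ne_zero)
  obtain ⟨n, hn⟩ := IsDiscreteValuationRing.associated_pow_irreducible h1 hϖ
  refine ⟨n, fun x hx => ?_⟩
  rw [hϖ.maximalIdeal_eq, Ideal.span_singleton_pow, Ideal.mem_span_singleton] at hx
  exact hn.dvd.trans hx

theorem isO_of (hrA : (r : A) ∈ maximalIdeal A) [IsAdicComplete (maximalIdeal A) A] :
    IsO r A where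
  dvd a ha := by
    obtain ⟨ϖ, hϖ⟩ := IsDiscreteValuationRing.exists_irreducible A
    obtain ⟨n, hn⟩ := IsDiscreteValuationRing.associated_pow_irreducible ha hϖ
    refine ⟨n, ?_⟩
    have h1 : ϖ ∣ (r : A) := by
      rwa [← Ideal.mem_span_singleton, ← hϖ.maximalIdeal_eq]
    exact hn.dvd.trans (pow_dvd_pow_of_dvd h1 n)
  sep x hx := by
    refine IsHausdorff.haus (I := maximalIdeal A) inferInstance _ fun m => ?_
    obtain ⟨y, rfl⟩ := hx m
    rw [SModEq.zero, smul_eq_mul, Ideal.mul_top]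
    exact Ideal.mul_mem_right _ _ (Ideal.pow_mem_pow hrA m)
  fin k := by
    classical
    let F := coefF r A
    haveI : NeZero (r ^ k) := ⟨pow_ne_zero _ hr.out.ne_zero⟩
    let g : A ⧸ (nsmulAddMonoidHom (α := A) (r ^ k)).range → (Module.Free.ChooseBasisIndex ℤ_[r] A →
        ZMod (r ^ k)) := Quotient.lift (fun a i => F.fn i k a) (by
      intro a b hab
      have h1 := QuotientAddGroup.leftRel_apply.1 hab
      obtain ⟨c, hc⟩ := h1
      have h2 : b = a + r ^ k • c := by
        rw [eq_neg_add_iff_add_eq] at hc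
        exact hc.symm
      funext i
      rw [h2, map_add, map_nsmul]
      have h3 : (r ^ k : ℕ) • F.fn i k c = 0 := by
        rw [nsmul_eq_mul, ZMod.natCast_self, zero_mul]
      rw [h3, add_zero])
    refine Finite.of_injective g ?_
    intro x y hxy
    induction x using QuotientAddGroup.induction_on with
    | H a =>
      induction y using QuotientAddGroup.induction_on with
      | H b =>
        rw [QuotientAddGroup.eq]
        have h1 : ∀ i, F.fn i k (-a + b) = 0 := by
          intro i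
          have h2 : F.fn i k a = F.fn i k b := congrFun hxy i
          rw [map_add, map_neg, h2, neg_add_cancel]
        obtain ⟨c, hc⟩ := F.sep k _ h1
        refine ⟨c, ?_⟩
        rw [hc, nsmulAddMonoidHom_apply, nsmul_eq_mul, Nat.cast_pow]
  nunit := (mem_maximalIdeal _).1 hrA
  ne_zero := Nat.cast_ne_zero.2 hr.out.ne_zero
  cz n hn := Nat.cast_ne_zero.2 hn
  tot a b := by
    exact ValuationRing.dvd_total a b

end coef

/-- the normalisation of a finite domain over `ℤ_r` -/
theorem exists_dvr_of_domain (D : Type) [CommRing D] [IsDomain D] (r : ℕ) [hr : Fact r.Prime]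
    [Algebra ℤ_[r] D] [Module.Finite ℤ_[r] D] (hinjD : Function.Injective (algebraMap ℤ_[r] D)) :
    ∃ (A : Type) (_ : CommRing A) (_ : IsDomain A) (_ : IsDiscreteValuationRing A)
      (_ : IsAdicComplete (maximalIdeal A) A) (_ : CharZero A) (_ : Algebra ℤ_[r] A)
      (_ : Module.Finite ℤ_[r] A) (_ : Module.Free ℤ_[r] A) (χ : D →+* A),
      (r : A) ∈ maximalIdeal A ∧ ∀ x, ¬ IsUnit x → χ x ∈ maximalIdeal A := by
  classical
  haveI : IsLocalRing D := CL.isLocalRing_of_finite (𝒪 := ℤ_[r]) D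
  haveI : FaithfulSMul ℤ_[r] D := (faithfulSMul_iff_algebraMap_injective ℤ_[r] D).mpr hinjD
  let K := AlgebraicClosure ℚ_[r]
  haveI : CharZero K := charZero_of_injective_algebraMap (algebraMap ℚ_[r] K).injective
  haveI : Algebra.IsIntegral ℤ_[r] D := inferInstance
  haveI : Algebra.IsAlgebraic ℤ_[r] D := inferInstance
  haveI : FaithfulSMul ℤ_[r] K := (faithfulSMul_iff_algebraMap_injective ℤ_[r] K).mpr (by
    rw [IsScalarTower.algebraMap_eq ℤ_[r] ℚ_[r] K]
    exact (algebraMap ℚ_[r] K).injective.comp (IsFractionRing.injective ℤ_[r] ℚ_[r]))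
  let φ : D →ₐ[ℤ_[r]] K := IsAlgClosed.lift (R := ℤ_[r]) (S := D) (M := K)
  obtain ⟨s, hs⟩ := (Module.Finite.fg_top : (⊤ : Submodule ℤ_[r] D).FG)
  let L : IntermediateField ℚ_[r] K := IntermediateField.adjoin ℚ_[r] (φ '' (s : Set D))
  haveI hfin : FiniteDimensional ℚ_[r] L := by
    haveI : Finite ↥(φ '' (s : Set D)) := (s.finite_toSet.image φ)
    exact IntermediateField.finiteDimensional_adjoin fun x _ => Algebra.IsIntegral.isIntegral x
  let A : Type := integralClosure ℤ_[r] L
  haveI : IsFractionRing ℤ_[r] ℚ_[r] := inferInstance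
  haveI : Module.Finite ℤ_[r] A := IsIntegralClosure.finite ℤ_[r] ℚ_[r] L A
  haveI : IsDedekindDomain A := integralClosure.isDedekindDomain ℤ_[r] ℚ_[r] L
  haveI : IsLocalRing A := CL.isLocalRing_of_finite (𝒪 := ℤ_[r]) A
  have hinj : Function.Injective (algebraMap ℤ_[r] A) := by
    intro a b hab
    have h1 : algebraMap ℤ_[r] L a = algebraMap ℤ_[r] L b := congrArg Subtype.val hab
    rw [IsScalarTower.algebraMap_apply ℤ_[r] ℚ_[r] L, IsScalarTower.algebraMap_apply ℤ_[r] ℚ_[r] L]
      at h1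
    exact IsFractionRing.injective ℤ_[r] ℚ_[r] ((algebraMap ℚ_[r] L).injective h1)
  haveI : FaithfulSMul ℤ_[r] A := (faithfulSMul_iff_algebraMap_injective ℤ_[r] A).mpr hinj
  haveI : Algebra.IsIntegral ℤ_[r] A := inferInstance
  haveI : IsLocalHom (algebraMap ℤ_[r] A) := inferInstance
  haveI : CharZero A := charZero_of_injective_algebraMap hinj
  have hpA : (r : A) ∈ maximalIdeal A := by
    rw [mem_maximalIdeal, mem_nonunits_iff, ← map_natCast (algebraMap ℤ_[r] A), isUnit_map_iff]
    exact PadicInt.p_nonunit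
  have hnf : ¬ IsField A := by
    intro hf
    letI := hf.toField
    have h0 : (r : A) ≠ 0 := Nat.cast_ne_zero.mpr hr.out.ne_zero
    exact hpA (isUnit_iff_ne_zero.mpr h0)
  haveI : IsDiscreteValuationRing A := ((IsDiscreteValuationRing.TFAE A hnf).out 0 2 :
    IsDiscreteValuationRing A ↔ IsDedekindDomain A).mpr inferInstance
  have hcomp : IsAdicComplete (maximalIdeal A) A :=
    IsLocalRing.isAdicComplete_of_module_finite (𝒪 := ℤ_[r]) (T := A)
  haveI : Module.IsTorsionFree ℤ_[r] A := inferInstance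
  haveI : Module.Free ℤ_[r] A := Module.free_of_finite_type_torsion_free'
  have hφL : ∀ x, φ x ∈ L := by
    intro x
    have hx : x ∈ Submodule.span ℤ_[r] (s : Set D) := by rw [hs]; trivial
    induction hx using Submodule.span_induction with
    | mem x hx => exact IntermediateField.subset_adjoin _ _ ⟨x, hx, rfl⟩
    | zero => rw [map_zero]; exact zero_mem _
    | add x y _ _ h1 h2 => rw [map_add]; exact add_mem h1 h2
    | smul n x _ h1 =>
      rw [map_smul, Algebra.smul_def, IsScalarTower.algebraMap_apply ℤ_[r] ℚ_[r] K]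
      exact mul_mem (L.algebraMap_mem _) h1
  let ψ : D →ₐ[ℤ_[r]] L :=
    { φ.toRingHom.codRestrict L.toSubring hφL with
      commutes' := fun a => Subtype.ext (by
        change φ (algebraMap ℤ_[r] D a) = _
        rw [φ.commutes, IsScalarTower.algebraMap_apply ℤ_[r] ℚ_[r] K]
        rfl) }
  have hint : ∀ x, ψ x ∈ integralClosure ℤ_[r] L := fun x =>
    (Algebra.IsIntegral.isIntegral (R := ℤ_[r]) x).map ψ
  let χ : D →+* A := ψ.toRingHom.codRestrict (integralClosure ℤ_[r] L).toSubring hint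
  have hχa : ∀ a : ℤ_[r], χ (algebraMap ℤ_[r] D a) = algebraMap ℤ_[r] A a := fun a =>
    Subtype.ext (ψ.commutes a)
  have hχint : χ.IsIntegral := by
    refine RingHom.IsIntegral.tower_top (algebraMap ℤ_[r] D) χ ?_
    have h1 : χ.comp (algebraMap ℤ_[r] D) = algebraMap ℤ_[r] A := RingHom.ext hχa
    rw [h1]
    exact algebraMap_isIntegral_iff.2 inferInstance
  have hχmax : (maximalIdeal A).comap χ = maximalIdeal D := by
    haveI := Ideal.isMaximal_comap_of_isIntegral_of_isMaximal' χ hχint (maximalIdeal A)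
    exact IsLocalRing.eq_maximalIdeal this
  refine ⟨A, inferInstance, inferInstance, inferInstance, hcomp, inferInstance, inferInstance,
    inferInstance, inferInstance, χ, hpA, fun x hx => ?_⟩
  have h1 : x ∈ maximalIdeal D := hx
  rw [← hχmax] at h1
  exact h1

/-- **Complete discrete valuation rings attached to residual characters.** -/
theorem exists_ring (R : Type) [CommRing R] [Module.Finite ℤ R] [Module.Free ℤ R]
    (r : ℕ) [hr : Fact r.Prime] (θ : R →+* ZMod r) :
    ∃ (A : Type) (_ : CommRing A) (_ : IsDomain A) (_ : IsDiscreteValuationRing A)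
      (_ : IsAdicComplete (maximalIdeal A) A) (_ : CharZero A) (_ : Algebra ℤ_[r] A)
      (_ : Module.Finite ℤ_[r] A) (_ : Module.Free ℤ_[r] A) (Θ : R →+* A),
      (r : A) ∈ maximalIdeal A ∧ ∀ x, θ x = 0 → Θ x ∈ maximalIdeal A := by
  classical
  let S := ℤ_[r] ⊗[ℤ] R
  let η : S →ₐ[ℤ] ZMod r := Algebra.TensorProduct.lift (PadicInt.toZMod (p := r)).toIntAlgHom
    θ.toIntAlgHom (fun _ _ => Commute.all _ _)
  have hη : ∀ x, η ((1 : ℤ_[r]) ⊗ₜ x) = θ x := by
    intro x
    have h := Algebra.TensorProduct.lift_tmul (PadicInt.toZMod (p := r)).toIntAlgHom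
      θ.toIntAlgHom (fun _ _ => Commute.all _ _) (1 : ℤ_[r]) x
    rw [map_one, one_mul] at h
    exact h
  haveI hmax : (RingHom.ker η).IsMaximal := by
    refine RingHom.ker_isMaximal_of_surjective η ?_
    intro z
    refine ⟨((z.val : ℕ) : S), ?_⟩
    rw [map_natCast, ZMod.natCast_zmod_val]
  obtain ⟨𝔭, h𝔭, h𝔭η⟩ := Ideal.exists_minimalPrimes_le (I := (⊥ : Ideal S))
    (J := RingHom.ker η) bot_le
  haveI hprime : 𝔭.IsPrime := h𝔭.1.1
  have hnz : ∀ a : ℤ_[r], a ≠ 0 → algebraMap ℤ_[r] S a ∉ 𝔭 := by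
    intro a ha hmem
    have h1 := Ideal.disjoint_nonZeroDivisors_of_mem_minimalPrimes (R := S) (p := 𝔭) h𝔭
    refine (Set.disjoint_left.1 h1) hmem ?_
    rw [SetLike.mem_coe, mem_nonZeroDivisors_iff_right]
    intro x hx
    rw [mul_comm, ← Algebra.smul_def] at hx
    exact (smul_eq_zero.1 hx).resolve_left ha
  have hinjD : Function.Injective (algebraMap ℤ_[r] (S ⧸ 𝔭)) := by
    rw [injective_iff_map_eq_zero]
    intro a ha
    by_contra hne
    exact hnz a hne (Ideal.Quotient.eq_zero_iff_mem.1 ha)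
  obtain ⟨A, i1, i2, i3, i4, i5, i6, i7, i8, χ, hpA, hχ⟩ := exists_dvr_of_domain (S ⧸ 𝔭) r hinjD
  refine ⟨A, i1, i2, i3, i4, i5, i6, i7, i8, χ.comp ((Ideal.Quotient.mk 𝔭).comp
      (Algebra.TensorProduct.includeRight (R := ℤ) (A := ℤ_[r]) (B := R)).toRingHom), hpA,
    fun x hx => hχ _ ?_⟩
  intro hu
  obtain ⟨y, hy⟩ := hu.exists_right_inv
  obtain ⟨y, rfl⟩ := Ideal.Quotient.mk_surjective y
  have hy2 : Ideal.Quotient.mk 𝔭 (((1 : ℤ_[r]) ⊗ₜ x : S) * y) = Ideal.Quotient.mk 𝔭 1 := by
    rw [map_mul, map_one]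
    exact hy
  rw [Ideal.Quotient.eq] at hy2
  have h2 : ((1 : ℤ_[r]) ⊗ₜ x : S) * y - 1 ∈ RingHom.ker η := h𝔭η hy2
  rw [RingHom.mem_ker, map_sub, map_mul, hη, hx, zero_mul, map_one, zero_sub, neg_eq_zero] at h2
  exact one_ne_zero h2

/-- **Coefficient rings and eigenvectors.** -/
theorem exists_coef_eig {M L : Type} [AddCommGroup M] [Module.Free ℤ M] [Module.Finite ℤ M]
    (T : L → Module.End ℤ M) (hcomm : ∀ l l', Commute (T l) (T l')) (r : ℕ) [Fact r.Prime]
    (ε : L → ℤ) (h : ∀ E : FreeAlgebra ℤ L, FreeAlgebra.lift ℤ T E = 0 →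
      (r : ℤ) ∣ FreeAlgebra.lift ℤ ε E) :
    ∃ (O : Type) (_ : CommRing O) (_ : IsDomain O) (_ : IsLocalRing O) (_ : IsNoetherianRing O)
      (_ : IsPrincipalIdealRing O) (_ : IsAdicComplete (maximalIdeal O) O) (_ : CoefF r O)
      (j : O →+* ℂ) (c : GalRep.GQ →* O) (χ : L → O) (x : O ⊗[ℤ] M),
      IsO r O ∧ (r : O) ∈ maximalIdeal O ∧
      (∀ k : ℕ, ∃ M : ℕ, ∀ x ∈ (maximalIdeal O) ^ M, ∃ y, x = (r : O) ^ k * y) ∧
      Function.Injective j ∧
      (∀ σ (k : ℕ), ∃ z, c σ = ((GalRep.cyc (r ^ k) σ).val : O) + (r : O) ^ k * z) ∧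
      (∀ l, χ l - ε l ∈ maximalIdeal O) ∧ x ≠ 0 ∧ ∀ l, (T l).baseChange O x = χ l • x := by
  classical
  let φ : FreeAlgebra ℤ L →ₐ[ℤ] Module.End ℤ M := FreeAlgebra.lift ℤ T
  let R := φ.range
  have hcomm2 : ∀ a b : FreeAlgebra ℤ L, Commute (φ a) (φ b) := by
    intro a b
    induction a using FreeAlgebra.induction with
    | grade0 n => rw [AlgHom.commutes]; exact Algebra.commutes _ _
    | grade1 l =>
      induction b using FreeAlgebra.induction with
      | grade0 n => rw [AlgHom.commutes]; exact (Algebra.commutes _ _ : Commute _ _).symm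
      | grade1 l' =>
        change Commute (FreeAlgebra.lift ℤ T _) (FreeAlgebra.lift ℤ T _)
        rw [FreeAlgebra.lift_ι_apply, FreeAlgebra.lift_ι_apply]
        exact hcomm l l'
      | mul a b ha hb => rw [map_mul]; exact ha.mul_right hb
      | add a b ha hb => rw [map_add]; exact ha.add_right hb
    | mul a b ha hb => rw [map_mul]; exact ha.mul_left hb
    | add a b ha hb => rw [map_add]; exact ha.add_left hb
  letI : CommRing R :=
    { (inferInstance : Ring R) with
      mul_comm := by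
        rintro ⟨a, ha⟩ ⟨b, hb⟩
        obtain ⟨a, rfl⟩ := (AlgHom.mem_range φ).1 ha
        obtain ⟨b, rfl⟩ := (AlgHom.mem_range φ).1 hb
        exact Subtype.ext (hcomm2 a b) }
  let ρ : R →+* Module.End ℤ M := R.val.toRingHom
  have hρ : Function.Injective ρ := Subtype.val_injective
  haveI : Module.Finite ℤ (Module.End ℤ M) := inferInstance
  haveI : Module.Free ℤ (Module.End ℤ M) := inferInstance
  haveI : Module.Finite ℤ R := Module.Finite.of_injective R.val.toLinearMap Subtype.val_injective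
  haveI : Module.IsTorsionFree ℤ R := Subtype.val_injective.moduleIsTorsionFree R.val
    (fun n x => rfl)
  haveI : Module.Free ℤ R := Module.free_of_finite_type_torsion_free'
  let π : FreeAlgebra ℤ L →+* R := φ.rangeRestrict.toRingHom
  have hπ : Function.Surjective π := φ.rangeRestrict_surjective
  let εh : FreeAlgebra ℤ L →+* ZMod r := (Int.castRingHom (ZMod r)).comp
    (FreeAlgebra.lift ℤ ε).toRingHom
  let θ : R →+* ZMod r := RingHom.liftOfSurjective π hπ ⟨εh, by
    intro E hE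
    have h1 : FreeAlgebra.lift ℤ T E = 0 := congrArg Subtype.val hE
    have h2 := h E h1
    rw [RingHom.mem_ker]
    exact (ZMod.intCast_zmod_eq_zero_iff_dvd _ _).2 h2⟩
  have hθ : ∀ E, θ (π E) = εh E := fun E => by
    exact RingHom.liftOfRightInverse_comp_apply _ _ _ _ E
  obtain ⟨O, i1, i2, i3, i4, i5, i6, i7, i8, Θ, hrO, hΘ⟩ := exists_ring R r θ
  obtain ⟨x, hx0, hx⟩ := exists_eig (A := O) ρ hρ Θ
  obtain ⟨j, hj⟩ := exists_emb_C O (mk_le_of_finite r O)
  refine ⟨O, i1, i2, inferInstance, inferInstance, inferInstance, i4, coefF r O, j,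
    TW.cycO hrO, fun l => Θ (π (FreeAlgebra.ι ℤ l)), x, isO_of hrO, hrO, pow_max_le hrO, hj,
    fun σ k => TW.cycO_spec hrO σ k, fun l => ?_, hx0, fun l => ?_⟩
  · have h1 : θ (π (FreeAlgebra.ι ℤ l) - (ε l : R)) = 0 := by
      rw [map_sub, hθ, map_intCast, sub_eq_zero]
      change ((FreeAlgebra.lift ℤ ε (FreeAlgebra.ι ℤ l) : ℤ) : ZMod r) = _
      rw [FreeAlgebra.lift_ι_apply]
    have h2 := hΘ _ h1
    rw [map_sub, map_intCast] at h2
    exact h2
  · have h1 := hx (π (FreeAlgebra.ι ℤ l))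
    have h2 : ρ (π (FreeAlgebra.ι ℤ l)) = T l := by
      change FreeAlgebra.lift ℤ T (FreeAlgebra.ι ℤ l) = _
      rw [FreeAlgebra.lift_ι_apply]
    rw [h2] at h1
    exact h1

end Fermat.Agent.MazD
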