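import Fermat.Agent.MazD.Alpha2
import Fermat.Agent.MazD.CoefR
import Fermat.Agent.Mz.Main15

/-!
# The Eisenstein descent
-/

set_option autoImplicit false
set_option linter.style.haveILetI false

noncomputable section

namespace Fermat.Agent.MazD

/-- **The Eisenstein descent (α4).** -/
theorem alpha4 {N r : ℕ} [NeZero N] (hN : N.Prime) (hN5 : 5 ≤ N) (hr : r.Prime) (hrN : r ≠ N) :
    Mz.Alpha4 N r := by
  haveI : Fact r.Prime := ⟨hr⟩
  haveI : Fact N.Prime := ⟨hN⟩
  haveI := (MQ_free hN hN5).1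
  haveI := (MQ_free hN hN5).2
  refine alpha4_of_coef hN hN5 hrN fun hcomm => ?_
  intro h
  exact exists_coef_eig (fun l : Idx N r => TM N l.1) hcomm r _ h

end Fermat.Agent.MazD
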