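import Fermat.Agent.MazD.Eig
import Fermat.Agent.MazD.A2

/-!
# The descent on one eigenlattice
-/

set_option autoImplicit false
set_option linter.unusedSectionVars false
set_option linter.style.haveILetI false

noncomputable section

namespace Fermat.Agent.MazD

open AlgebraicCurve Fermat.Agent.RR Fermat.Agent.Curve Fermat.Agent.Kum Fermat.Agent.FFG ModularCurve
  Fermat.Agent.HeckeHom Fermat.Agent.GalRep Fermat.Agent.Flat IsLocalRing
open scoped TensorProduct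

local notation "Ω" => AlgebraicClosure ℚ

/-- the facts on the specialization map at a place over `r` which we use -/
structure IsSp (r N : ℕ) [hr : Fact r.Prime] [NeZero N] (A : ValuationSubring (AlgebraicClosure ℚ))
    {P₀ : Type} [AddCommGroup P₀] (f : JZero N →+ P₀) (Φ Φi : P₀ →+ P₀) : Prop where
  surj : Function.Surjective f
  inv : ∀ y, Φi (Φ y) = y
  hk : ∀ q : Nat.Primes, (q : ℕ) ≠ r → ∀ x, f x = 0 → f (heckeOperatorBar N q x) = 0
  tr : ∀ x, f (heckeOperatorBar N (⟨r, hr.out⟩ : Nat.Primes) x) = Φ (f x) + r • Φi (f x)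
  iner : ∀ σ ∈ A.inertiaSubgroupIn ℚ, ∀ x, f (σ • x) = f x
  frob : ∀ σ : GQ, A.IsFrobeniusAt σ r → ∀ x, f (σ • x) = Φ (f x)
  ha : r ≠ 2 → ∀ (V : Type) [AddCommGroup V] [Finite V] (act : GQ → V → V) (φ : V →+ JZero N),
    Function.Injective φ → (∀ σ v, φ (act σ v) = σ • φ v) → ∀ k, (∀ v : V, r ^ k • v = 0) →
    (∀ v, f (φ v) = 0) → ∀ ψ : V →+ ZMod r,
    (∀ σ ∈ A.inertiaSubgroupIn ℚ, ∀ v, ψ (act σ v) = ψ v) → ψ = 0
  hb : ∀ (V : Type) [AddCommGroup V] [Finite V] (ρ : GQ →* AddMonoid.End V) (φ : V →+ JZero N),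
    Function.Injective φ → (∀ σ v, φ (ρ σ v) = σ • φ v) → ∀ k, (∀ v : V, r ^ k • v = 0) →
    (∀ v, f (φ v) = 0) → (∀ σ ∈ A.inertiaSubgroupIn ℚ, ∃ m : ℕ,
      (ρ σ - ((cyc r σ).val : AddMonoid.End V)) ^ m = 0) →
    ∀ σ ∈ A.inertiaSubgroupIn ℚ, ∀ v, ρ σ v = (cyc (r ^ k) σ).val • v

namespace IsE

variable {r N : ℕ} [hr : Fact r.Prime] {A AN : ValuationSubring (AlgebraicClosure ℚ)}
  {O : Type*} [CommRing O] [IsDomain O] {Λ : Type*} [AddCommGroup Λ] [Module O Λ]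
  {I : Ideal O} {χ : ℕ → O} {c : GQ →* O} {ρ : GQ →* Module.End O Λ}
  (h : IsE r N AN I χ c ρ) (hO : IsO r O)

variable [hN : Fact N.Prime]

include h hO hN in
/-- residually: only trivial and cyclotomic constituents -/
theorem res {ι : Type*} [Finite ι] [Nonempty ι] (e : Module.Basis ι O Λ) (hrI : (r : O) ∈ I)
    (hI : ∀ k : ℕ, ∃ M : ℕ, ∀ x ∈ I ^ M, ∃ y, x = (r : O) ^ k * y) (k : ℕ) :
    ∃ M : ℕ, ∀ (σ : GQ) (x : Λ), ∃ y,
    (((ρ σ - 1) * (ρ σ - ((GalRep.cyc r σ).val : Module.End O Λ))) ^ M) x = (r : O) ^ k • y := by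
  haveI := Fintype.ofFinite ι
  obtain ⟨M, hM⟩ := hI k
  refine ⟨M, fun σ x => ?_⟩
  set v : ℕ := (GalRep.cyc r σ).val with hv
  obtain ⟨t, ht, ht0⟩ := h.exists_tr hO e hrI σ
  have ht' : ∀ x, ρ σ (ρ σ x) + c σ • x = t • ρ σ x := fun x => by
    have := ht0 (ρ σ x)
    rwa [h.rho_inv] at this
  have key : ∀ (n : ℕ) (x : Λ), (((ρ σ - 1) * (ρ σ - ((v : ℕ) : Module.End O Λ))) ^ n) x ∈
      I ^ n • (⊤ : Submodule O Λ) := by
    intro n
    induction n with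
    | zero => intro x; rw [pow_zero, pow_zero, Ideal.one_eq_top, Submodule.top_smul]; trivial
    | succ n ih =>
      intro x
      rw [pow_succ' ((ρ σ - 1) * (ρ σ - ((v : ℕ) : Module.End O Λ))) n, Module.End.mul_apply]
      have h1 := ih x
      generalize (((ρ σ - 1) * (ρ σ - ((v : ℕ) : Module.End O Λ))) ^ n) x = y at h1
      obtain ⟨z, hz⟩ := h.cyc_one hO σ
      have h2 : ∀ y, ((ρ σ - 1) * (ρ σ - ((v : ℕ) : Module.End O Λ))) y =
          ((t - 1 - c σ) + r * z) • ρ σ y - (r * z) • y := by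
        intro y
        have h3 := ht' y
        have h4 : ((v : ℕ) : Module.End O Λ) y = ((v : ℕ) : O) • y := by
          rw [Module.End.natCast_apply, Nat.cast_smul_eq_nsmul]
        rw [Module.End.mul_apply, LinearMap.sub_apply, LinearMap.sub_apply,
          Module.End.one_apply, h4, map_sub, map_smul]
        have h5 : ((v : ℕ) : O) = c σ - r * z := by rw [hz]; ring
        have h6 : ρ σ (ρ σ y) = t • ρ σ y - c σ • y := by rw [← h3]; abel
        rw [h5, h6]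
        module
      rw [h2]
      have h7 : ρ σ y ∈ I ^ n • (⊤ : Submodule O Λ) := by
        have : (I ^ n • (⊤ : Submodule O Λ)).map (ρ σ) ≤ I ^ n • (⊤ : Submodule O Λ) := by
          rw [Submodule.map_smul'']
          exact Submodule.smul_mono le_rfl le_top
        exact this ⟨y, h1, rfl⟩
      rw [pow_succ', mul_smul]
      have h8 : (r : O) * z ∈ I := Ideal.mul_mem_right _ _ hrI
      exact sub_mem (Submodule.smul_mem_smul (add_mem ht h8) h7)
        (Submodule.smul_mem_smul h8 h1)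
  have h1 := key M x
  choose y hy using fun i => hM _ (repr_mem_of_smul_top e h1 i)
  refine ⟨∑ i, y i • e i, ?_⟩
  rw [← e.sum_repr ((((ρ σ - 1) * (ρ σ - ((v : ℕ) : Module.End O Λ))) ^ M) x), Finset.smul_sum]
  refine Finset.sum_congr rfl fun i _ => ?_
  rw [hy, mul_smul]

end IsE

theorem finite_XL' {N m : ℕ} [NeZero N] [NeZero m] : Finite (XL N m) := by
  have : Module.Finite ℤ (XL N m) := by
    have : Function.Surjective (mkX : LZ N →+ XL N m).toIntLinearMap := mkX_surjective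
    exact Module.Finite.of_surjective _ this
  have := Module.Finite.iff_addGroup_fg.1 this
  have hT : IsAddTorsion (XL N m) := fun x =>
    isOfFinAddOrder_iff_nsmul_eq_zero.2 ⟨m, NeZero.pos m, XL_nsmul x⟩
  exact AddCommGroup.finite_of_fg_isAddTorsion _ hT

/-- the action on a stable subgroup -/
def rVX (ι : AlgebraicClosure ℚ →+* ℂ) {N m : ℕ} [NeZero N] [NeZero m] (V : AddSubgroup (XL N m))
    (hst : ∀ σ, ∀ v ∈ V, rhoF ι m σ v ∈ V) : GQ →* AddMonoid.End V where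
  toFun σ := AddMonoidHom.mk' (fun v => ⟨rhoF ι m σ v, hst σ v v.2⟩)
        fun _ _ => Subtype.ext (rhoF_add ι σ _ _)
  map_one' := AddMonoidHom.ext fun _ => Subtype.ext (rhoF_one ι _)
  map_mul' a b := AddMonoidHom.ext fun _ => Subtype.ext (rhoF_mul ι a b _)

theorem rVX_coe (ι : AlgebraicClosure ℚ →+* ℂ) {N m : ℕ} [NeZero N] [NeZero m]
    (V : AddSubgroup (XL N m)) (hst : ∀ σ, ∀ v ∈ V, rhoF ι m σ v ∈ V) (σ : GQ) (v : V) :
    ((rVX ι V hst σ v : V) : XL N m) = rhoF ι m σ v := rfl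

theorem pow_transfer {O E V : Type*} [CommRing O] [AddCommGroup E] [Module O E] [AddCommGroup V]
    (g : E →+ V) (a : AddMonoid.End V) (b : Module.End O E) (h : ∀ y, a (g y) = g (b y)) (n : ℕ)
    (y : E) : (a ^ n) (g y) = g ((b ^ n) y) := by
  induction n generalizing y with
  | zero => rfl
  | succ n ih =>
    rw [pow_succ, pow_succ, Module.End.mul_apply, ← ih, ← h]
    rfl

theorem prod_transfer {O E V : Type*} [CommRing O] [AddCommGroup E] [Module O E] [AddCommGroup V]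
    (g : E →+ V) (a : AddMonoid.End V) (b : Module.End O E) (h : ∀ y, a (g y) = g (b y)) (n : ℕ)
    (y : E) : ((a - 1) * (a - (n : AddMonoid.End V))) (g y) =
      g (((b - 1) * (b - (n : Module.End O E))) y) := by
  change a (a (g y) - (n : AddMonoid.End V) (g y)) - (a (g y) - (n : AddMonoid.End V) (g y)) = _
  rw [Module.End.mul_apply, LinearMap.sub_apply, LinearMap.sub_apply, Module.End.one_apply,
    Module.End.natCast_apply, map_sub, map_sub, ← h, map_sub, map_nsmul, end_natCast_apply, h,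
    map_sub, map_nsmul]

theorem nilp_transfer {O E V : Type*} [CommRing O] [AddCommGroup E] [Module O E] [AddCommGroup V]
    (g : E →+ V) (hg : ∀ v, ∃ y, g y = v) (a : AddMonoid.End V) (b : Module.End O E)
    (h : ∀ y, a (g y) = g (b y)) (n M : ℕ)
    (hb : ∀ y, g ((((b - 1) * (b - (n : Module.End O E))) ^ M) y) = 0) :
    ((a - 1) * (a - (n : AddMonoid.End V))) ^ M = 0 := by
  refine DFunLike.ext _ _ fun v => ?_
  obtain ⟨y, rfl⟩ := hg v
  rw [pow_transfer g _ _ (prod_transfer g a b h n) M y, hb]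
  rfl

variable {r : ℕ} [hr : Fact r.Prime] {O : Type} [CommRing O] [IsDomain O] {N : ℕ} [NeZero N]
  {χ : ℕ → O} [IsLocalRing O] [IsNoetherianRing O] [IsAdicComplete (maximalIdeal O) O]
  {ι : AlgebraicClosure ℚ →+* ℂ} {F : CoefF r O}
  {hs : ∀ x : O, (∀ k : ℕ, ∃ y, x = (r : O) ^ k * y) → x = 0} {hpO : (r : O) ∈ maximalIdeal O}
  {A AN : ValuationSubring (AlgebraicClosure ℚ)} {P₀ : Type} [AddCommGroup P₀]
  {f : JZero N →+ P₀} {Φ Φi : P₀ →+ P₀}

local notation "ϱ" => rhoO (N := N) ι F hs hpO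

theorem SpO_sat (hO : IsO r O) {a : O} {x : O ⊗[ℤ] LZ N} (ha : a ≠ 0) (h : a • x ∈ SpO ι F f) :
    x ∈ SpO ι F f := by
  obtain ⟨m, s, hs⟩ := hO.dvd a ha
  apply mem_SpO_of_pow (j := m)
  rw [hs, mul_comm, mul_smul]
  exact Submodule.smul_mem _ _ h

theorem IsSp.inv' (h : IsSp r N A f Φ Φi) (hA : A.LiesOverPrime r) (y : P₀) : Φ (Φi y) = y := by
  obtain ⟨σ, hσ⟩ := Places.exists_isFrobeniusAt A hr.out hA
  obtain ⟨x, hx⟩ := h.surj y
  have h1 := h.frob σ hσ (σ⁻¹ • x)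
  rw [smul_inv_smul, hx] at h1
  rw [h1, h.inv]

theorem IsSp.hecke (h : IsSp r N A f Φ Φi) {x : JZero N} (hx : f x = 0) :
    f (heckeOperatorBar N (⟨r, hr.out⟩ : Nat.Primes) x) = 0 := by
  rw [h.tr, hx, map_zero, map_zero, smul_zero, add_zero]

set_option maxHeartbeats 1000000 in
/-- inertia acts through the cyclotomic character if everything is in the kernel of specialization -/
theorem iner_of_le [hN : Fact N.Prime] (hO : IsO r O) (hsp : IsSp r N A f Φ Φi) {c : GQ →* O}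
    (hE : IsE r N AN (maximalIdeal O) χ c (rhoE (N := N) ι F hs hpO χ))
    {J : Type} [Finite J] [Nonempty J] (e : Module.Basis J O (EL r N χ))
    (hI : ∀ k : ℕ, ∃ M : ℕ, ∀ x ∈ (maximalIdeal O) ^ M, ∃ y, x = (r : O) ^ k * y)
    (hle : EL r N χ ≤ SpO ι F f) {σ : GQ} (hσ : σ ∈ A.inertiaSubgroupIn ℚ)
    {x : O ⊗[ℤ] LZ N} (hx : x ∈ EL r N χ) : ϱ σ x = c σ • x := by
  refine fl_ext F hs fun i k => ?_
  haveI : NeZero r := ⟨hr.out.ne_zero⟩
  haveI := finite_XL' (N := N) (m := r ^ k)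
  obtain ⟨V, hV⟩ : ∃ V : AddSubgroup (XL N (r ^ k)), V =
    (EL r N χ).toAddSubgroup.map (flm (F.fn i k)) := ⟨_, rfl⟩
  have hVm : ∀ y ∈ EL r N χ, flm (F.fn i k) y ∈ V := fun y hy => by
    rw [hV]; exact ⟨y, hy, rfl⟩
  have hVe : ∀ v ∈ V, ∃ y ∈ EL r N χ, flm (F.fn i k) y = v := fun v hv => by
    rw [hV] at hv; exact hv
  clear hV
  have hst : ∀ σ, ∀ v ∈ V, rhoF ι (r ^ k) σ v ∈ V := by
    intro σ v hv
    obtain ⟨y, hy, rfl⟩ := hVe v hv
    rw [← flm_rho ι F hs hpO]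
    exact hVm _ (rho_mem_EL ι F hs hpO hy σ)
  obtain ⟨ρV, hρV⟩ : ∃ ρV : GQ →* AddMonoid.End V, ∀ σ v, ((ρV σ v : V) : XL N (r ^ k)) =
    rhoF ι (r ^ k) σ v := ⟨rVX ι V hst, rVX_coe ι V hst⟩
  obtain ⟨φ, hφ0⟩ : ∃ φ : V →+ JZero N, ∀ v : V, φ v = xToJ ι (r ^ k) (v : XL N (r ^ k)) :=
    ⟨(xToJ ι (r ^ k)).comp V.subtype, fun _ => rfl⟩
  have hφ : Function.Injective φ := fun a b hab => by
    rw [hφ0, hφ0] at hab
    exact Subtype.ext (xToJ_injective ι hab)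
  have hk : ∀ v : V, r ^ k • v = 0 := fun v => Subtype.ext (by
    rw [AddSubgroup.coe_nsmul]; exact XL_nsmul _)
  have hφρ : ∀ σ v, φ (ρV σ v) = σ • φ v := fun σ v => by
    rw [hφ0, hφ0, hρV, xToJ_rho]
  have hfφ : ∀ v, f (φ v) = 0 := by
    rintro ⟨v, hv⟩
    obtain ⟨y, hy, rfl⟩ := hVe v hv
    have h1 := hle hy 1 i k
    rw [one_smul] at h1
    rw [hφ0]
    exact h1
  obtain ⟨M, hM⟩ := hE.res hO e hpO hI k
  obtain ⟨g, hg0⟩ : ∃ g : EL r N χ →+ V, ∀ y : EL r N χ, ((g y : V) : XL N (r ^ k)) =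
    flm (F.fn i k) (y : O ⊗[ℤ] LZ N) :=
    ⟨AddMonoidHom.mk' (fun y => ⟨flm (F.fn i k) (y : O ⊗[ℤ] LZ N), hVm y y.2⟩)
    fun a b => Subtype.ext (by
      change flm (F.fn i k) (((a : EL r N χ) : O ⊗[ℤ] LZ N) + (b : O ⊗[ℤ] LZ N)) = _
      rw [map_add]; rfl), fun _ => rfl⟩
  have hg : ∀ v : V, ∃ y, g y = v := by
    rintro ⟨v, hv⟩
    obtain ⟨y, hy, rfl⟩ := hVe v hv
    exact ⟨⟨y, hy⟩, Subtype.ext (hg0 _)⟩
  have hgρ : ∀ σ y, ρV σ (g y) = g (rhoE (N := N) ι F hs hpO χ σ y) := fun σ y => Subtype.ext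
    ((hρV σ (g y)).trans (((congrArg (rhoF ι (r ^ k) σ) (hg0 y)).trans
      (flm_rho ι F hs hpO σ k (F.fn i k) (y : O ⊗[ℤ] LZ N)).symm).trans
        (hg0 (rhoE (N := N) ι F hs hpO χ σ y)).symm))
  have hnil : ∀ σ : GQ, ((ρV σ - 1) * (ρV σ - ((cyc r σ).val : AddMonoid.End V))) ^ M = 0 := by
    intro σ
    refine nilp_transfer g hg (ρV σ) (rhoE (N := N) ι F hs hpO χ σ) (hgρ σ) _ M fun y => ?_
    obtain ⟨z, hz⟩ := hM σ y
    refine (congrArg g hz).trans ?_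
    refine Subtype.ext ((hg0 _).trans ?_)
    have h2 : (((r : O) ^ k • z : EL r N χ) : O ⊗[ℤ] LZ N) = ((r ^ k : ℕ) : O) • (z : O ⊗[ℤ] LZ N) := by
      push_cast; rfl
    rw [h2, flm_smul_m]
    rfl
  have hnil' : ∀ σ ∈ A.inertiaSubgroupIn ℚ, ∃ m : ℕ,
      (ρV σ - ((cyc r σ).val : AddMonoid.End V)) ^ m = 0 := fun σ _ =>
    nilp_of _ V le_rfl k hk ρV M hnil (fun hr2 S _ _ ρS i hi hS ψ hψ =>
      hsp.ha hr2 S (fun σ x => ρS σ x) (φ.comp i) (hφ.comp hi) (fun σ x => by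
        change φ (i (ρS σ x)) = σ • φ (i x)
        rw [hS, hφρ]) k (fun v => hi (by rw [map_nsmul, hk, map_zero]))
        (fun v => hfφ _) ψ fun σ _ x => hψ σ x) σ
  have h1 := congrArg Subtype.val (hsp.hb V ρV φ hφ hφρ k hk hfφ hnil' σ hσ (g ⟨x, hx⟩))
  rw [hρV, AddSubgroup.coe_nsmul, hg0] at h1
  rw [flm_rho]
  refine h1.trans ?_
  obtain ⟨z, hz⟩ := hE.cyc σ k
  have h2 : c σ • x = (cyc (r ^ k) σ).val • x + ((r ^ k : ℕ) : O) • (z • x) := by
    rw [hz, add_smul, mul_smul, Nat.cast_smul_eq_nsmul, Nat.cast_pow]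
  rw [h2, map_add, flm_smul_m, add_zero, map_nsmul]

end Fermat.Agent.MazD
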