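import Fermat.Agent.MazD.Core
import Fermat.Agent.Flat.Tame

/-!
# The descent on one eigenlattice, II
-/

set_option autoImplicit false
set_option linter.unusedSectionVars false
set_option linter.style.haveILetI false

noncomputable section

namespace Fermat.Agent.MazD

open AlgebraicCurve Fermat.Agent.RR Fermat.Agent.Curve Fermat.Agent.Kum Fermat.Agent.FFG ModularCurve
  Fermat.Agent.HeckeHom Fermat.Agent.GalRep Fermat.Agent.Flat IsLocalRing
open scoped TensorProduct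

local notation "Ω" => AlgebraicClosure ℚ

variable {r : ℕ} [hr : Fact r.Prime] {O : Type} [CommRing O] [IsDomain O] {N : ℕ} [NeZero N]
  {χ : ℕ → O} [IsLocalRing O] [IsNoetherianRing O] [IsAdicComplete (maximalIdeal O) O]
  {ι : AlgebraicClosure ℚ →+* ℂ} {F : CoefF r O}
  {hs : ∀ x : O, (∀ k : ℕ, ∃ y, x = (r : O) ^ k * y) → x = 0} {hpO : (r : O) ∈ maximalIdeal O}
  {A AN : ValuationSubring (AlgebraicClosure ℚ)} {P₀ : Type} [AddCommGroup P₀]
  {f : JZero N →+ P₀} {Φ Φi : P₀ →+ P₀}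

local notation "ϱ" => rhoO (N := N) ι F hs hpO

variable (N) in
/-- points from vectors -/
def gfn (ι : AlgebraicClosure ℚ →+* ℂ) (F : CoefF r O) (i : F.I) (k : ℕ) :
    O ⊗[ℤ] LZ N →+ JZero N := (xToJ ι (r ^ k)).comp (flm (F.fn i k))

theorem gfn_apply (i : F.I) (k : ℕ) (x : O ⊗[ℤ] LZ N) :
    gfn N ι F i k x = xToJ ι (r ^ k) (flm (F.fn i k) x) := rfl

variable (hs hpO) in
theorem gfn_rho (i : F.I) (k : ℕ) (σ : GQ) (x : O ⊗[ℤ] LZ N) :
    gfn N ι F i k (ϱ σ x) = σ • gfn N ι F i k x := by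
  rw [gfn_apply, gfn_apply, flm_rho, xToJ_rho]

theorem gfn_TO (i : F.I) (k : ℕ) {q : ℕ} (hq : q.Prime) (hqN : ¬ q ∣ N) (x : O ⊗[ℤ] LZ N) :
    gfn N ι F i k (TO O hq hqN x) = heckeOperatorBar N (⟨q, hq⟩ : Nat.Primes) (gfn N ι F i k x) := by
  rw [gfn_apply, gfn_apply, xToJ_flm_TO]

theorem gfn_nsmul (i : F.I) (k n : ℕ) (x : O ⊗[ℤ] LZ N) :
    gfn N ι F i k ((n : O) • x) = n • gfn N ι F i k x := by
  rw [Nat.cast_smul_eq_nsmul, map_nsmul]

/-- the quadratic relation of Frobenius and `T_r` on the étale part -/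
theorem frob_rel (hsp : IsSp r N A f Φ Φi) (hA : A.LiesOverPrime r) (hrN : ¬ r ∣ N) {σ : GQ}
    (hσ : A.IsFrobeniusAt σ r) (x : O ⊗[ℤ] LZ N) :
    ϱ σ (TO O hr.out hrN x) - ϱ σ (ϱ σ x) - (r : O) • x ∈ SpO ι F f := by
  rw [mem_SpO]
  intro a i k
  have h1 : a • (ϱ σ (TO O hr.out hrN x) - ϱ σ (ϱ σ x) - (r : O) • x) =
      ϱ σ (TO O hr.out hrN (a • x)) - ϱ σ (ϱ σ (a • x)) - (r : O) • (a • x) := by
    rw [smul_sub, smul_sub, map_smul, map_smul, map_smul, map_smul, smul_comm a (r : O) x]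
  rw [h1, ← gfn_apply, map_sub (gfn N ι F i k), map_sub (gfn N ι F i k), gfn_rho, gfn_rho, gfn_rho,
    gfn_TO, gfn_nsmul]
  generalize gfn N ι F i k (a • x) = y
  rw [map_sub, map_sub, map_nsmul, hsp.frob σ hσ, hsp.frob σ hσ, hsp.frob σ hσ, hsp.tr, map_add,
    map_nsmul, hsp.inv' hA]
  abel

theorem sq_ne_one_of {Λ : Type*} [AddCommGroup Λ] [Module O Λ] (e : Module.Basis (Fin 2) O Λ)
    (T : Module.End O Λ) (υ : O) (hT0 : e.coord 1 (T (e 0)) = 0)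
    (hrel : υ * e.coord 1 (T (e 1)) - υ * υ - r = 0)
    (hkill : ∀ s : ℤ, (r : ℤ) + 1 ≤ |s| → ∀ y, T y = (s : O) • y → y = 0) : υ ^ 2 ≠ 1 := by
  intro hu2
  obtain ⟨c00, c10, c01, c11⟩ := coord_self e
  set β := e.coord 1 (T (e 1)) with hβ
  have hυ0 : υ ≠ 0 := fun h => by rw [h] at hu2; simp at hu2
  have hβ' : β = υ * (1 + r) := by
    apply mul_left_cancel₀ hυ0
    linear_combination hrel - (r : O) * hu2
  obtain ⟨s, hs1, hs2⟩ : ∃ s : ℤ, (s : O) = β ∧ (r : ℤ) + 1 ≤ |s| := by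
    have h0 : (υ - 1) * (υ + 1) = 0 := by linear_combination hu2
    rcases mul_eq_zero.1 h0 with h | h
    · refine ⟨(r : ℤ) + 1, ?_, le_abs_self _⟩
      rw [hβ', sub_eq_zero.1 h]; push_cast; ring
    · refine ⟨-((r : ℤ) + 1), ?_, ?_⟩
      · rw [hβ', eq_neg_of_add_eq_zero_left h]; push_cast; ring
      · rw [abs_neg]; exact le_abs_self _
  have hTe0 : T (e 0) = e.coord 0 (T (e 0)) • e 0 := by
    conv_lhs => rw [basis_sum e (T (e 0)), hT0, zero_smul, add_zero]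
  have hTe1 : T (e 1) = e.coord 0 (T (e 1)) • e 0 + β • e 1 := basis_sum e _
  set α := e.coord 0 (T (e 0)) with hα
  set γ := e.coord 0 (T (e 1)) with hγ
  by_cases hαβ : α = β
  · have h1 := hkill s hs2 (e 0) (by rw [hs1, hTe0, hαβ])
    rw [h1, map_zero] at c00
    exact zero_ne_one c00
  · have h1 := hkill s hs2 (γ • e 0 + (β - α) • e 1) (by
      rw [map_add, map_smul, map_smul, hTe0, hTe1, hs1]
      module)
    have h2 := congrArg (e.coord 1) h1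
    rw [map_add, map_smul, map_smul, c10, c11, map_zero, smul_zero, zero_add, smul_eq_mul,
      mul_one] at h2
    exact hαβ (sub_eq_zero.1 h2).symm

theorem coord_mem {Λ : Type*} [AddCommGroup Λ] [Module O Λ] (e : Module.Basis (Fin 2) O Λ)
    (W : Submodule O Λ) (hsat : ∀ (a : O) (x : Λ), a ≠ 0 → a • x ∈ W → x ∈ W) (h0 : e 0 ∈ W)
    {u : Λ} (hu : u ∉ W) (x : Λ) : x ∈ W ↔ e.coord 1 x = 0 := by
  constructor
  · intro hx
    by_contra hne
    apply hu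
    have h1 : e 1 ∈ W := by
      apply hsat (e.coord 1 x) _ hne
      have h2 : e.coord 1 x • e 1 = x - e.coord 0 x • e 0 := by
        rw [eq_sub_iff_add_eq, add_comm]
        exact (basis_sum e x).symm
      rw [h2]
      exact sub_mem hx (Submodule.smul_mem _ _ h0)
    rw [basis_sum e u]
    exact add_mem (Submodule.smul_mem _ _ h0) (Submodule.smul_mem _ _ h1)
  · intro hx
    rw [basis_sum e x, hx, zero_smul, add_zero]
    exact Submodule.smul_mem _ _ h0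

set_option maxHeartbeats 1000000 in
/-- **The descent on one eigenlattice.** -/
theorem core [IsPrincipalIdealRing O] [hN : Fact N.Prime] (hO : IsO r O) (hA : A.LiesOverPrime r)
    (hAN : AN.LiesOverPrime N) (hrN : r ≠ N) {j : O →+* ℂ} (hj : Function.Injective j)
    {c : GQ →* O} (hc : ∀ σ (k : ℕ), ∃ z, c σ = ((GalRep.cyc (r ^ k) σ).val : O) + (r : O) ^ k * z)
    (hI : ∀ k : ℕ, ∃ M : ℕ, ∀ x ∈ (maximalIdeal O) ^ M, ∃ y, x = (r : O) ^ k * y)
    (hχ : ∀ q : ℕ, q.Prime → q ≠ r → q ≠ N → χ q - 1 - q ∈ maximalIdeal O)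
    (hsp : IsSp r N A f Φ Φi) {κ : GQ → O ⊗[ℤ] LZ N} (hκ : IsC (ρ := ϱ) r (SpO ι F f) A κ)
    (hκE : ∀ σ, κ σ ∈ EL r N χ) :
    ∃ C : O, C ≠ 0 ∧ ∃ l ∈ EL r N χ, ∀ σ, C • κ σ = ϱ σ l - l := by
  haveI := free_sub (EL r N χ)
  haveI : IsNoetherian O (O ⊗[ℤ] LZ N) := isNoetherian_of_isNoetherianRing_of_finite O _
  by_cases hE0 : EL r N χ = ⊥
  · refine ⟨1, one_ne_zero, 0, zero_mem _, fun σ => ?_⟩
    have h1 := hκE σ
    rw [hE0, Submodule.mem_bot] at h1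
    rw [h1, smul_zero, map_zero, sub_zero]
  obtain ⟨x₀, hx₀, h₀⟩ := (Submodule.ne_bot_iff _).1 hE0
  have hE := isE ι F hs hpO hO hN.out hrN hAN hj hc hχ hx₀ h₀
  haveI : Nontrivial (EL r N χ) := ⟨⟨x₀, hx₀⟩, 0, fun h => h₀ (congrArg Subtype.val h)⟩
  have hfr0 : 0 < Module.finrank O (EL r N χ) := Module.finrank_pos
  haveI : Nonempty (Fin (Module.finrank O (EL r N χ))) := ⟨⟨0, hfr0⟩⟩
  let b := Module.finBasis O (EL r N χ)
  by_cases hle : EL r N χ ≤ SpO ι F f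
  · refine (hE.no_scalar hO hrN b hpO hA hAN c (Or.inr rfl) fun g hg x => Subtype.ext ?_).elim
    exact iner_of_le hO hsp hE b hI hle hg x.2
  by_cases hbot : ∀ x ∈ EL r N χ, x ∈ SpO ι F f → x = 0
  · refine (hE.no_scalar hO hrN b hpO hA hAN 1 (Or.inl rfl) fun g hg x => Subtype.ext ?_).elim
    rw [MonoidHom.one_apply, one_smul]
    exact sub_eq_zero.1 (hbot _ (sub_mem (rho_mem_EL ι F hs hpO x.2 g) x.2)
      (rho_sub_mem_SpO (F := F) (hs := hs) (hpO := hpO) f (hsp.iner g hg) _))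
  push Not at hbot
  obtain ⟨w, hw, hwW, hw0⟩ := hbot
  obtain ⟨u, hu, huW⟩ := SetLike.not_le_iff_exists.1 hle
  set W : Submodule O (EL r N χ) := (SpO ι F f).comap (EL r N χ).subtype with hW
  have hWm : ∀ x : EL r N χ, x ∈ W ↔ (x : O ⊗[ℤ] LZ N) ∈ SpO ι F f := fun _ => Iff.rfl
  have hsat : ∀ (a : O) (x : EL r N χ), a ≠ 0 → a • x ∈ W → x ∈ W := fun a x ha h =>
    SpO_sat hO ha h
  have hfr : Module.finrank O (EL r N χ) = 2 := by
    have h1 : Module.finrank O (EL r N χ) ≤ 2 := finrank_EL_le j hN.out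
    by_contra hne
    have h2 : Module.finrank O (EL r N χ) = 1 := by omega
    obtain ⟨b1⟩ : Nonempty (Module.Basis (Fin 1) O (EL r N χ)) :=
      ⟨Module.finBasisOfFinrankEq O (EL r N χ) h2⟩
    have h3 : ∀ x : EL r N χ, x = b1.repr x 0 • b1 0 := fun x => by
      conv_lhs => rw [← b1.sum_repr x]
      simp
    have h4 : b1 0 ∈ W := by
      apply hsat (b1.repr ⟨w, hw⟩ 0)
      · intro h5
        have h6 := h3 ⟨w, hw⟩
        rw [h5, zero_smul] at h6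
        exact hw0 (congrArg Subtype.val h6)
      · rw [← h3]
        exact hwW
    apply huW
    have h5 : (⟨u, hu⟩ : EL r N χ) ∈ W := by
      rw [h3 ⟨u, hu⟩]
      exact Submodule.smul_mem _ _ h4
    exact h5
  obtain ⟨e, d, hd0, hd⟩ := exists_basis_of_ne_zero hO
    (Module.finBasisOfFinrankEq O (EL r N χ) hfr) (w := ⟨w, hw⟩)
    (fun h => hw0 (congrArg Subtype.val h))
  have he0 : e 0 ∈ W := by
    apply hsat d _ hd0
    rw [← hd]
    exact hwW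
  have hco := coord_mem e W hsat he0 (u := ⟨u, hu⟩) huW
  obtain ⟨c00, c10, c01, c11⟩ := coord_self e
  have hρW : ∀ σ : GQ, (∀ x, f x = 0 → f (σ • x) = 0) → ∀ x ∈ W,
      rhoE (N := N) ι F hs hpO χ σ x ∈ W := fun σ h x hx =>
    rho_mem_SpO (F := F) (hs := hs) (hpO := hpO) f h hx
  have hst : ∀ g ∈ A.inertiaSubgroupIn ℚ, e.coord 1 (rhoE (N := N) ι F hs hpO χ g (e 0)) = 0 :=
    fun g hg => (hco _).1 (hρW g (fun x hx => by rw [hsp.iner g hg, hx]) _ he0)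
  have hin : ∀ g ∈ A.inertiaSubgroupIn ℚ, e.coord 1 (rhoE (N := N) ι F hs hpO χ g (e 1)) = 1 := by
    intro g hg
    have h1 : rhoE (N := N) ι F hs hpO χ g (e 1) - e 1 ∈ W :=
      rho_sub_mem_SpO (F := F) (hs := hs) (hpO := hpO) f (hsp.iner g hg) _
    rw [hco, map_sub, c11] at h1
    exact sub_eq_zero.1 h1
  obtain ⟨φ, hφ⟩ := Places.exists_isFrobeniusAt A hr.out hA
  have hφ0 : e.coord 1 (rhoE (N := N) ι F hs hpO χ φ (e 0)) = 0 :=
    (hco _).1 (hρW φ (fun x hx => by rw [hsp.frob φ hφ, hx, map_zero]) _ he0)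
  have hrN' : ¬ r ∣ N := (not_dvd_iff hr.out hN.out).2 hrN
  -- the Hecke operator at `r`
  obtain ⟨T, hT⟩ : ∃ T : Module.End O (EL r N χ), ∀ x : EL r N χ,
      ((T x : EL r N χ) : O ⊗[ℤ] LZ N) = TO O hr.out hrN' (x : O ⊗[ℤ] LZ N) :=
    ⟨(TO O hr.out hrN').restrict fun _ hx => TO_mem_EL hx hr.out hrN', fun _ => rfl⟩
  have hT0 : e.coord 1 (T (e 0)) = 0 := by
    rw [← hco, hWm, hT]
    exact TO_mem_SpO f hr.out hrN' (fun x hx => hsp.hecke hx) he0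
  have hrel : rhoE (N := N) ι F hs hpO χ φ (T (e 1)) -
      rhoE (N := N) ι F hs hpO χ φ (rhoE (N := N) ι F hs hpO χ φ (e 1)) - (r : O) • e 1 ∈ W := by
    rw [hWm]
    have := frob_rel (F := F) (hs := hs) (hpO := hpO) (ι := ι) hsp hA hrN' hφ
      ((e 1 : EL r N χ) : O ⊗[ℤ] LZ N)
    rw [← hT] at this
    exact this
  have hcoord : ∀ y, e.coord 1 (rhoE (N := N) ι F hs hpO χ φ y) =
      e.coord 1 y * e.coord 1 (rhoE (N := N) ι F hs hpO χ φ (e 1)) := by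
    intro y
    conv_lhs => rw [basis_sum e y, map_add, map_smul, map_smul, map_add, map_smul, map_smul, hφ0]
    rw [smul_zero, zero_add, smul_eq_mul]
  have hfrob : (e.coord 1 (rhoE (N := N) ι F hs hpO χ φ (e 1))) ^ 2 ≠ 1 := by
    refine sq_ne_one_of (r := r) e T _ hT0 ?_ fun s hs2 y hy => Subtype.ext
      (TO_eig_zero j hj hr.out hrN' hs2 ?_)
    · rw [hco, map_sub, map_sub, map_smul, c11, hcoord,
        hcoord (rhoE (N := N) ι F hs hpO χ φ (e 1)), smul_eq_mul, mul_one] at hrel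
      rw [mul_comm]
      exact hrel
    · rw [← hT, hy]
      rfl
  have hL := hE.isL hO hrN hpO hA hAN e hst hin hI ⟨φ, pres_of_decomp hφ.mem_decompositionSubgroup,
    hφ0, hfrob⟩
  have hK : IsK r N A (rhoE (N := N) ι F hs hpO χ) e (fun σ => (⟨κ σ, hκE σ⟩ : EL r N χ)) := by
    refine ⟨fun σ τ => Subtype.ext (hκ.coc σ τ), fun k => ?_, fun q hq hqr hqN B hB σ hσ => ?_,
      fun σ hσ => (hco _).1 (hκ.sp σ hσ)⟩
    · obtain ⟨L, h1, h2⟩ := hκ.lev k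
      refine ⟨L, h1, fun σ hσ => ?_⟩
      obtain ⟨y, hy⟩ := h2 σ hσ
      obtain ⟨z, hz⟩ := exists_pow_smul_mem (N := N) (χ := χ) hO.ne_zero (hκE σ) hy
      refine ⟨z, Subtype.ext ?_⟩
      change κ σ = ((r ^ k • z : EL r N χ) : O ⊗[ℤ] LZ N)
      rw [hz, ← Nat.cast_smul_eq_nsmul O, Nat.cast_pow]
      rfl
    · exact Subtype.ext (hκ.unr q hq hqr ((not_dvd_iff hq hN.out).2 hqN) B hB σ hσ)
  obtain ⟨C, l, hC, hl⟩ := hL.descent hAN hrN hO hA hK
  exact ⟨C, hC, l, l.2, fun σ => congrArg Subtype.val (hl σ)⟩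

end Fermat.Agent.MazD
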