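import Fermat.Agent.GalRep.Cyclo

/-!
# Galois modules whose residual pieces are trivial or cyclotomic
-/

set_option autoImplicit false
set_option linter.unusedSectionVars false
set_option linter.style.haveILetI false

noncomputable section

namespace Fermat.Agent.MazD

open Fermat.Agent.GalRep

local notation "Ω" => AlgebraicClosure ℚ

/-- a nilpotent product of two commuting elements -/
theorem exists_ker_of_nilp {V : Type*} [AddCommGroup V] (x : V) (hx : x ≠ 0) (S : AddSubgroup V)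
    (hxS : x ∈ S) (a b : AddMonoid.End V) (ha : ∀ y ∈ S, a y ∈ S) (hb : ∀ y ∈ S, b y ∈ S)
    (M : ℕ) (h : ∀ y ∈ S, ((a * b) ^ M) y = 0) : ∃ y ∈ S, y ≠ 0 ∧ (a y = 0 ∨ b y = 0) := by
  by_contra hcon
  push Not at hcon
  have h1 : ∀ y ∈ S, y ≠ 0 → (a * b) y ∈ S ∧ (a * b) y ≠ 0 := by
    intro y hy hy0
    have h2 := hcon y hy hy0
    exact ⟨ha _ (hb _ hy), (hcon _ (hb _ hy) h2.2).1⟩
  have h2 : ∀ n : ℕ, ((a * b) ^ n) x ∈ S ∧ ((a * b) ^ n) x ≠ 0 := by
    intro n
    induction n with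
    | zero => exact ⟨hxS, hx⟩
    | succ n ih =>
      rw [pow_succ']
      exact h1 _ ih.1 ih.2
  exact (h2 M).2 (h x hxS)

variable {r : ℕ} [hr : Fact r.Prime]

/-- multiples of an element of order dividing `r` -/
theorem nsmul_eq_of_cast {V : Type*} [AddCommGroup V] {y : V} (hy : r • y = 0) {a b : ℕ}
    (hab : (a : ZMod r) = b) : a • y = b • y := by
  rw [ZMod.natCast_eq_natCast_iff] at hab
  have h1 : ∀ c : ℕ, c • y = (c % r) • y := fun c => by
    conv_lhs => rw [← Nat.div_add_mod c r, add_smul, mul_comm, mul_smul, hy, smul_zero, zero_add]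
  rw [h1 a, h1 b, hab]

/-- **Existence of a line.** -/
theorem exists_line {V : Type*} [AddCommGroup V] [Finite V] [Nontrivial V] (k : ℕ)
    (hk : ∀ x : V, r ^ k • x = 0) (ρ : GQ →* AddMonoid.End V) (M : ℕ)
    (hM : ∀ σ : GQ, ((ρ σ - 1) * (ρ σ - ((cyc r σ).val : AddMonoid.End V))) ^ M = 0) :
    ∃ x : V, x ≠ 0 ∧ r • x = 0 ∧
      ((∀ σ, ρ σ x = x) ∨ (∀ σ, ρ σ x = (cyc r σ).val • x)) := by
  classical
  haveI : NeZero r := ⟨hr.out.ne_zero⟩
  -- the `r`-torsion
  let W : AddSubgroup V := (nsmulAddMonoidHom (α := V) r).ker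
  have hW : ∀ x : V, x ∈ W ↔ r • x = 0 := fun x => by
    rw [AddMonoidHom.mem_ker]; rfl
  have hWρ : ∀ σ, ∀ x ∈ W, ρ σ x ∈ W := fun σ x hx => by
    rw [hW] at hx ⊢
    rw [← map_nsmul, hx, map_zero]
  obtain ⟨x₀, hx₀W, hx₀⟩ : ∃ x ∈ W, x ≠ 0 := by
    obtain ⟨v, hv⟩ := exists_ne (0 : V)
    by_contra hcon
    push Not at hcon
    have h1 : ∀ n : ℕ, r ^ n • v ≠ 0 := by
      intro n
      induction n with
      | zero => simpa using hv
      | succ n ih =>
        intro h
        apply ih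
        apply hcon
        rw [hW, ← mul_smul, ← pow_succ', h]
    exact h1 k (hk v)
  -- the group acting unipotently
  let H : Subgroup GQ := (cyc r).toHomUnits.ker
  have hH : ∀ σ, σ ∈ H ↔ cyc r σ = 1 := fun σ => by
    rw [MonoidHom.mem_ker, Units.ext_iff]; rfl
  have hval : ∀ σ ∈ H, ((cyc r σ).val : AddMonoid.End V) = 1 := by
    intro σ hσ
    rw [(hH σ).1 hσ, ZMod.val_one'' hr.out.ne_one, Nat.cast_one]
  -- units
  let act : GQ →* (AddMonoid.End W)ˣ := MonoidHom.toHomUnits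
    { toFun := fun σ => (AddMonoidHom.codRestrict ((ρ σ : V →+ V).comp W.subtype) W
        (fun x => hWρ σ x x.2) : W →+ W)
      map_one' := AddMonoidHom.ext fun x => Subtype.ext (by
        change ρ 1 (x : V) = x
        rw [map_one]; rfl)
      map_mul' := fun a b => AddMonoidHom.ext fun x => Subtype.ext (by
        change ρ (a * b) (x : V) = ρ a (ρ b x)
        rw [map_mul]; rfl) }
  have hact : ∀ σ (x : W), ((act σ : AddMonoid.End W) x : V) = ρ σ x := fun σ x => rfl
  -- `r`-group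
  haveI : Finite (AddMonoid.End W) := DFunLike.finite (W →+ W)
  let P : Subgroup (AddMonoid.End W)ˣ := H.map act
  have hP : IsPGroup r P := by
    rintro ⟨_, ⟨σ, hσ, rfl⟩⟩
    obtain ⟨j, hj⟩ : ∃ j : ℕ, 2 * M ≤ r ^ j := by
      obtain ⟨j, hj⟩ := pow_unbounded_of_one_lt (2 * M) hr.out.one_lt
      exact ⟨j, hj.le⟩
    refine ⟨j, ?_⟩
    apply Subtype.ext
    apply Units.ext
    change (act σ : AddMonoid.End W) ^ r ^ j = 1
    haveI : Nontrivial (AddMonoid.End W) := ⟨1, 0, fun h => hx₀ (by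
      have h1 := DFunLike.congr_fun h (⟨x₀, hx₀W⟩ : W)
      exact congrArg Subtype.val h1)⟩
    haveI : CharP (AddMonoid.End W) r := by
      refine (CharP.charP_iff_prime_eq_zero (R := AddMonoid.End W) hr.out).2 ?_
      ext x
      have : ((r : AddMonoid.End W) x) = r • x := by
        rw [← nsmul_one]; rfl
      rw [this]
      change ((r • x : W) : V) = 0
      rw [AddSubgroup.coe_nsmul]
      exact (hW _).1 x.2
    have h1 : ((act σ : AddMonoid.End W) - 1) ^ r ^ j = 0 := by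
      have h2 : ∀ n : ℕ, ∀ x : W, ((((act σ : AddMonoid.End W) - 1) ^ n) x : V) =
          ((ρ σ - 1) ^ n) (x : V) := by
        intro n
        induction n with
        | zero => intro x; rfl
        | succ n ih =>
          intro x
          rw [pow_succ, pow_succ]
          change ((((act σ : AddMonoid.End W) - 1) ^ n) (((act σ : AddMonoid.End W) - 1) x) : V) = _
          rw [ih]
          rfl
      ext x
      rw [h2]
      obtain ⟨d, hd⟩ := Nat.exists_eq_add_of_le' hj
      have h3 := hM σ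
      rw [hval σ hσ, ← pow_two, ← pow_mul] at h3
      rw [hd, pow_add, h3, mul_zero]
      rfl
    have h4 := add_pow_char_pow_of_commute (x := (act σ : AddMonoid.End W) - 1) (y := 1)
      (p := r) (n := j) (Commute.one_right _)
    rw [sub_add_cancel, h1, zero_add, one_pow] at h4
    exact h4
  -- fixed vectors
  letI : MulAction P W :=
    { smul := fun u x => (u : (AddMonoid.End W)ˣ).val x
      one_smul := fun x => rfl
      mul_smul := fun a b x => rfl }
  have hsm : ∀ (u : P) (x : W), u • x = (u : (AddMonoid.End W)ˣ).val x := fun _ _ => rfl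
  have hdvd : r ∣ Nat.card W := by
    have h1 : addOrderOf (⟨x₀, hx₀W⟩ : W) = r := by
      refine addOrderOf_eq_prime ?_ ?_
      · apply Subtype.ext
        exact (hW _).1 hx₀W
      · exact fun h => hx₀ (congrArg Subtype.val h)
    rw [← h1]
    exact addOrderOf_dvd_natCard _
  have hfix0 : (0 : W) ∈ MulAction.fixedPoints P W := fun u => by rw [hsm, map_zero]
  obtain ⟨w, hw, hw0⟩ := hP.exists_fixed_point_of_prime_dvd_card_of_fixed_point W hdvd hfix0
  -- the fixed space
  let U : AddSubgroup V :=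
    { carrier := {x | x ∈ W ∧ ∀ σ ∈ H, ρ σ x = x}
      add_mem' := fun {a b} ha hb => ⟨add_mem ha.1 hb.1, fun σ hσ => by
        rw [map_add, ha.2 σ hσ, hb.2 σ hσ]⟩
      zero_mem' := ⟨zero_mem _, fun σ _ => map_zero _⟩
      neg_mem' := fun {a} ha => ⟨neg_mem ha.1, fun σ hσ => by rw [map_neg, ha.2 σ hσ]⟩ }
  have hUρ : ∀ τ, ∀ x ∈ U, ρ τ x ∈ U := by
    intro τ x hx
    refine ⟨hWρ τ x hx.1, fun σ hσ => ?_⟩
    have h1 : τ⁻¹ * σ * τ ∈ H := by
      have := (inferInstance : H.Normal).conj_mem σ hσ τ⁻¹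
      rwa [inv_inv] at this
    have h2 := hx.2 _ h1
    have h3 : ρ τ (ρ (τ⁻¹ * σ * τ) x) = ρ σ (ρ τ x) := by
      change (ρ τ * ρ (τ⁻¹ * σ * τ)) x = (ρ σ * ρ τ) x
      rw [← map_mul, ← map_mul]
      congr 2
      group
    rw [← h3, h2]
  have hwU : (w : V) ∈ U := by
    refine ⟨w.2, fun σ hσ => ?_⟩
    have h1 := hw ⟨act σ, ⟨σ, hσ, rfl⟩⟩
    rw [hsm] at h1
    exact congrArg Subtype.val h1
  -- a generator of the image of the cyclotomic character
  obtain ⟨g, hg⟩ : ∃ g : GQ, ∀ σ : GQ, ∃ n : ℕ, cyc r σ = cyc r g ^ n := by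
    haveI : IsCyclic (cyc r).toHomUnits.range := inferInstance
    obtain ⟨⟨_, ⟨g, rfl⟩⟩, hg⟩ := IsCyclic.exists_generator (α := (cyc r).toHomUnits.range)
    refine ⟨g, fun σ => ?_⟩
    have h1 := hg ⟨_, ⟨σ, rfl⟩⟩
    rw [← mem_powers_iff_mem_zpowers] at h1
    obtain ⟨n, hn⟩ := h1
    refine ⟨n, ?_⟩
    have h2 := congrArg (fun u : (cyc r).toHomUnits.range => ((u : (ZMod r)ˣ) : ZMod r)) hn
    exact h2.symm
  obtain ⟨y, hyU, hy0, hy⟩ := exists_ker_of_nilp (w : V) (fun h => hw0 (Subtype.ext h.symm)) U hwU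
    (ρ g - 1) (ρ g - ((cyc r g).val : AddMonoid.End V))
    (fun y hy => sub_mem (hUρ g y hy) hy)
    (fun y hy => by
      refine sub_mem (hUρ g y hy) ?_
      rw [← nsmul_one]
      exact nsmul_mem hy _)
    M (fun y _ => by rw [hM]; rfl)
  -- decomposition
  have hdec : ∀ σ : GQ, ∃ n : ℕ, cyc r σ = cyc r g ^ n ∧ ρ σ y = ((ρ g) ^ n) y := by
    intro σ
    obtain ⟨n, hn⟩ := hg σ
    refine ⟨n, hn, ?_⟩
    have h1 : (g ^ n)⁻¹ * σ ∈ H := by
      rw [MonoidHom.mem_ker, map_mul, map_inv, map_pow, inv_mul_eq_one]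
      apply Units.ext
      rw [Units.val_pow_eq_pow_val]
      exact hn.symm
    have h2 : ρ σ = ρ g ^ n * ρ ((g ^ n)⁻¹ * σ) := by
      rw [← map_pow, ← map_mul, mul_inv_cancel_left]
    rw [h2]
    change (ρ g ^ n) (ρ ((g ^ n)⁻¹ * σ) y) = _
    rw [hyU.2 _ h1]
  have hyr : r • y = 0 := (hW y).1 hyU.1
  refine ⟨y, hy0, hyr, ?_⟩
  rcases hy with h | h
  · left
    have h0 : ρ g y = y := sub_eq_zero.1 h
    intro σ
    obtain ⟨n, -, hn⟩ := hdec σ
    rw [hn]
    clear hn
    induction n with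
    | zero => rfl
    | succ n ih =>
      rw [pow_succ]
      change (ρ g ^ n) (ρ g y) = y
      rw [h0, ih]
  · right
    have h0 : ρ g y = (cyc r g).val • y := by
      have h1 : ρ g y - ((cyc r g).val : AddMonoid.End V) y = 0 := h
      rw [← nsmul_one] at h1
      exact sub_eq_zero.1 h1
    intro σ
    obtain ⟨n, hn1, hn⟩ := hdec σ
    rw [hn]
    have h2 : ∀ n : ℕ, (ρ g ^ n) y = (cyc r g).val ^ n • y := by
      intro n
      induction n with
      | zero => simp
      | succ n ih =>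
        rw [pow_succ]
        change (ρ g ^ n) (ρ g y) = _
        rw [h0, map_nsmul, ih, ← mul_smul, pow_succ']
    rw [h2]
    rw [hn1, ← nsmul_eq_of_cast hyr]
    rw [ZMod.natCast_val, ZMod.cast_id', id, Nat.cast_pow, ZMod.natCast_val, ZMod.cast_id', id]

end Fermat.Agent.MazD
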