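import Fermat.Agent.MazD.Minko
import Fermat.Agent.MazD.Res

/-!
# The count
-/

set_option autoImplicit false
set_option linter.unusedSectionVars false
set_option linter.style.haveILetI false

noncomputable section

namespace Fermat.Agent.MazD

open Fermat.Agent.Places Fermat.Agent.RedMod Fermat.Agent.FlatRam Fermat.Agent.Flat
  Fermat.Agent.GalRep

local notation "Ω" => AlgebraicClosure ℚ

section Alg

variable {G : Type*} [AddCommGroup G] {r : ℕ} [hr : Fact r.Prime]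

theorem dvd_of_zsmul_mem {F : AddSubgroup G} {x : G} (hx : x ∉ F) (hrx : r • x ∈ F) {n : ℤ}
    (h : n • x ∈ F) : (r : ℤ) ∣ n := by
  by_contra hcon
  have hcop : IsCoprime (r : ℤ) n :=
    (Nat.prime_iff_prime_int.1 hr.out).coprime_iff_not_dvd.2 hcon
  obtain ⟨a, b, hab⟩ := hcop
  apply hx
  have h1 : x = a • (r • x) + b • (n • x) := by
    rw [← natCast_zsmul, ← mul_smul, ← mul_smul, ← add_smul, hab, one_smul]
  rw [h1]
  exact add_mem (zsmul_mem hrx a) (zsmul_mem h b)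

theorem card_ge [Finite G] {F F' : AddSubgroup G} (hle : F ≤ F') {x : G} (hx : x ∉ F) (hx' : x ∈ F')
    (hrx : r • x ∈ F) : r * Nat.card F ≤ Nat.card F' := by
  let f : Fin r × F → F' := fun z => ⟨(z.1 : ℕ) • x + z.2, add_mem (nsmul_mem hx' _) (hle z.2.2)⟩
  have hf : Function.Injective f := by
    rintro ⟨i, u⟩ ⟨j, v⟩ h
    have h1 : (i : ℕ) • x + (u : G) = (j : ℕ) • x + (v : G) := congrArg Subtype.val h
    have h2 : ((i : ℤ) - (j : ℤ)) • x ∈ F := by
      have h3 : ((i : ℤ) - (j : ℤ)) • x = (v : G) - u := by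
        rw [sub_smul, natCast_zsmul, natCast_zsmul, sub_eq_sub_iff_add_eq_add, h1, add_comm]
      rw [h3]
      exact sub_mem v.2 u.2
    have h3 := dvd_of_zsmul_mem hx hrx h2
    have h4 : i = j := by
      have hi := i.2
      have hj := j.2
      obtain ⟨d, hd⟩ := h3
      have hr0 : (0 : ℤ) < r := by exact_mod_cast hr.out.pos
      have h5 : d = 0 := by
        by_contra hd0
        rcases lt_or_gt_of_ne hd0 with h6 | h6
        · have : (r : ℤ) * d ≤ -r := by nlinarith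
          omega
        · have : (r : ℤ) ≤ (r : ℤ) * d := by nlinarith
          omega
      rw [h5, mul_zero] at hd
      apply Fin.ext
      omega
    subst h4
    rw [add_right_inj] at h1
    rw [Subtype.ext h1]
  have := Nat.card_le_card_of_injective f hf
  rwa [Nat.card_prod, Nat.card_eq_fintype_card, Fintype.card_fin] at this

theorem exists_pi {F : AddSubgroup G} {x : G} (hx : x ∉ F) (hrx : r • x ∈ F) :
    ∃ π : G →+ Additive Ωˣ, (∀ f ∈ F, π f = 0) ∧ r • π x = 0 ∧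
      ∀ n : ℤ, n • π x = 0 → (r : ℤ) ∣ n := by
  haveI : NeZero r := ⟨hr.out.ne_zero⟩
  haveI : NeZero ((r : ℕ) : Ω) := ⟨Nat.cast_ne_zero.2 hr.out.ne_zero⟩
  obtain ⟨ζ, hζ⟩ := HasEnoughRootsOfUnity.exists_primitiveRoot (M := Ω) r
  let ζu : Ωˣ := hζ.toRootsOfUnity.val
  have hζu : ζu ^ r = 1 := hζ.toRootsOfUnity.2
  have hζv : (ζu : Ω) = ζ := rfl
  let f : ZMod r →+ G ⧸ F := ZMod.lift r ⟨zmultiplesHom _ (x : G ⧸ F), by
    rw [zmultiplesHom_apply, natCast_zsmul, ← QuotientAddGroup.mk_nsmul]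
    exact (QuotientAddGroup.eq_zero_iff _).2 hrx⟩
  let g : ZMod r →+ Additive Ωˣ := ZMod.lift r ⟨zmultiplesHom _ (Additive.ofMul ζu), by
    rw [zmultiplesHom_apply, natCast_zsmul, ← ofMul_pow, hζu]
    rfl⟩
  have hf : Function.Injective f := by
    rw [ZMod.lift_injective]
    intro m hm
    change m • (x : G ⧸ F) = 0 at hm
    rw [← QuotientAddGroup.mk_zsmul, QuotientAddGroup.eq_zero_iff] at hm
    exact (ZMod.intCast_zmod_eq_zero_iff_dvd m r).2 (dvd_of_zsmul_mem hx hrx hm)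
  obtain ⟨h, hh⟩ := exists_extend f hf g
  have hx1 : h (x : G ⧸ F) = Additive.ofMul ζu := by
    have h1 := hh 1
    have h2 : f 1 = (x : G ⧸ F) := by
      have := ZMod.lift_coe r (A := G ⧸ F) ⟨zmultiplesHom _ (x : G ⧸ F), by
        rw [zmultiplesHom_apply, natCast_zsmul, ← QuotientAddGroup.mk_nsmul]
        exact (QuotientAddGroup.eq_zero_iff _).2 hrx⟩ 1
      rw [Int.cast_one] at this
      rw [this]
      simp
    have h3 : g 1 = Additive.ofMul ζu := by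
      have := ZMod.lift_coe r (A := Additive Ωˣ) ⟨zmultiplesHom _ (Additive.ofMul ζu), by
        rw [zmultiplesHom_apply, natCast_zsmul, ← ofMul_pow, hζu]
        rfl⟩ 1
      rw [Int.cast_one] at this
      rw [this]
      simp
    rw [← h2, h1, h3]
  refine ⟨h.comp (QuotientAddGroup.mk' F), ?_, ?_, ?_⟩
  · intro y hy
    change h (y : G ⧸ F) = 0
    rw [(QuotientAddGroup.eq_zero_iff _).2 hy, map_zero]
  · change r • h (x : G ⧸ F) = 0
    rw [hx1, ← ofMul_pow, hζu]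
    rfl
  · intro n hn
    change n • h (x : G ⧸ F) = 0 at hn
    rw [hx1, ← ofMul_zpow] at hn
    have h1 : ζu ^ n = 1 := Additive.ofMul.injective hn
    have h2 : ζ ^ n = 1 := by
      rw [← hζv, ← Units.val_zpow_eq_zpow_val, h1, Units.val_one]
    exact (hζ.zpow_eq_one_iff_dvd n).1 h2

theorem mem_sup_zmultiples {F : AddSubgroup G} {x y : G} (hy : y ∈ F ⊔ AddSubgroup.zmultiples x) :
    ∃ f ∈ F, ∃ n : ℤ, y = f + n • x := by
  obtain ⟨f, hf, z, hz, rfl⟩ := AddSubgroup.mem_sup.1 hy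
  obtain ⟨n, rfl⟩ := AddSubgroup.mem_zmultiples_iff.1 hz
  exact ⟨f, hf, n, rfl⟩

end Alg

section Z

variable {r N : ℕ} [hr : Fact r.Prime]
  {A : ValuationSubring (AlgebraicClosure ℚ)} {G : Type*} [AddCommGroup G]

/-- cocycles with local conditions -/
structure IsZ (N : ℕ) (hA : A.LiesOverPrime r) (AN : ValuationSubring (AlgebraicClosure ℚ))
    (ρ : GQ →* AddMonoid.End G) (G0 : AddSubgroup G) (c : GQ → G) (b : G) : Prop where
  coc : ∀ σ τ, c (σ * τ) = c σ + ρ σ (c τ)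
  lev : ∃ L : IntermediateField ℚ Ω, FiniteDimensional ℚ L ∧
    ∀ σ : GQ, (∀ x ∈ L, σ x = x) → c σ = 0
  unr : ∀ q : ℕ, q.Prime → q ≠ r → q ≠ N → ∀ B : ValuationSubring (AlgebraicClosure ℚ),
    B.LiesOverPrime q → ∀ σ ∈ B.inertiaSubgroupIn ℚ, c σ = 0
  memr : ∀ σ ∈ A.inertiaSubgroupIn ℚ, c σ ∈ G0
  unit : ∀ φ : G →+ Additive Ωˣ, ∃ y : Ωˣ, (rval A r hA).w (y : Ω) = 0 ∧
    ∀ σ ∈ A.inertiaSubgroupIn ℚ, σ (y : Ω) = ((φ (c σ)).toMul : Ω) * y
  inN : ∀ σ ∈ AN.inertiaSubgroupIn ℚ, c σ = ρ σ b - b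

variable {hA : A.LiesOverPrime r} {AN : ValuationSubring (AlgebraicClosure ℚ)}
    {ρ : GQ →* AddMonoid.End G} {G0 : AddSubgroup G}

theorem IsZ.add {c c' : GQ → G} {b b' : G} (h : IsZ N hA AN ρ G0 c b)
    (h' : IsZ N hA AN ρ G0 c' b') : IsZ N hA AN ρ G0 (c + c') (b + b') where
  coc σ τ := by simp only [Pi.add_apply, h.coc, h'.coc, map_add]; abel
  lev := by
    obtain ⟨L, hL, h1⟩ := h.lev
    obtain ⟨L', hL', h2⟩ := h'.lev
    haveI := hL
    haveI := hL'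
    exact ⟨L ⊔ L', inferInstance, fun σ hσ => by
      rw [Pi.add_apply, h1 σ fun x hx => hσ x (le_sup_left (a := L) hx),
        h2 σ fun x hx => hσ x (le_sup_right (b := L') hx), add_zero]⟩
  unr q hq h1 h2 B hB σ hσ := by
    rw [Pi.add_apply, h.unr q hq h1 h2 B hB σ hσ, h'.unr q hq h1 h2 B hB σ hσ, add_zero]
  memr σ hσ := add_mem (h.memr σ hσ) (h'.memr σ hσ)
  unit φ := by
    obtain ⟨y, hy, h1⟩ := h.unit φ
    obtain ⟨z, hz, h2⟩ := h'.unit φ
    refine ⟨y * z, ?_, fun σ hσ => ?_⟩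
    · rw [Units.val_mul, RVal.w_mul y.ne_zero z.ne_zero, hy, hz, add_zero]
    · rw [Units.val_mul, map_mul, h1 σ hσ, h2 σ hσ, Pi.add_apply, map_add, toMul_add,
        Units.val_mul]
      ring
  inN σ hσ := by rw [Pi.add_apply, h.inN σ hσ, h'.inN σ hσ, map_add]; abel

theorem IsZ.neg {c : GQ → G} {b : G} (h : IsZ N hA AN ρ G0 c b) :
    IsZ N hA AN ρ G0 (-c) (-b) where
  coc σ τ := by simp only [Pi.neg_apply, h.coc, map_neg]; abel
  lev := by
    obtain ⟨L, hL, h1⟩ := h.lev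
    exact ⟨L, hL, fun σ hσ => by rw [Pi.neg_apply, h1 σ hσ, neg_zero]⟩
  unr q hq h1 h2 B hB σ hσ := by rw [Pi.neg_apply, h.unr q hq h1 h2 B hB σ hσ, neg_zero]
  memr σ hσ := neg_mem (h.memr σ hσ)
  unit φ := by
    obtain ⟨y, hy, h1⟩ := h.unit φ
    refine ⟨y⁻¹, ?_, fun σ hσ => ?_⟩
    · rw [Units.val_inv_eq_inv_val, RVal.w_inv y.ne_zero, hy, neg_zero]
    · rw [Units.val_inv_eq_inv_val, map_inv₀, h1 σ hσ, Pi.neg_apply, map_neg, toMul_neg,
        Units.val_inv_eq_inv_val, mul_inv]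
  inN σ hσ := by rw [Pi.neg_apply, h.inN σ hσ, map_neg]; abel

theorem IsZ.zero : IsZ N hA AN ρ G0 0 0 where
  coc σ τ := by simp
  lev := ⟨⊥, inferInstance, fun σ _ => rfl⟩
  unr q hq h1 h2 B hB σ hσ := rfl
  memr σ hσ := zero_mem _
  unit φ := ⟨1, by rw [Units.val_one, RVal.w_one], fun σ hσ => by simp⟩
  inN σ hσ := by simp

/-- the group of pairs `(c, b)` with values in `F` -/
def ZF (N : ℕ) (hA : A.LiesOverPrime r) (AN : ValuationSubring (AlgebraicClosure ℚ))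
    (ρ : GQ →* AddMonoid.End G) (G0 : AddSubgroup G) (F : AddSubgroup G) :
    AddSubgroup ((GQ → G) × G) where
  carrier := {z | IsZ N hA AN ρ G0 z.1 z.2 ∧ (∀ σ, z.1 σ ∈ F) ∧ z.2 ∈ F}
  add_mem' h h' := ⟨h.1.add h'.1, fun σ => add_mem (h.2.1 σ) (h'.2.1 σ), add_mem h.2.2 h'.2.2⟩
  zero_mem' := ⟨IsZ.zero, fun σ => zero_mem _, zero_mem _⟩
  neg_mem' h := ⟨h.1.neg, fun σ => neg_mem (h.2.1 σ), neg_mem h.2.2⟩

theorem mem_ZF {F : AddSubgroup G} {z : (GQ → G) × G} : z ∈ ZF N hA AN ρ G0 F ↔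
    IsZ N hA AN ρ G0 z.1 z.2 ∧ (∀ σ, z.1 σ ∈ F) ∧ z.2 ∈ F := Iff.rfl

/-- hypotheses on the Galois module -/
structure IsG (r k : ℕ) [Fact r.Prime] [NeZero (r ^ k)]
    (A : ValuationSubring (AlgebraicClosure ℚ)) (ρ : GQ →* AddMonoid.End G)
    (G0 : AddSubgroup G) : Prop where
  hk : k ≠ 0
  tors : ∀ x : G, r ^ k • x = 0
  act0 : ∀ σ ∈ A.inertiaSubgroupIn ℚ, ∀ x ∈ G0, ρ σ x = (cyc (r ^ k) σ).val • x
  quo : ∀ σ ∈ A.inertiaSubgroupIn ℚ, ∀ x, ρ σ x - x ∈ G0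
  res : ∃ M : ℕ, ∀ σ : GQ, haveI : NeZero r := ⟨(Fact.out : r.Prime).ne_zero⟩
    ((ρ σ - 1) * (ρ σ - ((cyc r σ).val : AddMonoid.End G))) ^ M = 0

/-- the roots of unity, additively -/
def muSet (r : ℕ) : Set (Additive Ωˣ) := {z | r • z = 0}

theorem muSet_finite (hr0 : r ≠ 0) : (muSet r).Finite := by
  haveI : NeZero r := ⟨hr0⟩
  have : muSet r = Additive.ofMul '' (rootsOfUnity r Ω : Set Ωˣ) := by
    ext z
    constructor
    · intro hz
      exact ⟨z.toMul, by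
        change z.toMul ^ r = 1
        have : r • z = 0 := hz
        rw [← toMul_nsmul, this]
        rfl, rfl⟩
    · rintro ⟨u, hu, rfl⟩
      change r • Additive.ofMul u = 0
      rw [← ofMul_pow]
      have : u ^ r = 1 := hu
      rw [this]
      rfl
  rw [this]
  haveI : Finite (rootsOfUnity r Ω) := inferInstance
  exact Set.Finite.image _ (Set.finite_coe_iff.1 this)

theorem muSet_ncard (hr0 : r ≠ 0) : (muSet r).ncard ≤ r := by
  haveI : NeZero r := ⟨hr0⟩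
  have : muSet r = Additive.ofMul '' (rootsOfUnity r Ω : Set Ωˣ) := by
    ext z
    constructor
    · intro hz
      exact ⟨z.toMul, by
        change z.toMul ^ r = 1
        have : r • z = 0 := hz
        rw [← toMul_nsmul, this]
        rfl, rfl⟩
    · rintro ⟨u, hu, rfl⟩
      change r • Additive.ofMul u = 0
      rw [← ofMul_pow]
      have : u ^ r = 1 := hu
      rw [this]
      rfl
  rw [this, Set.ncard_image_of_injective _ Additive.ofMul.injective]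
  have h2 : (rootsOfUnity r Ω : Set Ωˣ).ncard = Nat.card (rootsOfUnity r Ω) := rfl
  rw [h2]
  exact card_rootsOfUnity Ω r

/-- the bound for subgroups of `ZF F` -/
def Bd (N : ℕ) (hA : A.LiesOverPrime r) (AN : ValuationSubring (AlgebraicClosure ℚ))
    (ρ : GQ →* AddMonoid.End G) (G0 : AddSubgroup G) (F : AddSubgroup G) : Prop :=
  ∀ Y : AddSubgroup ((GQ → G) × G), Y ≤ ZF N hA AN ρ G0 F →
    Nat.card Y ≤ Nat.card F * Nat.card (F ⊓ G0 : AddSubgroup G)

/-- counting -/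
theorem card_le_of_pi [Finite G] {F F' : AddSubgroup G} (hF : Bd N hA AN ρ G0 F)
    (π : G →+ Additive Ωˣ) (hπ : ∀ y ∈ F', π y = 0 → y ∈ F) (hπr : ∀ y ∈ F', r • π y = 0)
    (Y : AddSubgroup ((GQ → G) × G)) (hY : Y ≤ ZF N hA AN ρ G0 F')
    (D : Set (GQ → Additive Ωˣ)) (hD : D.Finite) {d : ℕ} (hDd : D.ncard ≤ d)
    (hYD : ∀ z ∈ Y, (fun σ => π (z.1 σ)) ∈ D) :
    Nat.card Y ≤ Nat.card F * Nat.card (F ⊓ G0 : AddSubgroup G) * (d * r) := by
  let Ψ : Y →+ (GQ → Additive Ωˣ) × Additive Ωˣ :=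
    { toFun := fun z => (fun σ => π (z.1.1 σ), π z.1.2)
      map_zero' := by ext <;> simp
      map_add' := fun a b => by ext <;> simp }
  have h1 : Nat.card Y = Nat.card Ψ.ker * Nat.card Ψ.range := by
    rw [← AddSubgroup.card_mul_index Ψ.ker, AddSubgroup.index_ker]
  have h2 : Nat.card Ψ.ker ≤ Nat.card F * Nat.card (F ⊓ G0 : AddSubgroup G) := by
    have h3 := hF (Ψ.ker.map Y.subtype) (by
      rintro _ ⟨z, hz, rfl⟩
      obtain ⟨h4, h5, h6⟩ := hY z.2
      have hz' : Ψ z = 0 := hz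
      refine ⟨h4, fun σ => hπ _ (h5 σ) ?_, hπ _ h6 ?_⟩
      · exact congrFun (congrArg Prod.fst hz') σ
      · exact congrArg Prod.snd hz')
    rwa [Nat.card_congr (Ψ.ker.equivMapOfInjective Y.subtype
      Subtype.val_injective).symm.toEquiv] at h3
  have h3 : Nat.card Ψ.range ≤ d * r := by
    have hfin : (D ×ˢ muSet r).Finite := hD.prod (muSet_finite hr.out.ne_zero)
    have h4 : (Ψ.range : Set _) ⊆ D ×ˢ muSet r := by
      rintro _ ⟨z, rfl⟩
      exact ⟨hYD z z.2, hπr _ (hY z.2).2.2⟩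
    calc Nat.card Ψ.range ≤ Nat.card (D ×ˢ muSet r : Set _) := Nat.card_mono hfin h4
      _ = D.ncard * (muSet r).ncard := Set.ncard_prod
      _ ≤ d * r := Nat.mul_le_mul hDd (muSet_ncard hr.out.ne_zero)
  rw [h1]
  exact Nat.mul_le_mul h2 h3

end Z

end Fermat.Agent.MazD
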