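import Fermat.Agent.MazD.RhoP
import Fermat.Agent.AL.Newform
import Fermat.Agent.AL.Bound
import Fermat.Agent.S08

/-!
# Complex eigenspaces of parabolic homomorphisms at prime level
-/

set_option autoImplicit false
set_option linter.unusedSectionVars false
set_option linter.style.haveILetI false

noncomputable section

namespace Fermat.Agent.MazD

open ModularCurve ModularCurve.Period Fermat.Agent.HeckeHom Fermat.Agent.MFLib UpperHalfPlane
  ModularForm CongruenceSubgroup
open scoped TensorProduct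

variable {N : ℕ} [NeZero N]

theorem esT {q : ℕ} (hq : q.Prime) (hqN : ¬ q ∣ N) {c : ℂ} {p : S2 N × S2 N}
    (h : opT N hq hqN ℂ (esEquiv N p).1 = c • (esEquiv N p).1) :
    CuspForm.heckeTLin 2 hq hqN p.1 = c • p.1 ∧ CuspForm.heckeTLin 2 hq hqN p.2 = c • p.2 := by
  rw [esEquiv_coe, ← periodHomPair_T, ← map_smul] at h
  have h1 := (Fermat.Agent.S21.result N).1 h
  exact ⟨congrArg Prod.fst h1, congrArg Prod.snd h1⟩

theorem heckeT_of_lin {q : ℕ} (hq : q.Prime) (hqN : ¬ q ∣ N) {c : ℂ} {f : S2 N}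
    (h : CuspForm.heckeTLin 2 hq hqN f = c • f) : heckeT 2 q f = c • (f : ℍ → ℂ) :=
  congrArg (fun F : S2 N => (F : ℍ → ℂ)) h

/-- no large eigenvalues -/
theorem eig_zero {q : ℕ} (hq : q.Prime) (hqN : ¬ q ∣ N) {c : ℂ} (hc : (q : ℝ) + 1 ≤ ‖c‖)
    {φ : LC N} (h : opT N hq hqN ℂ φ.1 = c • φ.1) : φ = 0 := by
  obtain ⟨p, rfl⟩ := (esEquiv N).surjective φ
  obtain ⟨h1, h2⟩ := esT hq hqN h
  have key : ∀ f : S2 N, CuspForm.heckeTLin 2 hq hqN f = c • f → f = 0 := by
    intro f hf
    by_contra hf0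
    have hf0' : (f : ℍ → ℂ) ≠ 0 := fun h => hf0 (DFunLike.coe_injective h)
    have := AL.norm_eigenvalue_lt (IsCF.of_class f) hf0' hq (heckeT_of_lin hq hqN hf)
    exact absurd this (not_lt.2 hc)
  have h3 : p = 0 := Prod.ext (key _ h1) (key _ h2)
  rw [h3, map_zero]

/-- eigenspaces at prime level have dimension at most two -/
theorem eig_dim (hN : N.Prime) {S : Set ℕ} (hS : S.Finite) (χ : ℕ → ℂ) {d : ℕ}
    (v : Fin d → LC N) (hv : LinearIndependent ℂ v)
    (h : ∀ i, ∀ (l : ℕ) (hl : l.Prime) (hlN : ¬ l ∣ N), l ∉ S →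
      opT N hl hlN ℂ (v i).1 = χ l • (v i).1) : d ≤ 2 := by
  by_cases hE : ∃ f : S2 N, f ≠ 0 ∧ ∀ (l : ℕ) (hl : l.Prime) (hlN : ¬ l ∣ N), l ∉ S →
      CuspForm.heckeTLin 2 hl hlN f = χ l • f
  · obtain ⟨f, hf0, hf⟩ := hE
    obtain ⟨M, hM, g, hg, hgχ⟩ := AL.exists_newform_of_eigenvector N hf0 (S := S) (χ := χ)
      (fun l hl hlN hlS => heckeT_of_lin hl hlN (hf l hl hlN hlS))
    have hMN : M = N := by
      rcases (Nat.dvd_prime hN).1 hM with h1 | h1
      · subst h1
        exact absurd (Fermat.Agent.S08.result g) hg.ne_zero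
      · exact h1
    subst hMN
    have key : ∀ f : S2 M, (∀ (l : ℕ) (hl : l.Prime) (hlN : ¬ l ∣ M), l ∉ S →
        CuspForm.heckeTLin 2 hl hlN f = χ l • f) → ∃ a : ℂ, f = a • g := by
      intro f hf
      have h1 := AL.newform_eigenspace hg hS (IsCF.of_class f) (fun l hl hlN hlS => by
        rw [hgχ l hl hlN hlS]
        exact heckeT_of_lin hl hlN (hf l hl hlN hlS))
      exact ⟨_, DFunLike.coe_injective h1⟩
    let Ψ : (ℂ × ℂ) →ₗ[ℂ] LC M := (esEquiv M).toLinearMap ∘ₗ
      ((LinearMap.toSpanSingleton ℂ (S2 M) g).prodMap (LinearMap.toSpanSingleton ℂ (S2 M) g))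
    have h2 : ∀ i, v i ∈ LinearMap.range Ψ := by
      intro i
      obtain ⟨p, hp⟩ := (esEquiv M).surjective (v i)
      have h3 : ∀ (l : ℕ) (hl : l.Prime) (hlN : ¬ l ∣ M), l ∉ S →
          CuspForm.heckeTLin 2 hl hlN p.1 = χ l • p.1 ∧
          CuspForm.heckeTLin 2 hl hlN p.2 = χ l • p.2 := fun l hl hlN hlS =>
        esT hl hlN (by rw [hp]; exact h i l hl hlN hlS)
      obtain ⟨a, ha⟩ := key p.1 fun l hl hlN hlS => (h3 l hl hlN hlS).1
      obtain ⟨b, hb⟩ := key p.2 fun l hl hlN hlS => (h3 l hl hlN hlS).2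
      refine ⟨(a, b), ?_⟩
      rw [← hp]
      change esEquiv M (a • g, b • g) = _
      rw [← ha, ← hb]
    let w : Fin d → LinearMap.range Ψ := fun i => ⟨v i, h2 i⟩
    have hw : LinearIndependent ℂ w := LinearIndependent.of_comp (LinearMap.range Ψ).subtype hv
    have h4 := hw.fintype_card_le_finrank
    rw [Fintype.card_fin] at h4
    refine h4.trans ((LinearMap.finrank_range_le Ψ).trans ?_)
    rw [Module.finrank_prod, Module.finrank_self]
  · rcases Nat.eq_zero_or_pos d with h0 | h0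
    · omega
    exfalso
    apply hE
    obtain ⟨p, hp⟩ := (esEquiv N).surjective (v ⟨0, h0⟩)
    have h3 : ∀ (l : ℕ) (hl : l.Prime) (hlN : ¬ l ∣ N), l ∉ S →
        CuspForm.heckeTLin 2 hl hlN p.1 = χ l • p.1 ∧
        CuspForm.heckeTLin 2 hl hlN p.2 = χ l • p.2 := fun l hl hlN hlS =>
      esT hl hlN (by rw [hp]; exact h ⟨0, h0⟩ l hl hlN hlS)
    have h5 : p ≠ 0 := by
      rintro rfl
      rw [map_zero] at hp
      exact hv.ne_zero ⟨0, h0⟩ hp.symm
    by_cases h6 : p.1 = 0
    · refine ⟨p.2, fun h7 => h5 (Prod.ext h6 h7), fun l hl hlN hlS => (h3 l hl hlN hlS).2⟩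
    · exact ⟨p.1, h6, fun l hl hlN hlS => (h3 l hl hlN hlS).1⟩

/-! ### the embedding of the lattice -/

/-- integrally independent integral classes are independent over `ℂ` -/
theorem castP_indep {I : Type} [Fintype I] (b : Module.Basis I ℤ (LZ N)) {c : I → ℂ}
    (h : ∑ i, c i • castP N (b i) = 0) : c = 0 := by
  classical
  have h1 : ∀ γ, ∑ i, c i * (((b i).1 γ : ℤ) : ℂ) = 0 := by
    intro γ
    have h2 := congrArg (fun φ : LC N => φ.1 γ) h
    have h3 : (∑ i, c i • castP N (b i) : LC N).1 γ = ∑ i, c i * (((b i).1 γ : ℤ) : ℂ) := by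
      rw [Submodule.coe_sum]
      have h4 : ∀ (s : Finset I), (∑ i ∈ s, ((c i • castP N (b i) : LC N) :
          Additive (Gamma0 N) →+ ℂ)) γ = ∑ i ∈ s, c i * (((b i).1 γ : ℤ) : ℂ) := by
        intro s
        induction s using Finset.induction_on with
        | empty => simp
        | insert a s ha ih =>
          rw [Finset.sum_insert ha, Finset.sum_insert ha, AddMonoidHom.add_apply, ih]
          rfl
      exact h4 _
    exact h3.symm.trans h2
  funext i
  rw [Pi.zero_apply, ← Module.forall_dual_apply_eq_zero_iff ℚ]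
  intro l
  have h2 : ∀ γ, ∑ i, l (c i) * (((b i).1 γ : ℤ) : ℚ) = 0 := by
    intro γ
    have h3 := congrArg l (h1 γ)
    rw [map_sum, map_zero] at h3
    rw [← h3]
    refine Finset.sum_congr rfl fun i _ => ?_
    have h4 : c i * (((b i).1 γ : ℤ) : ℂ) = (((b i).1 γ : ℤ) : ℚ) • c i := by
      rw [mul_comm, Algebra.smul_def]
      simp
    rw [h4, map_smul, smul_eq_mul, mul_comm]
  obtain ⟨D, hD⟩ := IsLocalization.exist_integer_multiples (nonZeroDivisors ℤ) Finset.univ
    (fun i => l (c i))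
  have hD0 : ((D : ℤ) : ℚ) ≠ 0 := by exact_mod_cast nonZeroDivisors.coe_ne_zero D
  choose n hn using fun i => hD i (Finset.mem_univ i)
  have h5 : ∑ i, n i • b i = 0 := by
    apply castP_injective
    apply Subtype.ext
    refine AddMonoidHom.ext fun γ => ?_
    rw [map_zero]
    change (castP N (∑ i, n i • b i)).1 γ = (0 : ℂ)
    have h6 : (castP N (∑ i, n i • b i)).1 γ = (((∑ i, n i * (b i).1 γ : ℤ)) : ℂ) := by
      rw [castP_apply]
      congr 1
      have h7 : ∀ (s : Finset I), (∑ i ∈ s, n i • b i : LZ N).1 γ = ∑ i ∈ s, n i * (b i).1 γ := by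
        intro s
        induction s using Finset.induction_on with
        | empty => simp
        | insert a s ha ih =>
          rw [Finset.sum_insert ha, Finset.sum_insert ha, ← ih]
          rfl
      exact h7 _
    rw [h6]
    have h8 : ((∑ i, n i * (b i).1 γ : ℤ) : ℚ) = 0 := by
      push_cast
      have h9 : ∀ i, ((n i : ℤ) : ℚ) = (D : ℤ) * l (c i) := by
        intro i
        have := hn i
        rw [eq_intCast] at this
        rw [this, ← zsmul_eq_mul]
      simp only [h9, mul_assoc]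
      rw [← Finset.mul_sum, h2, mul_zero]
    exact_mod_cast h8
  have h6 : n i = 0 := by
    have := congrArg (fun z => b.repr z i) h5
    simpa [Finsupp.single_apply] using this
  have h7 := hn i
  rw [h6, map_zero] at h7
  have h7' : ((D : ℤ) : ℚ) * l (c i) = 0 := by rw [← zsmul_eq_mul]; exact h7.symm
  rcases mul_eq_zero.1 h7' with h8 | h8
  · exact absurd h8 hD0
  · exact h8

/-- the basis of `LC` from a basis of `LZ` -/
def basC {I : Type} [Fintype I] (b : Module.Basis I ℤ (LZ N)) : Module.Basis I ℂ (LC N) :=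
  Module.Basis.mk (v := fun i => castP N (b i))
    (Fintype.linearIndependent_iff.2 fun c hc i => congrFun (castP_indep b hc) i) (by
      rw [← span_castP N, Submodule.span_le]
      rintro _ ⟨φ, rfl⟩
      rw [← b.sum_repr φ, map_sum]
      refine Submodule.sum_mem _ fun i _ => ?_
      rw [map_zsmul, ← Int.cast_smul_eq_zsmul ℂ]
      exact Submodule.smul_mem _ _ (Submodule.subset_span ⟨i, rfl⟩))

theorem basC_apply {I : Type} [Fintype I] (b : Module.Basis I ℤ (LZ N)) (i : I) :
    basC b i = castP N (b i) := Module.Basis.mk_apply _ _ _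

section emb

variable {O : Type} [CommRing O] (j : O →+* ℂ)

/-- the map to complex classes -/
def toLC : O ⊗[ℤ] LZ N →+ LC N :=
  (TensorProduct.lift (LinearMap.mk₂ ℤ (fun (a : O) (φ : LZ N) => j a • castP N φ)
    (fun a b φ => by rw [map_add, add_smul])
    (fun c a φ => by rw [map_zsmul, smul_assoc])
    (fun a φ ψ => by rw [map_add, smul_add])
    (fun c a φ => by rw [map_zsmul, smul_comm]))).toAddMonoidHom

theorem toLC_tmul (a : O) (φ : LZ N) : toLC j (a ⊗ₜ[ℤ] φ) = j a • castP N φ := rfl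

theorem toLC_smul (a : O) (x : O ⊗[ℤ] LZ N) : toLC j (a • x) = j a • toLC j x := by
  induction x using TensorProduct.induction_on with
  | zero => rw [smul_zero, map_zero, smul_zero]
  | tmul b φ => rw [TensorProduct.smul_tmul', toLC_tmul, toLC_tmul, smul_eq_mul, map_mul, mul_smul]
  | add x y hx hy => rw [smul_add, map_add, map_add, smul_add, hx, hy]

theorem toLC_TO {q : ℕ} (hq : q.Prime) (hqN : ¬ q ∣ N) (x : O ⊗[ℤ] LZ N) :
    (toLC j (TO O hq hqN x)).1 = opT N hq hqN ℂ (toLC j x).1 := by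
  have h : toLC j (TO O hq hqN x) =
      actC N (S0 N) (CuspForm.heckeAlgebra.T hq hqN hqN) (toLC j x) := by
    induction x using TensorProduct.induction_on with
    | zero => rw [map_zero, map_zero, map_zero]
    | tmul a φ =>
      rw [TO, LinearMap.baseChange_tmul, toLC_tmul, toLC_tmul, map_smul, TL, castP_actL]
    | add x y hx hy => rw [map_add, map_add, map_add, map_add, hx, hy]
  rw [h, actC_T]

theorem toLC_repr {I : Type} [Fintype I] (b : Module.Basis I ℤ (LZ N)) (x : O ⊗[ℤ] LZ N) (i : I) :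
    (basC b).repr (toLC j x) i = j ((b.baseChange O).repr x i) := by
  classical
  induction x using TensorProduct.induction_on with
  | zero => simp
  | tmul a φ =>
    rw [toLC_tmul, Module.Basis.baseChange_repr_tmul]
    conv_lhs => rw [← b.sum_repr φ]
    rw [map_sum]
    simp only [map_zsmul, ← basC_apply b, map_smul, map_sum, Finsupp.smul_apply,
      Finsupp.coe_finsetSum, Finset.sum_apply, Module.Basis.repr_self, Finsupp.single_apply,
      smul_eq_mul, zsmul_eq_mul, mul_ite, mul_one, mul_zero, Finset.sum_ite_eq', Finset.mem_univ,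
      if_true, map_mul, map_intCast]
    ring
  | add x y hx hy => rw [map_add, map_add, map_add, Finsupp.add_apply, Finsupp.add_apply, hx, hy,
      map_add]

theorem toLC_injective (hj : Function.Injective j) : Function.Injective (toLC (N := N) j) := by
  rw [injective_iff_map_eq_zero]
  intro x hx
  let b := Module.Free.chooseBasis ℤ (LZ N)
  apply (b.baseChange O).repr.injective
  ext i
  apply hj
  rw [← toLC_repr j b, hx]
  simp

/-- `T_q` has no eigenvalue `c` with `|c| ≥ q + 1` on the lattice -/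
theorem TO_eig_zero (hj : Function.Injective j) {q : ℕ} (hq : q.Prime) (hqN : ¬ q ∣ N) {c : ℤ}
    (hc : (q : ℤ) + 1 ≤ |c|) {x : O ⊗[ℤ] LZ N} (h : TO O hq hqN x = (c : O) • x) : x = 0 := by
  apply toLC_injective j hj
  rw [map_zero]
  refine eig_zero hq hqN (c := (c : ℂ)) ?_ ?_
  · rw [Complex.norm_intCast]
    exact_mod_cast hc
  · rw [← toLC_TO, h, toLC_smul, map_intCast]
    rfl

/-- the rank of eigenlattices is at most two -/
theorem rank_le_two (j : O →+* ℂ) (hN : N.Prime) {S : Set ℕ} (hS : S.Finite) (χ : ℕ → O)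
    {d : ℕ} (v : Fin d → O ⊗[ℤ] LZ N) (μ : Fin d → (O ⊗[ℤ] LZ N →ₗ[O] O))
    (hμ : ∀ a b, μ a (v b) = if a = b then 1 else 0)
    (h : ∀ i, ∀ (l : ℕ) (hl : l.Prime) (hlN : ¬ l ∣ N), l ∉ S → TO O hl hlN (v i) = χ l • v i) :
    d ≤ 2 := by
  classical
  refine eig_dim hN hS (fun l => j (χ l)) (fun i => toLC j (v i)) ?_ ?_
  · let b := Module.Free.chooseBasis ℤ (LZ N)
    let μC : Fin d → (LC N →ₗ[ℂ] ℂ) := fun a =>
      (basC b).constr ℂ fun i => j (μ a ((1 : O) ⊗ₜ b i))
    have key : ∀ a x, μC a (toLC j x) = j (μ a x) := by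
      intro a x
      induction x using TensorProduct.induction_on with
      | zero => simp
      | tmul c φ =>
        have h1 : c ⊗ₜ[ℤ] φ = c • ((1 : O) ⊗ₜ[ℤ] φ) := by
          rw [TensorProduct.smul_tmul', smul_eq_mul, mul_one]
        have h2 : ∀ φ : LZ N, μC a (castP N φ) = j (μ a ((1 : O) ⊗ₜ[ℤ] φ)) := by
          intro φ
          rw [← b.sum_repr φ, map_sum, map_sum, TensorProduct.tmul_sum, map_sum, map_sum]
          refine Finset.sum_congr rfl fun i _ => ?_
          have h3 : μC a (castP N (b i)) = j (μ a ((1 : O) ⊗ₜ b i)) := by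
            rw [← basC_apply]
            exact (basC b).constr_basis ℂ _ i
          rw [map_zsmul, map_zsmul, h3, TensorProduct.tmul_smul, map_zsmul, map_zsmul]
        rw [toLC_tmul, map_smul, h2, h1, map_smul, smul_eq_mul, smul_eq_mul, map_mul]
      | add x y hx hy => rw [map_add, map_add, map_add, map_add, hx, hy]
    rw [Fintype.linearIndependent_iff]
    intro c hc a
    have h4 := congrArg (μC a) hc
    rw [map_sum, map_zero] at h4
    simpa [key, hμ] using h4
  · intro i l hl hlN hlS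
    rw [← toLC_TO, h i l hl hlN hlS, toLC_smul]
    rfl

end emb

end Fermat.Agent.MazD
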