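import Fermat.Agent.MazD.Fin

/-!
# The descent
-/

set_option autoImplicit false
set_option linter.unusedSectionVars false
set_option linter.style.haveILetI false

noncomputable section

namespace Fermat.Agent.MazD

open Fermat.Agent.Places Fermat.Agent.RedMod Fermat.Agent.FlatRam Fermat.Agent.Flat
  Fermat.Agent.GalRep

local notation "Ω" => AlgebraicClosure ℚ

variable {r N : ℕ} [hr : Fact r.Prime] [hN : Fact N.Prime]
  {A AN : ValuationSubring (AlgebraicClosure ℚ)}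
  {O : Type*} [CommRing O] [IsDomain O] {Λ : Type*} [AddCommGroup Λ] [Module O Λ]
  {ρ : GQ →* Module.End O Λ} {e : Module.Basis (Fin 2) O Λ}

/-- inertia invariants at finite level -/
def Tk (ρ : GQ →* Module.End O Λ) (AN : ValuationSubring (AlgebraicClosure ℚ)) (r k : ℕ) :
    AddSubgroup (Gk Λ r k) where
  carrier := {x | ∀ σ ∈ AN.inertiaSubgroupIn ℚ, rk ρ r k σ x = x}
  add_mem' h h' := fun σ hσ => by rw [map_add, h σ hσ, h' σ hσ]
  zero_mem' := fun σ _ => map_zero _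
  neg_mem' h := fun σ hσ => by rw [map_neg, h σ hσ]

/-- Galois invariants at finite level -/
def Hk (ρ : GQ →* Module.End O Λ) (r k : ℕ) : AddSubgroup (Gk Λ r k) where
  carrier := {x | ∀ σ, rk ρ r k σ x = x}
  add_mem' h h' := fun σ => by rw [map_add, h σ, h' σ]
  zero_mem' := fun σ => map_zero _
  neg_mem' h := fun σ => by rw [map_neg, h σ]

/-- the coboundary map -/
def Th (ρ : GQ →* Module.End O Λ) (AN : ValuationSubring (AlgebraicClosure ℚ)) (r k : ℕ) :
    Gk Λ r k × Tk ρ AN r k →+ (GQ → Gk Λ r k) × Gk Λ r k where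
  toFun z := (fun σ => rk ρ r k σ z.1 - z.1, z.1 + z.2)
  map_zero' := by
    refine Prod.ext (funext fun σ => ?_) ?_
    · simp
    · simp
  map_add' a b := by
    refine Prod.ext (funext fun σ => ?_) ?_
    · change rk ρ r k σ (a.1 + b.1) - (a.1 + b.1) =
        (rk ρ r k σ a.1 - a.1) + (rk ρ r k σ b.1 - b.1)
      rw [map_add]; abel
    · change (a.1 + b.1) + ((a.2 + b.2 : Tk ρ AN r k) : Gk Λ r k) = (a.1 + a.2) + (b.1 + b.2)
      rw [AddSubgroup.coe_add]; abel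

section card

variable {k : ℕ} [Finite (Gk Λ r k)]

theorem card_ker_Th : Nat.card (Th ρ AN r k).ker ≤ Nat.card (Hk ρ r k) := by
  refine Nat.card_le_card_of_injective (fun z => ⟨z.1.1, fun σ => ?_⟩) ?_
  · have h : Th ρ AN r k z.1 = 0 := z.2
    have h1 := congrFun (congrArg Prod.fst h) σ
    exact sub_eq_zero.1 h1
  · intro z z' h
    have h0 : z.1.1 = z'.1.1 := congrArg Subtype.val h
    have h1 : z.1.1 + (z.1.2 : Gk Λ r k) = 0 := congrArg Prod.snd (show Th ρ AN r k z.1 = 0 from z.2)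
    have h2 : z'.1.1 + (z'.1.2 : Gk Λ r k) = 0 :=
      congrArg Prod.snd (show Th ρ AN r k z'.1 = 0 from z'.2)
    have h3 : (z.1.2 : Gk Λ r k) = z'.1.2 := by
      rw [h0] at h1
      exact add_left_cancel (h1.trans h2.symm)
    exact Subtype.ext (Prod.ext h0 (Subtype.ext h3))

theorem card_range_Th : Nat.card (Th ρ AN r k).range * Nat.card (Th ρ AN r k).ker =
    Nat.card (Gk Λ r k) * Nat.card (Tk ρ AN r k) := by
  have h1 := AddSubgroup.card_mul_index (Th ρ AN r k).ker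
  rw [AddSubgroup.index_ker, Nat.card_prod] at h1
  rw [mul_comm]
  exact h1

/-- the key inequality -/
theorem exists_index {Z : AddSubgroup ((GQ → Gk Λ r k) × Gk Λ r k)} {C : ℕ}
    (hZ : ∀ Y : AddSubgroup ((GQ → Gk Λ r k) × Gk Λ r k), Y ≤ Z → Nat.card Y ≤ C)
    (hTh : (Th ρ AN r k).range ≤ Z) {z : (GQ → Gk Λ r k) × Gk Λ r k} (hz : z ∈ Z)
    (hz' : r ^ k • z = 0) :
    ∃ n : ℕ, n ≠ 0 ∧ n • z ∈ (Th ρ AN r k).range ∧
      n * (Nat.card (Gk Λ r k) * Nat.card (Tk ρ AN r k)) ≤ C * Nat.card (Hk ρ r k) := by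
  let Y' := (Th ρ AN r k).range
  let Y := Y' ⊔ AddSubgroup.zmultiples z
  have hfin : Finite Y := by
    haveI h1 : Finite (AddSubgroup.zmultiples z) := by
      exact (isOfFinAddOrder_iff_nsmul_eq_zero.2 ⟨r ^ k, pow_pos hr.out.pos k, hz'⟩).finite_zmultiples
    haveI h2 : Finite Y' := Finite.of_surjective (Th ρ AN r k).rangeRestrict
      (Th ρ AN r k).rangeRestrict_surjective
    have h3 : ∀ y : Y, ∃ w : Y' × AddSubgroup.zmultiples z,
        (w.1 : (GQ → Gk Λ r k) × Gk Λ r k) + (w.2 : (GQ → Gk Λ r k) × Gk Λ r k) =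
          (y : (GQ → Gk Λ r k) × Gk Λ r k) := by
      rintro ⟨y, hy⟩
      obtain ⟨a, ha, b, hb, h⟩ := AddSubgroup.mem_sup.1 hy
      exact ⟨⟨⟨a, ha⟩, ⟨b, hb⟩⟩, h⟩
    choose f hf using h3
    refine Finite.of_injective f fun y y' h => ?_
    apply Subtype.ext
    rw [← hf y, ← hf y', h]
  have hYZ : Y ≤ Z := sup_le hTh (by rwa [AddSubgroup.zmultiples_le])
  let K := Y'.addSubgroupOf Y
  have hK : Nat.card K = Nat.card Y' :=
    Nat.card_congr (AddSubgroup.addSubgroupOfEquivOfLe (le_sup_left)).toEquiv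
  have hz1 : z ∈ Y := (le_sup_right (a := Y')) (AddSubgroup.mem_zmultiples z)
  refine ⟨K.index, AddSubgroup.index_ne_zero_of_finite, ?_, ?_⟩
  · have h1 : K.index • (⟨z, hz1⟩ : Y) ∈ K := AddSubgroup.nsmul_index_mem K _
    rw [AddSubgroup.mem_addSubgroupOf] at h1
    exact h1
  · calc K.index * (Nat.card (Gk Λ r k) * Nat.card (Tk ρ AN r k))
        = (Nat.card K * K.index) * Nat.card (Th ρ AN r k).ker := by
          rw [← card_range_Th, hK]
          change K.index * (Nat.card Y' * _) = _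
          ring
      _ = Nat.card Y * Nat.card (Th ρ AN r k).ker := by rw [AddSubgroup.card_mul_index]
      _ ≤ C * Nat.card (Hk ρ r k) := Nat.mul_le_mul (hZ Y hYZ) card_ker_Th

theorem card_Hk_le {σ₀ : GQ} {S : Module.End O Λ} {a : O} (hS : S * (ρ σ₀ - 1) = a • 1) {m : ℕ}
    {s : O} (hs : (r : O) ^ m = a * s) [Finite (Gk Λ r m)] :
    Nat.card (Hk ρ r k) ≤ Nat.card (Gk Λ r m) := by
  -- `Hk` is killed by `r ^ m`
  let M : Gk Λ r k →+ Gk Λ r k := nsmulAddMonoidHom (r ^ m)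
  have h1 : Hk ρ r k ≤ M.ker := by
    intro g hg
    obtain ⟨g, rfl⟩ := QuotientAddGroup.mk_surjective g
    rw [AddMonoidHom.mem_ker]
    change r ^ m • (g : Gk Λ r k) = 0
    have h2 := hg σ₀
    rw [rk_mk, mk_eq_mk] at h2
    obtain ⟨y, hy⟩ := h2
    rw [← QuotientAddGroup.mk_nsmul, mk_eq_zero]
    refine ⟨s • S y, ?_⟩
    have h3 : S (ρ σ₀ g - g) = a • g := by
      have := LinearMap.congr_fun hS g
      exact this
    rw [hy, map_nsmul] at h3
    have h4 : (r ^ m : ℕ) • g = s • (a • g) := by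
      rw [smul_smul, mul_comm, ← hs, ← Nat.cast_smul_eq_nsmul O, Nat.cast_pow]
    rw [h4, ← h3, smul_comm]
  have h2 : Nat.card M.ker = M.range.index := by
    have e1 := AddSubgroup.card_mul_index M.ker
    have e2 := AddSubgroup.card_mul_index M.range
    rw [AddSubgroup.index_ker] at e1
    have h3 : 0 < Nat.card M.range := Nat.card_pos
    apply Nat.eq_of_mul_eq_mul_right h3
    rw [e1, ← e2, mul_comm]
  have h3 : M.range.index ≤ Nat.card (Gk Λ r m) := by
    let f : Gk Λ r m →+ Gk Λ r k ⧸ M.range := QuotientAddGroup.lift (pw Λ r m)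
      ((QuotientAddGroup.mk' M.range).comp (QuotientAddGroup.mk' (pw Λ r k))) (by
        intro x hx
        obtain ⟨y, rfl⟩ := mem_pw.1 hx
        rw [AddMonoidHom.mem_ker]
        refine (QuotientAddGroup.eq_zero_iff _).2 ⟨(y : Gk Λ r k), ?_⟩
        change r ^ m • (y : Gk Λ r k) = ((r ^ m • y : Λ) : Gk Λ r k)
        rw [QuotientAddGroup.mk_nsmul])
    refine Nat.card_le_card_of_surjective f ?_
    intro y
    obtain ⟨y, rfl⟩ := QuotientAddGroup.mk_surjective y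
    obtain ⟨y, rfl⟩ := QuotientAddGroup.mk_surjective y
    exact ⟨(y : Gk Λ r m), rfl⟩
  calc Nat.card (Hk ρ r k) ≤ Nat.card M.ker := AddSubgroup.card_le_of_le h1
    _ = M.range.index := h2
    _ ≤ _ := h3

end card

/-- the subgroup of all `IsZ` pairs -/
theorem range_Th_le (hO : IsO r O) (hL : IsL r N A AN ρ e) (hA : A.LiesOverPrime r) {k : ℕ} :
    (Th ρ AN r k).range ≤ ZF N hA AN (rk ρ r k) (G0k e r k) ⊤ := by
  rintro _ ⟨⟨g, t⟩, rfl⟩
  refine ⟨?_, fun _ => trivial, trivial⟩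
  obtain ⟨g, rfl⟩ := QuotientAddGroup.mk_surjective g
  have h1 := hL.isZ hO hA (hL.cob g) (k := k) (b := (g : Gk Λ r k) + t) (fun σ hσ => by
    have ht : rk ρ r k σ (t : Gk Λ r k) = t := t.2 σ hσ
    rw [map_add, rk_mk, ht, QuotientAddGroup.mk_sub]
    abel)
  exact h1

theorem count' (hAN : AN.LiesOverPrime N) (hrN : r ≠ N) (hO : IsO r O) (hL : IsL r N A AN ρ e)
    (hA : A.LiesOverPrime r) {k : ℕ} (hk : k ≠ 0)
    (Y : AddSubgroup ((GQ → Gk Λ r k) × Gk Λ r k))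
    (hY : Y ≤ ZF N hA AN (rk ρ r k) (G0k e r k) ⊤) :
    Nat.card Y ≤ Nat.card (Gk Λ r k) * Qk O r k := by
  haveI := finite_Gk hO e k
  rw [← card_G0k e k]
  exact count hAN hrN (hL.isG hk) Y fun z hz => (hY hz).1

theorem Qk_pos (hO : IsO r O) (k : ℕ) : 0 < Qk O r k := by
  haveI : Finite (O ⧸ pw O r k) := hO.fin k
  exact Nat.card_pos

/-- `O / r ^ k` is large -/
theorem le_Qk (hO : IsO r O) (k : ℕ) : k ≤ Qk O r k := by
  haveI : Finite (O ⧸ pw O r k) := hO.fin k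
  have h1 : Function.Injective (fun i : Fin k => (((r : O) ^ (i : ℕ) : O) : O ⧸ pw O r k)) := by
    have key : ∀ i j : ℕ, i < j → j < k → (((r : O) ^ i : O) : O ⧸ pw O r k) ≠
        (((r : O) ^ j : O) : O ⧸ pw O r k) := by
      intro i j hij hjk h
      rw [← sub_eq_zero, ← QuotientAddGroup.mk_sub, QuotientAddGroup.eq_zero_iff, mem_pw] at h
      obtain ⟨y, hy⟩ := h
      obtain ⟨d, rfl⟩ := Nat.exists_eq_add_of_lt hij
      obtain ⟨d', rfl⟩ := Nat.exists_eq_add_of_lt hjk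
      apply hO.nunit
      have h2 : (r : O) ^ i * (1 - (r : O) ^ (d + 1)) =
          (r : O) ^ i * ((r : O) * ((r : O) ^ (d + 1 + d') * y)) := by
        rw [nsmul_eq_mul] at hy
        push_cast at hy
        linear_combination hy
      have h3 := mul_left_cancel₀ (pow_ne_zero i hO.ne_zero) h2
      rw [isUnit_iff_exists_inv]
      refine ⟨(r : O) ^ d + (r : O) ^ (d + 1 + d') * y, ?_⟩
      linear_combination -h3
    intro i j h
    rcases lt_trichotomy (i : ℕ) (j : ℕ) with h2 | h2 | h2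
    · exact absurd h (key _ _ h2 j.2)
    · exact Fin.ext h2
    · exact absurd h.symm (key _ _ h2 i.2)
  have := Nat.card_le_card_of_injective _ h1
  rwa [Nat.card_eq_fintype_card, Fintype.card_fin] at this

/-- **The representation is ramified at `N`.** -/
theorem IsL.ramified (hAN : AN.LiesOverPrime N) (hrN : r ≠ N) (hO : IsO r O)
    (hL : IsL r N A AN ρ e) (hA : A.LiesOverPrime r) :
    ∃ σ ∈ AN.inertiaSubgroupIn ℚ, ρ σ ≠ 1 := by
  by_contra hcon
  push Not at hcon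
  obtain ⟨σ₀, S, a, ha0, hS⟩ := hL.inj
  obtain ⟨m, s, hs⟩ := hO.dvd a ha0
  haveI := finite_Gk hO e m
  set B := Nat.card (Gk Λ r m) with hB
  let k := B + 1
  haveI := finite_Gk hO e k
  obtain ⟨n, hn0, -, hn⟩ := exists_index (ρ := ρ) (AN := AN) (k := k)
    (count' hAN hrN hO hL hA (k := k) (Nat.succ_ne_zero _))
    (range_Th_le hO hL hA) (zero_mem _) (smul_zero _)
  have h1 : Tk ρ AN r k = ⊤ := by
    rw [eq_top_iff]
    intro x _ σ hσ
    obtain ⟨x, rfl⟩ := QuotientAddGroup.mk_surjective x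
    rw [rk_mk, hcon σ hσ]
    rfl
  rw [h1, AddSubgroup.card_top] at hn
  have h2 := card_Hk_le (k := k) hS hs
  have h3 : Nat.card (Gk Λ r k) = Qk O r k * Qk O r k := card_Gk e k
  have h4 : 0 < Nat.card (Gk Λ r k) := Nat.card_pos
  have h5 := le_Qk hO k
  have h6 : Nat.card (Gk Λ r k) * Nat.card (Gk Λ r k) ≤
      Nat.card (Gk Λ r k) * (Qk O r k * B) := by
    calc Nat.card (Gk Λ r k) * Nat.card (Gk Λ r k)
        ≤ n * (Nat.card (Gk Λ r k) * Nat.card (Gk Λ r k)) :=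
          Nat.le_mul_of_pos_left _ (Nat.pos_of_ne_zero hn0)
      _ ≤ Nat.card (Gk Λ r k) * Qk O r k * Nat.card (Hk ρ r k) := hn
      _ ≤ Nat.card (Gk Λ r k) * Qk O r k * B := Nat.mul_le_mul_left _ h2
      _ = _ := by ring
  have h7 := Nat.le_of_mul_le_mul_left h6 h4
  rw [h3] at h7
  have h8 := Nat.le_of_mul_le_mul_left h7 (Qk_pos hO k)
  have : k ≤ B := h5.trans h8
  omega

/-- **The descent, for cocycles which are coboundaries on inertia at `N`.** -/
theorem IsL.descent' (hAN : AN.LiesOverPrime N) (hrN : r ≠ N) (hO : IsO r O)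
    (hL : IsL r N A AN ρ e) (hA : A.LiesOverPrime r)
    {v : Λ} {p : Λ →ₗ[O] O} (hpv : p v = 1) (hv : ∀ σ ∈ AN.inertiaSubgroupIn ℚ, ρ σ v = v)
    {c : GQ → Λ} (hc : IsK r N A ρ e c) {b : Λ}
    (hb : ∀ σ ∈ AN.inertiaSubgroupIn ℚ, c σ = ρ σ b - b) :
    ∃ (C : O) (l : Λ), C ≠ 0 ∧ ∀ σ, C • c σ = ρ σ l - l := by
  obtain ⟨σ₀, S, a, ha0, hS⟩ := hL.inj
  obtain ⟨m, s, hs⟩ := hO.dvd a ha0
  haveI := finite_Gk hO e m
  set B := Nat.card (Gk Λ r m) with hB
  have hr0 : ((B.factorial : ℕ) : O) ≠ 0 := hO.cz _ (Nat.factorial_ne_zero B)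
  refine ⟨a * (B.factorial : ℕ), S ((B.factorial : ℕ) • c σ₀), mul_ne_zero ha0 hr0, fun σ => ?_⟩
  have key : ∀ k : ℕ, k ≠ 0 → ∃ y, (a * (B.factorial : ℕ) : O) • c σ -
      (ρ σ (S ((B.factorial : ℕ) • c σ₀)) - S ((B.factorial : ℕ) • c σ₀)) = r ^ k • y := by
    intro k hk
    haveI := finite_Gk hO e k
    have hz : ((fun σ => ((c σ : Λ) : Gk Λ r k)), (b : Gk Λ r k)) ∈
        ZF N hA AN (rk ρ r k) (G0k e r k) ⊤ := by
      refine ⟨?_, fun _ => trivial, trivial⟩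
      exact hL.isZ hO hA hc (fun τ hτ => by rw [hb τ hτ, rk_mk, QuotientAddGroup.mk_sub])
    obtain ⟨n, hn0, hn1, hn⟩ := exists_index (ρ := ρ) (AN := AN) (k := k)
      (count' hAN hrN hO hL hA hk) (range_Th_le hO hL hA) hz (by
        refine Prod.ext (funext fun τ => ?_) ?_
        · change r ^ k • ((c τ : Λ) : Gk Λ r k) = 0
          rw [← QuotientAddGroup.mk_nsmul]
          exact mk_eq_zero.2 ⟨_, rfl⟩
        · change r ^ k • ((b : Λ) : Gk Λ r k) = 0
          rw [← QuotientAddGroup.mk_nsmul]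
          exact mk_eq_zero.2 ⟨_, rfl⟩)
    have h2 := card_Hk_le (k := k) hS hs
    have h3 : Qk O r k ≤ Nat.card (Tk ρ AN r k) := by
      rw [← card_line (r := r) (k := k) hpv]
      refine AddSubgroup.card_le_of_le ?_
      rintro _ ⟨x, rfl⟩ τ hτ
      rw [lineHom_apply, rk_mk, map_smul, hv τ hτ]
    have h4 : 0 < Nat.card (Gk Λ r k) := Nat.card_pos
    have h5 : n ≤ B := by
      have h6 : (Nat.card (Gk Λ r k) * Qk O r k) * n ≤ (Nat.card (Gk Λ r k) * Qk O r k) * B := by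
        calc (Nat.card (Gk Λ r k) * Qk O r k) * n ≤
            (Nat.card (Gk Λ r k) * Nat.card (Tk ρ AN r k)) * n :=
              Nat.mul_le_mul_right _ (Nat.mul_le_mul_left _ h3)
          _ = n * (Nat.card (Gk Λ r k) * Nat.card (Tk ρ AN r k)) := mul_comm _ _
          _ ≤ Nat.card (Gk Λ r k) * Qk O r k * Nat.card (Hk ρ r k) := hn
          _ ≤ _ := Nat.mul_le_mul_left _ h2
      exact Nat.le_of_mul_le_mul_left h6 (Nat.mul_pos h4 (Qk_pos hO k))
    obtain ⟨d, hd⟩ : n ∣ B.factorial := Nat.dvd_factorial (Nat.pos_of_ne_zero hn0) h5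
    obtain ⟨⟨g, t⟩, hg⟩ := nsmul_mem hn1 d
    rw [smul_smul, mul_comm, ← hd] at hg
    obtain ⟨g, rfl⟩ := QuotientAddGroup.mk_surjective g
    have h7 : ∀ τ, ∃ y, (ρ τ g - g) - B.factorial • c τ = r ^ k • y := by
      intro τ
      have h8 := congrFun (congrArg Prod.fst hg) τ
      change rk ρ r k τ (g : Gk Λ r k) - (g : Gk Λ r k) = B.factorial • ((c τ : Λ) : Gk Λ r k) at h8
      rw [rk_mk, ← QuotientAddGroup.mk_sub, ← QuotientAddGroup.mk_nsmul, mk_eq_mk] at h8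
      exact h8
    obtain ⟨y, hy⟩ := h7 σ
    obtain ⟨y₀, hy₀⟩ := h7 σ₀
    have h9 : S ((B.factorial : ℕ) • c σ₀) = a • g - r ^ k • S y₀ := by
      have e1 : (B.factorial : ℕ) • c σ₀ = (ρ σ₀ g - g) - r ^ k • y₀ := by rw [← hy₀]; abel
      have e2 : S (ρ σ₀ g - g) = a • g := LinearMap.congr_fun hS g
      rw [e1, map_sub, e2, map_nsmul]
    refine ⟨ρ σ (S y₀) - S y₀ - a • y, ?_⟩
    have e3 : (a * (B.factorial : ℕ) : O) • c σ = a • ((B.factorial : ℕ) • c σ) := by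
      rw [mul_smul, Nat.cast_smul_eq_nsmul]
    have e4 : (B.factorial : ℕ) • c σ = (ρ σ g - g) - r ^ k • y := by rw [← hy]; abel
    rw [e3, h9, e4, smul_sub, smul_sub, smul_sub, smul_sub, map_sub, map_smul, map_nsmul,
      smul_comm a (r ^ k)]
    abel
  -- conclusion
  rw [← sub_eq_zero]
  apply e.ext_elem
  intro i
  rw [map_zero, Finsupp.zero_apply]
  apply hO.sep
  intro k
  obtain ⟨y, hy⟩ := key (k + 1) (Nat.succ_ne_zero k)
  rw [hy]
  refine ⟨(r : O) * e.repr y i, ?_⟩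
  rw [map_nsmul, Finsupp.smul_apply, nsmul_eq_mul]
  push_cast
  ring

end Fermat.Agent.MazD
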