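import Mathlib

/-!
# Dévissage for cocycles killed by powers of commuting operators
-/

set_option autoImplicit false
set_option linter.unusedSectionVars false
set_option linter.style.haveILetI false

noncomputable section

namespace Fermat.Agent.MazD

open Polynomial

variable {G : Type*} [Group G] {O V : Type*} [CommRing O] [IsDomain O] [AddCommGroup V] [Module O V]
  (ρ : G →* Module.End O V)

/-- torsion modulo coboundaries -/
def Bdt : Submodule O (G → V) where
  carrier := {c | ∃ C : O, C ≠ 0 ∧ ∃ l, ∀ σ, C • c σ = ρ σ l - l}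
  add_mem' := by
    rintro c c' ⟨C, hC, l, hl⟩ ⟨C', hC', l', hl'⟩
    refine ⟨C * C', mul_ne_zero hC hC', C' • l + C • l', fun σ => ?_⟩
    rw [Pi.add_apply, map_add, map_smul, map_smul, smul_add, mul_comm, mul_smul, hl, mul_comm,
      mul_smul, hl']
    module
  zero_mem' := ⟨1, one_ne_zero, 0, fun σ => by simp⟩
  smul_mem' := by
    rintro a c ⟨C, hC, l, hl⟩
    refine ⟨C, hC, a • l, fun σ => ?_⟩
    rw [Pi.smul_apply, map_smul, smul_comm, hl, smul_sub]

theorem mem_Bdt {c : G → V} : c ∈ Bdt ρ ↔ ∃ C : O, C ≠ 0 ∧ ∃ l, ∀ σ, C • c σ = ρ σ l - l := Iff.rfl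

variable {ρ}

theorem Bdt_sat {a : O} {c : G → V} (ha : a ≠ 0) (h : a • c ∈ Bdt ρ) : c ∈ Bdt ρ := by
  obtain ⟨C, hC, l, hl⟩ := h
  refine ⟨C * a, mul_ne_zero hC ha, l, fun σ => ?_⟩
  rw [mul_smul, ← hl]
  rfl

theorem Bdt_map {T : Module.End O V} (hT : ∀ σ, Commute T (ρ σ)) {c : G → V} (h : c ∈ Bdt ρ) :
    (fun σ => T (c σ)) ∈ Bdt ρ := by
  obtain ⟨C, hC, l, hl⟩ := h
  refine ⟨C, hC, T l, fun σ => ?_⟩
  rw [← map_smul, hl, map_sub]
  exact congrArg (· - T l) (LinearMap.congr_fun (hT σ).eq l)

theorem commute_aeval {T U : Module.End O V} (h : Commute T U) (p : O[X]) :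
    Commute (aeval T p) U := by
  induction p using Polynomial.induction_on' with
  | add p q hp hq => rw [map_add]; exact hp.add_left hq
  | monomial n a =>
    rw [aeval_monomial]
    exact Commute.mul_left (show Commute (algebraMap O _ a) U from Algebra.commutes a U)
      (h.pow_left n)

theorem Bdt_aeval {T : Module.End O V} (hT : ∀ σ, Commute T (ρ σ)) {a : O} {c : G → V}
    (h : (fun σ => T (c σ) - a • c σ) ∈ Bdt ρ) (p : O[X]) :
    (fun σ => (aeval T p) (c σ) - p.eval a • c σ) ∈ Bdt ρ := by
  obtain ⟨g, hg⟩ := X_sub_C_dvd_sub_C_eval (p := p) (a := a)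
  have h1 : ∀ σ, (aeval T p) (c σ) - p.eval a • c σ = (aeval T g) (T (c σ) - a • c σ) := by
    intro σ
    have h2 := congrArg (fun P => (aeval T P) (c σ)) hg
    simp only [map_sub, aeval_C, mul_comm (X - C a) g, map_mul, aeval_X] at h2
    exact h2
  rw [funext h1]
  exact Bdt_map (fun σ => commute_aeval (hT σ) g) h

/-- **Dévissage.** -/
theorem dev {α : Type*} [DecidableEq α] (Q : Finset α) (D : α → Module.End O V)
    (hD : ∀ q σ, Commute (D q) (ρ σ)) (hDD : ∀ q q', Commute (D q) (D q')) (σ₀ : G)
    (S : Module.End O V) (b : O) (hb : b ≠ 0) (hS : S * (ρ σ₀ - 1) = b • 1)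
    (hSD : ∀ q, Commute S (D q)) (P : Submodule O (G → V))
    (hP1 : ∀ c ∈ P, ∀ q, (fun σ => D q (c σ)) ∈ P) (hP2 : ∀ l : V, (fun σ => ρ σ l - l) ∈ P)
    (base : ∀ c ∈ P, (∀ q ∈ Q, ∀ σ, D q (c σ) = 0) → c ∈ Bdt ρ) :
    ∀ (n : ℕ) (a : α → ℕ), (∑ q ∈ Q, a q ≤ n) → ∀ c ∈ P,
      (∀ q ∈ Q, ∀ σ, (D q ^ a q) (c σ) = 0) → c ∈ Bdt ρ := by
  intro n
  induction n with
  | zero =>
    intro a ha c hc h
    refine base c hc fun q hq σ => ?_
    have h1 : a q = 0 := by
      have := Finset.sum_eq_zero_iff.1 (Nat.le_zero.1 ha) q hq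
      exact this
    have h2 := h q hq σ
    rw [h1, pow_zero, Module.End.one_apply] at h2
    rw [h2, map_zero]
  | succ n ih =>
    intro a ha c hc h
    by_cases hall : ∀ q ∈ Q, a q ≤ 1
    · refine base c hc fun q hq σ => ?_
      have h1 := h q hq σ
      have h2 := hall q hq
      interval_cases h3 : a q
      · rw [pow_zero, Module.End.one_apply] at h1
        rw [h1, map_zero]
      · rwa [pow_one] at h1
    push Not at hall
    obtain ⟨q, hq, haq⟩ := hall
    have hPpow : ∀ (m : ℕ) (c : G → V), c ∈ P → (fun σ => (D q ^ m) (c σ)) ∈ P := by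
      intro m
      induction m with
      | zero => intro c hc; exact hc
      | succ m ihm =>
        intro c hc
        have h1 := ihm _ (hP1 c hc q)
        have h2 : (fun σ => (D q ^ (m + 1)) (c σ)) = fun σ => (D q ^ m) (D q (c σ)) := by
          funext σ
          rw [pow_succ, Module.End.mul_apply]
        rw [h2]
        exact h1
    have hsum : ∀ b : ℕ, b < a q → ∑ q' ∈ Q, (Function.update a q b) q' ≤ n := by
      intro b hb
      have h1 : ∑ q' ∈ Q, (Function.update a q b) q' < ∑ q' ∈ Q, a q' := by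
        refine Finset.sum_lt_sum (fun i _ => ?_) ⟨q, hq, ?_⟩
        · by_cases hiq : i = q
          · subst hiq; rw [Function.update_self]; exact hb.le
          · rw [Function.update_of_ne hiq]
        · rw [Function.update_self]; exact hb
      omega
    have hcomm : ∀ (q' : α) (m m' : ℕ) (x : V), (D q' ^ m) ((D q ^ m') x) =
        (D q ^ m') ((D q' ^ m) x) := fun q' m m' x => by
      rw [← Module.End.mul_apply, ← Module.End.mul_apply, ((hDD q' q).pow_pow m m').eq]
    -- the derived cocycle
    have h1 := ih (Function.update a q 1) (hsum 1 haq) _ (hPpow (a q - 1) c hc)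
      fun q' hq' σ => by
        by_cases hqq : q' = q
        · subst hqq
          rw [Function.update_self, pow_one, ← Module.End.mul_apply, ← pow_succ',
            Nat.sub_add_cancel (by omega)]
          exact h q' hq' σ
        · rw [Function.update_of_ne hqq, hcomm, h q' hq' σ, map_zero]
    obtain ⟨C, hC, l, hl⟩ := h1
    set l' : V := C • S (c σ₀) with hl'
    have hSpow : ∀ (q' : α) (m : ℕ) (x : V), (D q' ^ m) (S x) = S ((D q' ^ m) x) :=
      fun q' m x => by
        rw [← Module.End.mul_apply, ← Module.End.mul_apply, ((hSD q').pow_right m).eq]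
    have hρpow : ∀ (q' : α) (m : ℕ) (σ : G) (x : V), (D q' ^ m) (ρ σ x) = ρ σ ((D q' ^ m) x) :=
      fun q' m σ x => by
        rw [← Module.End.mul_apply, ← Module.End.mul_apply, ((hD q' σ).pow_left m).eq]
    have h2 : b • l = (D q ^ (a q - 1)) l' := by
      have h3 : S (ρ σ₀ l - l) = b • l := by
        have := LinearMap.congr_fun hS l
        exact this
      rw [← h3, ← hl, map_smul, hl', map_smul, hSpow]
    have h4 := ih (Function.update a q (a q - 1)) (hsum _ (by omega))
      ((b * C) • c - fun σ => ρ σ l' - l') (sub_mem (P.smul_mem _ hc) (hP2 l')) fun q' hq' σ => by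
        rw [Pi.sub_apply, Pi.smul_apply, map_sub, map_sub, map_smul, hρpow]
        by_cases hqq : q' = q
        · subst hqq
          have h7 : C • (D q' ^ (a q' - 1)) (c σ) = ρ σ l - l := hl σ
          rw [Function.update_self, ← h2, mul_smul, h7, map_smul, smul_sub, sub_self]
        · rw [Function.update_of_ne hqq, h q' hq' σ, hl', map_smul, hSpow, h q' hq' σ₀, map_zero,
            smul_zero, smul_zero, map_zero, sub_self, sub_self]
    have h5 : (fun σ => ρ σ l' - l') ∈ Bdt ρ := ⟨1, one_ne_zero, l', fun σ => one_smul _ _⟩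
    have h6 := add_mem h4 h5
    rw [sub_add_cancel] at h6
    exact Bdt_sat (mul_ne_zero hb hC) h6

/-- finitely many operators suffice -/
theorem exists_finset_ker [IsNoetherianRing O] [Module.Free O V] [Module.Finite O V] {α : Type*}
    (D : α → Module.End O V) :
    ∃ Q : Finset α, ∀ x : V, (∀ q ∈ Q, D q x = 0) → ∀ q, D q x = 0 := by
  classical
  have hfg : (Submodule.span O (Set.range D)).FG := IsNoetherian.noetherian _
  rw [Submodule.fg_span_iff_fg_span_finset_subset] at hfg
  obtain ⟨s, hs1, hs2⟩ := hfg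
  choose g hg using fun x : s => hs1 x.2
  refine ⟨Finset.univ.image g, fun x hx q => ?_⟩
  have h1 : D q ∈ Submodule.span O (s : Set (Module.End O V)) := by
    rw [← hs2]
    exact Submodule.subset_span ⟨q, rfl⟩
  have h2 : Submodule.span O (s : Set (Module.End O V)) ≤
      LinearMap.ker (LinearMap.applyₗ (R := O) (M₂ := V) x) := by
    rw [Submodule.span_le]
    intro f hf
    have h3 := hx (g ⟨f, hf⟩) (Finset.mem_image_of_mem g (Finset.mem_univ _))
    rw [hg] at h3
    exact h3
  exact h2 h1

/-- **Projection to generalized eigenspaces.** -/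
theorem mem_Bdt_of [IsNoetherianRing O] [Module.Free O V] [Module.Finite O V] {α : Type*}
    (T : α → Module.End O V) (χ : α → O)
    (hT : ∀ q σ, Commute (T q) (ρ σ)) (hTT : ∀ q q', Commute (T q) (T q')) (σ₀ : G)
    (S : Module.End O V) (b : O) (hb : b ≠ 0) (hS : S * (ρ σ₀ - 1) = b • 1)
    (hST : ∀ q, Commute S (T q)) (P : Submodule O (G → V))
    (hP1 : ∀ c ∈ P, ∀ q, (fun σ => T q (c σ)) ∈ P) (hP2 : ∀ l : V, (fun σ => ρ σ l - l) ∈ P)
    (base : ∀ c ∈ P, (∀ q σ, T q (c σ) = χ q • c σ) → c ∈ Bdt ρ) {c : G → V} (hc : c ∈ P)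
    (h : ∀ q, (fun σ => T q (c σ) - χ q • c σ) ∈ Bdt ρ) : c ∈ Bdt ρ := by
  classical
  let D : α → Module.End O V := fun q => T q - algebraMap O _ (χ q)
  have hDa : ∀ q x, D q x = T q x - χ q • x := fun _ _ => rfl
  have hDp : ∀ q, D q = aeval (T q) (X - C (χ q)) := fun q => by
    simp only [map_sub, aeval_X, aeval_C]
    rfl
  obtain ⟨Q, hQ⟩ := exists_finset_ker D
  have hPaeval : ∀ (q : α) (p : O[X]) (c : G → V), c ∈ P → (fun σ => (aeval (T q) p) (c σ)) ∈ P := by
    intro q p
    induction p using Polynomial.induction_on' with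
    | add p p' hp hp' =>
      intro c hc
      have : (fun σ => (aeval (T q) (p + p')) (c σ)) = (fun σ => (aeval (T q) p) (c σ)) +
          fun σ => (aeval (T q) p') (c σ) := by
        funext σ
        rw [map_add]; rfl
      rw [this]
      exact add_mem (hp c hc) (hp' c hc)
    | monomial n a =>
      intro c hc
      have h1 : ∀ n : ℕ, ∀ c : G → V, c ∈ P → (fun σ => (T q ^ n) (c σ)) ∈ P := by
        intro n
        induction n with
        | zero => intro c hc; exact hc
        | succ n ihn =>
          intro c hc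
          have h2 : (fun σ => (T q ^ (n + 1)) (c σ)) = fun σ => (T q ^ n) (T q (c σ)) := by
            funext σ
            rw [pow_succ, Module.End.mul_apply]
          rw [h2]
          exact ihn _ (hP1 c hc q)
      have : (fun σ => (aeval (T q) (monomial n a)) (c σ)) = a • fun σ => (T q ^ n) (c σ) := by
        funext σ
        rw [aeval_monomial]
        rfl
      rw [this]
      exact P.smul_mem _ (h1 n c hc)
  have key : ∀ Q' : Finset α, ∃ (a : α → ℕ) (d : O) (c₁ : G → V), d ≠ 0 ∧ c₁ ∈ P ∧
      c₁ - d • c ∈ Bdt ρ ∧ ∀ q ∈ Q', ∀ σ, (D q ^ a q) (c₁ σ) = 0 := by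
    intro Q'
    induction Q' using Finset.induction_on with
    | empty =>
      exact ⟨fun _ => 0, 1, c, one_ne_zero, hc, by rw [one_smul, sub_self]; exact zero_mem _,
        fun q hq => absurd hq (Finset.notMem_empty q)⟩
    | insert q Q' hqQ' ih =>
      obtain ⟨a, d, c₁, hd, hc₁, hd', ha⟩ := ih
      obtain ⟨g, hg1, hg2⟩ := exists_eq_pow_rootMultiplicity_mul_and_not_dvd
        (LinearMap.charpoly (T q)) (LinearMap.charpoly_monic _).ne_zero (χ q)
      set m := rootMultiplicity (χ q) (LinearMap.charpoly (T q)) with hm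
      have hg0 : g.eval (χ q) ≠ 0 := fun h0 => hg2 (dvd_iff_isRoot.2 h0)
      refine ⟨Function.update a q m, g.eval (χ q) * d, fun σ => (aeval (T q) g) (c₁ σ),
        mul_ne_zero hg0 hd, hPaeval q g c₁ hc₁, ?_, ?_⟩
      · have h1 : (fun σ => T q (c₁ σ) - χ q • c₁ σ) ∈ Bdt ρ := by
          have e1 : (fun σ => T q (c₁ σ) - χ q • c₁ σ) =
              (fun σ => T q ((c₁ - d • c) σ)) - χ q • (c₁ - d • c) +
                d • fun σ => T q (c σ) - χ q • c σ := by
            funext σ
            simp only [Pi.add_apply, Pi.sub_apply, Pi.smul_apply, map_sub, map_smul]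
            module
          rw [e1]
          exact add_mem (sub_mem (Bdt_map (hT q) hd') (Submodule.smul_mem _ _ hd'))
            (Submodule.smul_mem _ _ (h q))
        have h2 := Bdt_aeval (hT q) h1 g
        have e2 : (fun σ => (aeval (T q) g) (c₁ σ)) - (g.eval (χ q) * d) • c =
            (fun σ => (aeval (T q) g) (c₁ σ) - g.eval (χ q) • c₁ σ) +
              g.eval (χ q) • (c₁ - d • c) := by
          funext σ
          simp only [Pi.add_apply, Pi.sub_apply, Pi.smul_apply]
          module
        rw [e2]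
        exact add_mem h2 (Submodule.smul_mem _ _ hd')
      · intro q' hq' σ
        by_cases hqq : q' = q
        · subst hqq
          rw [Function.update_self, hDp, ← map_pow, ← Module.End.mul_apply, ← map_mul, ← hg1,
            LinearMap.aeval_self_charpoly]
          rfl
        · rw [Function.update_of_ne hqq]
          have hcm : Commute (D q') (T q) := by
            rw [hDp]
            exact commute_aeval (hTT q' q) _
          have h3 := (commute_aeval (hcm.symm.pow_right (a q')) g).eq
          rw [← Module.End.mul_apply, ← h3, Module.End.mul_apply,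
            ha q' ((Finset.mem_insert.1 hq').resolve_left hqq), map_zero]
  obtain ⟨a, d, c₁, hd, hc₁, hd', ha⟩ := key Q
  have hDD : ∀ q q', Commute (D q) (D q') := fun q q' => by
    rw [hDp, hDp q']
    exact commute_aeval (commute_aeval (hTT q' q) _).symm _
  have h1 := dev Q D (fun q σ => by rw [hDp]; exact commute_aeval (hT q σ) _) hDD σ₀ S b hb hS
    (fun q => by rw [hDp]; exact (commute_aeval (hST q).symm _).symm) P
    (fun c hc q => by rw [hDp]; exact hPaeval q _ c hc) hP2
    (fun c hc h => base c hc fun q σ => sub_eq_zero.1 (hQ (c σ) (fun q hq => h q hq σ) q))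
    _ a le_rfl c₁ hc₁ ha
  have h2 : d • c ∈ Bdt ρ := by
    have := sub_mem h1 hd'
    rwa [sub_sub_cancel] at this
  exact Bdt_sat hd h2

end Fermat.Agent.MazD
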