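import Fermat.Agent.MazD.Desc

/-!
# Cocycles at the multiplicative prime `N`; the descent
-/

set_option autoImplicit false
set_option linter.unusedSectionVars false
set_option linter.style.haveILetI false

noncomputable section

namespace Fermat.Agent.MazD

open Fermat.Agent.Places Fermat.Agent.RedMod Fermat.Agent.FlatRam Fermat.Agent.Flat
  Fermat.Agent.GalRep

local notation "Ω" => AlgebraicClosure ℚ

variable {r N : ℕ} [hr : Fact r.Prime] [hN : Fact N.Prime]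
  {A AN : ValuationSubring (AlgebraicClosure ℚ)}
  {O : Type*} [CommRing O] [IsDomain O] {Λ : Type*} [AddCommGroup Λ] [Module O Λ]
  {ρ : GQ →* Module.End O Λ} {e : Module.Basis (Fin 2) O Λ}

/-- a basis from two dual pairs -/
def mkBasis (v v' : Λ) (p q : Λ →ₗ[O] O) (h1 : p v = 1) (h2 : p v' = 0) (h3 : q v = 0)
    (h4 : q v' = 1) (h5 : ∀ x, x = p x • v + q x • v') : Module.Basis (Fin 2) O Λ :=
  Module.Basis.ofEquivFun
    { toFun := fun x => ![p x, q x]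
      map_add' := fun x y => by
        funext i; fin_cases i <;> simp
      map_smul' := fun a x => by
        funext i; fin_cases i <;> simp
      invFun := fun f => f 0 • v + f 1 • v'
      left_inv := fun x => by simpa using (h5 x).symm
      right_inv := fun f => by
        funext i; fin_cases i <;> simp [h1, h2, h3, h4] }

theorem mkBasis_zero (v v' : Λ) (p q : Λ →ₗ[O] O) (h1 : p v = 1) (h2 : p v' = 0) (h3 : q v = 0)
    (h4 : q v' = 1) (h5 : ∀ x, x = p x • v + q x • v') :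
    mkBasis v v' p q h1 h2 h3 h4 h5 0 = v := by
  simp [mkBasis]

/-- every nonzero vector is a multiple of a basis vector -/
theorem exists_basis_of_ne_zero (hO : IsO r O) (e : Module.Basis (Fin 2) O Λ) {w : Λ}
    (hw : w ≠ 0) : ∃ (e' : Module.Basis (Fin 2) O Λ) (d : O), d ≠ 0 ∧ w = d • e' 0 := by
  obtain ⟨c00, c10, c01, c11⟩ := coord_self e
  rcases hO.tot (e.coord 0 w) (e.coord 1 w) with ⟨t, ht⟩ | ⟨t, ht⟩
  · obtain ⟨e', h1⟩ : ∃ e' : Module.Basis (Fin 2) O Λ, e' 0 = e 0 + t • e 1 :=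
      ⟨_, mkBasis_zero (e 0 + t • e 1) (e 1) (e.coord 0) (e.coord 1 - t • e.coord 0)
        (by rw [map_add, map_smul, c00, c01, smul_zero, add_zero]) c01
        (by simp only [LinearMap.sub_apply, LinearMap.smul_apply, map_add, map_smul, c00, c01,
              c10, c11, smul_eq_mul]; ring)
        (by simp only [LinearMap.sub_apply, LinearMap.smul_apply, c01, c11, smul_eq_mul]; ring)
        (fun x => by
          conv_lhs => rw [basis_sum e x]
          simp only [LinearMap.sub_apply, LinearMap.smul_apply, smul_eq_mul]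
          module)⟩
    refine ⟨e', e.coord 0 w, ?_, ?_⟩
    · intro h0
      apply hw
      rw [basis_sum e w, ht, h0, zero_mul, zero_smul, zero_smul, add_zero]
    · rw [h1]
      conv_lhs => rw [basis_sum e w, ht]
      module
  · obtain ⟨e', h1⟩ : ∃ e' : Module.Basis (Fin 2) O Λ, e' 0 = e 1 + t • e 0 :=
      ⟨_, mkBasis_zero (e 1 + t • e 0) (e 0) (e.coord 1) (e.coord 0 - t • e.coord 1)
        (by rw [map_add, map_smul, c11, c10, smul_zero, add_zero]) c10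
        (by simp only [LinearMap.sub_apply, LinearMap.smul_apply, map_add, map_smul, c00, c01,
              c10, c11, smul_eq_mul]; ring)
        (by simp only [LinearMap.sub_apply, LinearMap.smul_apply, c00, c10, smul_eq_mul]; ring)
        (fun x => by
          conv_lhs => rw [basis_sum e x]
          simp only [LinearMap.sub_apply, LinearMap.smul_apply, smul_eq_mul]
          module)⟩
    refine ⟨e', e.coord 1 w, ?_, ?_⟩
    · intro h0
      apply hw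
      rw [basis_sum e w, ht, h0, zero_mul, zero_smul, zero_smul, add_zero]
    · rw [h1]
      conv_lhs => rw [basis_sum e w, ht]
      module

/-- the affine action at finite level -/
def aff {c : GQ → Λ} (hc : IsK r N A ρ e c) (k : ℕ) : GQ →* Function.End (Gk Λ r k) where
  toFun σ := fun x => rk ρ r k σ x + ((c σ : Λ) : Gk Λ r k)
  map_one' := by
    funext x
    have h0 : c 1 = 0 := by
      have := hc.coc 1 1
      rw [map_one, one_mul] at this
      exact left_eq_add.1 this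
    rw [h0, map_one]
    change x + ((0 : Λ) : Gk Λ r k) = x
    rw [QuotientAddGroup.mk_zero, add_zero]
  map_mul' σ τ := by
    funext x
    change rk ρ r k (σ * τ) x + ((c (σ * τ) : Λ) : Gk Λ r k) =
      rk ρ r k σ (rk ρ r k τ x + ((c τ : Λ) : Gk Λ r k)) + ((c σ : Λ) : Gk Λ r k)
    rw [map_mul, hc.coc, QuotientAddGroup.mk_add, map_add, rk_mk]
    change rk ρ r k σ (rk ρ r k τ x) + _ = _
    abel

/-- powers of an affine map with unipotent linear part, in the lattice -/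
theorem affine_pow {ν : Λ → Λ} (hadd : ∀ x y, ν (x + y) = ν x + ν y)
    (hsm : ∀ (n : ℕ) x, ν (n • x) = n • ν x) (hν : ∀ x, ν (ν x) = 0) (c x : Λ) (n : ℕ) :
    ((fun y => y + (ν y + c))^[n]) x = x + (n • (ν x + c) + n.choose 2 • ν c) := by
  induction n with
  | zero => simp
  | succ n ih =>
    rw [Function.iterate_succ_apply', ih, hadd, hadd, hsm, hsm, hadd, hν, hν, zero_add,
      smul_zero, add_zero, Nat.choose_succ_succ' n 1, Nat.choose_one_right, add_smul,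
      add_smul (n) (n.choose (1 + 1)), one_smul]
    abel

theorem aff_pow {c : GQ → Λ} (hc : IsK r N A ρ e c) (k : ℕ) {σ : GQ}
    (hσ : (ρ σ - 1) * (ρ σ - 1) = 0) (n : ℕ) (x : Λ) :
    (aff hc k σ ^ n) (x : Gk Λ r k) =
      ((x + (n • ((ρ σ x - x) + c σ) + n.choose 2 • (ρ σ (c σ) - c σ)) : Λ) : Gk Λ r k) := by
  have h1 := affine_pow (ν := fun y => ρ σ y - y) (fun x y => by simp only [map_add]; abel)
    (fun n x => by simp only [map_nsmul, smul_sub]) (fun x => LinearMap.congr_fun hσ x)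
    (c σ) x n
  rw [← h1]
  have h2 : ∀ n : ℕ, (aff hc k σ ^ n) (x : Gk Λ r k) =
      ((((fun y => y + ((ρ σ y - y) + c σ))^[n]) x : Λ) : Gk Λ r k) := by
    intro n
    induction n with
    | zero => rfl
    | succ n ih =>
      rw [pow_succ', Function.iterate_succ_apply']
      change aff hc k σ ((aff hc k σ ^ n) (x : Gk Λ r k)) = _
      rw [ih]
      change rk ρ r k σ _ + _ = _
      rw [rk_mk, ← QuotientAddGroup.mk_add]
      congr 1
      abel
  exact h2 n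

theorem eq_of_forall_mk (hO : IsO r O) (e : Module.Basis (Fin 2) O Λ) {x y : Λ}
    (h : ∀ k : ℕ, (x : Gk Λ r k) = (y : Gk Λ r k)) : x = y := by
  rw [← sub_eq_zero]
  apply e.ext_elem
  intro i
  rw [map_zero, Finsupp.zero_apply]
  apply hO.sep
  intro k
  obtain ⟨z, hz⟩ := mk_eq_mk.1 (h k)
  rw [hz]
  refine ⟨e.repr z i, ?_⟩
  rw [map_nsmul, Finsupp.smul_apply, nsmul_eq_mul, Nat.cast_pow]

theorem dvd_choose (k : ℕ) : r ^ k ∣ (r ^ (k + 1)).choose 2 := by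
  have h1 : (r ^ (k + 1)).choose 2 * 2 = r ^ k * (r * (r ^ (k + 1) - 1)) := by
    rw [Nat.choose_two_right, Nat.div_mul_cancel (Nat.even_mul_pred_self _).two_dvd, pow_succ]
    ring
  have h2 : 2 ∣ r * (r ^ (k + 1) - 1) := by
    rcases hr.out.eq_two_or_odd with h | h
    · rw [h]; exact dvd_mul_right _ _
    · refine Dvd.dvd.mul_left ?_ _
      have h3 : Odd (r ^ (k + 1)) := (Nat.odd_iff.2 h).pow
      obtain ⟨m, hm⟩ := h3
      rw [hm]
      exact ⟨m, by omega⟩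
  obtain ⟨m, hm⟩ := h2
  refine ⟨m, ?_⟩
  rw [hm] at h1
  apply Nat.eq_of_mul_eq_mul_right two_pos
  rw [h1]
  ring

section

variable (hL : IsL r N A AN ρ e) {c : GQ → Λ} (hc : IsK r N A ρ e c)

include hL in
theorem aff_level (k : ℕ) : ∃ L : IntermediateField ℚ Ω, FiniteDimensional ℚ L ∧
    ∀ σ : GQ, (∀ x ∈ L, σ x = x) → aff hc k σ = 1 := by
  obtain ⟨L, h1, h2⟩ := hL.lev k
  obtain ⟨L', h1', h2'⟩ := hc.lev k
  haveI := h1
  haveI := h1'
  refine ⟨L ⊔ L', inferInstance, fun σ hσ => ?_⟩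
  funext x
  obtain ⟨x, rfl⟩ := QuotientAddGroup.mk_surjective x
  change rk ρ r k σ (x : Gk Λ r k) + ((c σ : Λ) : Gk Λ r k) = (x : Gk Λ r k)
  rw [rk_mk, mk_eq_zero.2 (h2' σ fun x hx => hσ x (le_sup_right (a := L) hx)), add_zero, mk_eq_mk]
  exact h2 σ (fun x hx => hσ x (le_sup_left (b := L') hx)) x

include hL in
theorem aff_pgroup (k : ℕ) : ∀ σ ∈ AN.inertiaSubgroupIn ℚ, ∃ j : ℕ, aff hc k σ ^ r ^ j = 1 := by
  intro σ hσ
  refine ⟨k + 1, ?_⟩
  funext x
  obtain ⟨x, rfl⟩ := QuotientAddGroup.mk_surjective x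
  rw [aff_pow hc k (hL.unip σ hσ σ hσ)]
  change _ = (x : Gk Λ r k)
  rw [mk_eq_mk]
  obtain ⟨m, hm⟩ := dvd_choose (r := r) k
  refine ⟨r • ((ρ σ x - x) + c σ) + m • (ρ σ (c σ) - c σ), ?_⟩
  rw [add_sub_cancel_left, hm, pow_succ, mul_smul, mul_smul, ← smul_add]

include hL hc in
/-- the Frobenius relation -/
theorem tame_rel (hO : IsO r O) (hAN : AN.LiesOverPrime N) (hrN : r ≠ N) {Φ : GQ}
    (hΦ : IsFr AN N Φ) {σ : GQ} (hσ : σ ∈ AN.inertiaSubgroupIn ℚ) (x : Λ) :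
    ρ (Φ * σ * Φ⁻¹) x + c (Φ * σ * Φ⁻¹) =
      x + (N • ((ρ σ x - x) + c σ) + N.choose 2 • (ρ σ (c σ) - c σ)) := by
  refine eq_of_forall_mk hO e fun k => ?_
  have h1 := TW.frob_tame (f := aff hc k) hr.out hrN (aff_level hL hc k) (aff_pgroup hL hc k)
    hAN hΦ hσ
  have h2 := congrFun h1 (x : Gk Λ r k)
  rw [aff_pow hc k (hL.unip σ hσ σ hσ)] at h2
  exact h2

include hL hc in
/-- generators of tame inertia -/
theorem tame_gen (hAN : AN.LiesOverPrime N) (hrN : r ≠ N) (k : ℕ) :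
    ∃ σ₀ ∈ AN.inertiaSubgroupIn ℚ, ∀ σ ∈ AN.inertiaSubgroupIn ℚ, ∃ n : ℕ, ∀ x : Λ,
      ∃ y, ρ σ x + c σ - (x + (n • ((ρ σ₀ x - x) + c σ₀) +
        n.choose 2 • (ρ σ₀ (c σ₀) - c σ₀))) = r ^ k • y := by
  obtain ⟨σ₀, hσ₀, h⟩ := TW.exists_gen_tame (f := aff hc k) hr.out hrN (aff_level hL hc k)
    (aff_pgroup hL hc k) hAN
  refine ⟨σ₀, hσ₀, fun σ hσ => ?_⟩
  obtain ⟨n, hn⟩ := h σ hσ
  refine ⟨n, fun x => ?_⟩
  have h2 := congrFun hn (x : Gk Λ r k)
  rw [aff_pow hc k (hL.unip σ₀ hσ₀ σ₀ hσ₀)] at h2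
  rw [← mk_eq_mk]
  exact h2

end

/-- **The descent.** -/
theorem IsL.descent (hAN : AN.LiesOverPrime N) (hrN : r ≠ N) (hO : IsO r O)
    (hL : IsL r N A AN ρ e) (hA : A.LiesOverPrime r) {c : GQ → Λ} (hc : IsK r N A ρ e c) :
    ∃ (C : O) (l : Λ), C ≠ 0 ∧ ∀ σ, C • c σ = ρ σ l - l := by
  obtain ⟨σ₁, hσ₁, hne⟩ := hL.ramified hAN hrN hO hA
  -- a fixed vector
  obtain ⟨x₁, hx₁⟩ : ∃ x₁, ρ σ₁ x₁ - x₁ ≠ 0 := by
    by_contra hcon
    push Not at hcon
    apply hne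
    ext x
    exact sub_eq_zero.1 (hcon x)
  obtain ⟨e', d, hd0, hd⟩ := exists_basis_of_ne_zero hO e hx₁
  obtain ⟨c00, c10, c01, c11⟩ := coord_self e'
  have htf : ∀ {a : O} {x : Λ}, a ≠ 0 → a • x = 0 → x = 0 := by
    intro a x ha h
    apply e'.ext_elem
    intro i
    have h1 := congrArg (fun y => e'.repr y i) h
    simp only [map_smul, Finsupp.smul_apply, smul_eq_mul, map_zero, Finsupp.zero_apply] at h1
    rw [map_zero, Finsupp.zero_apply]
    exact (mul_eq_zero.1 h1).resolve_left ha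
  have hv : ∀ σ ∈ AN.inertiaSubgroupIn ℚ, ρ σ (e' 0) = e' 0 := by
    intro σ hσ
    have h1 : (ρ σ - 1) (ρ σ₁ x₁ - x₁) = 0 := LinearMap.congr_fun (hL.unip σ hσ σ₁ hσ₁) x₁
    rw [hd, map_smul] at h1
    exact sub_eq_zero.1 (htf hd0 h1)
  -- the second coordinate
  have hq' : ∀ σ ∈ AN.inertiaSubgroupIn ℚ, e'.coord 1 (ρ σ (e' 1) - e' 1) = 0 := by
    intro σ hσ
    have h1 : (ρ σ - 1) (ρ σ (e' 1) - e' 1) = 0 :=
      LinearMap.congr_fun (hL.unip σ hσ σ hσ) (e' 1)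
    set w := ρ σ (e' 1) - e' 1 with hw
    have h2 : (ρ σ - 1) w = e'.coord 1 w • w := by
      conv_lhs => rw [basis_sum e' w]
      rw [map_add, map_smul, map_smul]
      change e'.coord 0 w • (ρ σ (e' 0) - e' 0) + e'.coord 1 w • (ρ σ (e' 1) - e' 1) = _
      rw [hv σ hσ, sub_self, smul_zero, zero_add]
    rw [h2] at h1
    have h3 := congrArg (e'.coord 1) h1
    rw [map_smul, map_zero, smul_eq_mul] at h3
    exact mul_self_eq_zero.1 h3
  have hN' : ∀ σ ∈ AN.inertiaSubgroupIn ℚ, ∀ x, ρ σ x - x =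
      (e'.coord 1 x * e'.coord 0 (ρ σ (e' 1) - e' 1)) • e' 0 := by
    intro σ hσ x
    conv_lhs => rw [basis_sum e' x]
    rw [map_add, map_smul, map_smul, hv σ hσ]
    have h1 : ρ σ (e' 1) = e' 1 + e'.coord 0 (ρ σ (e' 1) - e' 1) • e' 0 := by
      have := basis_sum e' (ρ σ (e' 1) - e' 1)
      rw [hq' σ hσ, zero_smul, add_zero] at this
      rw [← this]; abel
    conv_lhs => rw [h1]
    rw [mul_smul]
    module
  have hq : ∀ σ ∈ AN.inertiaSubgroupIn ℚ, ∀ x, e'.coord 1 (ρ σ x - x) = 0 := by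
    intro σ hσ x
    rw [hN' σ hσ x, map_smul, c10, smul_zero]
  set n₁ := e'.coord 0 (ρ σ₁ (e' 1) - e' 1) with hn₁
  have hn₁0 : n₁ ≠ 0 := by
    intro h0
    apply hx₁
    rw [hN' σ₁ hσ₁, ← hn₁, h0, mul_zero, zero_smul]
  -- Frobenius
  obtain ⟨Φ, hΦ'⟩ := exists_isFrobeniusAt AN hN.out hAN
  have hΦ : IsFr AN N Φ := isFr_of_isFrobeniusAt hΦ'
  have hrel := fun {σ : GQ} (hσ : σ ∈ AN.inertiaSubgroupIn ℚ) (x : Λ) =>
    tame_rel hL hc hO hAN hrN hΦ hσ x
  have hc' : ∀ σ ∈ AN.inertiaSubgroupIn ℚ, c (Φ * σ * Φ⁻¹) =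
      N • c σ + N.choose 2 • (ρ σ (c σ) - c σ) := by
    intro σ hσ
    have := hrel hσ 0
    simpa using this
  have hρ' : ∀ σ ∈ AN.inertiaSubgroupIn ℚ, ∀ x, ρ (Φ * σ * Φ⁻¹) x - x = N • (ρ σ x - x) := by
    intro σ hσ x
    have h1 := hrel hσ x
    rw [hc' σ hσ, smul_add] at h1
    have h2 : ρ (Φ * σ * Φ⁻¹) x = x + N • (ρ σ x - x) := by
      have h3 : ρ (Φ * σ * Φ⁻¹) x + (N • c σ + N.choose 2 • (ρ σ (c σ) - c σ)) =
          (x + N • (ρ σ x - x)) + (N • c σ + N.choose 2 • (ρ σ (c σ) - c σ)) := by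
        rw [h1]; abel
      exact add_right_cancel h3
    rw [h2]; abel
  have hΦN : ∀ σ ∈ AN.inertiaSubgroupIn ℚ, ∀ y, ρ Φ (ρ σ y - y) = N • (ρ σ (ρ Φ y) - ρ Φ y) := by
    intro σ hσ y
    rw [← hρ' σ hσ (ρ Φ y)]
    have : ρ (Φ * σ * Φ⁻¹) (ρ Φ y) = ρ Φ (ρ σ y) := by
      change (ρ (Φ * σ * Φ⁻¹) * ρ Φ) y = (ρ Φ * ρ σ) y
      rw [← map_mul, ← map_mul]
      congr 2
      group
    rw [this, map_sub]
  set α := e'.coord 1 (ρ Φ (e' 1)) with hα
  have hΦv : ρ Φ (e' 0) = ((N : O) * α) • e' 0 := by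
    have h1 := hΦN σ₁ hσ₁ (e' 1)
    rw [hN' σ₁ hσ₁ (e' 1), hN' σ₁ hσ₁ (ρ Φ (e' 1)), c11, one_mul, map_smul, ← hn₁, ← hα,
      ← Nat.cast_smul_eq_nsmul O, smul_smul] at h1
    have h2 : n₁ • (ρ Φ (e' 0) - ((N : O) * α) • e' 0) = 0 := by
      rw [smul_sub, h1, smul_smul, sub_eq_zero]
      congr 1
      ring
    exact sub_eq_zero.1 (htf hn₁0 h2)
  have hdet : LinearMap.det (ρ Φ) = (N : O) := by
    rw [← sub_eq_zero]
    apply hO.sep
    intro k
    obtain ⟨z, hz⟩ := hL.detc k Φ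
    have h1 : cyc (r ^ k) Φ = (N : ℕ) :=
      cyc_frobenius (Nat.Coprime.pow_right k ((Nat.coprime_primes hN.out hr.out).2 hrN.symm))
        hAN hΦ'
    have h2 : ((r ^ k : ℕ) : ℤ) ∣ ((cyc (r ^ k) Φ).val : ℤ) - N := by
      rw [← ZMod.intCast_zmod_eq_zero_iff_dvd]
      push_cast
      rw [ZMod.natCast_zmod_val, h1, sub_self]
    obtain ⟨m, hm⟩ := h2
    refine ⟨z + (m : O), ?_⟩
    have h3 : (((cyc (r ^ k) Φ).val : ℕ) : O) - (N : O) = (r : O) ^ k * (m : O) := by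
      have := congrArg (Int.cast : ℤ → O) hm
      push_cast at this
      exact this
    linear_combination hz + h3
  have hα2 : α ^ 2 = 1 := by
    have h1 := det_eq e' (ρ Φ)
    rw [hdet, hΦv, map_smul, map_smul, c00, c10, smul_eq_mul, smul_eq_mul, mul_one, mul_zero,
      mul_zero, sub_zero, ← hα] at h1
    have h2 : (N : O) ≠ 0 := hO.cz N hN.out.ne_zero
    apply mul_left_cancel₀ h2
    linear_combination -h1
  have hNα : (N : O) - α ≠ 0 := by
    intro h0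
    have h1 : (N : O) ^ 2 = 1 := by
      rw [sub_eq_zero.1 h0, hα2]
    have h2 : ((N ^ 2 - 1 : ℕ) : O) = 0 := by
      rw [Nat.cast_sub (Nat.one_le_pow _ _ hN.out.pos)]
      push_cast
      rw [h1, sub_self]
    refine hO.cz (N ^ 2 - 1) ?_ h2
    have := hN.out.two_le
    have : 2 ^ 2 ≤ N ^ 2 := Nat.pow_le_pow_left this 2
    omega
  have hqc : ∀ σ ∈ AN.inertiaSubgroupIn ℚ, e'.coord 1 (c σ) = 0 := by
    intro σ hσ
    have h1 : c (Φ * σ * Φ⁻¹) + ρ (Φ * σ * Φ⁻¹) (c Φ) = c Φ + ρ Φ (c σ) := by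
      rw [← hc.coc, ← hc.coc]
      congr 1
      group
    have h2 := congrArg (e'.coord 1) (hc' σ hσ)
    rw [map_add, map_nsmul, map_nsmul, hq σ hσ, smul_zero, add_zero] at h2
    have h3 := congrArg (e'.coord 1) h1
    have h4 : ρ (Φ * σ * Φ⁻¹) (c Φ) = c Φ + N • (ρ σ (c Φ) - c Φ) := by
      rw [← hρ' σ hσ]; abel
    rw [map_add, h4, map_add, map_add, map_nsmul, hq σ hσ, smul_zero, add_zero, h2] at h3
    have h5 : e'.coord 1 (ρ Φ (c σ)) = e'.coord 1 (c σ) * α := by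
      conv_lhs => rw [basis_sum e' (c σ)]
      rw [map_add, map_smul, map_smul, hΦv, map_add, map_smul, map_smul, map_smul, c10, ← hα]
      simp
    rw [h5, nsmul_eq_mul] at h3
    have h6 : ((N : O) - α) * e'.coord 1 (c σ) = 0 := by linear_combination h3
    exact (mul_eq_zero.1 h6).resolve_left hNα
  have hcv : ∀ σ ∈ AN.inertiaSubgroupIn ℚ, c σ = e'.coord 0 (c σ) • e' 0 := by
    intro σ hσ
    conv_lhs => rw [basis_sum e' (c σ), hqc σ hσ, zero_smul, add_zero]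
  -- proportionality
  have hprop : ∀ σ ∈ AN.inertiaSubgroupIn ℚ, n₁ * e'.coord 0 (c σ) =
      e'.coord 0 (ρ σ (e' 1) - e' 1) * e'.coord 0 (c σ₁) := by
    intro σ hσ
    rw [← sub_eq_zero]
    apply hO.sep
    intro k
    obtain ⟨τ, hτ, hgen⟩ := tame_gen hL hc hAN hrN k
    have hfix : ρ τ (c τ) - c τ = 0 := by
      rw [hN' τ hτ, hqc τ hτ, zero_mul, zero_smul]
    have key : ∀ σ ∈ AN.inertiaSubgroupIn ℚ, ∃ n : ℕ, (∃ y, e'.coord 0 (c σ) -
        n * e'.coord 0 (c τ) = (r : O) ^ k * y) ∧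
        (∃ y, e'.coord 0 (ρ σ (e' 1) - e' 1) - n * e'.coord 0 (ρ τ (e' 1) - e' 1) =
          (r : O) ^ k * y) := by
      intro σ hσ
      obtain ⟨n, hn⟩ := hgen σ hσ
      obtain ⟨y0, hy0⟩ := hn 0
      obtain ⟨y1, hy1⟩ := hn (e' 1)
      rw [hfix, smul_zero, add_zero] at hy0 hy1
      simp only [map_zero, zero_add, sub_self] at hy0
      refine ⟨n, ⟨e'.coord 0 y0, ?_⟩, ⟨e'.coord 0 (y1 - y0), ?_⟩⟩
      · have := congrArg (e'.coord 0) hy0
        rw [map_sub, map_nsmul, map_nsmul, nsmul_eq_mul, nsmul_eq_mul, Nat.cast_pow] at this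
        exact this
      · have h1 : (ρ σ (e' 1) - e' 1) - n • (ρ τ (e' 1) - e' 1) = r ^ k • (y1 - y0) := by
          have e1 : r ^ k • (y1 - y0) = r ^ k • y1 - r ^ k • y0 := smul_sub _ _ _
          rw [e1, ← hy1, ← hy0, smul_add]; abel
        have := congrArg (e'.coord 0) h1
        rw [map_sub, map_nsmul, map_nsmul, nsmul_eq_mul, nsmul_eq_mul, Nat.cast_pow] at this
        exact this
    obtain ⟨n, ⟨a1, h1⟩, ⟨a2, h2⟩⟩ := key σ hσ
    obtain ⟨m, ⟨b1, h3⟩, ⟨b2, h4⟩⟩ := key σ₁ hσ₁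
    rw [← hn₁] at h4
    refine ⟨n₁ * a1 + b2 * (n * e'.coord 0 (c τ)) - a2 * e'.coord 0 (c σ₁) -
      n * e'.coord 0 (ρ τ (e' 1) - e' 1) * b1, ?_⟩
    linear_combination n₁ * h1 + (n * e'.coord 0 (c τ)) * h4 - e'.coord 0 (c σ₁) * h2 -
      (n * e'.coord 0 (ρ τ (e' 1) - e' 1)) * h3
  -- conclusion
  have hcK : IsK r N A ρ e (fun σ => n₁ • c σ) :=
    { coc := fun σ τ => by rw [hc.coc, smul_add, map_smul]
      lev := fun k => by
        obtain ⟨L, h1, h2⟩ := hc.lev k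
        refine ⟨L, h1, fun σ hσ => ?_⟩
        obtain ⟨y, hy⟩ := h2 σ hσ
        exact ⟨n₁ • y, by rw [hy, smul_comm]⟩
      unr := fun q hq h1 h2 B hB σ hσ => by rw [hc.unr q hq h1 h2 B hB σ hσ, smul_zero]
      memr := fun σ hσ => by rw [map_smul, hc.memr σ hσ, smul_zero] }
  obtain ⟨C, l, hC, hCl⟩ := hL.descent' hAN hrN hO hA (v := e' 0) (p := e'.coord 0) c00 hv hcK
    (b := e'.coord 0 (c σ₁) • e' 1) (fun σ hσ => by
      rw [hN' σ hσ, map_smul, c11, smul_eq_mul, mul_one]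
      conv_lhs => rw [hcv σ hσ]
      rw [smul_smul, hprop σ hσ, mul_comm])
  exact ⟨C * n₁, l, mul_ne_zero hC hn₁0, fun σ => by rw [mul_smul]; exact hCl σ⟩

end Fermat.Agent.MazD
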