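import Fermat.Agent.MazD.Kc
import Fermat.Agent.MazD.CxE
import Fermat.Agent.MazD.Abs2
import Fermat.Agent.MazD.TameN

/-!
# Eigenlattices
-/

set_option autoImplicit false
set_option linter.unusedSectionVars false
set_option linter.style.haveILetI false

noncomputable section

namespace Fermat.Agent.MazD

open AlgebraicCurve Fermat.Agent.RR Fermat.Agent.Curve Fermat.Agent.Kum Fermat.Agent.FFG ModularCurve
  Fermat.Agent.HeckeHom Fermat.Agent.GalRep IsLocalRing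
open scoped TensorProduct

local notation "Ω" => AlgebraicClosure ℚ

section pid

variable {O : Type*} [CommRing O] [IsDomain O] {X : Type*} [AddCommGroup X] [Module O X]

theorem torsionFree_of {E : Type*} [AddCommGroup E] [Module O E]
    (h : ∀ (a : O) (x : E), a ≠ 0 → a • x = 0 → x = 0) : Module.IsTorsionFree O E :=
  ⟨fun a ha x y hxy => by
    have h1 : a • (x - y) = 0 := by rw [smul_sub, sub_eq_zero]; exact hxy
    exact sub_eq_zero.1 (h a _ ha.ne_zero h1)⟩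

theorem free_tf [Module.Free O X] {a : O} {x : X} (ha : a ≠ 0) (h : a • x = 0) : x = 0 := by
  let b := Module.Free.chooseBasis O X
  apply b.repr.injective
  ext i
  have h1 := congrArg (fun y => b.repr y i) h
  simp only [map_smul, Finsupp.smul_apply, smul_eq_mul, map_zero, Finsupp.zero_apply] at h1
  rw [map_zero, Finsupp.zero_apply]
  exact (mul_eq_zero.1 h1).resolve_left ha

variable [IsPrincipalIdealRing O] [Module.Finite O X]

theorem exists_proj (E : Submodule O X) (hsat : ∀ (a : O) (x : X), a ≠ 0 → a • x ∈ E → x ∈ E) :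
    ∃ p : X →ₗ[O] E, ∀ x : E, p x = x := by
  haveI : Module.IsTorsionFree O (X ⧸ E) := torsionFree_of fun a x ha h => by
    obtain ⟨x, rfl⟩ := Submodule.Quotient.mk_surjective _ x
    rw [← Submodule.Quotient.mk_smul, Submodule.Quotient.mk_eq_zero] at h
    rw [Submodule.Quotient.mk_eq_zero]
    exact hsat a x ha h
  haveI : Module.Free O (X ⧸ E) := Module.free_of_finite_type_torsion_free'
  obtain ⟨s, hs⟩ := Module.projective_lifting_property E.mkQ (LinearMap.id : (X ⧸ E) →ₗ[O] X ⧸ E)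
    E.mkQ_surjective
  have h1 : ∀ x, x - s (E.mkQ x) ∈ E := fun x => by
    rw [← Submodule.Quotient.mk_eq_zero, Submodule.Quotient.mk_sub, sub_eq_zero]
    exact (LinearMap.congr_fun hs (E.mkQ x)).symm
  refine ⟨(LinearMap.id - s ∘ₗ E.mkQ).codRestrict E h1, fun x => Subtype.ext ?_⟩
  change (x : X) - s (E.mkQ x) = x
  rw [(Submodule.Quotient.mk_eq_zero E).2 x.2 |> fun h => (h : E.mkQ (x : X) = 0), map_zero, sub_zero]

theorem free_sub [Module.Free O X] (E : Submodule O X) : Module.Free O E := by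
  haveI : Module.IsTorsionFree O E := torsionFree_of fun a x ha h => Subtype.ext
    (free_tf ha (congrArg Subtype.val h))
  haveI : IsNoetherian O X := isNoetherian_of_isNoetherianRing_of_finite O X
  exact Module.free_of_finite_type_torsion_free'

end pid

variable {r : ℕ} [hr : Fact r.Prime] {O : Type} [CommRing O] [IsDomain O] {N : ℕ} [NeZero N]

theorem not_dvd_iff {q N : ℕ} (hq : q.Prime) (hN : N.Prime) : ¬ q ∣ N ↔ q ≠ N :=
  not_congr (Nat.prime_dvd_prime_iff_eq hq hN)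

/-- The eigenlattice. -/
def EL (r : ℕ) (N : ℕ) [NeZero N] (χ : ℕ → O) : Submodule O (O ⊗[ℤ] LZ N) where
  carrier := {x | ∀ (q : ℕ) (hq : q.Prime) (hqN : ¬ q ∣ N), q ≠ r → TO O hq hqN x = χ q • x}
  add_mem' := fun {x y} hx hy q hq hqN hqr => by
    rw [map_add, hx q hq hqN hqr, hy q hq hqN hqr, smul_add]
  zero_mem' := fun q hq hqN _ => by rw [map_zero, smul_zero]
  smul_mem' := fun c x hx q hq hqN hqr => by rw [map_smul, hx q hq hqN hqr, smul_comm]

variable {χ : ℕ → O}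

theorem mem_EL {x : O ⊗[ℤ] LZ N} : x ∈ EL r N χ ↔
    ∀ (q : ℕ) (hq : q.Prime) (hqN : ¬ q ∣ N), q ≠ r → TO O hq hqN x = χ q • x := Iff.rfl

theorem EL_sat (a : O) (x : O ⊗[ℤ] LZ N) (ha : a ≠ 0) (h : a • x ∈ EL r N χ) : x ∈ EL r N χ := by
  intro q hq hqN hqr
  have h1 := h q hq hqN hqr
  rw [map_smul, smul_comm] at h1
  rw [← sub_eq_zero] at h1 ⊢
  rw [← smul_sub] at h1
  exact free_tf ha h1

theorem TO_mem_EL {x : O ⊗[ℤ] LZ N} (hx : x ∈ EL r N χ) {q : ℕ} (hq : q.Prime) (hqN : ¬ q ∣ N) :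
    TO O hq hqN x ∈ EL r N χ := by
  intro q' hq' hqN' hqr'
  have h1 := LinearMap.congr_fun (TO_comm (O := O) hq' hqN' hq hqN).eq x
  rw [Module.End.mul_apply, Module.End.mul_apply] at h1
  rw [h1, hx q' hq' hqN' hqr', map_smul]

section rho

variable [IsLocalRing O] [IsNoetherianRing O] [IsAdicComplete (maximalIdeal O) O]
  (ι : AlgebraicClosure ℚ →+* ℂ) (F : CoefF r O)
  (hs : ∀ x : O, (∀ k : ℕ, ∃ y, x = (r : O) ^ k * y) → x = 0) (hpO : (r : O) ∈ maximalIdeal O)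

local notation "ϱ" => rhoO (N := N) ι F hs hpO

theorem rho_mem_EL {x : O ⊗[ℤ] LZ N} (hx : x ∈ EL r N χ) (σ : GQ) : ϱ σ x ∈ EL r N χ := by
  intro q hq hqN hqr
  rw [← rho_TO, hx q hq hqN hqr, map_smul]

/-- The restriction of the Galois action. -/
def rhoE (χ : ℕ → O) : GQ →* Module.End O (EL r N χ) where
  toFun σ := (ϱ σ).restrict fun _ hx => rho_mem_EL ι F hs hpO hx σ
  map_one' := LinearMap.ext fun x => Subtype.ext (by
    change ϱ 1 (x : O ⊗[ℤ] LZ N) = x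
    rw [map_one]; rfl)
  map_mul' a b := LinearMap.ext fun x => Subtype.ext (by
    change ϱ (a * b) (x : O ⊗[ℤ] LZ N) = ϱ a (ϱ b x)
    rw [map_mul]; rfl)

theorem rhoE_coe (χ : ℕ → O) (σ : GQ) (x : EL r N χ) :
    ((rhoE ι F hs hpO χ σ x : EL r N χ) : O ⊗[ℤ] LZ N) = ϱ σ x := rfl

/-- functionals restricted to the eigenlattice -/
theorem exists_pow_smul_mem {χ : ℕ → O} {x y : O ⊗[ℤ] LZ N} {k : ℕ} (hr0 : (r : O) ≠ 0)
    (hx : x ∈ EL r N χ) (h : x = (r : O) ^ k • y) : ∃ z : EL r N χ, x = (r : O) ^ k • (z : O ⊗[ℤ] LZ N) :=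
  ⟨⟨y, EL_sat _ _ (pow_ne_zero k hr0) (h ▸ hx)⟩, h⟩

theorem isE (hO : IsO r O) (hN : N.Prime) (hrN : r ≠ N) {AN : ValuationSubring (AlgebraicClosure ℚ)}
    (hAN : AN.LiesOverPrime N) {j : O →+* ℂ} (hj : Function.Injective j) {I : Ideal O}
    {c : GQ →* O} (hc : ∀ σ (k : ℕ), ∃ z, c σ = ((GalRep.cyc (r ^ k) σ).val : O) + (r : O) ^ k * z)
    (hχ : ∀ q : ℕ, q.Prime → q ≠ r → q ≠ N → χ q - 1 - q ∈ I) {x₀ : O ⊗[ℤ] LZ N}
    (hx₀ : x₀ ∈ EL r N χ) (h₀ : x₀ ≠ 0) : IsE r N AN I χ c (rhoE (N := N) ι F hs hpO χ) where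
  cyc := hc
  lev k := by
    obtain ⟨L, hL, h⟩ := rho_lev (N := N) ι F hs hpO k
    refine ⟨L, hL, fun σ hσ x => ?_⟩
    obtain ⟨y, hy⟩ := h σ hσ x
    obtain ⟨z, hz⟩ := exists_pow_smul_mem hO.ne_zero
      (sub_mem (rho_mem_EL ι F hs hpO x.2 σ) x.2) hy
    exact ⟨z, Subtype.ext hz⟩
  unr q hq hqr hqN B hB σ hσ := LinearMap.ext fun x => Subtype.ext (by
    rw [rhoE_coe, rho_unr ι F hs hpO hq hqr ((not_dvd_iff hq hN).2 hqN) hB hσ]
    rfl)
  unip σ hσ τ hτ := LinearMap.ext fun x => Subtype.ext (by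
    have h := rho_unip (N := N) ι F hs hpO hN hrN hAN hτ hσ (x : O ⊗[ℤ] LZ N)
    change (ϱ σ (ϱ τ (x : O ⊗[ℤ] LZ N) - x) - (ϱ τ (x : O ⊗[ℤ] LZ N) - x) : O ⊗[ℤ] LZ N) = 0
    rw [map_sub]
    have h2 : ϱ σ (ϱ τ (x : O ⊗[ℤ] LZ N)) = ϱ τ x + ϱ σ x - x := by rw [← h]; abel
    rw [h2]
    abel)
  frob q hq hqr hqN B hB σ hσ x := Subtype.ext (by
    have hqN' := (not_dvd_iff hq hN).2 hqN
    have h := rho_frob ι F hs hpO hq hqr hqN' hB hσ (x : O ⊗[ℤ] LZ N)
    rw [rho_mem_EL ι F hs hpO x.2 σ q hq hqN' hqr] at h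
    exact h)
  eis := hχ
  ne q hq hqr hqN h := by
    have hqN' := (not_dvd_iff hq hN).2 hqN
    apply h₀
    refine TO_eig_zero j hj hq hqN' (c := (q : ℤ) + 1) (le_abs_self _) ?_
    rw [hx₀ q hq hqN' hqr, h]
    push_cast
    rw [add_comm]

theorem finrank_EL_le [IsPrincipalIdealRing O] (j : O →+* ℂ) (hN : N.Prime) :
    Module.finrank O (EL r N χ) ≤ 2 := by
  haveI := free_sub (EL r N χ)
  obtain ⟨p, hp⟩ := exists_proj (EL r N χ) EL_sat
  haveI : IsNoetherian O (O ⊗[ℤ] LZ N) := isNoetherian_of_isNoetherianRing_of_finite O _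
  let b := Module.finBasis O (EL r N χ)
  refine rank_le_two j hN (S := {r}) (Set.finite_singleton r) χ (fun i => (b i : O ⊗[ℤ] LZ N))
    (fun i => b.coord i ∘ₗ p) (fun a c => ?_) fun i l hl hlN hlr => (b i).2 l hl hlN hlr
  rw [LinearMap.comp_apply, hp, Module.Basis.coord_apply, Module.Basis.repr_self,
    Finsupp.single_apply]
  simp only [eq_comm]

end rho

end Fermat.Agent.MazD
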