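import Mathlib

/-!
# Eigenvectors of faithful modules
-/

set_option autoImplicit false
set_option linter.unusedSectionVars false
set_option linter.style.haveILetI false

noncomputable section

namespace Fermat.Agent.MazD

open scoped TensorProduct

/-- eigenvectors of a faithful module over an artinian algebra -/
theorem exists_eig_field {K A V : Type*} [Field K] [CommRing A] [Algebra K A]
    [FiniteDimensional K A] [AddCommGroup V] [Module A V] [Module K V] [IsScalarTower K A V]
    [FiniteDimensional K V] (hf : ∀ a : A, (∀ v : V, a • v = 0) → a = 0) (θ : A →ₐ[K] K) :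
    ∃ v : V, v ≠ 0 ∧ ∀ a : A, a • v = θ a • v := by
  have : IsArtinianRing A := isArtinian_of_tower K inferInstance
  have : IsNoetherianRing A := inferInstance
  have : Module.Finite A V := Module.Finite.of_restrictScalars_finite K A V
  have hann : Module.annihilator A V = ⊥ := by
    rw [eq_bot_iff]
    intro a ha
    rw [Module.mem_annihilator] at ha
    rw [Ideal.mem_bot]
    exact hf a ha
  set 𝔪 : Ideal A := RingHom.ker θ with h𝔪
  have hprime : 𝔪.IsPrime := RingHom.ker_isPrime _
  have hmin : 𝔪 ∈ (Module.annihilator A V).minimalPrimes := by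
    rw [hann]
    obtain ⟨𝔭, h𝔭, h𝔭𝔪⟩ := Ideal.exists_minimalPrimes_le (I := (⊥ : Ideal A)) (J := 𝔪) bot_le
    have h1 : 𝔭.IsPrime := h𝔭.1.1
    have h2 : 𝔭.IsMaximal := IsArtinianRing.isMaximal_of_isPrime 𝔭
    rwa [h2.eq_of_le hprime.ne_top h𝔭𝔪] at h𝔭
  have hass := Module.associatedPrimes.minimalPrimes_annihilator_subset_associatedPrimes A V hmin
  rw [AssociatedPrimes.mem_iff, isAssociatedPrime_iff] at hass
  obtain ⟨-, x, hx⟩ := hass
  have hx' : ∀ t : A, t ∈ 𝔪 ↔ t • x = 0 := by
    intro t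
    rw [hx, Submodule.mem_colon_singleton, Submodule.mem_bot]
  refine ⟨x, ?_, fun a => ?_⟩
  · rintro rfl
    exact hprime.ne_top (by rw [Ideal.eq_top_iff_one, hx', smul_zero])
  · have h1 : a - algebraMap K A (θ a) ∈ 𝔪 := by
      rw [h𝔪, RingHom.mem_ker, map_sub, AlgHom.commutes]
      simp
    rw [hx', sub_smul, sub_eq_zero] at h1
    rw [h1, algebraMap_smul]

theorem exists_eig_field' {K A V : Type*} [Field K] [CommRing A] [Algebra K A]
    [FiniteDimensional K A] [AddCommGroup V] [Module K V] [FiniteDimensional K V]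
    (ρ : A →ₐ[K] Module.End K V) (hf : ∀ a : A, ρ a = 0 → a = 0) (θ : A →ₐ[K] K) :
    ∃ v : V, v ≠ 0 ∧ ∀ a : A, ρ a v = θ a • v := by
  let _ : Module A V := Module.compHom V (ρ : A →+* Module.End K V)
  have hsm : ∀ (a : A) (f : V), a • f = ρ a f := fun _ _ => rfl
  have : IsScalarTower K A V := ⟨fun c a f => by rw [hsm, hsm, map_smul]; rfl⟩
  exact exists_eig_field (A := A) (V := V) (fun a ha => hf a (LinearMap.ext fun f => ha f)) θ

section

variable {M : Type} [AddCommGroup M] [Module.Free ℤ M] [Module.Finite ℤ M] {R : Type} [CommRing R]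
  (ρ : R →+* Module.End ℤ M) (K : Type) [Field K] [CharZero K]

/-- the action after base change -/
def rhoK : K ⊗[ℤ] R →ₐ[K] Module.End K (K ⊗[ℤ] M) :=
  Algebra.TensorProduct.lift (Algebra.ofId K _)
    ((Module.End.baseChangeHom ℤ K M).comp ρ.toIntAlgHom)
    fun c _ => Algebra.commute_algebraMap_left c _

theorem rhoK_tmul (c : K) (t : R) : rhoK ρ K (c ⊗ₜ t) = c • (ρ t).baseChange K := by
  have h : rhoK ρ K (c ⊗ₜ t) = (Algebra.ofId K (Module.End K (K ⊗[ℤ] M))) c *
      ((Module.End.baseChangeHom ℤ K M).comp ρ.toIntAlgHom) t :=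
    Algebra.TensorProduct.lift_tmul _ _ _ _ _
  rw [h, Algebra.ofId_apply, ← Algebra.smul_def]
  rfl

theorem rhoK_injective (hρ : Function.Injective ρ) (a : K ⊗[ℤ] R) (h : rhoK ρ K a = 0) : a = 0 := by
  haveI : Module.IsTorsionFree ℤ K := inferInstance
  haveI : Module.Flat ℤ K := inferInstance
  haveI : Module.FinitePresentation ℤ M := Module.finitePresentation_of_finite ℤ M
  have hbc : IsBaseChange K (LinearMap.baseChangeHom ℤ K M M) :=
    Module.FinitePresentation.isBaseChange_map ℤ M M K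
  let l : R →ₗ[ℤ] Module.End ℤ M := ρ.toIntAlgHom.toLinearMap
  have hl : Function.Injective l := hρ
  have h1 := Module.Flat.lTensor_preserves_injective_linearMap (M := K) l hl
  have h2 : ∀ a, rhoK ρ K a = hbc.equiv (LinearMap.lTensor K l a) := by
    intro a
    induction a using TensorProduct.induction_on with
    | zero => rw [map_zero, map_zero, map_zero]
    | tmul c t =>
      rw [rhoK_tmul, LinearMap.lTensor_tmul, IsBaseChange.equiv_tmul]
      rfl
    | add x y hx hy => rw [map_add, map_add, hx, hy, map_add]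
  apply h1
  rw [map_zero]
  apply hbc.equiv.injective
  rw [← h2, h, map_zero]

/-- **Eigenvectors over a field.** -/
theorem exists_eigK [Module.Finite ℤ R] (hρ : Function.Injective ρ) (Θ : R →+* K) :
    ∃ v : K ⊗[ℤ] M, v ≠ 0 ∧ ∀ t : R, (ρ t).baseChange K v = Θ t • v := by
  let θ : K ⊗[ℤ] R →ₐ[K] K := Algebra.TensorProduct.lift (AlgHom.id K K) Θ.toIntAlgHom
    fun _ _ => Commute.all _ _
  obtain ⟨v, hv, h⟩ := exists_eig_field' (rhoK ρ K) (rhoK_injective ρ K hρ) θ
  refine ⟨v, hv, fun t => ?_⟩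
  have h1 := h (1 ⊗ₜ t)
  rw [rhoK_tmul, one_smul] at h1
  rw [h1]
  congr 1
  change θ (1 ⊗ₜ t) = _
  rw [Algebra.TensorProduct.lift_tmul, map_one, one_mul]
  rfl

end

/-- change of coefficients -/
def ccM {A B : Type} [CommRing A] [CommRing B] (j : A →+* B) (L : Type) [AddCommGroup L] :
    A ⊗[ℤ] L →+ B ⊗[ℤ] L :=
  (TensorProduct.map (j : A →+ B).toIntLinearMap LinearMap.id).toAddMonoidHom

theorem ccM_tmul {A B : Type} [CommRing A] [CommRing B] (j : A →+* B) {L : Type} [AddCommGroup L]
    (a : A) (x : L) : ccM j L (a ⊗ₜ x) = j a ⊗ₜ x := rfl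

theorem ccM_smul {A B : Type} [CommRing A] [CommRing B] (j : A →+* B) {L : Type} [AddCommGroup L]
    (a : A) (x : A ⊗[ℤ] L) : ccM j L (a • x) = j a • ccM j L x := by
  induction x using TensorProduct.induction_on with
  | zero => rw [smul_zero, map_zero, smul_zero]
  | tmul b x => rw [TensorProduct.smul_tmul', ccM_tmul, ccM_tmul, TensorProduct.smul_tmul',
      smul_eq_mul, smul_eq_mul, map_mul]
  | add x y hx hy => rw [smul_add, map_add, map_add, smul_add, hx, hy]

theorem ccM_baseChange {A B : Type} [CommRing A] [CommRing B] (j : A →+* B) {L L' : Type}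
    [AddCommGroup L] [AddCommGroup L'] (f : L →ₗ[ℤ] L') (x : A ⊗[ℤ] L) :
    ccM j L' (f.baseChange A x) = f.baseChange B (ccM j L x) := by
  induction x using TensorProduct.induction_on with
  | zero => rw [map_zero, map_zero, map_zero, map_zero]
  | tmul b x => rfl
  | add x y hx hy => rw [map_add, map_add, map_add, map_add, hx, hy]

theorem ccM_injective {A B : Type} [CommRing A] [CommRing B] {j : A →+* B}
    (hj : Function.Injective j) (L : Type) [AddCommGroup L] [Module.Flat ℤ L] :
    Function.Injective (ccM j L) := by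
  have h1 := Module.Flat.rTensor_preserves_injective_linearMap (M := L)
    (j : A →+ B).toIntLinearMap hj
  exact h1

theorem exists_ccM {O K : Type} [CommRing O] [IsDomain O] [Field K] [Algebra O K]
    [IsFractionRing O K] {L : Type} [AddCommGroup L] (v : K ⊗[ℤ] L) :
    ∃ (d : O) (x : O ⊗[ℤ] L), d ≠ 0 ∧ ccM (algebraMap O K) L x = algebraMap O K d • v := by
  induction v using TensorProduct.induction_on with
  | zero => exact ⟨1, 0, one_ne_zero, by rw [map_zero, smul_zero]⟩
  | tmul c m =>
    obtain ⟨⟨n, d⟩, hd⟩ := IsLocalization.surj (nonZeroDivisors O) c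
    refine ⟨d, n ⊗ₜ m, nonZeroDivisors.coe_ne_zero d, ?_⟩
    rw [ccM_tmul, TensorProduct.smul_tmul', smul_eq_mul, mul_comm, hd]
  | add v w hv hw =>
    obtain ⟨d, x, hd, hx⟩ := hv
    obtain ⟨e, y, he, hy⟩ := hw
    refine ⟨d * e, e • x + d • y, mul_ne_zero hd he, ?_⟩
    rw [map_add, ccM_smul, ccM_smul, hx, hy, map_mul, smul_add, ← mul_smul, ← mul_smul,
      mul_comm (algebraMap O K e)]

/-- **Eigenvectors over a domain.** -/
theorem exists_eigv {M : Type} [AddCommGroup M] [Module.Free ℤ M] [Module.Finite ℤ M] {R : Type}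
    [CommRing R] [Module.Finite ℤ R] (ρ : R →+* Module.End ℤ M) (hρ : Function.Injective ρ)
    (O : Type) [CommRing O] [IsDomain O] [CharZero O] (Θ : R →+* O) :
    ∃ x : O ⊗[ℤ] M, x ≠ 0 ∧ ∀ t : R, (ρ t).baseChange O x = Θ t • x := by
  let K := FractionRing O
  have hinj : Function.Injective (algebraMap O K) := IsFractionRing.injective O K
  haveI : CharZero K := charZero_of_injective_algebraMap hinj
  obtain ⟨v, hv, h⟩ := exists_eigK ρ K hρ ((algebraMap O K).comp Θ)
  obtain ⟨d, x, hd, hx⟩ := exists_ccM (O := O) v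
  have hd' : algebraMap O K d ≠ 0 := fun h0 => hd (hinj (by rw [h0, map_zero]))
  refine ⟨x, fun h0 => hv ?_, fun t => ?_⟩
  · rw [h0, map_zero] at hx
    exact (smul_eq_zero.1 hx.symm).resolve_left hd'
  · apply ccM_injective hinj
    rw [ccM_baseChange, ccM_smul, hx, map_smul, h, smul_comm]
    rfl

end Fermat.Agent.MazD
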