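import Fermat.Agent.MazD.Lam

/-!
# Finite levels of a lattice; the descent
-/

set_option autoImplicit false
set_option linter.unusedSectionVars false
set_option linter.style.haveILetI false

noncomputable section

namespace Fermat.Agent.MazD

open Fermat.Agent.Places Fermat.Agent.RedMod Fermat.Agent.FlatRam Fermat.Agent.Flat
  Fermat.Agent.GalRep

local notation "Ω" => AlgebraicClosure ℚ

variable {r N : ℕ} [hr : Fact r.Prime] [hN : Fact N.Prime]
  {A AN : ValuationSubring (AlgebraicClosure ℚ)}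
  {O : Type*} [CommRing O] [IsDomain O] {Λ : Type*} [AddCommGroup Λ] [Module O Λ]

/-- the subgroup `r ^ k Λ` -/
def pw (Λ : Type*) [AddCommGroup Λ] (r k : ℕ) : AddSubgroup Λ :=
  (nsmulAddMonoidHom (α := Λ) (r ^ k)).range

theorem mem_pw {r k : ℕ} {x : Λ} : x ∈ pw Λ r k ↔ ∃ y, x = r ^ k • y :=
  ⟨fun ⟨y, hy⟩ => ⟨y, hy.symm⟩, fun ⟨y, hy⟩ => ⟨y, hy.symm⟩⟩

/-- finite level -/
abbrev Gk (Λ : Type*) [AddCommGroup Λ] (r k : ℕ) : Type _ := Λ ⧸ pw Λ r k

theorem mk_eq_zero {r k : ℕ} {x : Λ} : (x : Gk Λ r k) = 0 ↔ ∃ y, x = r ^ k • y := by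
  rw [QuotientAddGroup.eq_zero_iff, mem_pw]

theorem mk_eq_mk {r k : ℕ} {x x' : Λ} : (x : Gk Λ r k) = x' ↔ ∃ y, x - x' = r ^ k • y := by
  rw [← sub_eq_zero, ← QuotientAddGroup.mk_sub, mk_eq_zero]

/-- the action at finite level -/
def rk (ρ : GQ →* Module.End O Λ) (r k : ℕ) : GQ →* AddMonoid.End (Gk Λ r k) where
  toFun σ := (QuotientAddGroup.map (pw Λ r k) (pw Λ r k) ((ρ σ).toAddMonoidHom) (by
    intro x hx
    obtain ⟨y, rfl⟩ := mem_pw.1 hx
    exact mem_pw.2 ⟨ρ σ y, map_nsmul (ρ σ) _ _⟩) : Gk Λ r k →+ Gk Λ r k)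
  map_one' := by
    apply AddMonoidHom.ext
    intro y
    obtain ⟨y, rfl⟩ := QuotientAddGroup.mk_surjective y
    change ((ρ 1 y : Λ) : Gk Λ r k) = y
    rw [map_one]
    rfl
  map_mul' σ τ := by
    apply AddMonoidHom.ext
    intro y
    obtain ⟨y, rfl⟩ := QuotientAddGroup.mk_surjective y
    change ((ρ (σ * τ) y : Λ) : Gk Λ r k) = ((ρ σ (ρ τ y) : Λ) : Gk Λ r k)
    rw [map_mul]
    rfl

theorem rk_mk (ρ : GQ →* Module.End O Λ) (k : ℕ) (σ : GQ) (x : Λ) :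
    rk ρ r k σ (x : Gk Λ r k) = ((ρ σ x : Λ) : Gk Λ r k) := rfl

/-- the map `O → Λ / r ^ k`, `x ↦ x v` -/
def lineHom (r k : ℕ) (v : Λ) : O →+ Gk Λ r k :=
  (QuotientAddGroup.mk' (pw Λ r k)).comp ((LinearMap.toSpanSingleton O Λ v).toAddMonoidHom)

theorem lineHom_apply (k : ℕ) (v : Λ) (x : O) : lineHom r k v x = ((x • v : Λ) : Gk Λ r k) := rfl

/-- the size of `O / r ^ k` -/
def Qk (O : Type*) [CommRing O] (r k : ℕ) : ℕ := Nat.card (O ⧸ pw O r k)

theorem lineHom_ker {k : ℕ} {v : Λ} {p : Λ →ₗ[O] O} (hv : p v = 1) :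
    (lineHom (O := O) r k v).ker = pw O r k := by
  ext x
  rw [AddMonoidHom.mem_ker, lineHom_apply, mk_eq_zero, mem_pw]
  constructor
  · rintro ⟨y, hy⟩
    refine ⟨p y, ?_⟩
    have := congrArg p hy
    rwa [map_smul, hv, smul_eq_mul, mul_one, map_nsmul] at this
  · rintro ⟨y, rfl⟩
    exact ⟨y • v, by rw [smul_assoc]⟩

theorem card_line {k : ℕ} {v : Λ} {p : Λ →ₗ[O] O} (hv : p v = 1) :
    Nat.card (lineHom (O := O) r k v).range = Qk O r k := by
  rw [Qk, ← lineHom_ker hv]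
  exact Nat.card_congr (QuotientAddGroup.quotientKerEquivRange _).symm.toEquiv

/-- coordinates -/
def coordEquiv (e : Module.Basis (Fin 2) O Λ) (k : ℕ) :
    Gk Λ r k ≃ (O ⧸ pw O r k) × (O ⧸ pw O r k) := by
  refine Equiv.ofBijective (QuotientAddGroup.lift (pw Λ r k)
    (((QuotientAddGroup.mk' (pw O r k)).comp (e.coord 0).toAddMonoidHom).prod
      ((QuotientAddGroup.mk' (pw O r k)).comp (e.coord 1).toAddMonoidHom)) ?_) ⟨?_, ?_⟩
  · intro x hx
    obtain ⟨y, rfl⟩ := mem_pw.1 hx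
    rw [AddMonoidHom.mem_ker]
    refine Prod.ext ?_ ?_
    · exact (QuotientAddGroup.eq_zero_iff _).2 (mem_pw.2 ⟨e.coord 0 y, map_nsmul _ _ _⟩)
    · exact (QuotientAddGroup.eq_zero_iff _).2 (mem_pw.2 ⟨e.coord 1 y, map_nsmul _ _ _⟩)
  · rw [injective_iff_map_eq_zero]
    intro x hx
    obtain ⟨x, rfl⟩ := QuotientAddGroup.mk_surjective x
    have h0 : ((e.coord 0 x : O) : O ⧸ pw O r k) = 0 := congrArg Prod.fst hx
    have h1 : ((e.coord 1 x : O) : O ⧸ pw O r k) = 0 := congrArg Prod.snd hx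
    rw [QuotientAddGroup.eq_zero_iff] at h0 h1
    obtain ⟨y0, h0⟩ := mem_pw.1 h0
    obtain ⟨y1, h1⟩ := mem_pw.1 h1
    rw [mk_eq_zero]
    refine ⟨y0 • e 0 + y1 • e 1, ?_⟩
    conv_lhs => rw [basis_sum e x, h0, h1, smul_assoc, smul_assoc]
    rw [smul_add]
  · rintro ⟨a, b⟩
    obtain ⟨a, rfl⟩ := QuotientAddGroup.mk_surjective a
    obtain ⟨b, rfl⟩ := QuotientAddGroup.mk_surjective b
    obtain ⟨c00, c10, c01, c11⟩ := coord_self e
    refine ⟨((a • e 0 + b • e 1 : Λ) : Gk Λ r k), ?_⟩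
    refine Prod.ext ?_ ?_
    · change ((e.coord 0 (a • e 0 + b • e 1) : O) : O ⧸ pw O r k) = a
      rw [map_add, map_smul, map_smul, c00, c01, smul_eq_mul, smul_eq_mul, mul_one, mul_zero,
        add_zero]
    · change ((e.coord 1 (a • e 0 + b • e 1) : O) : O ⧸ pw O r k) = b
      rw [map_add, map_smul, map_smul, c10, c11, smul_eq_mul, smul_eq_mul, mul_one, mul_zero,
        zero_add]

theorem finite_Gk (hO : IsO r O) (e : Module.Basis (Fin 2) O Λ) (k : ℕ) : Finite (Gk Λ r k) := by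
  haveI : Finite (O ⧸ pw O r k) := hO.fin k
  exact Finite.of_equiv _ (coordEquiv e k).symm

theorem card_Gk (e : Module.Basis (Fin 2) O Λ) (k : ℕ) :
    Nat.card (Gk Λ r k) = Qk O r k * Qk O r k := by
  rw [Nat.card_congr (coordEquiv e k), Nat.card_prod]
  rfl

/-- `G⁰` -/
def G0k (e : Module.Basis (Fin 2) O Λ) (r k : ℕ) : AddSubgroup (Gk Λ r k) :=
  (lineHom (O := O) r k (e 0)).range

theorem card_G0k (e : Module.Basis (Fin 2) O Λ) (k : ℕ) : Nat.card (G0k e r k) = Qk O r k :=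
  card_line (p := e.coord 0) (coord_self e).1

theorem mem_G0k {e : Module.Basis (Fin 2) O Λ} {k : ℕ} {x : Λ} (hx : e.coord 1 x = 0) :
    (x : Gk Λ r k) ∈ G0k e r k := by
  refine ⟨e.coord 0 x, ?_⟩
  rw [lineHom_apply]
  conv_rhs => rw [basis_sum e x, hx, zero_smul, add_zero]

variable {ρ : GQ →* Module.End O Λ} {e : Module.Basis (Fin 2) O Λ}

/-- the finite level satisfies the hypotheses of the count -/
theorem IsL.isG (hL : IsL r N A AN ρ e) {k : ℕ} (hk : k ≠ 0) :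
    IsG r k A (rk ρ r k) (G0k e r k) where
  hk := hk
  tors x := by
    obtain ⟨x, rfl⟩ := QuotientAddGroup.mk_surjective x
    rw [← QuotientAddGroup.mk_nsmul, mk_eq_zero]
    exact ⟨x, rfl⟩
  act0 σ hσ x hx := by
    obtain ⟨y, rfl⟩ := hx
    rw [lineHom_apply, rk_mk, ← QuotientAddGroup.mk_nsmul, mk_eq_mk, map_smul]
    obtain ⟨z, hz⟩ := hL.detc k σ
    have h1 : ρ σ (e 0) = LinearMap.det (ρ σ) • e 0 := by
      conv_lhs => rw [basis_sum e (ρ σ (e 0)), hL.stab σ hσ, zero_smul, add_zero,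
        hL.det_inertia hσ]
    refine ⟨(y * z) • e 0, ?_⟩
    rw [h1, ← Nat.cast_smul_eq_nsmul O, ← Nat.cast_smul_eq_nsmul O, smul_smul, smul_smul,
      smul_smul, ← sub_smul]
    congr 1
    rw [Nat.cast_pow]
    linear_combination y * hz
  quo σ hσ x := by
    obtain ⟨x, rfl⟩ := QuotientAddGroup.mk_surjective x
    rw [rk_mk, ← QuotientAddGroup.mk_sub]
    apply mem_G0k
    rw [map_sub, hL.coord1_apply (hL.stab σ hσ), hL.iner σ hσ, mul_one, sub_self]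
  res := by
    obtain ⟨M, hM⟩ := hL.res k
    refine ⟨M, fun σ => ?_⟩
    have key : ∀ n : ℕ, ∀ y : Λ,
        (((rk ρ r k σ - 1) * (rk ρ r k σ - ((cyc r σ).val : AddMonoid.End (Gk Λ r k)))) ^ n)
          (y : Gk Λ r k) =
        (((((ρ σ - 1) * (ρ σ - ((cyc r σ).val : Module.End O Λ))) ^ n) y : Λ) : Gk Λ r k) := by
      intro n
      induction n with
      | zero => intro y; rfl
      | succ n ih =>
        intro y
        rw [pow_succ, pow_succ]
        have h1 : ((rk ρ r k σ - 1) * (rk ρ r k σ - ((cyc r σ).val : AddMonoid.End (Gk Λ r k))))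
            (y : Gk Λ r k) =
            ((((ρ σ - 1) * (ρ σ - ((cyc r σ).val : Module.End O Λ))) y : Λ) : Gk Λ r k) := by
          rw [← nsmul_one, ← nsmul_one]
          rfl
        change (((rk ρ r k σ - 1) * (rk ρ r k σ -
          ((cyc r σ).val : AddMonoid.End (Gk Λ r k)))) ^ n)
          (((rk ρ r k σ - 1) * (rk ρ r k σ - ((cyc r σ).val : AddMonoid.End (Gk Λ r k))))
            (y : Gk Λ r k)) = _
        exact (congrArg _ h1).trans (ih _)
    apply AddMonoidHom.ext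
    intro y
    obtain ⟨y, rfl⟩ := QuotientAddGroup.mk_surjective y
    refine (key M y).trans ?_
    obtain ⟨z, hz⟩ := hM σ y
    rw [hz]
    exact mk_eq_zero.2 ⟨z, rfl⟩

/-- cocycles at finite level -/
theorem IsL.isZ (hO : IsO r O) (hL : IsL r N A AN ρ e) (hA : A.LiesOverPrime r) {c : GQ → Λ}
    (hc : IsK r N A ρ e c) {k : ℕ} {b : Gk Λ r k}
    (hb : ∀ σ ∈ AN.inertiaSubgroupIn ℚ, ((c σ : Λ) : Gk Λ r k) = rk ρ r k σ b - b) :
    IsZ N hA AN (rk ρ r k) (G0k e r k) (fun σ => ((c σ : Λ) : Gk Λ r k)) b where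
  coc σ τ := by
    rw [hc.coc, QuotientAddGroup.mk_add, rk_mk]
  lev := by
    obtain ⟨L, h1, h2⟩ := hc.lev k
    exact ⟨L, h1, fun σ hσ => mk_eq_zero.2 (h2 σ hσ)⟩
  unr q hq h1 h2 B hB σ hσ := by
    rw [hc.unr q hq h1 h2 B hB σ hσ, QuotientAddGroup.mk_zero]
  memr σ hσ := mem_G0k (hc.memr σ hσ)
  unit φ := by
    have h1 := hL.unit hO hA hc (ψ := φ.comp (lineHom (O := O) r k (e 0))) (k := k) (fun x => by
      change φ (lineHom (O := O) r k (e 0) ((r : O) ^ k * x)) = 0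
      have : ((r : O) ^ k * x) ∈ (lineHom (O := O) r k (e 0)).ker := by
        rw [lineHom_ker (p := e.coord 0) (coord_self e).1]
        exact mem_pw.2 ⟨x, by rw [nsmul_eq_mul, Nat.cast_pow]⟩
      rw [this, map_zero])
    obtain ⟨y, hy, h2⟩ := h1
    refine ⟨y, hy, fun σ hσ => ?_⟩
    rw [h2 σ hσ]
    congr 3
    change φ (((e.coord 0 (c σ) • e 0 : Λ) : Gk Λ r k)) = φ _
    rw [← hL.c_eq hc hσ]
  inN σ hσ := hb σ hσ

end Fermat.Agent.MazD
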