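import Fermat.Agent.Flat.Local
import Fermat.Agent.GalRep.BGM

/-!
# Hilbert 90 for locally constant cocycles on subgroups of the absolute Galois group of `ℚ`
-/

set_option autoImplicit false
set_option linter.unusedSectionVars false
set_option linter.style.haveILetI false

noncomputable section

namespace Fermat.Agent.MazD

open Fermat.Agent.GalRep

local notation "Ω" => AlgebraicClosure ℚ

/-- **Hilbert 90** for a subgroup `W` of the absolute Galois group. -/
theorem hilbert90 (W : Subgroup GQ) (c : GQ → Ωˣ)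
    (hc : ∀ σ ∈ W, ∀ τ ∈ W, (c (σ * τ) : Ω) = c σ * σ (c τ))
    (L : IntermediateField ℚ Ω) [FiniteDimensional ℚ L]
    (hL : ∀ σ ∈ W, (∀ x ∈ L, σ x = x) → c σ = 1) :
    ∃ y : Ωˣ, ∀ σ ∈ W, σ (y : Ω) = c σ * y := by
  classical
  let V : Subgroup GQ := L.fixingSubgroup
  haveI : V.FiniteIndex := ⟨by
    rw [← IntermediateField.finrank_eq_fixingSubgroup_index]
    exact Module.finrank_pos.ne'⟩
  haveI : Finite (W ⧸ V.subgroupOf W) := inferInstance
  letI := Fintype.ofFinite (W ⧸ V.subgroupOf W)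
  let χ : (W ⧸ V.subgroupOf W) → L →* Ω := fun q =>
    (((q.out : W) : GQ) : Ω →* Ω).comp (algebraMap L Ω : L →* Ω)
  have hχ : Function.Injective χ := by
    intro q q' hqq
    rw [← QuotientGroup.out_eq' q, ← QuotientGroup.out_eq' q', QuotientGroup.eq,
      Subgroup.mem_subgroupOf, IntermediateField.mem_fixingSubgroup_iff]
    intro t ht
    have h1 := congrArg (fun f : L →* Ω => f ⟨t, ht⟩) hqq
    change ((q.out : W) : GQ) t = ((q'.out : W) : GQ) t at h1
    change ((q.out : W) : GQ)⁻¹ (((q'.out : W) : GQ) t) = t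
    rw [← h1]
    exact ((q.out : W) : GQ).symm_apply_apply t
  have hli := (linearIndependent_monoidHom L Ω).comp χ hχ
  rw [Fintype.linearIndependent_iff] at hli
  let φ : W → L → Ω := fun w t => (c w : Ω) * (w : GQ) (t : Ω)
  have hφ : ∀ (w : W) (t : L), φ ((w : W ⧸ V.subgroupOf W).out) t = φ w t := by
    intro w t
    have h1 : (w : W)⁻¹ * (w : W ⧸ V.subgroupOf W).out ∈ V.subgroupOf W := by
      rw [← QuotientGroup.eq]; exact (QuotientGroup.out_eq' _).symm
    set v := (w : W)⁻¹ * (w : W ⧸ V.subgroupOf W).out with hv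
    have h3 : ((w : W ⧸ V.subgroupOf W).out : W) = w * v := by rw [hv]; group
    rw [h3]
    rw [Subgroup.mem_subgroupOf, IntermediateField.mem_fixingSubgroup_iff] at h1
    change (c ((w : GQ) * (v : GQ)) : Ω) * ((w : GQ) * (v : GQ)) (t : Ω) = _
    rw [hc w w.2 v v.2, hL v v.2 h1, Units.val_one, map_one, mul_one]
    have h5 : (v : GQ) (t : Ω) = t := h1 t t.2
    change _ * (w : GQ) ((v : GQ) (t : Ω)) = _
    rw [h5]
  obtain ⟨t, ht⟩ : ∃ t : L, ∑ q : W ⧸ V.subgroupOf W, φ q.out t ≠ 0 := by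
    by_contra hcon
    push Not at hcon
    have h1 := hli (fun q => (c ((q.out : W) : GQ) : Ω)) (by
      funext t
      have := hcon t
      simpa [χ, φ] using this) ((1 : W) : W ⧸ V.subgroupOf W)
    exact Units.ne_zero _ h1
  set y : Ω := ∑ q : W ⧸ V.subgroupOf W, φ q.out t with hy
  have hw : ∀ w : W, (c w : Ω) * (w : GQ) y = y := by
    intro w
    rw [hy, map_sum, Finset.mul_sum]
    refine Fintype.sum_equiv (MulAction.toPerm w) _ _ fun q => ?_
    obtain ⟨h, rfl⟩ := QuotientGroup.mk_surjective q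
    change _ = φ ((w * h : W) : W ⧸ V.subgroupOf W).out t
    rw [hφ, hφ]
    change (c w : Ω) * (w : GQ) ((c h : Ω) * (h : GQ) (t : Ω)) =
      (c ((w : GQ) * (h : GQ)) : Ω) * ((w : GQ) * (h : GQ)) (t : Ω)
    rw [hc w w.2 h h.2, map_mul, mul_assoc]
    rfl
  refine ⟨(Units.mk0 y ht)⁻¹, fun σ hσ => ?_⟩
  have h1 := hw ⟨σ, hσ⟩
  have h2 : σ y ≠ 0 := (_root_.map_ne_zero _).2 ht
  rw [Units.val_inv_eq_inv_val, Units.val_mk0, map_inv₀]
  change (c σ : Ω) * σ y = y at h1
  field_simp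
  rw [mul_comm]
  exact h1.symm

/-- the multiplicative group of `ℚ̄` is divisible -/
theorem units_divisible (n : ℕ) (hn : n ≠ 0) (y : Ωˣ) : ∃ x : Ωˣ, x ^ n = y := by
  obtain ⟨z, hz⟩ := IsAlgClosed.exists_pow_nat_eq (y : Ω) (Nat.pos_of_ne_zero hn)
  have hz0 : z ≠ 0 := by
    rintro rfl
    rw [zero_pow hn] at hz
    exact y.ne_zero hz.symm
  exact ⟨Units.mk0 z hz0, Units.ext (by simpa using hz)⟩

/-- extension of homomorphisms with values in `ℚ̄ˣ` -/
theorem exists_extend {M M' : Type*} [AddCommGroup M] [AddCommGroup M'] (f : M →+ M')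
    (hf : Function.Injective f) (g : M →+ Additive Ωˣ) : ∃ h : M' →+ Additive Ωˣ, ∀ x, h (f x) = g x := by
  letI : DivisibleBy (Additive Ωˣ) ℤ := by
    refine AddCommGroup.divisibleByIntOfSMulTopEqTop (Additive Ωˣ) ?_
    intro n hn
    rw [eq_top_iff]
    intro y _
    obtain ⟨x, hx⟩ := units_divisible n.natAbs (Int.natAbs_ne_zero.2 hn) y.toMul
    rcases Int.natAbs_eq n with h | h
    · refine ⟨Additive.ofMul x, trivial, ?_⟩
      rw [h]
      change ((n.natAbs : ℕ) : ℤ) • Additive.ofMul x = y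
      rw [natCast_zsmul, ← ofMul_pow, hx]
      rfl
    · refine ⟨-Additive.ofMul x, trivial, ?_⟩
      rw [h]
      change (-((n.natAbs : ℕ) : ℤ)) • (-Additive.ofMul x) = y
      rw [neg_smul_neg, natCast_zsmul, ← ofMul_pow, hx]
      rfl
  obtain ⟨h, hh⟩ := Module.Baer.extension_property_addMonoidHom
    (Module.Baer.of_divisible (A := Additive Ωˣ)) f hf g
  exact ⟨h, fun x => DFunLike.congr_fun hh x⟩

end Fermat.Agent.MazD
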