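import Fermat.Agent.MazD.XJ
import Fermat.Prelude.Thm_ModularCurve_coeffMap_qExpand

/-!
# Hecke operators commute with Galois on `J₀(N)`; fields of definition
-/

set_option autoImplicit false
set_option linter.unusedSectionVars false
set_option linter.style.haveILetI false

noncomputable section

namespace Fermat.Agent.MazD

open AlgebraicCurve Fermat.Agent.RR Fermat.Agent.Curve Fermat.Agent.Kum Fermat.Agent.FFG ModularCurve
  Fermat.Agent.HeckeHom

local notation "Ω" => AlgebraicClosure ℚ

section gen

variable {K F F' : Type*} [Field K] [IsAlgClosed K] [Field F] [Algebra K F] [FunField K F]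
  [Field F'] [Algebra K F'] [FunField K F']

/-- a function with a single pole -/
theorem exists_fun_pole (v : Place K F) : ∃ f : F, v.ord f < 0 ∧ ∀ w, w ≠ v → 0 ≤ w.ord f := by
  classical
  have hex : ∃ w : Place K F, w ≠ v := by
    obtain ⟨t, ht, -⟩ := (inferInstance : FunField K F).out
    obtain ⟨p, hp⟩ := exists_pole ht
    obtain ⟨z, hz⟩ := exists_zero' ht
    by_cases h : p = v
    · refine ⟨z, fun h' => ?_⟩
      rw [h', ← h] at hz
      exact absurd hz (not_lt.2 hp.le)
    · exact ⟨p, h⟩
  · obtain ⟨w, hw⟩ := hex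
    obtain ⟨g, hg, -⟩ := exists_genus K F
    let D : Divisor K F := Finsupp.single v ((g : ℤ) + 1) - Finsupp.single w 1
    have hdeg : Divisor.degree D = g := by
      rw [map_sub, Divisor.degree_single, Divisor.degree_single, place_deg, place_deg]
      push_cast
      ring
    have h1 := hg D
    rw [hdeg] at h1
    obtain ⟨z, hz0, hz⟩ := exists_ne_zero_of_ell_pos (D := D) (by linarith)
    rw [mem_L] at hz
    have h2 : ∀ u : Place K F, -D u ≤ u.ord z := fun u => by
      rcases hz u with h0 | h0
      · exact absurd h0 hz0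
      · exact h0
    have h3 : ∀ u, u ≠ v → 0 ≤ u.ord z := by
      intro u hu
      have h4 := h2 u
      have h5 : D u ≤ 0 := by
        change (Finsupp.single v ((g : ℤ) + 1) - Finsupp.single w 1 : Place K F →₀ ℤ) u ≤ 0
        rw [Finsupp.sub_apply, Finsupp.single_apply, if_neg (Ne.symm hu), Finsupp.single_apply]
        split_ifs <;> norm_num
      linarith
    refine ⟨z, ?_, h3⟩
    by_contra hcon
    push Not at hcon
    have h6 : ∀ u : Place K F, 0 ≤ u.ord z := fun u => by
      by_cases hu : u = v
      · rw [hu]; exact hcon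
      · exact h3 u hu
    obtain ⟨c, hc⟩ := const_of_no_pole (K := K) h6
    have h7 : w.ord z = 0 := by rw [← hc]; exact ord_algebraMap w c
    have h8 := h2 w
    have h9 : D w = -1 := by
      change (Finsupp.single v ((g : ℤ) + 1) - Finsupp.single w 1 : Place K F →₀ ℤ) w = -1
      rw [Finsupp.sub_apply, Finsupp.single_apply, if_neg (Ne.symm hw), Finsupp.single_eq_same]
      norm_num
    rw [h7, h9] at h8
    norm_num at h8

/-- places are determined by their order functions up to a factor -/
theorem place_eq_of_mul {v w : Place K F} {a b : ℕ} (ha : a ≠ 0) (hb : b ≠ 0)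
    (h : ∀ x, (a : ℤ) * v.ord x = b * w.ord x) : v = w ∧ a = b := by
  have hvw : v = w := by
    obtain ⟨f, hf, hf'⟩ := exists_fun_pole v
    by_contra hne
    have h1 := hf' w (Ne.symm hne)
    have h2 := h f
    have h3 : (a : ℤ) * v.ord f < 0 := mul_neg_of_pos_of_neg (by positivity) hf
    have h4 : 0 ≤ (b : ℤ) * w.ord f := by positivity
    omega
  subst hvw
  refine ⟨rfl, ?_⟩
  obtain ⟨f, hf, -⟩ := exists_fun_pole v
  have h2 := mul_right_cancel₀ hf.ne (h f)
  exact_mod_cast h2

variable (φ : F →ₐ[K] F') (hφ : φ.toRingHom.IsIntegral) {g : SemilinearAut K F}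
  {g' : SemilinearAut K F'} (hg : ∀ x, g' • φ x = φ (g • x))

theorem ord_smul' (g : SemilinearAut K F) (v : Place K F) (x : F) :
    (g⁻¹ • v).ord x = v.ord (g • x) := by
  have h := SemilinearAut.ord_smul g (g⁻¹ • v) x
  rw [smul_inv_smul] at h
  exact h.symm

include hφ in
theorem ramAlong_ne_zero (w : Place K F') : Place.ramificationIndexAlong φ w ≠ 0 := by
  letI := algebraAlong φ
  haveI := isScalarTower_along φ
  haveI := isIntegral_along φ hφ
  exact (w.ramificationIndex_pos (F := F)).ne'

include hg in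
theorem restrict_smul (w : Place K F') :
    (g'⁻¹ • w).restrictAlong φ hφ = g⁻¹ • w.restrictAlong φ hφ ∧
      Place.ramificationIndexAlong φ (g'⁻¹ • w) = Place.ramificationIndexAlong φ w := by
  refine place_eq_of_mul (ramAlong_ne_zero φ hφ _) (ramAlong_ne_zero φ hφ _) fun x => ?_
  rw [← Place.ord_restrictAlong, ord_smul', hg, Place.ord_restrictAlong φ hφ, ord_smul']

theorem inertiaDegAlong_eq_one (w : Place K F') : w.inertiaDegAlong φ hφ = 1 := by
  have h1 := Divisor.degree_pushforwardAlong φ hφ (Finsupp.single w 1)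
  rw [Divisor.pushforwardAlong_single, Divisor.degree_single, Divisor.degree_single, place_deg,
    place_deg] at h1
  push_cast at h1
  rw [one_mul, mul_one] at h1
  exact_mod_cast h1

include hg in
theorem pushforward_smul (D : Divisor K F') :
    Divisor.pushforwardAlong φ hφ (g' • D) = g • Divisor.pushforwardAlong φ hφ D := by
  have hg2 : ∀ x, g'⁻¹ • φ x = φ (g⁻¹ • x) := fun x => by
    have h1 := hg (g⁻¹ • x)
    rw [smul_inv_smul] at h1
    rw [← h1, inv_smul_smul]
  induction D using Finsupp.induction with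
  | zero => rw [map_zero, smul_zero, map_zero, smul_zero]
  | single_add w n D _ _ ih =>
    have e : ∀ D₁ D₂ : Divisor K F', g' • (D₁ + D₂) = g' • D₁ + g' • D₂ := smul_add g'
    have h1 : g' • (Finsupp.single w n + D) = g' • (Finsupp.single w n : Divisor K F') + g' • D :=
      e _ _
    rw [h1, map_add, ih]
    have h2 : Divisor.pushforwardAlong φ hφ (Finsupp.single w n + D) =
      Divisor.pushforwardAlong φ hφ (Finsupp.single w n) + Divisor.pushforwardAlong φ hφ D :=
      map_add _ _ _
    rw [h2, smul_add]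
    congr 1
    rw [SemilinearAut.smul_single, Divisor.pushforwardAlong_single,
      Divisor.pushforwardAlong_single, SemilinearAut.smul_single, inertiaDegAlong_eq_one,
      inertiaDegAlong_eq_one]
    congr 1
    have h3 := (restrict_smul φ hφ hg2 w).1
    rwa [inv_inv, inv_inv] at h3

include hg in
theorem pullback_smul [HasPrincipalDivisors K F'] (D : Divisor K F) :
    Divisor.pullbackAlong φ hφ (g • D) = g' • Divisor.pullbackAlong φ hφ D := by
  ext w
  have h1 := restrict_smul φ hφ hg w
  rw [Divisor.pullbackAlong_apply, SemilinearAut.divisor_smul_apply,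
    SemilinearAut.divisor_smul_apply, Divisor.pullbackAlong_apply, h1.1, h1.2]

end gen

/-! ### fields of definition -/

variable {N : ℕ} [NeZero N]

theorem exists_level_place (v : Place Ω (FK Ω N)) : ∃ L : IntermediateField ℚ Ω,
    FiniteDimensional ℚ L ∧ ∀ σ : Ω ≃ₐ[ℚ] Ω, (∀ a ∈ L, σ a = a) →
      arithmeticGalois (modularFunctionFieldFull N) σ • v = v := by
  obtain ⟨f, hf, hf'⟩ := exists_fun_pole v
  obtain ⟨L, hL, hLf⟩ := Kum.exists_level (K := Ω) f
  refine ⟨L, hL, fun σ hσ => ?_⟩
  have h1 : arithmeticGalois (modularFunctionFieldFull N) σ • f = f := hLf σ hσ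
  by_contra hne
  have h2 := hf' _ hne
  have h3 := SemilinearAut.ord_smul (arithmeticGalois (modularFunctionFieldFull N) σ) v f
  rw [h1] at h3
  rw [h3] at h2
  exact absurd hf (not_lt.2 h2)

/-- points of `J₀(N)` are defined over number fields -/
theorem exists_level_J (x : JZero N) : ∃ L : IntermediateField ℚ Ω,
    FiniteDimensional ℚ L ∧ ∀ σ : Ω ≃ₐ[ℚ] Ω, (∀ a ∈ L, σ a = a) → σ • x = x := by
  classical
  obtain ⟨D, rfl⟩ := Pic0.mk_surjective x
  choose L hL hLv using fun v : Place Ω (FK Ω N) => exists_level_place v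
  let D' : Divisor Ω (FK Ω N) := D
  refine ⟨⨆ v : D'.support, L v, ?_, fun σ hσ => ?_⟩
  · exact IntermediateField.finiteDimensional_iSup_of_finite
  · rw [galois_smul_pic0_def, SemilinearAut.pic0_smul_mk]
    congr 1
    apply Subtype.ext
    have key : ∀ E : Divisor Ω (FK Ω N), (∀ v ∈ E.support,
        arithmeticGalois (modularFunctionFieldFull N) σ • v = v) →
        arithmeticGalois (modularFunctionFieldFull N) σ • E = E := by
      intro E hE
      rw [SemilinearAut.divisor_smul_def]
      have h1 : Finsupp.mapDomain (fun v => arithmeticGalois (modularFunctionFieldFull N) σ • v) E =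
          Finsupp.mapDomain id E := Finsupp.mapDomain_congr hE
      rw [Finsupp.mapDomain_id] at h1
      exact h1
    exact key D' fun v hv => hLv v σ fun a ha =>
      hσ a ((le_iSup (fun v : D'.support => L v) ⟨v, hv⟩) ha)

/-! ### Hecke operators -/

theorem galK_alpha {q : ℕ} [NeZero q] (σ : Ω ≃ₐ[ℚ] Ω) (x : FK Ω N) :
    arithmeticGalois (modularFunctionFieldFull (N * q)) σ • heckeAlphaBar Ω N q x =
      heckeAlphaBar Ω N q (arithmeticGalois (modularFunctionFieldFull N) σ • x) := by
  apply Subtype.ext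
  rw [coe_arithmeticGalois_smul, coe_heckeAlphaBar, coe_heckeAlphaBar, coe_arithmeticGalois_smul]

theorem galK_beta {q : ℕ} [NeZero q] (σ : Ω ≃ₐ[ℚ] Ω) (x : FK Ω N) :
    arithmeticGalois (modularFunctionFieldFull (N * q)) σ • heckeBetaBar Ω N q x =
      heckeBetaBar Ω N q (arithmeticGalois (modularFunctionFieldFull N) σ • x) := by
  apply Subtype.ext
  rw [coe_arithmeticGalois_smul, coe_heckeBetaBar, coe_heckeBetaBar, coe_arithmeticGalois_smul]
  exact coeffMap_qExpand _ _ _

/-- Hecke operators are defined over `ℚ` -/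
theorem hecke_gal (q : Nat.Primes) (σ : Ω ≃ₐ[ℚ] Ω) (x : JZero N) :
    heckeOperatorBar N q (σ • x) = σ • heckeOperatorBar N q x := by
  haveI : NeZero (q : ℕ) := ⟨q.2.ne_zero⟩
  obtain ⟨D, rfl⟩ := Pic0.mk_surjective x
  change heckeOperatorAlong Ω N q _ = σ • heckeOperatorAlong Ω N q _
  rw [heckeOperatorAlong_eq', galois_smul_pic0_def, galois_smul_pic0_def,
    SemilinearAut.pic0_smul_mk]
  change Pic0.mk (Pic0.degZeroCorrespondence (heckeBetaBar Ω N q) (heckeAlphaBar Ω N q)
    (heckeBetaBarIntegral Ω N q) (heckeAlphaBarIntegral Ω N q)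
    (fundamentalIdentityAlong_beta Ω N q) _) = arithmeticGalois (modularFunctionFieldFull N) σ •
      Pic0.mk (Pic0.degZeroCorrespondence (heckeBetaBar Ω N q) (heckeAlphaBar Ω N q)
    (heckeBetaBarIntegral Ω N q) (heckeAlphaBarIntegral Ω N q)
    (fundamentalIdentityAlong_beta Ω N q) D)
  rw [SemilinearAut.pic0_smul_mk]
  congr 1
  apply Subtype.ext
  change Divisor.pushforwardAlong (heckeAlphaBar Ω N q) (heckeAlphaBarIntegral Ω N q)
    (Divisor.pullbackAlong (heckeBetaBar Ω N q) (heckeBetaBarIntegral Ω N q)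
      (arithmeticGalois (modularFunctionFieldFull N) σ • (D : Divisor Ω (FK Ω N)))) =
    arithmeticGalois (modularFunctionFieldFull N) σ •
      (Divisor.pushforwardAlong (heckeAlphaBar Ω N q) (heckeAlphaBarIntegral Ω N q)
        (Divisor.pullbackAlong (heckeBetaBar Ω N q) (heckeBetaBarIntegral Ω N q)
          (D : Divisor Ω (FK Ω N))))
  rw [pullback_smul (heckeBetaBar Ω N q) (heckeBetaBarIntegral Ω N q) (galK_beta σ),
    pushforward_smul (heckeAlphaBar Ω N q) (heckeAlphaBarIntegral Ω N q) (galK_alpha σ)]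

end Fermat.Agent.MazD
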