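import Fermat.Agent.MazD.KBd
import Fermat.Agent.S17

/-!
# The Kummer map on the Mordell–Weil group modulo torsion
-/

set_option autoImplicit false
set_option linter.unusedSectionVars false
set_option linter.style.haveILetI false

noncomputable section

namespace Fermat.Agent.MazD

open AlgebraicCurve Fermat.Agent.RR Fermat.Agent.Curve Fermat.Agent.Kum Fermat.Agent.FFG ModularCurve
  Fermat.Agent.HeckeHom Fermat.Agent.GalRep Fermat.Agent.Flat IsLocalRing
open scoped TensorProduct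

local notation "Ω" => AlgebraicClosure ℚ

section points

variable (N : ℕ) [NeZero N]

/-- rational points -/
def JQ : Submodule ℤ (JZero N) :=
  AddSubgroup.toIntSubmodule (FixedPoints.addSubgroup GQ (JZero N))

variable {N}

theorem mem_JQ {P : JZero N} : P ∈ JQ N ↔ ∀ σ : GQ, σ • P = P := Iff.rfl

theorem JQ_finite (hN : N.Prime) (hN5 : 5 ≤ N) : Module.Finite ℤ (JQ N) := by
  have h := Fermat.Agent.S17.result N hN hN5
  exact Module.Finite.iff_addGroup_fg.2 h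

variable (N) in
/-- rational points modulo torsion -/
abbrev MQ : Type := (JQ N) ⧸ (Submodule.torsion ℤ (JQ N))

/-- the class of a point -/
def cl : JQ N →ₗ[ℤ] MQ N := (Submodule.torsion ℤ (JQ N)).mkQ

theorem cl_surjective : Function.Surjective (cl (N := N)) := Submodule.mkQ_surjective _

theorem cl_eq_zero {P : JQ N} : cl P = 0 ↔ ∃ n : ℕ, n ≠ 0 ∧ n • (P : JZero N) = 0 := by
  have h0 : cl P = 0 ↔ P ∈ Submodule.torsion ℤ (JQ N) := Submodule.Quotient.mk_eq_zero _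
  rw [h0, Submodule.mem_torsion_iff]
  constructor
  · rintro ⟨a, ha⟩
    refine ⟨(a : ℤ).natAbs, Int.natAbs_ne_zero.2 (nonZeroDivisors.ne_zero a.2), ?_⟩
    have h1 : (a : ℤ) • (P : JZero N) = 0 := congrArg Subtype.val ha
    rcases Int.natAbs_eq (a : ℤ) with h | h
    · rw [h, natCast_zsmul] at h1
      exact h1
    · rw [h, neg_smul, natCast_zsmul, neg_eq_zero] at h1
      exact h1
  · rintro ⟨n, hn, h⟩
    refine ⟨⟨(n : ℤ), mem_nonZeroDivisors_of_ne_zero (Nat.cast_ne_zero.2 hn)⟩, Subtype.ext ?_⟩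
    change (n : ℤ) • (P : JZero N) = 0
    rw [natCast_zsmul, h]

theorem MQ_torsionFree : Module.IsTorsionFree ℤ (MQ N) := torsionFree_of fun a x ha h => by
  obtain ⟨P, rfl⟩ := cl_surjective x
  rw [← map_smul, cl_eq_zero] at h
  obtain ⟨n, hn, h⟩ := h
  rw [cl_eq_zero]
  refine ⟨n * a.natAbs, mul_ne_zero hn (Int.natAbs_ne_zero.2 ha), ?_⟩
  rw [mul_smul]
  have h1 : n • (a • (P : JZero N)) = 0 := h
  rcases Int.natAbs_eq a with h' | h'
  · rw [h', natCast_zsmul] at h1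
    exact h1
  · rw [h', neg_smul, natCast_zsmul, neg_nsmul', neg_eq_zero] at h1
    exact h1

theorem hecke_mem_JQ (l : Nat.Primes) {P : JZero N} (hP : P ∈ JQ N) :
    heckeOperatorBar N l P ∈ JQ N := by
  rw [mem_JQ] at hP ⊢
  intro σ
  rw [← hecke_gal, hP]

variable (N) in
/-- Hecke operators on rational points -/
def TJ (l : Nat.Primes) : Module.End ℤ (JQ N) :=
  (heckeOperatorBar N l).restrict fun _ hP => hecke_mem_JQ l hP

theorem TJ_coe (l : Nat.Primes) (P : JQ N) :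
    ((TJ N l P : JQ N) : JZero N) = heckeOperatorBar N l P := rfl

variable (N) in
/-- Hecke operators on rational points modulo torsion -/
def TM (l : Nat.Primes) : Module.End ℤ (MQ N) :=
  Submodule.mapQ _ _ (TJ N l) fun P hP => by
    have h1 : cl P = 0 := (Submodule.Quotient.mk_eq_zero _).2 hP
    rw [cl_eq_zero] at h1
    obtain ⟨n, hn, h⟩ := h1
    have h2 : cl (TJ N l P) = 0 := by
      rw [cl_eq_zero]
      exact ⟨n, hn, by rw [TJ_coe, ← map_nsmul, h, map_zero]⟩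
    exact show TJ N l P ∈ Submodule.torsion ℤ (JQ N) from (Submodule.Quotient.mk_eq_zero _).1 h2

theorem TM_cl (l : Nat.Primes) (P : JQ N) : TM N l (cl P) = cl (TJ N l P) := rfl

theorem hecke_comm_of_torsion (ι : AlgebraicClosure ℚ →+* ℂ) {l l' : ℕ} (hl : l.Prime)
    (hlN : ¬ l ∣ N) (hl' : l'.Prime) (hlN' : ¬ l' ∣ N) {m : ℕ} [NeZero m] {x : JZero N}
    (hx : m • x = 0) :
    heckeOperatorBar N (⟨l, hl⟩ : Nat.Primes) (heckeOperatorBar N (⟨l', hl'⟩ : Nat.Primes) x) =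
    heckeOperatorBar N (⟨l', hl'⟩ : Nat.Primes) (heckeOperatorBar N (⟨l, hl⟩ : Nat.Primes) x) := by
  obtain ⟨ξ, rfl⟩ := xToJ_surj ι hx
  have h1 : ∀ ξ : XL N m, actX N m (S0 N) (CuspForm.heckeAlgebra.T hl hlN hlN)
      (actX N m (S0 N) (CuspForm.heckeAlgebra.T hl' hlN' hlN') ξ) =
      actX N m (S0 N) (CuspForm.heckeAlgebra.T hl' hlN' hlN')
      (actX N m (S0 N) (CuspForm.heckeAlgebra.T hl hlN hlN) ξ) := by
    intro ξ
    obtain ⟨φ, rfl⟩ := mkX_surjective ξ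
    change mkX (TL hl hlN (TL hl' hlN' φ)) = mkX (TL hl' hlN' (TL hl hlN φ))
    exact congrArg mkX (LinearMap.congr_fun (TL_comm hl hlN hl' hlN').eq φ)
  rw [← xToJ_T (S := S0 N) ι hl' hlN' hlN', ← xToJ_T (S := S0 N) ι hl hlN hlN, h1,
    xToJ_T (S := S0 N) ι hl' hlN' hlN', xToJ_T (S := S0 N) ι hl hlN hlN]

theorem eq_zero_of_pow {M : Type*} [AddCommGroup M] [Module.Free ℤ M] {p : ℕ} (hp : 2 ≤ p) {x : M}
    (h : ∀ k : ℕ, ∃ y, x = (p : ℤ) ^ k • y) : x = 0 := by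
  let b := Module.Free.chooseBasis ℤ M
  apply b.repr.injective
  ext i
  rw [map_zero, Finsupp.zero_apply]
  by_contra hne
  obtain ⟨y, hy⟩ := h (b.repr x i).natAbs
  have h1 : b.repr x i = (p : ℤ) ^ (b.repr x i).natAbs * b.repr y i := by
    conv_lhs => rw [hy]
    rw [map_smul, Finsupp.smul_apply, smul_eq_mul]
  have h2 : b.repr y i ≠ 0 := fun h0 => hne (by rw [h1, h0, mul_zero])
  have h3 := congrArg Int.natAbs h1
  rw [Int.natAbs_mul, Int.natAbs_pow, Int.natAbs_natCast] at h3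
  have h4 : (b.repr x i).natAbs < 2 ^ (b.repr x i).natAbs := Nat.lt_two_pow_self
  have h5 : 2 ^ (b.repr x i).natAbs ≤ p ^ (b.repr x i).natAbs := Nat.pow_le_pow_left hp _
  have h6 : p ^ (b.repr x i).natAbs * 1 ≤ p ^ (b.repr x i).natAbs * (b.repr y i).natAbs :=
    Nat.mul_le_mul_left _ (Nat.one_le_iff_ne_zero.2 (Int.natAbs_ne_zero.2 h2))
  omega

theorem MQ_free (hN : N.Prime) (hN5 : 5 ≤ N) : Module.Finite ℤ (MQ N) ∧ Module.Free ℤ (MQ N) := by
  haveI := JQ_finite hN hN5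
  haveI : Module.IsTorsionFree ℤ (MQ N) := MQ_torsionFree
  haveI : Module.Finite ℤ (MQ N) := Module.Finite.of_surjective cl cl_surjective
  exact ⟨inferInstance, Module.free_of_finite_type_torsion_free'⟩

theorem comm_aux (δ : JZero N → JZero N) (hδt : ∀ (m : ℕ) [NeZero m] (x : JZero N), m • x = 0 → δ x = 0)
    (hδs : ∀ x y, δ (x - y) = δ x - δ y) (hδn : ∀ (n : ℕ) x, δ (n • x) = n • δ x)
    (hδσ : ∀ (σ : GQ) x, δ (σ • x) = σ • δ x) (P : JQ N) (k : ℕ) :
    ∃ R : JQ N, δ P = (2 : ℤ) ^ k • (R : JZero N) := by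
  haveI : NeZero (2 ^ k) := ⟨pow_ne_zero _ two_ne_zero⟩
  obtain ⟨Q, hQ⟩ := divisible_J (pow_ne_zero k two_ne_zero) (P : JZero N)
  have hR : δ Q ∈ JQ N := by
    rw [mem_JQ]
    intro σ
    rw [← hδσ, ← sub_eq_zero, ← hδs]
    apply hδt (2 ^ k)
    rw [nsmul_sub, ← gal_nsmul, hQ]
    exact sub_eq_zero.2 (mem_JQ.1 P.2 σ)
  refine ⟨⟨δ Q, hR⟩, ?_⟩
  rw [← hQ, hδn, ← natCast_zsmul]
  push_cast
  rfl

set_option maxHeartbeats 2000000 in
theorem TM_comm (hN : N.Prime) (hN5 : 5 ≤ N) {l l' : Nat.Primes} (hlN : ¬ (l : ℕ) ∣ N)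
    (hlN' : ¬ (l' : ℕ) ∣ N) : Commute (TM N l) (TM N l') := by
  obtain ⟨ι⟩ : Nonempty (AlgebraicClosure ℚ →+* ℂ) := RedMod.exists_ιC
  obtain ⟨-, hfree⟩ := MQ_free hN hN5
  refine LinearMap.ext fun x => ?_
  obtain ⟨P, rfl⟩ := cl_surjective x
  rw [Module.End.mul_apply, Module.End.mul_apply, TM_cl, TM_cl, TM_cl, TM_cl, ← sub_eq_zero]
  refine eq_zero_of_pow (p := 2) le_rfl fun k => ?_
  obtain ⟨R, hR⟩ := comm_aux (fun x => heckeOperatorBar N l (heckeOperatorBar N l' x) -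
    heckeOperatorBar N l' (heckeOperatorBar N l x))
    (fun m _ x hx => sub_eq_zero.2 (hecke_comm_of_torsion ι l.2 hlN l'.2 hlN' hx))
    (fun x y => by simp only [map_sub]; abel) (fun n x => by simp only [map_nsmul, nsmul_sub])
    (fun σ x => by simp only [hecke_gal, smul_sub]) P k
  refine ⟨cl R, ?_⟩
  rw [← map_sub, Nat.cast_ofNat, ← map_smul]
  congr 1
  exact Subtype.ext hR

end points

variable {r : ℕ} [hr : Fact r.Prime] {O : Type} [CommRing O] [IsDomain O] {N : ℕ} [NeZero N]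
  [IsLocalRing O] [IsNoetherianRing O] [IsAdicComplete (maximalIdeal O) O]
  {ι : AlgebraicClosure ℚ →+* ℂ} {F : CoefF r O}
  {hs : ∀ x : O, (∀ k : ℕ, ∃ y, x = (r : O) ^ k * y) → x = 0} {hpO : (r : O) ∈ maximalIdeal O}

local notation "ϱ" => rhoO (N := N) ι F hs hpO

/-- the basic injectivity statement -/
theorem inj_core {m : ℕ} (P : Fin m → JZero N) (c : Fin m → GQ → O ⊗[ℤ] LZ N)
    (hc : ∀ j, Kc r ι (c j) (P j)) (a : Fin m → O) (l : O ⊗[ℤ] LZ N)
    (h : ∀ σ, ∑ j, a j • c j σ = ϱ σ l - l) (i : F.I) (k : ℕ) (n : Fin m → ℕ)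
    (hn : ∀ j, F.fn i k (a j) = n j) :
    ∃ R : JZero N, (∀ σ : GQ, σ • R = R) ∧ ∑ j, n j • P j = r ^ k • R := by
  choose Q h0 h1 h2 using hc
  set w := xToJ ι (r ^ k) (flm (F.fn i k) l) with hw
  have hwk : r ^ k • w = 0 := nsmul_xToJ ι _
  refine ⟨∑ j, n j • Q j k - w, fun σ => ?_, ?_⟩
  · have h3 := congrArg (fun v => xToJ ι (r ^ k) (flm (F.fn i k) v)) (h σ)
    simp only [map_sum, map_sub, flm_rho, xToJ_rho] at h3
    rw [Finset.sum_congr rfl fun j _ => h2 j σ k (F.fn i k) (a j) (n j) (hn j), ← hw] at h3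
    have h4 : σ • (∑ j, n j • Q j k - w) = ∑ j, n j • (σ • Q j k) - σ • w := by
      rw [smul_sub, Finset.smul_sum]
      congr 1
      exact Finset.sum_congr rfl fun j _ => gal_nsmul σ _ _
    rw [h4, ← sub_eq_zero]
    have h5 : ∑ j, n j • (σ • Q j k - Q j k) = ∑ j, n j • (σ • Q j k) - ∑ j, n j • Q j k := by
      rw [← Finset.sum_sub_distrib]
      exact Finset.sum_congr rfl fun j _ => nsmul_sub _ _ _
    rw [h5] at h3
    have h6 : ∑ j, n j • (σ • Q j k) = σ • w - w + ∑ j, n j • Q j k := by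
      rw [← h3]; abel
    rw [h6]
    abel
  · rw [nsmul_sub, hwk, sub_zero, Finset.smul_sum]
    refine Finset.sum_congr rfl fun j _ => ?_
    rw [smul_comm, pow_Q (h1 j), h0]

end Fermat.Agent.MazD
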