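import Fermat.Agent.MazD.Core2
import Fermat.Agent.MazD.Dev

/-!
# Hecke-eigen Kummer classes vanish
-/

set_option autoImplicit false
set_option linter.unusedSectionVars false
set_option linter.style.haveILetI false

noncomputable section

namespace Fermat.Agent.MazD

open AlgebraicCurve Fermat.Agent.RR Fermat.Agent.Curve Fermat.Agent.Kum Fermat.Agent.FFG ModularCurve
  Fermat.Agent.HeckeHom Fermat.Agent.GalRep Fermat.Agent.Flat IsLocalRing
open scoped TensorProduct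

local notation "Ω" => AlgebraicClosure ℚ

variable {r : ℕ} [hr : Fact r.Prime] {O : Type} [CommRing O] [IsDomain O] {N : ℕ} [NeZero N]

/-- the submodule of cocycles with local conditions -/
def CS (r : ℕ) [Fact r.Prime] (ρ : GQ →* Module.End O (O ⊗[ℤ] LZ N)) (W : Submodule O (O ⊗[ℤ] LZ N))
    (A : ValuationSubring (AlgebraicClosure ℚ)) : Submodule O (GQ → O ⊗[ℤ] LZ N) where
  carrier := {c | IsC (ρ := ρ) r W A c}
  add_mem' := fun {c c'} hc hc' =>
    { coc := fun σ τ => by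
        rw [Pi.add_apply, Pi.add_apply, Pi.add_apply, hc.coc, hc'.coc, map_add]
        abel
      lev := fun k => by
        obtain ⟨L, h1, h2⟩ := hc.lev k
        obtain ⟨L', h1', h2'⟩ := hc'.lev k
        haveI := h1
        haveI := h1'
        refine ⟨L ⊔ L', inferInstance, fun σ hσ => ?_⟩
        obtain ⟨y, hy⟩ := h2 σ (fun x hx => hσ x ((le_sup_left : L ≤ L ⊔ L') hx))
        obtain ⟨y', hy'⟩ := h2' σ (fun x hx => hσ x ((le_sup_right : L' ≤ L ⊔ L') hx))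
        exact ⟨y + y', by rw [Pi.add_apply, hy, hy', smul_add]⟩
      unr := fun q hq hqr hqN B hB σ hσ => by
        rw [Pi.add_apply, hc.unr q hq hqr hqN B hB σ hσ, hc'.unr q hq hqr hqN B hB σ hσ, add_zero]
      sp := fun σ hσ => add_mem (hc.sp σ hσ) (hc'.sp σ hσ) }
  zero_mem' :=
    { coc := fun σ τ => by simp
      lev := fun k => ⟨⊥, inferInstance, fun σ _ => ⟨0, by simp⟩⟩
      unr := fun q hq hqr hqN B hB σ hσ => rfl
      sp := fun σ hσ => zero_mem _ }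
  smul_mem' := fun a c hc =>
    { coc := fun σ τ => by
        rw [Pi.smul_apply, Pi.smul_apply, Pi.smul_apply, hc.coc, map_smul, smul_add]
      lev := fun k => by
        obtain ⟨L, h1, h2⟩ := hc.lev k
        refine ⟨L, h1, fun σ hσ => ?_⟩
        obtain ⟨y, hy⟩ := h2 σ hσ
        exact ⟨a • y, by rw [Pi.smul_apply, hy, smul_comm]⟩
      unr := fun q hq hqr hqN B hB σ hσ => by
        rw [Pi.smul_apply, hc.unr q hq hqr hqN B hB σ hσ, smul_zero]
      sp := fun σ hσ => Submodule.smul_mem _ _ (hc.sp σ hσ) }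

theorem mem_CS {ρ : GQ →* Module.End O (O ⊗[ℤ] LZ N)} {W : Submodule O (O ⊗[ℤ] LZ N)}
    {A : ValuationSubring (AlgebraicClosure ℚ)} {c : GQ → O ⊗[ℤ] LZ N} :
    c ∈ CS r ρ W A ↔ IsC (ρ := ρ) r W A c := Iff.rfl

theorem frob_alg {E : Type*} [Ring E] {F T Q : E} (h : F * F - T * F + Q = 0) :
    (F + 1 - T) * (F - 1) = -((Q + 1) - T) := by
  have h1 : (F + 1 - T) * (F - 1) = (F * F - T * F + Q) - ((Q + 1) - T) := by noncomm_ring
  rw [h1, h, zero_sub]

theorem S_alg {E : Type*} [Ring E] {X Y Z η b : E} (h1 : Y * Z = - η) (h2 : X * η = b) :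
    -(X * Y) * Z = b := by
  rw [neg_mul, mul_assoc, h1, mul_neg, neg_neg, h2]

/-- injective operators divide constants -/
theorem exists_aeval_mul {V : Type*} [AddCommGroup V] [Module O V] [Module.Free O V]
    [Module.Finite O V] [IsNoetherianRing O] (η : Module.End O V) (hη : ∀ x, η x = 0 → x = 0) :
    ∃ (g : Polynomial O) (b : O), b ≠ 0 ∧ Polynomial.aeval η g * η = b • 1 := by
  classical
  obtain ⟨p, hp1, hp2⟩ := Polynomial.exists_eq_pow_rootMultiplicity_mul_and_not_dvd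
    (LinearMap.charpoly η) (LinearMap.charpoly_monic _).ne_zero (0 : O)
  set m := Polynomial.rootMultiplicity (0 : O) (LinearMap.charpoly η) with hm
  rw [Polynomial.C_0, sub_zero] at hp1 hp2
  have hpow : ∀ (n : ℕ) (x : V), (η ^ n) x = 0 → x = 0 := by
    intro n
    induction n with
    | zero => intro x hx; exact hx
    | succ n ih =>
      intro x hx
      rw [pow_succ, Module.End.mul_apply] at hx
      exact hη _ (ih _ hx)
  have h1 : Polynomial.aeval η p = 0 := by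
    ext x
    apply hpow m
    have h2 := LinearMap.congr_fun (LinearMap.aeval_self_charpoly η) x
    rw [hp1, map_mul, map_pow, Polynomial.aeval_X, Module.End.mul_apply] at h2
    exact h2
  refine ⟨-p.divX, p.coeff 0, fun h0 => hp2 (Polynomial.X_dvd_iff.2 h0), ?_⟩
  have h2 := congrArg (Polynomial.aeval η) (Polynomial.divX_mul_X_add p)
  rw [h1, map_add, map_mul, Polynomial.aeval_X, Polynomial.aeval_C, ← eq_neg_iff_add_eq_zero] at h2
  rw [map_neg, neg_mul, h2, neg_neg, Algebra.algebraMap_eq_smul_one]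

variable {χ : ℕ → O} [IsLocalRing O] [IsNoetherianRing O] [IsAdicComplete (maximalIdeal O) O]
  {ι : AlgebraicClosure ℚ →+* ℂ} {F : CoefF r O}
  {hs : ∀ x : O, (∀ k : ℕ, ∃ y, x = (r : O) ^ k * y) → x = 0} {hpO : (r : O) ∈ maximalIdeal O}
  {A AN : ValuationSubring (AlgebraicClosure ℚ)} {P₀ : Type} [AddCommGroup P₀]
  {f : JZero N →+ P₀} {Φ Φi : P₀ →+ P₀}

local notation "ϱ" => rhoO (N := N) ι F hs hpO

theorem commute_rho {q : ℕ} (hq : q.Prime) (hqN : ¬ q ∣ N) (σ : GQ) :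
    Commute (TO O hq hqN) (ϱ σ) := LinearMap.ext fun x => (rho_TO ι F hs hpO hq hqN σ x).symm

theorem TO_mem_CS (hsp : IsSp r N A f Φ Φi) {c : GQ → O ⊗[ℤ] LZ N} (hc : c ∈ CS r ϱ (SpO ι F f) A)
    {q : ℕ} (hq : q.Prime) (hqN : ¬ q ∣ N) (hqr : q ≠ r) :
    (fun σ => TO O hq hqN (c σ)) ∈ CS r ϱ (SpO ι F f) A where
  coc σ τ := by rw [hc.coc, map_add, rho_TO]
  lev k := by
    obtain ⟨L, h1, h2⟩ := hc.lev k
    refine ⟨L, h1, fun σ hσ => ?_⟩
    obtain ⟨y, hy⟩ := h2 σ hσ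
    exact ⟨TO O hq hqN y, by rw [hy, map_smul]⟩
  unr q' hq' hqr' hqN' B hB σ hσ := by rw [hc.unr q' hq' hqr' hqN' B hB σ hσ, map_zero]
  sp σ hσ := TO_mem_SpO f hq hqN (fun x hx => hsp.hk (⟨q, hq⟩ : Nat.Primes) hqr x hx) (hc.sp σ hσ)

theorem cob_mem_CS (hsp : IsSp r N A f Φ Φi) (l : O ⊗[ℤ] LZ N) :
    (fun σ => ϱ σ l - l) ∈ CS r ϱ (SpO ι F f) A where
  coc σ τ := by
    rw [map_mul, Module.End.mul_apply, map_sub]
    abel
  lev k := by
    obtain ⟨L, h1, h2⟩ := rho_lev (N := N) ι F hs hpO k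
    exact ⟨L, h1, fun σ hσ => h2 σ hσ l⟩
  unr q hq hqr hqN B hB σ hσ := by
    rw [rho_unr ι F hs hpO hq hqr hqN hB hσ, Module.End.one_apply, sub_self]
  sp σ hσ := rho_sub_mem_SpO (F := F) (hs := hs) (hpO := hpO) f (hsp.iner σ hσ) l

set_option maxHeartbeats 1000000 in
/-- **Hecke-eigenclasses vanish.** -/
theorem kummer_Bdt [IsPrincipalIdealRing O] [hN : Fact N.Prime] (hO : IsO r O)
    (hA : A.LiesOverPrime r) (hAN : AN.LiesOverPrime N) (hrN : r ≠ N) {j : O →+* ℂ}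
    (hj : Function.Injective j)
    {c : GQ →* O} (hc : ∀ σ (k : ℕ), ∃ z, c σ = ((GalRep.cyc (r ^ k) σ).val : O) + (r : O) ^ k * z)
    (hI : ∀ k : ℕ, ∃ M : ℕ, ∀ x ∈ (maximalIdeal O) ^ M, ∃ y, x = (r : O) ^ k * y)
    (hχ : ∀ q : ℕ, q.Prime → q ≠ r → q ≠ N → χ q - 1 - q ∈ maximalIdeal O)
    (hsp : IsSp r N A f Φ Φi) {κ : GQ → O ⊗[ℤ] LZ N} (hκ : IsC (ρ := ϱ) r (SpO ι F f) A κ)
    (hκχ : ∀ (q : ℕ) (hq : q.Prime) (hqN : ¬ q ∣ N), q ≠ r →
      (fun σ => TO O hq hqN (κ σ) - χ q • κ σ) ∈ Bdt ϱ) : κ ∈ Bdt ϱ := by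
  obtain ⟨q₀, hq₀, hqr₀, hqN₀⟩ := IsE.exists_prime r N
  have hqN₀' := (not_dvd_iff hq₀ hN.out).2 hqN₀
  obtain ⟨B, hB⟩ := Places.exists_liesOverPrime (L := Ω) hq₀
  obtain ⟨σ₀, hσ₀⟩ := Places.exists_isFrobeniusAt B hq₀ hB
  set T := TO O hq₀ hqN₀' with hT
  set Fr := ϱ σ₀ with hFr
  have hfr : Fr * Fr - T * Fr + (q₀ : O) • 1 = 0 := LinearMap.ext fun x =>
    rho_frob ι F hs hpO hq₀ hqr₀ hqN₀' hB hσ₀ x
  set η : Module.End O (O ⊗[ℤ] LZ N) := ((q₀ : O) + 1) • 1 - T with hη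
  obtain ⟨g, b, hb, hgb⟩ := exists_aeval_mul η (fun x hx => by
    refine TO_eig_zero j hj hq₀ hqN₀' (c := (q₀ : ℤ) + 1) (le_abs_self _) ?_
    have h1 : ((q₀ : O) + 1) • x - T x = 0 := hx
    push_cast
    exact (sub_eq_zero.1 h1).symm)
  have hcomm : ∀ (q : ℕ) (hq : q.Prime) (hqN : ¬ q ∣ N), Commute η (TO O hq hqN) := fun q hq hqN =>
    (((Commute.one_left _).smul_left _).sub_left (TO_comm hq₀ hqN₀' hq hqN))
  have hFη : (Fr + 1 - T) * (Fr - 1) = - η := by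
    rw [frob_alg hfr, hη, add_smul, one_smul]
  refine mem_Bdt_of (ρ := ϱ)
    (fun q : {q : ℕ // ∃ (_ : q.Prime) (_ : ¬ q ∣ N), q ≠ r} => TO O q.2.choose q.2.choose_spec.choose)
    (fun q => χ q) (fun q σ => commute_rho _ _ σ) (fun q q' => TO_comm _ _ _ _) σ₀
    (-(Polynomial.aeval η g * (Fr + 1 - T))) b hb ?_ (fun q => ?_) (CS r ϱ (SpO ι F f) A)
    (fun c hc q => TO_mem_CS hsp hc _ _ q.2.choose_spec.choose_spec) (fun l => cob_mem_CS hsp l)
    (fun c' hc' h => ?_) hκ (fun q => hκχ q q.2.choose q.2.choose_spec.choose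
      q.2.choose_spec.choose_spec)
  · exact S_alg hFη hgb
  · have h1 := commute_aeval (hcomm q q.2.choose q.2.choose_spec.choose) g
    have h2 : Commute Fr (TO O q.2.choose q.2.choose_spec.choose) := (commute_rho _ _ σ₀).symm
    exact (h1.mul_left ((h2.add_left (Commute.one_left _)).sub_left
      (TO_comm hq₀ hqN₀' _ _))).neg_left
  · obtain ⟨C, hC, l, -, hl⟩ := core hO hA hAN hrN hj hc hI hχ hsp hc' (fun σ => by
      intro q hq hqN hqr
      exact h ⟨q, hq, hqN, hqr⟩ σ)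
    exact ⟨C, hC, l, hl⟩

end Fermat.Agent.MazD
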