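import Fermat.Agent.MazD.Inj

/-!
# The Kummer map into torsion-free quotients
-/

set_option autoImplicit false
set_option linter.unusedSectionVars false
set_option linter.style.haveILetI false
set_option maxHeartbeats 4000000

noncomputable section

namespace Fermat.Agent.MazD

open AlgebraicCurve Fermat.Agent.RR Fermat.Agent.Curve Fermat.Agent.Kum Fermat.Agent.FFG ModularCurve
  Fermat.Agent.HeckeHom Fermat.Agent.GalRep Fermat.Agent.Flat IsLocalRing
open scoped TensorProduct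

local notation "Ω" => AlgebraicClosure ℚ

section abs

variable {r : ℕ} [hr : Fact r.Prime] {O : Type} [CommRing O] [IsDomain O]
  {M H : Type} [AddCommGroup M] [AddCommGroup H] [Module O H] (g : M →ₗ[ℤ] H)

theorem lbc_T (T : Module.End ℤ M) (T' : Module.End O H) (h : ∀ y, g (T y) = T' (g y))
    (x : O ⊗[ℤ] M) : g.liftBaseChange O (T.baseChange O x) = T' (g.liftBaseChange O x) := by
  induction x using TensorProduct.induction_on with
  | zero => rw [map_zero, map_zero, map_zero]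
  | tmul a x =>
    rw [LinearMap.baseChange_tmul, LinearMap.liftBaseChange_tmul, LinearMap.liftBaseChange_tmul,
      map_smul, h]
  | add x y hx hy => rw [map_add, map_add, hx, hy, map_add, map_add]

theorem lbc_mem (S : Submodule O H) (h : ∀ y, g y ∈ S) (x : O ⊗[ℤ] M) :
    g.liftBaseChange O x ∈ S := by
  induction x using TensorProduct.induction_on with
  | zero => rw [map_zero]; exact zero_mem _
  | tmul a x => rw [LinearMap.liftBaseChange_tmul]; exact S.smul_mem _ (h x)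
  | add x y hx hy => rw [map_add]; exact add_mem hx hy

theorem lbc_inj [Module.Free ℤ M] [Module.Finite ℤ M] (F : CoefF r O)
    (hs : ∀ x : O, (∀ k : ℕ, ∃ y, x = (r : O) ^ k * y) → x = 0)
    (key : ∀ (m : ℕ) (y : Fin m → M) (a : Fin m → O), ∑ j, a j • g (y j) = 0 →
      ∃ C : O, C ≠ 0 ∧ ∀ (i : F.I) (k : ℕ) (n : Fin m → ℕ),
        (∀ j, F.fn i k (C * a j) = n j) → ∃ R : M, ∑ j, n j • y j = (r ^ k) • R)
    {x : O ⊗[ℤ] M} (hx : g.liftBaseChange O x = 0) : x = 0 := by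
  let b := Module.finBasis ℤ M
  let B := b.baseChange O
  have hxs : x = ∑ j, B.repr x j • ((1 : O) ⊗ₜ[ℤ] b j) := by
    conv_lhs => rw [← B.sum_repr x]
    refine Finset.sum_congr rfl fun j _ => ?_
    rw [Module.Basis.baseChange_apply]
  have h1 : ∑ j, B.repr x j • g (b j) = 0 := by
    rw [← hx]
    conv_rhs => rw [hxs]
    rw [map_sum]
    refine Finset.sum_congr rfl fun j _ => ?_
    rw [map_smul, LinearMap.liftBaseChange_tmul, one_smul]
  obtain ⟨C, hC, h2⟩ := key _ b _ h1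
  have h3 : ∀ j, C * B.repr x j = 0 := by
    intro j
    apply hs
    intro k
    apply F.sep
    intro i
    haveI : NeZero (r ^ k) := ⟨pow_ne_zero _ hr.out.ne_zero⟩
    choose n hn using fun j => exists_nat (F.fn i k (C * B.repr x j))
    obtain ⟨R, hR⟩ := h2 i k n hn
    have h5 := congrArg (fun y => b.repr y j) hR
    simp only [map_sum, map_nsmul, Finsupp.coe_finsetSum, Finset.sum_apply, Finsupp.smul_apply,
      b.repr_self, Finsupp.single_apply, smul_ite, smul_zero, Finset.sum_ite_eq', Finset.mem_univ,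
      if_true] at h5
    have h6 : ((n j : ℕ) : ZMod (r ^ k)) = 0 := by
      have h7 := congrArg (fun z : ℤ => (z : ZMod (r ^ k))) h5
      simp only [nsmul_eq_mul, mul_one, Int.cast_mul, Int.cast_natCast, CharP.cast_eq_zero,
        zero_mul] at h7
      exact h7
    rw [hn j, h6]
  apply B.repr.injective
  ext j
  rw [map_zero, Finsupp.zero_apply]
  exact (mul_eq_zero.1 (h3 j)).resolve_left hC

end abs

variable {r : ℕ} [hr : Fact r.Prime] {O : Type} [CommRing O] [IsDomain O] {N : ℕ} [NeZero N]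
  [IsLocalRing O] [IsNoetherianRing O] [IsAdicComplete (maximalIdeal O) O]
  {ι : AlgebraicClosure ℚ →+* ℂ} {F : CoefF r O}
  {hs : ∀ x : O, (∀ k : ℕ, ∃ y, x = (r : O) ^ k * y) → x = 0} {hpO : (r : O) ∈ maximalIdeal O}

local notation "ϱ" => rhoO (N := N) ι F hs hpO

section
variable (N ι F hs hpO)

/-- classes of cocycles modulo torsion -/
def HH : Type := (GQ → O ⊗[ℤ] LZ N) ⧸ Bdt (rhoO (N := N) ι F hs hpO)

instance : AddCommGroup (HH N ι F hs hpO) :=
  inferInstanceAs (AddCommGroup ((GQ → O ⊗[ℤ] LZ N) ⧸ Bdt (rhoO (N := N) ι F hs hpO)))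

instance : Module O (HH N ι F hs hpO) :=
  inferInstanceAs (Module O ((GQ → O ⊗[ℤ] LZ N) ⧸ Bdt (rhoO (N := N) ι F hs hpO)))

/-- the class of a function -/
def qH : (GQ → O ⊗[ℤ] LZ N) →ₗ[O] HH N ι F hs hpO := (Bdt (rhoO (N := N) ι F hs hpO)).mkQ

theorem qH_surjective : Function.Surjective (qH N ι F hs hpO) := Submodule.mkQ_surjective _

theorem qH_eq_zero {c : GQ → O ⊗[ℤ] LZ N} : qH N ι F hs hpO c = 0 ↔ c ∈ Bdt ϱ :=
  Submodule.Quotient.mk_eq_zero _

/-- chosen Kummer cocycles -/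
def kc (P : JQ N) : GQ → O ⊗[ℤ] LZ N := (Kc.exists (O := O) (ι := ι) hpO (mem_JQ.1 P.2)).choose

theorem kc_spec (P : JQ N) : Kc r ι (kc N ι hpO P) (P : JZero N) :=
  (Kc.exists (O := O) (ι := ι) hpO (mem_JQ.1 P.2)).choose_spec

/-- Hecke operators on classes -/
def TH (q : Nat.Primes) (hqN : ¬ (q : ℕ) ∣ N) : Module.End O (HH N ι F hs hpO) :=
  Submodule.mapQ _ _ ((TO O q.2 hqN).compLeft GQ) fun _ hc =>
    Bdt_map (fun σ => commute_rho (ι := ι) (F := F) (hs := hs) (hpO := hpO) q.2 hqN σ) hc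

theorem TH_qH (q : Nat.Primes) (hqN : ¬ (q : ℕ) ∣ N) (c : GQ → O ⊗[ℤ] LZ N) :
    TH N ι F hs hpO q hqN (qH N ι F hs hpO c) = qH N ι F hs hpO (fun σ => TO O q.2 hqN (c σ)) := rfl

end

theorem qH_zero_of {c : GQ → O ⊗[ℤ] LZ N} (h : Kc r ι c 0) : qH N ι F hs hpO c = 0 := by
  obtain ⟨l, hl⟩ := Kc.of_zero F hs hpO h
  exact (qH_eq_zero N ι F hs hpO).2 ⟨1, one_ne_zero, l, fun σ => by rw [one_smul, hl]⟩

theorem qH_eq_of {c c' : GQ → O ⊗[ℤ] LZ N} {P : JZero N} (h : Kc r ι c P) (h' : Kc r ι c' P) :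
    qH N ι F hs hpO c = qH N ι F hs hpO c' := by
  have h1 := h.sub h'
  rw [sub_self] at h1
  have h2 := qH_zero_of (F := F) (hs := hs) (hpO := hpO) h1
  rw [← sub_eq_zero, ← map_sub]
  exact h2

section
variable (N ι F hs hpO)

/-- the Kummer map -/
def kapJ : JQ N →+ HH N ι F hs hpO :=
  AddMonoidHom.mk' (fun P => qH N ι F hs hpO (kc N ι hpO P)) fun P P' => by
    rw [← map_add]
    exact qH_eq_of (kc_spec N ι hpO (P + P')) ((kc_spec N ι hpO P).add (kc_spec N ι hpO P'))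

end

theorem kapJ_apply (P : JQ N) : kapJ N ι F hs hpO P = qH N ι F hs hpO (kc N ι hpO P) := rfl

theorem kapJ_eq {c : GQ → O ⊗[ℤ] LZ N} {P : JQ N} (h : Kc r ι c (P : JZero N)) :
    qH N ι F hs hpO c = kapJ N ι F hs hpO P := qH_eq_of h (kc_spec N ι hpO P)

theorem HH_tf {a : O} {x : HH N ι F hs hpO} (ha : a ≠ 0) (h : a • x = 0) : x = 0 := by
  obtain ⟨c, rfl⟩ := qH_surjective N ι F hs hpO x
  rw [← map_smul, qH_eq_zero] at h
  rw [qH_eq_zero]
  exact Bdt_sat ha h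

theorem kapJ_torsion (hO : IsO r O) {P : JQ N} (h : cl P = 0) : kapJ N ι F hs hpO P = 0 := by
  rw [cl_eq_zero] at h
  obtain ⟨n, hn, h⟩ := h
  have h1 : n • P = 0 := Subtype.ext h
  have h2 := congrArg (kapJ N ι F hs hpO) h1
  rw [map_nsmul, map_zero, ← Nat.cast_smul_eq_nsmul O] at h2
  exact HH_tf (hO.cz n hn) h2

section
variable (N ι F hs hpO)

/-- the Kummer map modulo torsion -/
def kapM (hO : IsO r O) : MQ N →ₗ[ℤ] HH N ι F hs hpO :=
  Submodule.liftQ _ (kapJ N ι F hs hpO).toIntLinearMap fun _ hP =>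
    kapJ_torsion hO ((Submodule.Quotient.mk_eq_zero _).2 hP)

end

theorem kapM_cl (hO : IsO r O) (P : JQ N) : kapM N ι F hs hpO hO (cl P) = kapJ N ι F hs hpO P := rfl

theorem kapJ_T (q : Nat.Primes) (hqN : ¬ (q : ℕ) ∣ N) (P : JQ N) :
    kapJ N ι F hs hpO (TJ N q P) = TH N ι F hs hpO q hqN (kapJ N ι F hs hpO P) := by
  rw [kapJ_apply P, TH_qH]
  exact (kapJ_eq ((kc_spec N ι hpO P).hecke q.2 hqN)).symm

theorem kapM_T (hO : IsO r O) (q : Nat.Primes) (hqN : ¬ (q : ℕ) ∣ N) (x : MQ N) :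
    kapM N ι F hs hpO hO (TM N q x) = TH N ι F hs hpO q hqN (kapM N ι F hs hpO hO x) := by
  obtain ⟨P, rfl⟩ := cl_surjective x
  rw [TM_cl, kapM_cl, kapM_cl, kapJ_T q hqN]

/-- **Injectivity.** -/
theorem kapM_injective (hN : N.Prime) (hN5 : 5 ≤ N) (hO : IsO r O) {x : O ⊗[ℤ] MQ N}
    (hx : (kapM N ι F hs hpO hO).liftBaseChange O x = 0) : x = 0 := by
  obtain ⟨hfin, hfree⟩ := MQ_free hN hN5
  refine lbc_inj _ F hs (fun m y a h => ?_) hx
  choose P hP using fun j => cl_surjective (y j)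
  have h1 : qH N ι F hs hpO (∑ j, a j • kc N ι hpO (P j)) = 0 := by
    rw [← h, map_sum]
    refine Finset.sum_congr rfl fun j _ => ?_
    rw [map_smul, ← hP j, kapM_cl, kapJ_apply]
  obtain ⟨C, hC, l, hl⟩ := (qH_eq_zero N ι F hs hpO).1 h1
  refine ⟨C, hC, fun i k n hn => ?_⟩
  have h2 : ∀ σ, ∑ j, (C * a j) • kc N ι hpO (P j) σ = ϱ σ l - l := by
    intro σ
    rw [← hl, Finset.sum_apply, Finset.smul_sum]
    exact Finset.sum_congr rfl fun j _ => mul_smul _ _ _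
  obtain ⟨R, hR, hR'⟩ := inj_core (F := F) (hs := hs) (hpO := hpO) (fun j => (P j : JZero N))
      (fun j => kc N ι hpO (P j)) (fun j => kc_spec N ι hpO (P j)) _ l h2 i k n hn
  refine ⟨cl (⟨R, hR⟩ : JQ N), ?_⟩
  rw [← map_nsmul, ← Finset.sum_congr rfl fun j _ => congrArg (n j • ·) (hP j)]
  have h3 : ∑ j, n j • cl (P j) = cl (∑ j, n j • P j) := by
    rw [map_sum]
    exact Finset.sum_congr rfl fun j _ => (map_nsmul _ _ _).symm
  refine h3.trans (congrArg cl (Subtype.ext ?_))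
  rw [Submodule.coe_sum]
  exact hR'

variable {A : ValuationSubring (AlgebraicClosure ℚ)} {P₀ : Type} [AddCommGroup P₀]
  {f : JZero N →+ P₀} {Φ Φi : P₀ →+ P₀}

/-- classes are represented by cocycles with local conditions -/
theorem exists_CS (hO : IsO r O) (hsp : IsSp r N A f Φ Φi) (x : O ⊗[ℤ] MQ N) :
    ∃ c ∈ CS r ϱ (SpO ι F f) A,
      qH N ι F hs hpO c = (kapM N ι F hs hpO hO).liftBaseChange O x := by
  refine lbc_mem (kapM N ι F hs hpO hO) ((CS r ϱ (SpO ι F f) A).map (qH N ι F hs hpO))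
    (fun y => ?_) x
  obtain ⟨P, rfl⟩ := cl_surjective y
  exact ⟨kc N ι hpO P, Kc.isC F hs hpO hsp.iner (mem_JQ.1 P.2) (kc_spec N ι hpO P), rfl⟩

/-- **No Eisenstein eigenclasses in the Mordell–Weil group.** -/
theorem no_eig [IsPrincipalIdealRing O] {AN : ValuationSubring (AlgebraicClosure ℚ)}
    [hN : Fact N.Prime] (hN5 : 5 ≤ N) (hO : IsO r O) (hA : A.LiesOverPrime r)
    (hAN : AN.LiesOverPrime N) (hrN : r ≠ N) {j : O →+* ℂ} (hj : Function.Injective j)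
    {c : GQ →* O} (hc : ∀ σ (k : ℕ), ∃ z, c σ = ((GalRep.cyc (r ^ k) σ).val : O) + (r : O) ^ k * z)
    (hI : ∀ k : ℕ, ∃ M : ℕ, ∀ x ∈ (maximalIdeal O) ^ M, ∃ y, x = (r : O) ^ k * y)
    {χ : ℕ → O} (hχ : ∀ q : ℕ, q.Prime → q ≠ r → q ≠ N → χ q - 1 - q ∈ maximalIdeal O)
    (hsp : IsSp r N A f Φ Φi) (ι : AlgebraicClosure ℚ →+* ℂ) (F : CoefF r O)
    (hpO : (r : O) ∈ maximalIdeal O) {x : O ⊗[ℤ] MQ N}
    (hx : ∀ q : Nat.Primes, (q : ℕ) ≠ r → (q : ℕ) ≠ N →
      (TM N q).baseChange O x = χ q • x) : x = 0 := by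
  apply kapM_injective (ι := ι) (F := F) (hs := hO.sep) (hpO := hpO) hN.out hN5 hO
  obtain ⟨κ, hκ, hκx⟩ := exists_CS (ι := ι) (F := F) (hs := hO.sep) (hpO := hpO) hO hsp x
  rw [← hκx, qH_eq_zero]
  refine kummer_Bdt hO hA hAN hrN hj hc hI hχ hsp hκ ?_
  intro q hq hqN hqr
  have h1 := lbc_T (O := O) (kapM N ι F hO.sep hpO hO) (TM N (⟨q, hq⟩ : Nat.Primes))
    (TH N ι F hO.sep hpO (⟨q, hq⟩ : Nat.Primes) hqN) (kapM_T hO (⟨q, hq⟩ : Nat.Primes) hqN) x
  rw [hx (⟨q, hq⟩ : Nat.Primes) hqr ((not_dvd_iff hq hN.out).1 hqN), map_smul, ← hκx] at h1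
  rw [← qH_eq_zero N ι F hO.sep hpO]
  have h2 : (fun σ => TO O hq hqN (κ σ) - χ q • κ σ) = (fun σ => TO O hq hqN (κ σ)) - χ q • κ := rfl
  rw [h2, map_sub, map_smul, sub_eq_zero]
  exact h1.symm

end Fermat.Agent.MazD
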