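import Fermat.Agent.MazD.LatJ
import Fermat.Agent.Nod.KumBGM

/-!
# Properties of the Galois representation on `O ⊗ LZ N`
-/

set_option autoImplicit false
set_option linter.unusedSectionVars false
set_option linter.style.haveILetI false

noncomputable section

namespace Fermat.Agent.MazD

open AlgebraicCurve Fermat.Agent.RR Fermat.Agent.Curve Fermat.Agent.Kum Fermat.Agent.FFG ModularCurve
  Fermat.Agent.HeckeHom Fermat.Agent.GalRep IsLocalRing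
open scoped TensorProduct

local notation "Ω" => AlgebraicClosure ℚ

variable {r : ℕ} [hr : Fact r.Prime] {O : Type} [CommRing O] {N : ℕ} [NeZero N]

/-- the primes dividing the level -/
abbrev S0 (N : ℕ) : Set ℕ := {q | q ∣ N}

/-- the Hecke operator on integral classes -/
def TL {q : ℕ} (hq : q.Prime) (hqN : ¬ q ∣ N) : Module.End ℤ (LZ N) :=
  actL N (S0 N) (CuspForm.heckeAlgebra.T hq hqN hqN)

theorem TL_comm {q q' : ℕ} (hq : q.Prime) (hqN : ¬ q ∣ N) (hq' : q'.Prime) (hqN' : ¬ q' ∣ N) :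
    Commute (TL hq hqN) (TL hq' hqN') := by
  rw [Commute, SemiconjBy, TL, TL, ← map_mul, ← map_mul, mul_comm]

variable (O) in
/-- the Hecke operator on the lattice -/
def TO {q : ℕ} (hq : q.Prime) (hqN : ¬ q ∣ N) : Module.End O (O ⊗[ℤ] LZ N) :=
  (TL hq hqN).baseChange O

theorem TO_comm {q q' : ℕ} (hq : q.Prime) (hqN : ¬ q ∣ N) (hq' : q'.Prime) (hqN' : ¬ q' ∣ N) :
    Commute (TO O hq hqN) (TO O hq' hqN') := by
  have h := TL_comm hq hqN hq' hqN'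
  rw [Commute, SemiconjBy] at h ⊢
  change LinearMap.baseChange O _ ∘ₗ LinearMap.baseChange O _ =
    LinearMap.baseChange O _ ∘ₗ LinearMap.baseChange O _
  rw [← LinearMap.baseChange_comp, ← LinearMap.baseChange_comp]
  exact congrArg _ h

theorem flm_TO {m : ℕ} [NeZero m] (l : O →+ ZMod m) {q : ℕ} (hq : q.Prime) (hqN : ¬ q ∣ N)
    (x : O ⊗[ℤ] LZ N) : flm l (TO O hq hqN x) =
      actX N m (S0 N) (CuspForm.heckeAlgebra.T hq hqN hqN) (flm l x) :=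
  flm_bc l _ _ (fun _ => rfl) x

theorem xToJ_flm_TO (ι : AlgebraicClosure ℚ →+* ℂ) {m : ℕ} [NeZero m] (l : O →+ ZMod m) {q : ℕ}
    (hq : q.Prime) (hqN : ¬ q ∣ N) (x : O ⊗[ℤ] LZ N) : xToJ ι m (flm l (TO O hq hqN x)) =
      heckeOperatorBar N (⟨q, hq⟩ : Nat.Primes) (xToJ ι m (flm l x)) := by
  rw [flm_TO, xToJ_T]

section rho

variable [IsLocalRing O] [IsNoetherianRing O] [IsAdicComplete (maximalIdeal O) O]
  (ι : AlgebraicClosure ℚ →+* ℂ) (F : CoefF r O)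
  (hs : ∀ x : O, (∀ k : ℕ, ∃ y, x = (r : O) ^ k * y) → x = 0) (hpO : (r : O) ∈ maximalIdeal O)

local notation "ϱ" => rhoO (N := N) ι F hs hpO

theorem rho_TO {q : ℕ} (hq : q.Prime) (hqN : ¬ q ∣ N) (σ : GQ) (x : O ⊗[ℤ] LZ N) :
    ϱ σ (TO O hq hqN x) = TO O hq hqN (ϱ σ x) :=
  fl_ext F hs fun i k => by
    rw [flm_rho, flm_TO, flm_TO, flm_rho]
    exact rhoF_act ι (fun _ h => h) σ _ _

theorem not_dvd_rk {q : ℕ} (hq : q.Prime) (hqr : q ≠ r) (k : ℕ) : ¬ q ∣ r ^ k := fun h =>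
  hqr ((Nat.prime_dvd_prime_iff_eq hq hr.out).1 (hq.dvd_of_dvd_pow h))

theorem rho_unr {q : ℕ} (hq : q.Prime) (hqr : q ≠ r) (hqN : ¬ q ∣ N)
    {B : ValuationSubring (AlgebraicClosure ℚ)} (hB : B.LiesOverPrime q) {σ : GQ}
    (hσ : σ ∈ B.inertiaSubgroupIn ℚ) : ϱ σ = 1 :=
  LinearMap.ext fun x => fl_ext F hs fun i k => by
    rw [flm_rho, rhoF_inertia ι (goodRed hq hqN (not_dvd_rk hq hqr k) hB) hσ]
    rfl

theorem rho_frob {q : ℕ} (hq : q.Prime) (hqr : q ≠ r) (hqN : ¬ q ∣ N)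
    {B : ValuationSubring (AlgebraicClosure ℚ)} (hB : B.LiesOverPrime q) {σ : GQ}
    (hσ : B.IsFrobeniusAt σ q) (x : O ⊗[ℤ] LZ N) :
    ϱ σ (ϱ σ x) - TO O hq hqN (ϱ σ x) + (q : O) • x = 0 :=
  fl_ext F hs fun i k => by
    rw [map_add, map_sub, flm_rho, flm_rho, flm_TO, flm_rho, Nat.cast_smul_eq_nsmul, map_nsmul,
      map_zero]
    exact rhoF_frob ι (goodRed hq hqN (not_dvd_rk hq hqr k) hB) hq hqN hqN hB hσ _

theorem rho_lev (k : ℕ) : ∃ L : IntermediateField ℚ Ω, FiniteDimensional ℚ L ∧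
    ∀ σ : GQ, (∀ x ∈ L, σ x = x) → ∀ x, ∃ y, ϱ σ x - x = (r : O) ^ k • y := by
  obtain ⟨L, h1, h2⟩ := exists_level_rhoF (N := N) (m := r ^ k) ι
  refine ⟨L, h1, fun σ hσ x => exists_of_flm F fun i => ?_⟩
  rw [map_sub, flm_rho, h2 σ hσ, sub_self]

end rho

/-! ### unipotence -/

section Unip

open Fermat.Agent.Nod Fermat.Agent.ModPoly Fermat.Agent.SemiSt

variable {B : ValuationSubring (AlgebraicClosure ℚ)} {q M : ℕ} [hq : Fact q.Prime] [NeZero M]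

theorem unip_E2 (hB : B.LiesOverPrime q) (hqM : ¬ q ∣ M) {σ τ : GQ}
    (hσ : σ ∈ B.inertiaSubgroupIn ℚ) (hτ : τ ∈ B.inertiaSubgroupIn ℚ) {m : ℕ} (hm : ¬ q ∣ m)
    {E : IntermediateField (AlgebraicClosure ℚ) (LaurentSeries (AlgebraicClosure ℚ))}
    (hE : E = modularFunctionFieldFullC (AlgebraicClosure ℚ) (q * M))
    {f f₁ f₂ f₃ : E} (hf : f ≠ 0) (hD : ∀ v : Place (AlgebraicClosure ℚ) E, (m : ℤ) ∣ v.ord f)
    (h1 : (f₁ : LaurentSeries (AlgebraicClosure ℚ)) =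
      coeffMap (σ : AlgebraicClosure ℚ →+* AlgebraicClosure ℚ) f)
    (h2 : (f₂ : LaurentSeries (AlgebraicClosure ℚ)) =
      coeffMap (τ : AlgebraicClosure ℚ →+* AlgebraicClosure ℚ) f₁)
    (h3 : (f₃ : LaurentSeries (AlgebraicClosure ℚ)) =
      coeffMap (τ : AlgebraicClosure ℚ →+* AlgebraicClosure ℚ) f) :
    ∃ z : E, f₂ * f = f₁ * f₃ * z ^ m := by
  subst hE
  obtain ⟨x, hx⟩ := unip_FF hB hqM hσ hτ hm hf hD
  have e1 : act (q * M) (σ : AlgebraicClosure ℚ ≃+* AlgebraicClosure ℚ) f = f₁ :=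
    Subtype.ext h1.symm
  have e2 : act (q * M) (τ : AlgebraicClosure ℚ ≃+* AlgebraicClosure ℚ) f₁ = f₂ :=
    Subtype.ext h2.symm
  have e3 : act (q * M) (τ : AlgebraicClosure ℚ ≃+* AlgebraicClosure ℚ) f = f₃ :=
    Subtype.ext h3.symm
  have hf1 : f₁ ≠ 0 := by
    rw [← e1]
    exact (_root_.map_ne_zero _).2 hf
  have hf3 : f₃ ≠ 0 := by
    rw [← e3]
    exact (_root_.map_ne_zero _).2 hf
  rw [e1, map_div₀, e2, e3] at hx
  refine ⟨x, ?_⟩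
  rw [hx]
  field_simp

theorem rhoF_unip2 (ι : AlgebraicClosure ℚ →+* ℂ) {m : ℕ} [NeZero m] (hB : B.LiesOverPrime q)
    (hqM : ¬ q ∣ M) {σ τ : GQ} (hσ : σ ∈ B.inertiaSubgroupIn ℚ) (hτ : τ ∈ B.inertiaSubgroupIn ℚ)
    (hm : ¬ q ∣ m) (ξ : XL (q * M) m) :
    rhoF ι m τ (rhoF ι m σ ξ) + ξ = rhoF ι m σ ξ + rhoF ι m τ ξ := by
  obtain ⟨x, hx, rfl⟩ := exists_cls_eq' (K := AlgebraicClosure ℚ) ι ξ
  have h1 : Good m (galK σ x) := KD.gal σ hx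
  have h3 : Good m (galK τ x) := KD.gal τ hx
  have h2 : Good m (galK τ (galK σ x)) := KD.gal τ h1
  obtain ⟨z, hz⟩ := unip_E2 hB hqM hσ hτ hm (X0Genus.baseChange_eq (AlgebraicClosure ℚ) (q * M))
    hx.1 (fun v => (Dvd.intro _ (Nat.cast_mul m (Kum.tb (q * M))).symm).trans (hx.2 v))
    (f₁ := galK σ x) (f₂ := galK τ (galK σ x)) (f₃ := galK τ x) rfl rfl rfl
  rw [rhoF_cls ι σ hx, rhoF_cls ι τ h1, rhoF_cls ι τ hx, ← cls_mul ι h2 hx, ← cls_mul ι h1 h3, hz]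
  apply cls_eq_of_mul_pow ι (KD.mul h1 h3)
  rw [← hz]
  exact KD.mul h2 hx

theorem rhoF_unipN (ι : AlgebraicClosure ℚ →+* ℂ) {m : ℕ} [NeZero m] {N : ℕ} [NeZero N]
    (hN : N.Prime) {B : ValuationSubring (AlgebraicClosure ℚ)} (hB : B.LiesOverPrime N)
    {σ τ : GQ} (hσ : σ ∈ B.inertiaSubgroupIn ℚ) (hτ : τ ∈ B.inertiaSubgroupIn ℚ)
    (hm : ¬ N ∣ m) (ξ : XL N m) :
    rhoF ι m τ (rhoF ι m σ ξ) + ξ = rhoF ι m σ ξ + rhoF ι m τ ξ := by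
  haveI : Fact N.Prime := ⟨hN⟩
  have key : ∀ (N' : ℕ) [NeZero N'], N' = N * 1 → ∀ ξ : XL N' m,
      rhoF ι m τ (rhoF ι m σ ξ) + ξ = rhoF ι m σ ξ + rhoF ι m τ ξ := by
    intro N' _ h
    subst h
    intro ξ
    exact rhoF_unip2 ι hB (fun h => hN.one_lt.ne' (Nat.dvd_one.1 h)) hσ hτ hm ξ
  exact key N (mul_one N).symm ξ

end Unip

section rho2

variable [IsLocalRing O] [IsNoetherianRing O] [IsAdicComplete (maximalIdeal O) O]
  (ι : AlgebraicClosure ℚ →+* ℂ) (F : CoefF r O)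
  (hs : ∀ x : O, (∀ k : ℕ, ∃ y, x = (r : O) ^ k * y) → x = 0) (hpO : (r : O) ∈ maximalIdeal O)

local notation "ϱ" => rhoO (N := N) ι F hs hpO

theorem rho_unip (hN : N.Prime) (hrN : r ≠ N) {B : ValuationSubring (AlgebraicClosure ℚ)}
    (hB : B.LiesOverPrime N) {σ τ : GQ} (hσ : σ ∈ B.inertiaSubgroupIn ℚ)
    (hτ : τ ∈ B.inertiaSubgroupIn ℚ) (x : O ⊗[ℤ] LZ N) :
    ϱ τ (ϱ σ x) + x = ϱ σ x + ϱ τ x :=
  fl_ext F hs fun i k => by
    rw [map_add, map_add, flm_rho, flm_rho, flm_rho]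
    exact rhoF_unipN ι hN hB hσ hτ (not_dvd_rk hN hrN.symm k) _

end rho2

end Fermat.Agent.MazD
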