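import Fermat.Agent.MazD.HGal
import Fermat.Agent.MazD.RhoP

/-!
# Kummer cocycles of points of `J₀(N)`
-/

set_option autoImplicit false
set_option linter.unusedSectionVars false
set_option linter.style.haveILetI false

noncomputable section

namespace Fermat.Agent.MazD

open AlgebraicCurve Fermat.Agent.RR Fermat.Agent.Curve Fermat.Agent.Kum Fermat.Agent.FFG ModularCurve
  Fermat.Agent.HeckeHom Fermat.Agent.GalRep IsLocalRing
open scoped TensorProduct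

local notation "Ω" => AlgebraicClosure ℚ

variable {r : ℕ} [hr : Fact r.Prime] {O : Type} [CommRing O] {N : ℕ} [NeZero N]

/-- `v` represents the compatible system `T` -/
def Tt (r : ℕ) [Fact r.Prime] (ι : AlgebraicClosure ℚ →+* ℂ) (v : O ⊗[ℤ] LZ N) (T : ℕ → JZero N) :
    Prop :=
  ∀ (k : ℕ) (l : O →+ ZMod (r ^ k)) (a : O) (n : ℕ), l a = n →
    xToJ ι (r ^ k) (flm l (a • v)) = n • T k

theorem gal_nsmul (σ : GQ) (n : ℕ) (x : JZero N) : σ • (n • x) = n • (σ • x) :=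
  (DistribSMul.toAddMonoidHom (JZero N) σ).map_nsmul n x

theorem neg_nsmul' {M : Type*} [AddCommGroup M] (n : ℕ) (x : M) : n • (-x) = -(n • x) :=
  neg_nsmul x n

theorem xToJ_congr (ι : AlgebraicClosure ℚ →+* ℂ) {m m' : ℕ} [NeZero m] [NeZero m'] (h : m = m')
    (φ : LZ N) : xToJ ι m (mkX φ) = xToJ ι m' (mkX φ) := by
  subst h
  rfl

section rho

variable [IsLocalRing O] [IsNoetherianRing O] [IsAdicComplete (maximalIdeal O) O]
  (ι : AlgebraicClosure ℚ →+* ℂ) (F : CoefF r O)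
  (hs : ∀ x : O, (∀ k : ℕ, ∃ y, x = (r : O) ^ k * y) → x = 0) (hpO : (r : O) ∈ maximalIdeal O)

local notation "ϱ" => rhoO (N := N) ι F hs hpO

include hpO in
theorem exists_tt {T : ℕ → JZero N} (h0 : ∀ k, r ^ k • T k = 0) (h1 : ∀ k, r • T (k + 1) = T k) :
    ∃ v : O ⊗[ℤ] LZ N, Tt r ι v T := by
  choose ξ hξ using fun k => xToJ_surj (N := N) (m := r ^ k) ι (h0 k)
  choose φ hφ using fun k => mkX_surjective (ξ k)
  have key : ∀ k, ∃ z, φ (k + 1) = φ k + ((r : ℤ) ^ k) • z := by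
    intro k
    haveI : NeZero r := ⟨hr.out.ne_zero⟩
    have h2 : (mkX (φ (k + 1)) : XL N (r ^ k)) = mkX (φ k) := by
      apply xToJ_injective ι
      rw [hφ k, hξ k, xToJ_mul ι r, xToJ_congr ι (pow_succ r k).symm, hφ (k + 1), hξ (k + 1), h1]
    rw [mkX_eq_iff, ← sub_eq_zero, ← redI_sub, redI_eq_zero] at h2
    obtain ⟨z, hz⟩ := h2
    refine ⟨z, ?_⟩
    rw [sub_eq_iff_eq_add'] at hz
    rw [hz, ← natCast_zsmul]
    push_cast
    rfl
  obtain ⟨v, hv⟩ := exists_lim_seq hpO (fun k => (1 : O) ⊗ₜ[ℤ] φ k) (fun k => by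
    obtain ⟨z, hz⟩ := key k
    refine ⟨(1 : O) ⊗ₜ[ℤ] z, ?_⟩
    rw [hz, TensorProduct.tmul_add, TensorProduct.tmul_smul, ← Int.cast_smul_eq_zsmul O]
    push_cast
    rfl)
  refine ⟨v, fun k l a n hn => ?_⟩
  obtain ⟨z, hz⟩ := hv k
  have h3 : a • v = a ⊗ₜ[ℤ] φ k + ((r ^ k : ℕ) : O) • (a • z) := by
    rw [hz, smul_add, TensorProduct.smul_tmul', smul_eq_mul, mul_one, smul_comm]
    push_cast
    rfl
  rw [h3, map_add, flm_smul_m, add_zero, flm_tmul l a _ hn, map_nsmul, hφ, hξ]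

variable {ι}

theorem Tt.unique (F : CoefF r O) (hs : ∀ x : O, (∀ k : ℕ, ∃ y, x = (r : O) ^ k * y) → x = 0)
    {v v' : O ⊗[ℤ] LZ N} {T : ℕ → JZero N} (h : Tt r ι v T) (h' : Tt r ι v' T) : v = v' :=
  fl_ext F hs fun i k => by
    apply xToJ_injective ι
    obtain ⟨n, hn⟩ := exists_nat (F.fn i k 1)
    have h1 := h k (F.fn i k) 1 n hn
    have h2 := h' k (F.fn i k) 1 n hn
    rw [one_smul] at h1 h2
    rw [h1, h2]

theorem Tt.add {v v' : O ⊗[ℤ] LZ N} {T T' : ℕ → JZero N} (h : Tt r ι v T) (h' : Tt r ι v' T') :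
    Tt r ι (v + v') (fun k => T k + T' k) := fun k l a n hn => by
  rw [smul_add, map_add, map_add, h k l a n hn, h' k l a n hn]
  exact (nsmul_add _ _ _).symm

theorem Tt.neg {v : O ⊗[ℤ] LZ N} {T : ℕ → JZero N} (h : Tt r ι v T) :
    Tt r ι (-v) (fun k => - T k) := fun k l a n hn => by
  rw [smul_neg, map_neg, map_neg, h k l a n hn]
  exact (neg_nsmul' _ _).symm

theorem Tt.sub {v v' : O ⊗[ℤ] LZ N} {T T' : ℕ → JZero N} (h : Tt r ι v T) (h' : Tt r ι v' T') :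
    Tt r ι (v - v') (fun k => T k - T' k) := by
  have := h.add h'.neg
  simpa only [sub_eq_add_neg] using this

theorem Tt.congr {v : O ⊗[ℤ] LZ N} {T T' : ℕ → JZero N} (h : Tt r ι v T) (h' : ∀ k, T k = T' k) :
    Tt r ι v T' := by
  rwa [← funext h']

theorem Tt.rho {v : O ⊗[ℤ] LZ N} {T : ℕ → JZero N} (h : Tt r ι v T) (σ : GQ) :
    Tt r ι (ϱ σ v) (fun k => σ • T k) := fun k l a n hn => by
  rw [← map_smul, flm_rho, xToJ_rho, h k l a n hn, gal_nsmul]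

theorem Tt.hecke {v : O ⊗[ℤ] LZ N} {T : ℕ → JZero N} (h : Tt r ι v T) {q : ℕ} (hq : q.Prime)
    (hqN : ¬ q ∣ N) : Tt r ι (TO O hq hqN v) (fun k => heckeOperatorBar N (⟨q, hq⟩ : Nat.Primes) (T k)) :=
  fun k l a n hn => by
  rw [← map_smul, xToJ_flm_TO, h k l a n hn, map_nsmul]

theorem Tt.zero_of {v : O ⊗[ℤ] LZ N} {T : ℕ → JZero N} (h : Tt r ι v T) (hT : ∀ k, T k = 0)
    (F : CoefF r O) (hs : ∀ x : O, (∀ k : ℕ, ∃ y, x = (r : O) ^ k * y) → x = 0) : v = 0 := by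
  refine Tt.unique F hs h (T := T) fun k l a n hn => ?_
  rw [smul_zero, map_zero, map_zero, hT, smul_zero]

/-- a Kummer cocycle of `P` -/
def Kc (r : ℕ) [Fact r.Prime] (ι : AlgebraicClosure ℚ →+* ℂ) (c : GQ → O ⊗[ℤ] LZ N)
    (P : JZero N) : Prop :=
  ∃ Q : ℕ → JZero N, Q 0 = P ∧ (∀ k, r • Q (k + 1) = Q k) ∧
    ∀ σ : GQ, Tt r ι (c σ) (fun k => σ • Q k - Q k)

theorem pow_Q {Q : ℕ → JZero N} (h : ∀ k, r • Q (k + 1) = Q k) (k : ℕ) : r ^ k • Q k = Q 0 := by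
  induction k with
  | zero => rw [pow_zero, one_smul]
  | succ k ih => rw [pow_succ, mul_smul, h, ih]

include hpO in
theorem Kc.exists {P : JZero N} (hP : ∀ σ : GQ, σ • P = P) :
    ∃ c : GQ → O ⊗[ℤ] LZ N, Kc r ι c P := by
  choose d hd using fun x : JZero N => divisible_J (hr.out.ne_zero) x
  let Q : ℕ → JZero N := fun k => Nat.rec P (fun _ x => d x) k
  have hQ : ∀ k, r • Q (k + 1) = Q k := fun k => hd (Q k)
  have h1 : ∀ σ : GQ, ∃ v : O ⊗[ℤ] LZ N, Tt r ι v (fun k => σ • Q k - Q k) := by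
    intro σ
    apply exists_tt ι hpO
    · intro k
      rw [nsmul_sub, ← gal_nsmul, pow_Q hQ]
      exact sub_eq_zero.2 (hP σ)
    · intro k
      rw [nsmul_sub, ← gal_nsmul, hQ]
  choose c hc using h1
  exact ⟨c, Q, rfl, hQ, hc⟩

theorem Kc.add {c c' : GQ → O ⊗[ℤ] LZ N} {P P' : JZero N} (h : Kc r ι c P) (h' : Kc r ι c' P') :
    Kc r ι (fun σ => c σ + c' σ) (P + P') := by
  obtain ⟨Q, h0, h1, h2⟩ := h
  obtain ⟨Q', h0', h1', h2'⟩ := h'
  refine ⟨fun k => Q k + Q' k, by simp only [h0, h0'], fun k => by simp only [nsmul_add, h1, h1'],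
    fun σ => ?_⟩
  refine ((h2 σ).add (h2' σ)).congr fun k => ?_
  change σ • Q k - Q k + (σ • Q' k - Q' k) = σ • (Q k + Q' k) - (Q k + Q' k)
  rw [smul_add σ]
  abel

theorem Kc.neg {c : GQ → O ⊗[ℤ] LZ N} {P : JZero N} (h : Kc r ι c P) :
    Kc r ι (fun σ => - c σ) (-P) := by
  obtain ⟨Q, h0, h1, h2⟩ := h
  refine ⟨fun k => - Q k, by simp only [h0], fun k => by simp only [neg_nsmul', h1], fun σ => ?_⟩
  refine ((h2 σ).neg).congr fun k => ?_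
  change -(σ • Q k - Q k) = σ • (- Q k) - (- Q k)
  rw [smul_neg σ]
  abel

theorem Kc.sub {c c' : GQ → O ⊗[ℤ] LZ N} {P P' : JZero N} (h : Kc r ι c P) (h' : Kc r ι c' P') :
    Kc r ι (fun σ => c σ - c' σ) (P - P') := by
  have := h.add h'.neg
  simpa only [sub_eq_add_neg] using this

theorem Kc.hecke {c : GQ → O ⊗[ℤ] LZ N} {P : JZero N} (h : Kc r ι c P) {q : ℕ} (hq : q.Prime)
    (hqN : ¬ q ∣ N) :
    Kc r ι (fun σ => TO O hq hqN (c σ)) (heckeOperatorBar N (⟨q, hq⟩ : Nat.Primes) P) := by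
  obtain ⟨Q, h0, h1, h2⟩ := h
  refine ⟨fun k => heckeOperatorBar N (⟨q, hq⟩ : Nat.Primes) (Q k), by simp only [h0],
    fun k => by simp only [← map_nsmul, h1], fun σ => ?_⟩
  refine ((h2 σ).hecke hq hqN).congr fun k => ?_
  change heckeOperatorBar N (⟨q, hq⟩ : Nat.Primes) (σ • Q k - Q k) =
    σ • (heckeOperatorBar N (⟨q, hq⟩ : Nat.Primes) (Q k)) - heckeOperatorBar N (⟨q, hq⟩ : Nat.Primes) (Q k)
  rw [map_sub]
  exact congrArg (· - _) (hecke_gal _ _ _)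

theorem Kc.of_zero {c : GQ → O ⊗[ℤ] LZ N} (h : Kc r ι c 0) : ∃ l, ∀ σ, c σ = ϱ σ l - l := by
  obtain ⟨Q, h0, h1, h2⟩ := h
  obtain ⟨l, hl⟩ := exists_tt (O := O) ι hpO (T := Q) (fun k => by rw [pow_Q h1, h0]) h1
  refine ⟨l, fun σ => Tt.unique F hs (h2 σ) ?_⟩
  exact (hl.rho F hs hpO σ).sub hl

/-! ### the specialization submodule -/

variable {P₀ : Type} [AddCommGroup P₀] (f : JZero N →+ P₀)

variable (ι) in
/-- the vectors with trivial specialization -/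
def SpO (F : CoefF r O) (f : JZero N →+ P₀) : Submodule O (O ⊗[ℤ] LZ N) where
  carrier := {x | ∀ (a : O) (i : F.I) (k : ℕ), f (xToJ ι (r ^ k) (flm (F.fn i k) (a • x))) = 0}
  add_mem' := fun {x y} hx hy a i k => by
    rw [smul_add, map_add, map_add, map_add, hx, hy, add_zero]
  zero_mem' := fun a i k => by rw [smul_zero, map_zero, map_zero, map_zero]
  smul_mem' := fun c x hx a i k => by rw [smul_smul]; exact hx _ i k

theorem mem_SpO {F : CoefF r O} {x : O ⊗[ℤ] LZ N} : x ∈ SpO ι F f ↔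
    ∀ (a : O) (i : F.I) (k : ℕ), f (xToJ ι (r ^ k) (flm (F.fn i k) (a • x))) = 0 := Iff.rfl

theorem mem_SpO_of_pow {F : CoefF r O} {x : O ⊗[ℤ] LZ N} {j : ℕ}
    (h : (r : O) ^ j • x ∈ SpO ι F f) : x ∈ SpO ι F f := fun a i k => by
  rw [xToJ_flm ι F i k j, ← map_nsmul, ← map_nsmul]
  have h1 : r ^ j • (a • x) = a • ((r : O) ^ j • x) := by
    rw [← Nat.cast_smul_eq_nsmul O, Nat.cast_pow, smul_comm]
  rw [h1]
  exact h a i (k + j)

theorem TO_mem_SpO {F : CoefF r O} {q : ℕ} (hq : q.Prime) (hqN : ¬ q ∣ N)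
    (hf : ∀ x, f x = 0 → f (heckeOperatorBar N (⟨q, hq⟩ : Nat.Primes) x) = 0)
    {x : O ⊗[ℤ] LZ N} (hx : x ∈ SpO ι F f) : TO O hq hqN x ∈ SpO ι F f := fun a i k => by
  rw [← map_smul, xToJ_flm_TO]
  exact hf _ (hx a i k)

theorem rho_mem_SpO {σ : GQ} (hf : ∀ x, f x = 0 → f (σ • x) = 0) {x : O ⊗[ℤ] LZ N}
    (hx : x ∈ SpO ι F f) : ϱ σ x ∈ SpO ι F f := fun a i k => by
  rw [← map_smul, flm_rho, xToJ_rho]
  exact hf _ (hx a i k)

theorem rho_sub_mem_SpO {σ : GQ} (hf : ∀ x, f (σ • x) = f x) (x : O ⊗[ℤ] LZ N) :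
    ϱ σ x - x ∈ SpO ι F f := fun a i k => by
  rw [smul_sub, map_sub, map_sub, map_sub, ← map_smul, flm_rho, xToJ_rho, hf, sub_self]

/-! ### cocycles with local conditions -/

variable {f}

/-- cocycles on the lattice, with local conditions -/
structure IsC {ρ : GQ →* Module.End O (O ⊗[ℤ] LZ N)} (r : ℕ) [Fact r.Prime]
    (W : Submodule O (O ⊗[ℤ] LZ N)) (A : ValuationSubring (AlgebraicClosure ℚ))
    (c : GQ → O ⊗[ℤ] LZ N) : Prop where
  coc : ∀ σ τ, c (σ * τ) = c σ + ρ σ (c τ)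
  lev : ∀ k : ℕ, ∃ L : IntermediateField ℚ Ω, FiniteDimensional ℚ L ∧
    ∀ σ : GQ, (∀ x ∈ L, σ x = x) → ∃ y, c σ = (r : O) ^ k • y
  unr : ∀ q : ℕ, q.Prime → q ≠ r → ¬ q ∣ N → ∀ B : ValuationSubring (AlgebraicClosure ℚ),
    B.LiesOverPrime q → ∀ σ ∈ B.inertiaSubgroupIn ℚ, c σ = 0
  sp : ∀ σ ∈ A.inertiaSubgroupIn ℚ, c σ ∈ W

theorem Kc.isC {A : ValuationSubring (AlgebraicClosure ℚ)}
    (hf : ∀ σ ∈ A.inertiaSubgroupIn ℚ, ∀ x, f (σ • x) = f x) {c : GQ → O ⊗[ℤ] LZ N} {P : JZero N}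
    (hP : ∀ σ : GQ, σ • P = P) (h : Kc r ι c P) : IsC (ρ := ϱ) r (SpO ι F f) A c := by
  obtain ⟨Q, h0, h1, h2⟩ := h
  refine ⟨fun σ τ => ?_, fun k => ?_, fun q hq hqr hqN B hB σ hσ => ?_, fun σ hσ a i k => ?_⟩
  · refine Tt.unique F hs (h2 (σ * τ)) ?_
    refine ((h2 σ).add ((h2 τ).rho F hs hpO σ)).congr fun k => ?_
    rw [smul_sub, mul_smul]
    abel
  · obtain ⟨L, hL, hl⟩ := exists_level_J (Q k)
    refine ⟨L, hL, fun σ hσ => exists_of_flm F fun i => ?_⟩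
    apply xToJ_injective ι
    obtain ⟨n, hn⟩ := exists_nat (F.fn i k 1)
    have h3 := h2 σ k (F.fn i k) 1 n hn
    rw [one_smul] at h3
    change _ = n • (σ • Q k - Q k) at h3
    rw [h3, hl σ hσ, sub_self, smul_zero, map_zero]
  · haveI : Fact q.Prime := ⟨hq⟩
    obtain ⟨P₁, _, f₁, -, -, -, -, -, -, h5, -, h7⟩ :=
      Spec.specialization_JZero (A := B) (N := N) hB hqN
    refine (h2 σ).zero_of (fun k => h7 (r ^ k) (not_dvd_rk hq hqr k) _ ?_ ?_) F hs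
    · rw [nsmul_sub, ← gal_nsmul, pow_Q h1, h0]
      exact sub_eq_zero.2 (hP σ)
    · rw [map_sub, h5 σ hσ, sub_self]
  · obtain ⟨n, hn⟩ := exists_nat (F.fn i k a)
    rw [h2 σ k (F.fn i k) a n hn]
    change f (n • (σ • Q k - Q k)) = 0
    rw [map_nsmul, map_sub, hf σ hσ, sub_self, smul_zero]

end rho

end Fermat.Agent.MazD
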