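import Fermat.Agent.MazD.XJ
import Fermat.Prelude.Thm_IsAdicComplete_of_module_finite
import Mathlib.RingTheory.AdicCompletion.Basic

/-!
# The Galois representation on `O ⊗ LZ N`
-/

set_option autoImplicit false
set_option linter.unusedSectionVars false
set_option linter.style.haveILetI false

noncomputable section

namespace Fermat.Agent.MazD

open AlgebraicCurve Fermat.Agent.RR Fermat.Agent.Curve Fermat.Agent.Kum Fermat.Agent.FFG ModularCurve
  Fermat.Agent.HeckeHom Fermat.Agent.GalRep IsLocalRing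
open scoped TensorProduct

local notation "Ω" => AlgebraicClosure ℚ

/-! ### limits -/

section lim

variable {O : Type} [CommRing O] [IsLocalRing O] [IsNoetherianRing O]
  {X : Type} [AddCommGroup X] [Module O X] [Module.Finite O X]

theorem map_mem_smul_top' {Y Z : Type} [AddCommGroup Y] [AddCommGroup Z] [Module O Y] [Module O Z]
    (f : Y →ₗ[O] Z) (I : Ideal O) {x : Y} (hx : x ∈ I • (⊤ : Submodule O Y)) :
    f x ∈ I • (⊤ : Submodule O Z) := by
  induction hx using Submodule.smul_induction_on' with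
  | smul a ha n hn =>
    rw [map_smul]
    exact Submodule.smul_mem_smul ha trivial
  | add x hx y hy h1 h2 =>
    rw [map_add]
    exact add_mem h1 h2

/-- submodules are closed -/
theorem mem_of_forall_sup (P : Submodule O X) {x : X}
    (h : ∀ n : ℕ, x ∈ P ⊔ (maximalIdeal O) ^ n • (⊤ : Submodule O X)) : x ∈ P := by
  rw [← Submodule.Quotient.mk_eq_zero]
  refine IsHausdorff.haus' (I := maximalIdeal O) _ fun n => ?_
  rw [SModEq.zero]
  obtain ⟨a, ha, b, hb, hab⟩ := Submodule.mem_sup.1 (h n)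
  have h1 : (Submodule.Quotient.mk x : X ⧸ P) = P.mkQ b := by
    rw [← hab, Submodule.Quotient.mk_add, (Submodule.Quotient.mk_eq_zero P).2 ha, zero_add]
    rfl
  rw [h1]
  exact map_mem_smul_top' _ _ hb

theorem eq_of_forall_pow {p : ℕ} (hpO : (p : O) ∈ maximalIdeal O) {x y : X}
    (h : ∀ n : ℕ, ∃ z, x = y + (p ^ n : O) • z) : x = y := by
  rw [← sub_eq_zero, ← Submodule.mem_bot O]
  refine mem_of_forall_sup _ fun n => ?_
  obtain ⟨z, hz⟩ := h n
  rw [hz, add_sub_cancel_left]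
  exact Submodule.mem_sup_right (Submodule.smul_mem_smul (Ideal.pow_mem_pow hpO n) trivial)

/-- limits of `p`-adic Cauchy sequences -/
theorem exists_lim_seq [IsAdicComplete (maximalIdeal O) O] {p : ℕ}
    (hpO : (p : O) ∈ maximalIdeal O) (y : ℕ → X)
    (hy : ∀ n, ∃ z, y (n + 1) = y n + (p ^ n : O) • z) : ∃ x, ∀ n, ∃ z, x = y n + (p ^ n : O) • z := by
  haveI : IsAdicComplete (maximalIdeal O) X := IsAdicComplete.of_module_finite _ _
  have h1 : ∀ n k, ∃ z, y (n + k) = y n + (p ^ n : O) • z := by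
    intro n k
    induction k with
    | zero => exact ⟨0, by simp⟩
    | succ k ih =>
      obtain ⟨z, hz⟩ := ih
      obtain ⟨w, hw⟩ := hy (n + k)
      refine ⟨z + (p ^ k : O) • w, ?_⟩
      rw [← add_assoc, hw, hz, smul_add, smul_smul, ← pow_add, add_assoc]
  have hsm : ∀ (n : ℕ) (z : X), (p ^ n : O) • z ∈ (maximalIdeal O) ^ n • (⊤ : Submodule O X) :=
    fun n z => Submodule.smul_mem_smul (Ideal.pow_mem_pow hpO n) trivial
  obtain ⟨x, hx⟩ := IsPrecomplete.prec' (I := maximalIdeal O) y (by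
    intro m n hmn
    obtain ⟨k, rfl⟩ := Nat.exists_eq_add_of_le hmn
    obtain ⟨z, hz⟩ := h1 m k
    rw [SModEq.comm, SModEq.sub_mem, hz, add_sub_cancel_left]
    exact hsm m z)
  refine ⟨x, fun n => ?_⟩
  have h2 : x - y n ∈ LinearMap.range (LinearMap.lsmul O X (p ^ n : O)) := by
    refine mem_of_forall_sup _ fun k => ?_
    have h3 : x - y n = (y (n + k) - y n) + (x - y (n + k)) := by abel
    rw [h3]
    refine Submodule.add_mem_sup ?_ ?_
    · obtain ⟨z, hz⟩ := h1 n k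
      exact ⟨z, by rw [hz, add_sub_cancel_left]; rfl⟩
    · have h4 := (hx (n + k)).symm
      rw [SModEq.sub_mem] at h4
      refine Submodule.smul_mono_left (Ideal.pow_le_pow_right (Nat.le_add_left k n)) h4
  obtain ⟨z, hz⟩ := h2
  exact ⟨z, by rw [← sub_eq_iff_eq_add', ← hz]; rfl⟩

/-- limits of compatible families of endomorphisms -/
theorem exists_lim_end [IsAdicComplete (maximalIdeal O) O] {p : ℕ}
    (hpO : (p : O) ∈ maximalIdeal O) {L : Type} [AddCommGroup L] [Module.Finite ℤ L]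
    (r : ℕ → L → L) (hadd : ∀ n x y, ∃ z, r n (x + y) = r n x + r n y + ((p : ℤ) ^ n) • z)
    (hr : ∀ n x, ∃ z, r (n + 1) x = r n x + ((p : ℤ) ^ n) • z) :
    ∃ F : O ⊗[ℤ] L →ₗ[O] O ⊗[ℤ] L, ∀ n x, ∃ z, F (1 ⊗ₜ x) = 1 ⊗ₜ (r n x) + (p ^ n : O) • z := by
  have hsm : ∀ (n : ℕ) (z : L), (1 : O) ⊗ₜ[ℤ] (((p : ℤ) ^ n) • z) =
      (p ^ n : O) • ((1 : O) ⊗ₜ[ℤ] z) := by
    intro n z
    rw [TensorProduct.tmul_smul, ← Int.cast_smul_eq_zsmul O]
    push_cast
    rfl
  have h1 : ∀ x : L, ∃ y : O ⊗[ℤ] L, ∀ n, ∃ z, y = (1 : O) ⊗ₜ[ℤ] (r n x) + (p ^ n : O) • z := by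
    intro x
    refine exists_lim_seq hpO (fun n => (1 : O) ⊗ₜ[ℤ] (r n x)) fun n => ?_
    obtain ⟨z, hz⟩ := hr n x
    exact ⟨(1 : O) ⊗ₜ[ℤ] z, by rw [hz, TensorProduct.tmul_add, hsm]⟩
  choose f hf using h1
  let f' : L →+ O ⊗[ℤ] L := AddMonoidHom.mk' f (fun x y => by
    refine eq_of_forall_pow hpO fun n => ?_
    obtain ⟨z1, h1⟩ := hf (x + y) n
    obtain ⟨z2, h2⟩ := hf x n
    obtain ⟨z3, h3⟩ := hf y n
    obtain ⟨z4, h4⟩ := hadd n x y
    refine ⟨z1 - z2 - z3 + (1 : O) ⊗ₜ[ℤ] z4, ?_⟩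
    rw [h1, h2, h3, h4, TensorProduct.tmul_add, TensorProduct.tmul_add, hsm]
    module)
  refine ⟨LinearMap.liftBaseChange O f'.toIntLinearMap, fun n x => ?_⟩
  obtain ⟨z, hz⟩ := hf x n
  refine ⟨z, ?_⟩
  rw [LinearMap.liftBaseChange_tmul, one_smul]
  exact hz

end lim

/-! ### coordinate functionals on the coefficient ring -/

/-- compatible families of functionals -/
structure CoefF (r : ℕ) (O : Type) [CommRing O] where
  /-- the index type -/
  I : Type
  /-- the functionals -/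
  fn : I → ∀ k : ℕ, O →+ ZMod (r ^ k)
  cast : ∀ (i : I) (k j : ℕ) (a : O), ∃ n : ℕ, fn i (k + j) a = (n : ZMod (r ^ (k + j))) ∧
    fn i k a = (n : ZMod (r ^ k))
  sep : ∀ (k : ℕ) (a : O), (∀ i, fn i k a = 0) → ∃ b, a = (r : O) ^ k * b

variable {r : ℕ} [hr : Fact r.Prime] {O : Type} [CommRing O] {N : ℕ} [NeZero N]

instance neZero_rk (k : ℕ) : NeZero (r ^ k) := ⟨pow_ne_zero _ hr.out.ne_zero⟩

theorem XL_nsmul {m : ℕ} [NeZero m] (ξ : XL N m) : m • ξ = 0 := by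
  obtain ⟨φ, rfl⟩ := mkX_surjective ξ
  exact mkX_nsmul φ

/-- the `ZMod m`-module structure -/
abbrev zmXL (N m : ℕ) [NeZero N] [NeZero m] : Module (ZMod m) (XL N m) :=
  AddCommGroup.zmodModule XL_nsmul

/-- a functional on coefficients -/
def flm {m : ℕ} [NeZero m] (l : O →+ ZMod m) : O ⊗[ℤ] LZ N →+ XL N m :=
  letI := zmXL N m
  (TensorProduct.lift (LinearMap.mk₂ ℤ (fun (a : O) (φ : LZ N) => l a • (mkX φ : XL N m))
    (fun a b φ => by rw [map_add, add_smul])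
    (fun c a φ => by rw [map_zsmul, smul_assoc])
    (fun a φ ψ => by rw [map_add, smul_add])
    (fun c a φ => by rw [map_zsmul, smul_comm]))).toAddMonoidHom

theorem flm_tmul {m : ℕ} [NeZero m] (l : O →+ ZMod m) (a : O) (φ : LZ N) {n : ℕ}
    (hn : l a = (n : ZMod m)) : flm l (a ⊗ₜ[ℤ] φ) = n • (mkX φ : XL N m) := by
  letI := zmXL N m
  change l a • (mkX φ : XL N m) = _
  rw [hn, Nat.cast_smul_eq_nsmul]

theorem exists_nat {m : ℕ} [NeZero m] (a : ZMod m) : ∃ n : ℕ, a = (n : ZMod m) :=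
  ⟨a.val, (ZMod.natCast_zmod_val a).symm⟩

/-- functionals and operators -/
theorem flm_bc {m : ℕ} [NeZero m] (l : O →+ ZMod m) (T : LZ N →ₗ[ℤ] LZ N) (T' : XL N m →+ XL N m)
    (h : ∀ φ, T' (mkX φ) = mkX (T φ)) (x : O ⊗[ℤ] LZ N) :
    flm l (T.baseChange O x) = T' (flm l x) := by
  induction x using TensorProduct.induction_on with
  | zero => rw [map_zero, map_zero, map_zero]
  | tmul a φ =>
    obtain ⟨n, hn⟩ := exists_nat (l a)
    rw [LinearMap.baseChange_tmul, flm_tmul l a _ hn, flm_tmul l a _ hn, map_nsmul, h]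
  | add x y hx hy => rw [map_add, map_add, map_add, map_add, hx, hy]

theorem flm_smul_m {m : ℕ} [NeZero m] (l : O →+ ZMod m) (x : O ⊗[ℤ] LZ N) :
    flm l ((m : O) • x) = 0 := by
  rw [Nat.cast_smul_eq_nsmul, map_nsmul, XL_nsmul]

/-- joint injectivity modulo `r ^ k` -/
theorem exists_of_flm (F : CoefF r O) {k : ℕ} {x : O ⊗[ℤ] LZ N}
    (h : ∀ i, flm (F.fn i k) x = 0) : ∃ y, x = ((r : O) ^ k) • y := by
  classical
  let b := Module.Free.chooseBasis ℤ (LZ N)
  let B := b.baseChange O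
  have h1 : ∀ j, ∃ c, B.repr x j = (r : O) ^ k * c := by
    intro j
    apply F.sep
    intro i
    have h2 : x = ∑ j, (B.repr x j) ⊗ₜ[ℤ] b j := by
      conv_lhs => rw [← B.sum_repr x]
      refine Finset.sum_congr rfl fun j _ => ?_
      rw [Module.Basis.baseChange_apply, TensorProduct.smul_tmul', smul_eq_mul, mul_one]
    have h3 := h i
    rw [h2, map_sum] at h3
    choose n hn using fun j => exists_nat (F.fn i k (B.repr x j))
    have h4 : (mkX (∑ j, n j • b j) : XL N (r ^ k)) = mkX 0 := by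
      rw [map_sum, map_zero, ← h3]
      refine Finset.sum_congr rfl fun j _ => ?_
      rw [flm_tmul _ _ _ (hn j), map_nsmul]
    rw [mkX_eq_iff, redI_zero, redI_eq_zero] at h4
    obtain ⟨ψ, hψ⟩ := h4
    have h5 := congrArg (fun z => b.repr z j) hψ
    simp only [map_sum, map_nsmul, Finsupp.coe_finsetSum, Finset.sum_apply, Finsupp.smul_apply,
      Module.Basis.repr_self, Finsupp.single_apply, nsmul_eq_mul, mul_ite, mul_one, mul_zero,
      Finset.sum_ite_eq', Finset.mem_univ, if_true] at h5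
    rw [hn j]
    have h6 : ((n j : ℤ) : ZMod (r ^ k)) = (((r ^ k : ℕ) * b.repr ψ j : ℤ) : ZMod (r ^ k)) := by
      rw [h5]
    push_cast at h6
    rw [h6]
    have h7 : ((r ^ k : ℕ) : ZMod (r ^ k)) = 0 := ZMod.natCast_self _
    push_cast at h7
    rw [h7, zero_mul]
  choose c hc using h1
  refine ⟨∑ j, c j • B j, ?_⟩
  conv_lhs => rw [← B.sum_repr x]
  rw [Finset.smul_sum]
  refine Finset.sum_congr rfl fun j _ => ?_
  rw [hc, mul_smul]

/-- elements divisible by all `r ^ k` are zero -/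
theorem eq_zero_of_forall (hs : ∀ x : O, (∀ k : ℕ, ∃ y, x = (r : O) ^ k * y) → x = 0)
    {x : O ⊗[ℤ] LZ N} (h : ∀ k : ℕ, ∃ y, x = ((r : O) ^ k) • y) : x = 0 := by
  let b := Module.Free.chooseBasis ℤ (LZ N)
  let B := b.baseChange O
  apply B.repr.injective
  ext j
  rw [map_zero, Finsupp.zero_apply]
  apply hs
  intro k
  obtain ⟨y, hy⟩ := h k
  exact ⟨B.repr y j, by rw [hy, map_smul, Finsupp.smul_apply, smul_eq_mul]⟩

theorem fl_ext (F : CoefF r O) (hs : ∀ x : O, (∀ k : ℕ, ∃ y, x = (r : O) ^ k * y) → x = 0)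
    {x y : O ⊗[ℤ] LZ N} (h : ∀ i k, flm (F.fn i k) x = flm (F.fn i k) y) : x = y := by
  rw [← sub_eq_zero]
  refine eq_zero_of_forall hs fun k => exists_of_flm F fun i => ?_
  rw [map_sub, h, sub_self]

/-- change of modulus -/
theorem xToJ_flm (ι : AlgebraicClosure ℚ →+* ℂ) (F : CoefF r O) (i : F.I) (k j : ℕ)
    (x : O ⊗[ℤ] LZ N) : xToJ ι (r ^ k) (flm (F.fn i k) x) =
      r ^ j • xToJ ι (r ^ (k + j)) (flm (F.fn i (k + j)) x) := by
  induction x using TensorProduct.induction_on with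
  | zero => rw [map_zero, map_zero, map_zero, map_zero, smul_zero]
  | tmul a φ =>
    obtain ⟨n, h1, h2⟩ := F.cast i k j a
    rw [flm_tmul _ _ _ h1, flm_tmul _ _ _ h2, map_nsmul, map_nsmul, smul_comm]
    congr 1
    have h3 := xToJ_mul ι (m := r ^ k) (r ^ j) φ
    rw [h3]
    congr 1
    have : ∀ (m m' : ℕ) [NeZero m] [NeZero m'], m = m' →
        xToJ ι m (mkX φ) = xToJ ι m' (mkX φ) := by
      intro m m' _ _ h
      subst h
      rfl
    exact this _ _ (pow_add _ _ _).symm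
  | add x y hx hy => rw [map_add, map_add, map_add, map_add, hx, hy, nsmul_add]

/-! ### the Galois representation -/

section rho

variable [IsLocalRing O] [IsNoetherianRing O] [IsAdicComplete (maximalIdeal O) O]
  (ι : AlgebraicClosure ℚ →+* ℂ)

theorem exists_rhoO (hpO : (r : O) ∈ maximalIdeal O) (σ : GQ) :
    ∃ F : O ⊗[ℤ] LZ N →ₗ[O] O ⊗[ℤ] LZ N, ∀ n (φ ψ : LZ N),
      rhoF ι (r ^ n) σ (mkX φ) = mkX ψ → ∃ z, F (1 ⊗ₜ φ) = 1 ⊗ₜ ψ + (r ^ n : O) • z := by
  choose g hg using fun (n : ℕ) (φ : LZ N) => mkX_surjective (rhoF ι (r ^ n) σ (mkX φ))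
  have key : ∀ (n : ℕ) (a b : LZ N), (mkX a : XL N (r ^ n)) = mkX b →
      ∃ z, a = b + ((r : ℤ) ^ n) • z := by
    intro n a b h
    rw [mkX_eq_iff, ← sub_eq_zero, ← redI_sub, redI_eq_zero] at h
    obtain ⟨z, hz⟩ := h
    refine ⟨z, ?_⟩
    rw [sub_eq_iff_eq_add'] at hz
    rw [hz, ← natCast_zsmul]
    push_cast
    rfl
  obtain ⟨F, hF⟩ := exists_lim_end hpO g (fun n x y => key n _ _ (by
    rw [hg, map_add, map_add, hg, hg, rhoF_add])) (fun n x => key n _ _ (by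
    rw [hg]
    exact (rhoF_of_dvd ι (pow_dvd_pow r (Nat.le_succ n)) σ (hg (n + 1) x).symm).symm))
  refine ⟨F, fun n φ ψ h => ?_⟩
  obtain ⟨z, hz⟩ := hF n φ
  obtain ⟨w, hw⟩ := key n _ _ ((hg n φ).trans h)
  refine ⟨z + (1 : O) ⊗ₜ[ℤ] w, ?_⟩
  rw [hz, hw, TensorProduct.tmul_add, TensorProduct.tmul_smul, ← Int.cast_smul_eq_zsmul O]
  push_cast
  module

theorem flm_of_apx {m : ℕ} [NeZero m] (l : O →+ ZMod m) (σ : GQ)
    {F : O ⊗[ℤ] LZ N →ₗ[O] O ⊗[ℤ] LZ N} (hF : ∀ (φ ψ : LZ N),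
      rhoF ι m σ (mkX φ) = mkX ψ → ∃ z, F (1 ⊗ₜ φ) = 1 ⊗ₜ ψ + (m : O) • z) (x : O ⊗[ℤ] LZ N) :
    flm l (F x) = rhoF ι m σ (flm l x) := by
  have hadd : ∀ ξ ξ', rhoF ι m σ (ξ + ξ') = rhoF (N := N) ι m σ ξ + rhoF ι m σ ξ' := rhoF_add ι σ
  let R : XL N m →+ XL N m := AddMonoidHom.mk' _ hadd
  have hR : ∀ ξ, rhoF ι m σ ξ = R ξ := fun _ => rfl
  induction x using TensorProduct.induction_on with
  | zero => rw [hR, map_zero, map_zero, map_zero]
  | tmul a φ =>
    obtain ⟨n, hn⟩ := exists_nat (l a)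
    obtain ⟨ψ, hψ⟩ := mkX_surjective (rhoF ι m σ (mkX φ))
    obtain ⟨z, hz⟩ := hF φ ψ hψ.symm
    have h1 : a ⊗ₜ[ℤ] φ = a • ((1 : O) ⊗ₜ[ℤ] φ) := by
      rw [TensorProduct.smul_tmul', smul_eq_mul, mul_one]
    rw [flm_tmul l a _ hn, h1, map_smul, hz, smul_add, TensorProduct.smul_tmul', smul_eq_mul,
      mul_one, map_add, smul_comm, flm_smul_m, add_zero, flm_tmul l a _ hn, hψ, hR, hR, map_nsmul]
  | add x y hx hy => rw [map_add, map_add, map_add, hadd, hx, hy]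

variable (F : CoefF r O) (hs : ∀ x : O, (∀ k : ℕ, ∃ y, x = (r : O) ^ k * y) → x = 0)

/-- The Galois representation on the lattice. -/
def rhoO (hpO : (r : O) ∈ maximalIdeal O) : GQ →* Module.End O (O ⊗[ℤ] LZ N) where
  toFun σ := (exists_rhoO ι hpO σ).choose
  map_one' := LinearMap.ext fun x => fl_ext F hs fun i k => by
    rw [flm_of_apx ι (F.fn i k) 1 (by
      have := (exists_rhoO (N := N) ι hpO 1).choose_spec k
      push_cast
      exact this), rhoF_one]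
    rfl
  map_mul' σ τ := LinearMap.ext fun x => fl_ext F hs fun i k => by
    have key : ∀ σ : GQ, ∀ y, flm (F.fn i k) ((exists_rhoO (N := N) ι hpO σ).choose y) =
        rhoF ι (r ^ k) σ (flm (F.fn i k) y) := fun σ => flm_of_apx ι (F.fn i k) σ (by
      have := (exists_rhoO (N := N) ι hpO σ).choose_spec k
      push_cast
      exact this)
    rw [Module.End.mul_apply, key, key, key, rhoF_mul]

theorem flm_rho (hpO : (r : O) ∈ maximalIdeal O) (σ : GQ) (k : ℕ) (l : O →+ ZMod (r ^ k))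
    (x : O ⊗[ℤ] LZ N) : flm l (rhoO ι F hs hpO σ x) = rhoF ι (r ^ k) σ (flm l x) :=
  flm_of_apx ι l σ (by
    have := (exists_rhoO (N := N) ι hpO σ).choose_spec k
    push_cast
    exact this) x

end rho

end Fermat.Agent.MazD
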