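import Fermat.Agent.MazD.Count

/-!
# The two steps of the count
-/

set_option autoImplicit false
set_option linter.unusedSectionVars false
set_option linter.style.haveILetI false

noncomputable section

namespace Fermat.Agent.MazD

open Fermat.Agent.Places Fermat.Agent.RedMod Fermat.Agent.FlatRam Fermat.Agent.Flat
  Fermat.Agent.GalRep

local notation "Ω" => AlgebraicClosure ℚ

variable {r N : ℕ} [hr : Fact r.Prime] [hN : Fact N.Prime]
  {A : ValuationSubring (AlgebraicClosure ℚ)} {G : Type*} [AddCommGroup G]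
  {hA : A.LiesOverPrime r} {AN : ValuationSubring (AlgebraicClosure ℚ)}
  {ρ : GQ →* AddMonoid.End G} {G0 : AddSubgroup G}

instance neZero_r : NeZero r := ⟨hr.out.ne_zero⟩

/-- kernels of homomorphisms of finite level are open -/
theorem isOpen_ker_of_level {M : Type*} [Group M] (f : GQ →* M)
    (h : ∃ L : IntermediateField ℚ Ω, FiniteDimensional ℚ L ∧
      ∀ σ : GQ, (∀ x ∈ L, σ x = x) → f σ = 1) : IsOpen (f.ker : Set GQ) := by
  obtain ⟨L, hL, h1⟩ := h
  haveI := hL
  refine Subgroup.isOpen_mono (H₁ := L.fixingSubgroup) ?_ L.fixingSubgroup_isOpen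
  intro σ hσ
  rw [IntermediateField.mem_fixingSubgroup_iff] at hσ
  rw [MonoidHom.mem_ker]
  exact h1 σ hσ

include hN in
/-- if the cyclotomic character modulo `r` is unramified at `r`, it is trivial -/
theorem cyc_eq_one_of_inertia (hA : A.LiesOverPrime r) (hAN : AN.LiesOverPrime N) (hrN : r ≠ N)
    (h : ∀ σ ∈ A.inertiaSubgroupIn ℚ, cyc r σ = 1) (σ : GQ) : cyc r σ = 1 := by
  have hU : ((cyc r).toHomUnits).ker = ⊤ := by
    refine eq_top_of_two hA hAN _ (isOpen_ker_of_level _ ?_) ?_ ?_ ?_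
    · obtain ⟨L, hL, h1⟩ := exists_level_cyc r
      exact ⟨L, hL, fun σ hσ => Units.ext (h1 σ hσ)⟩
    · intro q hq hqr _ B hB τ hτ
      rw [MonoidHom.mem_ker]
      exact Units.ext (cyc_inertia ((Nat.coprime_primes hq hr.out).2 hqr) hB hτ)
    · intro τ hτ
      rw [MonoidHom.mem_ker]
      exact Units.ext (h τ hτ)
    · intro τ hτ
      rw [MonoidHom.mem_ker]
      exact Units.ext (cyc_inertia ((Nat.coprime_primes hN.out hr.out).2 hrN.symm) hAN hτ)
  have h1 : σ ∈ ((cyc r).toHomUnits).ker := by rw [hU]; trivial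
  exact congrArg Units.val (MonoidHom.mem_ker.1 h1)

theorem cast_eq_one_of_mem {F : AddSubgroup G} {x : G} (hx : x ∉ F) (hrx : r • x ∈ F) {n : ℕ}
    (h : n • x - x ∈ F) : (n : ZMod r) = 1 := by
  have h1 : ((n : ℤ) - 1) • x ∈ F := by rwa [sub_smul, natCast_zsmul, one_smul]
  have h2 := dvd_of_zsmul_mem hx hrx h1
  rw [← ZMod.intCast_zmod_eq_zero_iff_dvd] at h2
  push_cast at h2
  exact sub_eq_zero.1 h2

theorem val_cyc_smul {x : G} {F : AddSubgroup G} (σ : GQ) (h : cyc r σ = 1)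
    (h1 : ρ σ x - (cyc r σ).val • x ∈ F) : ρ σ x - x ∈ F := by
  rwa [h, ZMod.val_one'' hr.out.ne_one, one_smul] at h1

variable {k : ℕ} [NeZero (r ^ k)] [Finite G]

/-- **The étale step.** -/
theorem stepE (hAN : AN.LiesOverPrime N) (hrN : r ≠ N) (hG : IsG r k A ρ G0) {F : AddSubgroup G}
    (hFs : ∀ σ, ∀ f ∈ F, ρ σ f ∈ F) {x : G} (hx : x ∉ F) (hrx : r • x ∈ F)
    (hact : (∀ σ, ρ σ x - x ∈ F) ∨ (∀ σ, ρ σ x - (cyc r σ).val • x ∈ F))
    (hE : ∀ z ∈ F ⊔ AddSubgroup.zmultiples x, z ∈ G0 → z ∈ F) (hF : Bd N hA AN ρ G0 F) :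
    Bd N hA AN ρ G0 (F ⊔ AddSubgroup.zmultiples x) := by
  have hxF : x ∈ F ⊔ AddSubgroup.zmultiples x :=
    (le_sup_right (a := F)) (AddSubgroup.mem_zmultiples x)
  have htriv : ∀ σ, ρ σ x - x ∈ F := by
    rcases hact with h | h
    · exact h
    · intro σ
      refine val_cyc_smul σ (cyc_eq_one_of_inertia hA hAN hrN (fun τ hτ => ?_) σ) (h σ)
      have h1 : ρ τ x - x ∈ F := by
        refine hE _ (sub_mem ?_ hxF) (hG.quo τ hτ x)
        have h2 : ρ τ x = (ρ τ x - (cyc r τ).val • x) + (cyc r τ).val • x := by abel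
        rw [h2]
        exact add_mem ((le_sup_left (b := AddSubgroup.zmultiples x)) (h τ)) (nsmul_mem hxF _)
      have h3 : (cyc r τ).val • x - x ∈ F := by
        have := sub_mem h1 (h τ)
        rwa [show ρ τ x - x - (ρ τ x - (cyc r τ).val • x) = (cyc r τ).val • x - x by abel] at this
      have h4 := cast_eq_one_of_mem hx hrx h3
      rwa [ZMod.natCast_val, ZMod.cast_id', id] at h4
  have htriv' : ∀ σ, ∀ y ∈ F ⊔ AddSubgroup.zmultiples x, ρ σ y - y ∈ F := by
    intro σ y hy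
    obtain ⟨f, hf, n, rfl⟩ := mem_sup_zmultiples hy
    have : ρ σ (f + n • x) - (f + n • x) = (ρ σ f - f) + n • (ρ σ x - x) := by
      rw [map_add, map_zsmul, smul_sub]; abel
    rw [this]
    exact add_mem (sub_mem (hFs σ f hf) hf) (zsmul_mem (htriv σ) n)
  obtain ⟨π, hπF, hπr, hπ⟩ := exists_pi hx hrx
  have hπ' : ∀ y ∈ F ⊔ AddSubgroup.zmultiples x, π y = 0 → y ∈ F := by
    intro y hy h0
    obtain ⟨f, hf, n, rfl⟩ := mem_sup_zmultiples hy
    rw [map_add, hπF f hf, zero_add, map_zsmul] at h0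
    obtain ⟨m, rfl⟩ := hπ n h0
    refine add_mem hf ?_
    rw [mul_comm, mul_smul, natCast_zsmul]
    exact zsmul_mem hrx m
  have hπr' : ∀ y ∈ F ⊔ AddSubgroup.zmultiples x, r • π y = 0 := by
    intro y hy
    obtain ⟨f, hf, n, rfl⟩ := mem_sup_zmultiples hy
    rw [map_add, hπF f hf, zero_add, map_zsmul, ← natCast_zsmul, ← mul_smul, mul_comm, mul_smul,
      natCast_zsmul, hπr, smul_zero]
  intro Y hY
  have hcard := card_le_of_pi (F' := F ⊔ AddSubgroup.zmultiples x) hF π hπ' hπr' Y hY {0}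
    (Set.finite_singleton 0) (d := 1) (by rw [Set.ncard_singleton]) (fun z hz => by
      rw [Set.mem_singleton_iff]
      obtain ⟨hz1, hz2, hz3⟩ := hY hz
      let f : GQ →* Multiplicative (Additive Ωˣ) :=
        { toFun := fun σ => Multiplicative.ofAdd (π (z.1 σ))
          map_one' := by
            have h0 : z.1 1 = 0 := by
              have := hz1.coc 1 1
              rw [map_one, one_mul] at this
              exact left_eq_add.1 this
            rw [h0, map_zero]
            rfl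
          map_mul' := fun σ τ => by
            rw [hz1.coc, ← ofAdd_add, map_add]
            congr 2
            have h1 := hπF _ (htriv' σ _ (hz2 τ))
            rwa [map_sub, sub_eq_zero] at h1 }
      have hf : ∀ σ, σ ∈ f.ker ↔ π (z.1 σ) = 0 := fun σ => by
        rw [MonoidHom.mem_ker]; rfl
      have hker : f.ker = ⊤ := by
        refine eq_top_of_two hA hAN _ (isOpen_ker_of_level _ ?_) ?_ ?_ ?_
        · obtain ⟨L, hL, h1⟩ := hz1.lev
          refine ⟨L, hL, fun σ hσ => ?_⟩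
          change Multiplicative.ofAdd (π (z.1 σ)) = 1
          rw [h1 σ hσ, map_zero]
          rfl
        · intro q hq hqr hqN B hB τ hτ
          rw [hf, hz1.unr q hq hqr hqN B hB τ hτ, map_zero]
        · intro τ hτ
          rw [hf]
          exact hπF _ (hE _ (hz2 τ) (hz1.memr τ hτ))
        · intro τ hτ
          rw [hf, hz1.inN τ hτ]
          exact hπF _ (htriv' τ _ hz3)
      funext σ
      exact (hf σ).1 (by rw [hker]; trivial))
  have h1 := card_ge (le_sup_left (b := AddSubgroup.zmultiples x)) hx hxF hrx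
  have h2 : Nat.card (F ⊓ G0 : AddSubgroup G) ≤
      Nat.card ((F ⊔ AddSubgroup.zmultiples x) ⊓ G0 : AddSubgroup G) :=
    AddSubgroup.card_le_of_le (inf_le_inf_right _ le_sup_left)
  calc Nat.card Y ≤ Nat.card F * Nat.card (F ⊓ G0 : AddSubgroup G) * (1 * r) := hcard
    _ = (r * Nat.card F) * Nat.card (F ⊓ G0 : AddSubgroup G) := by ring
    _ ≤ _ := Nat.mul_le_mul h1 h2

/-- the coboundaries of `2r`-th roots of unity -/
def bdSet (r : ℕ) : Set (GQ → Additive Ωˣ) :=
  {f | ∃ y : Ωˣ, y ^ (2 * r) = 1 ∧ ∀ σ : GQ, σ (y : Ω) = ((f σ).toMul : Ω) * y}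

theorem bdSet_prop (r : ℕ) [hr : Fact r.Prime] : (bdSet r).Finite ∧ (bdSet r).ncard ≤ r := by
  haveI : NeZero (2 * r) := ⟨mul_ne_zero two_ne_zero hr.out.ne_zero⟩
  haveI : NeZero (((2 * r : ℕ)) : Ω) := ⟨Nat.cast_ne_zero.2 (NeZero.ne _)⟩
  let D : rootsOfUnity (2 * r) Ω →* (GQ → Ωˣ) :=
    { toFun := fun y σ => Units.map (σ : Ω →* Ω) (y : Ωˣ) * (y : Ωˣ)⁻¹
      map_one' := by funext σ; simp
      map_mul' := fun a b => by
        funext σ
        simp only [Subgroup.coe_mul, map_mul, mul_inv, Pi.mul_apply]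
        exact mul_mul_mul_comm _ _ _ _ }
  have h1 : bdSet r = (fun f : GQ → Ωˣ => fun σ => Additive.ofMul (f σ)) '' (D.range : Set _) := by
    ext f
    constructor
    · rintro ⟨y, hy, h⟩
      refine ⟨D ⟨y, hy⟩, ⟨_, rfl⟩, ?_⟩
      funext σ
      change Additive.ofMul (Units.map (σ : Ω →* Ω) y * y⁻¹) = f σ
      apply Additive.toMul.injective
      rw [toMul_ofMul, mul_inv_eq_iff_eq_mul]
      apply Units.ext
      exact h σ
    · rintro ⟨_, ⟨y, rfl⟩, rfl⟩
      refine ⟨y, y.2, fun σ => ?_⟩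
      change σ ((y : Ωˣ) : Ω) = ((Units.map (σ : Ω →* Ω) (y : Ωˣ) * (y : Ωˣ)⁻¹ : Ωˣ) : Ω) * _
      rw [← Units.val_mul, inv_mul_cancel_right]
      rfl
  haveI : Finite D.range := Finite.of_surjective D.rangeRestrict D.rangeRestrict_surjective
  have h2 : Nat.card D.range * Nat.card D.ker = 2 * r := by
    have h3 : Nat.card (rootsOfUnity (2 * r) Ω) = 2 * r := by
      exact HasEnoughRootsOfUnity.natCard_rootsOfUnity Ω (2 * r)
    have h4 := Subgroup.card_mul_index D.ker
    rw [Subgroup.index_ker, h3] at h4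
    rw [mul_comm]
    exact h4
  have h4 : 2 ≤ Nat.card D.ker := by
    have h5 : (⟨-1, by
      change (-1 : Ωˣ) ^ (2 * r) = 1
      rw [pow_mul, neg_one_sq, one_pow]⟩ : rootsOfUnity (2 * r) Ω) ∈ D.ker := by
      rw [MonoidHom.mem_ker]
      funext σ
      apply Units.ext
      change σ ((-1 : Ωˣ) : Ω) * _ = 1
      simp
    have h6 : Nontrivial D.ker := ⟨⟨_, h5⟩, 1, fun h => by
      have h7 : (-1 : Ωˣ) = 1 := congrArg (fun z : D.ker => ((z : rootsOfUnity (2 * r) Ω) : Ωˣ)) h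
      have h8 : (-1 : Ω) = 1 := congrArg Units.val h7
      norm_num at h8⟩
    exact Finite.one_lt_card
  refine ⟨?_, ?_⟩
  · rw [h1]
    exact Set.Finite.image _ (Set.finite_coe_iff.1 ‹Finite D.range›)
  · rw [h1]
    refine le_trans (Set.ncard_image_le (Set.finite_coe_iff.1 ‹Finite D.range›)) ?_
    change Nat.card D.range ≤ r
    by_contra hcon
    push Not at hcon
    have : r.succ * 2 ≤ 2 * r := by
      calc r.succ * 2 ≤ Nat.card D.range * Nat.card D.ker := Nat.mul_le_mul hcon h4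
        _ = 2 * r := h2
    omega

end Fermat.Agent.MazD
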