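import Fermat.Agent.MazD.Step

/-!
# The multiplicative step of the count; the count
-/

set_option autoImplicit false
set_option linter.unusedSectionVars false
set_option linter.style.haveILetI false

noncomputable section

namespace Fermat.Agent.MazD

open Fermat.Agent.Places Fermat.Agent.RedMod Fermat.Agent.FlatRam Fermat.Agent.Flat
  Fermat.Agent.GalRep

local notation "Ω" => AlgebraicClosure ℚ

variable {r N : ℕ} [hr : Fact r.Prime] [hN : Fact N.Prime]
  {A : ValuationSubring (AlgebraicClosure ℚ)} {G : Type*} [AddCommGroup G]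
  {hA : A.LiesOverPrime r} {AN : ValuationSubring (AlgebraicClosure ℚ)}
  {ρ : GQ →* AddMonoid.End G} {G0 : AddSubgroup G}
  {k : ℕ} [NeZero (r ^ k)] [Finite G]

/-- integrality of valuations of elements fixed by inertia -/
theorem w_int_of_fixed {p : ℕ} [Fact p.Prime] {B : ValuationSubring (AlgebraicClosure ℚ)}
    (hB : B.LiesOverPrime p) {y : Ω} (hy0 : y ≠ 0)
    (h : ∀ σ ∈ B.inertiaSubgroupIn ℚ, σ y = y) : ∃ n : ℤ, (rval B p hB).w y = n := by
  have hK : y ∈ K0 B := by
    rw [K0, IntermediateField.mem_fixedField_iff]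
    exact h
  exact (rval B p hB).w_int (⟨y, hK⟩ : K0 B) (fun h1 => hy0 (congrArg Subtype.val h1))

/-- **The multiplicative step.** -/
theorem stepM (hAN : AN.LiesOverPrime N) (hrN : r ≠ N) (hG : IsG r k A ρ G0) {F : AddSubgroup G}
    (hFs : ∀ σ, ∀ f ∈ F, ρ σ f ∈ F) {x : G} (hx : x ∉ F) (hrx : r • x ∈ F)
    (hact : (∀ σ, ρ σ x - x ∈ F) ∨ (∀ σ, ρ σ x - (cyc r σ).val • x ∈ F))
    {z₀ : G} (hz₀ : z₀ ∈ F ⊔ AddSubgroup.zmultiples x) (hz₀G : z₀ ∈ G0) (hz₀F : z₀ ∉ F)
    (hF : Bd N hA AN ρ G0 F) :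
    Bd N hA AN ρ G0 (F ⊔ AddSubgroup.zmultiples x) := by
  have hxF : x ∈ F ⊔ AddSubgroup.zmultiples x :=
    (le_sup_right (a := F)) (AddSubgroup.mem_zmultiples x)
  have hrz₀ : r • z₀ ∈ F := by
    obtain ⟨f, hf, n, rfl⟩ := mem_sup_zmultiples hz₀
    rw [smul_add]
    refine add_mem (nsmul_mem hf r) ?_
    rw [← natCast_zsmul, ← mul_smul, mul_comm, mul_smul, natCast_zsmul]
    exact zsmul_mem hrx n
  have hcyc : ∀ σ, ρ σ x - (cyc r σ).val • x ∈ F := by
    rcases hact with h | h
    · intro σ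
      have h1 : cyc r σ = 1 := by
        refine cyc_eq_one_of_inertia hA hAN hrN (fun τ hτ => ?_) σ
        have h2 : ρ τ z₀ - z₀ ∈ F := by
          obtain ⟨f, hf, n, rfl⟩ := mem_sup_zmultiples hz₀
          have : ρ τ (f + n • x) - (f + n • x) = (ρ τ f - f) + n • (ρ τ x - x) := by
            rw [map_add, map_zsmul, smul_sub]; abel
          rw [this]
          exact add_mem (sub_mem (hFs τ f hf) hf) (zsmul_mem (h τ) n)
        rw [hG.act0 τ hτ z₀ hz₀G] at h2
        have h3 := cast_eq_one_of_mem hz₀F hrz₀ h2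
        rw [← castHom_cyc (dvd_pow_self r hG.hk) τ, ZMod.castHom_apply, ← ZMod.natCast_val, h3]
      rw [h1, ZMod.val_one'' hr.out.ne_one, one_smul]
      exact h σ
    · exact h
  obtain ⟨π, hπF, hπr, hπ⟩ := exists_pi hx hrx
  have hπ' : ∀ y ∈ F ⊔ AddSubgroup.zmultiples x, π y = 0 → y ∈ F := by
    intro y hy h0
    obtain ⟨f, hf, n, rfl⟩ := mem_sup_zmultiples hy
    rw [map_add, hπF f hf, zero_add, map_zsmul] at h0
    obtain ⟨m, rfl⟩ := hπ n h0
    refine add_mem hf ?_
    rw [mul_comm, mul_smul, natCast_zsmul]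
    exact zsmul_mem hrx m
  have hπr' : ∀ y ∈ F ⊔ AddSubgroup.zmultiples x, r • π y = 0 := by
    intro y hy
    obtain ⟨f, hf, n, rfl⟩ := mem_sup_zmultiples hy
    rw [map_add, hπF f hf, zero_add, map_zsmul, ← natCast_zsmul, ← mul_smul, mul_comm, mul_smul,
      natCast_zsmul, hπr, smul_zero]
  have hpow : ∀ y ∈ F ⊔ AddSubgroup.zmultiples x, ((π y).toMul : Ω) ^ r = 1 := by
    intro y hy
    rw [← Units.val_pow_eq_pow_val, ← toMul_nsmul, hπr' y hy]
    rfl
  -- equivariance
  have heq : ∀ σ, ∀ y ∈ F ⊔ AddSubgroup.zmultiples x,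
      ((π (ρ σ y)).toMul : Ω) = σ ((π y).toMul : Ω) := by
    intro σ y hy
    rw [apply_eq_pow_cyc r σ (hpow y hy), ← Units.val_pow_eq_pow_val, ← toMul_nsmul]
    congr 2
    rw [← map_nsmul, ← sub_eq_zero, ← map_sub]
    apply hπF
    obtain ⟨f, hf, n, rfl⟩ := mem_sup_zmultiples hy
    have : ρ σ (f + n • x) - (cyc r σ).val • (f + n • x) =
        (ρ σ f - (cyc r σ).val • f) + n • (ρ σ x - (cyc r σ).val • x) := by
      have e : (cyc r σ).val • (n • x) = n • ((cyc r σ).val • x) := by
        rw [← natCast_zsmul, ← natCast_zsmul, ← mul_smul, ← mul_smul, mul_comm]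
      rw [map_add, map_zsmul, smul_sub, smul_add, e]
      abel
    rw [this]
    exact add_mem (sub_mem (hFs σ f hf) (nsmul_mem hf _)) (zsmul_mem (hcyc σ) n)
  intro Y hY
  have hcard := card_le_of_pi (F' := F ⊔ AddSubgroup.zmultiples x) hF π hπ' hπr' Y hY (bdSet r)
    (bdSet_prop r).1 (bdSet_prop r).2 (fun z hz => by
      obtain ⟨hz1, hz2, hz3⟩ := hY hz
      let c : GQ → Ωˣ := fun σ => (π (z.1 σ)).toMul
      have hc : ∀ σ τ, (c (σ * τ) : Ω) = c σ * σ (c τ) := by
        intro σ τ
        change ((π (z.1 (σ * τ))).toMul : Ω) = ((π (z.1 σ)).toMul : Ω) * σ ((π (z.1 τ)).toMul : Ω)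
        rw [hz1.coc, map_add, toMul_add, Units.val_mul, heq σ _ (hz2 τ)]
      obtain ⟨L, hL, hlev⟩ := hz1.lev
      haveI := hL
      obtain ⟨y, hy⟩ := hilbert90 ⊤ c (fun σ _ τ _ => hc σ τ) L (fun σ _ hσ => by
        change (π (z.1 σ)).toMul = 1
        rw [hlev σ hσ, map_zero]
        rfl)
      have hy' : ∀ σ : GQ, σ (y : Ω) = c σ * y := fun σ => hy σ trivial
      have hcr : ∀ σ, (c σ : Ω) ^ r = 1 := fun σ => hpow _ (hz2 σ)
      -- `y ^ r` is rational
      obtain ⟨q, hq⟩ : ∃ q : ℚ, algebraMap ℚ Ω q = (y : Ω) ^ r := by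
        have := (InfiniteGalois.mem_range_algebraMap_iff_fixed (k := ℚ) ((y : Ω) ^ r)).2
          (fun σ => by rw [map_pow, hy' σ, mul_pow, hcr, one_mul])
        exact this
      obtain ⟨s, hs0, hs⟩ := exists_root_of_w hr.out.ne_zero y.ne_zero hq.symm (by
        intro p hp
        by_cases hpr : p = r
        · subst hpr
          have e : hp = hr := Subsingleton.elim _ _
          subst e
          obtain ⟨y', hy'0, hy'1⟩ := hz1.unit π
          have h1 : ∀ σ ∈ A.inertiaSubgroupIn ℚ, σ ((y : Ω) / y') = (y : Ω) / y' := by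
            intro σ hσ
            rw [map_div₀, hy' σ, hy'1 σ hσ]
            exact mul_div_mul_left _ _ (c σ).ne_zero
          obtain ⟨n, hn⟩ := w_int_of_fixed hA (div_ne_zero y.ne_zero y'.ne_zero) h1
          refine ⟨A, hA, n, ?_⟩
          rw [RVal.w_div y.ne_zero y'.ne_zero, hy'0, sub_zero] at hn
          exact hn
        · by_cases hpN : p = N
          · subst hpN
            refine ⟨AN, hAN, ?_⟩
            refine w_int_of_fixed hAN y.ne_zero fun σ hσ => ?_
            have h1 : (c σ : Ω) = 1 := by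
              change ((π (z.1 σ)).toMul : Ω) = 1
              have h2 : cyc r σ = 1 :=
                cyc_inertia ((Nat.coprime_primes hN.out hr.out).2 hrN.symm) hAN hσ
              have h3 : π (ρ σ z.2) = π z.2 := by
                apply Additive.toMul.injective
                apply Units.ext
                rw [heq σ _ hz3, apply_eq_pow_cyc r σ (hpow _ hz3), h2,
                  ZMod.val_one'' hr.out.ne_one, pow_one]
              rw [hz1.inN σ hσ, map_sub, h3, sub_self]
              rfl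
            rw [hy' σ, h1, one_mul]
          · obtain ⟨B, hB⟩ := exists_liesOverPrime Ω hp.out
            refine ⟨B, hB, ?_⟩
            refine w_int_of_fixed hB y.ne_zero fun σ hσ => ?_
            have h1 : (c σ : Ω) = 1 := by
              change ((π (z.1 σ)).toMul : Ω) = 1
              rw [hz1.unr p hp.out hpr hpN B hB σ hσ, map_zero]
              rfl
            rw [hy' σ, h1, one_mul])
      have hs' : algebraMap ℚ Ω s ≠ 0 := by rwa [ne_eq, _root_.map_eq_zero]
      refine ⟨y * (Units.mk0 _ hs')⁻¹, ?_, fun σ => ?_⟩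
      · apply Units.ext
        rw [Units.val_pow_eq_pow_val, Units.val_mul, Units.val_inv_eq_inv_val, Units.val_mk0,
          Units.val_one, mul_comm 2 r, pow_mul, mul_pow, ← hq, inv_pow, ← map_pow]
        rcases hs with hs | hs
        · rw [hs, mul_inv_cancel₀ (by rw [map_pow]; exact pow_ne_zero _ hs'), one_pow]
        · rw [hs, map_neg, neg_mul, mul_inv_cancel₀ (by rw [map_pow]; exact pow_ne_zero _ hs'),
            neg_one_sq]
      · rw [Units.val_mul, Units.val_inv_eq_inv_val, Units.val_mk0, map_mul, map_inv₀,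
          AlgEquiv.commutes, hy' σ, mul_assoc])
  have h1 := card_ge (le_sup_left (b := AddSubgroup.zmultiples x)) hx hxF hrx
  have h2 : r * Nat.card (F ⊓ G0 : AddSubgroup G) ≤
      Nat.card ((F ⊔ AddSubgroup.zmultiples x) ⊓ G0 : AddSubgroup G) :=
    card_ge (F := F ⊓ G0) (F' := (F ⊔ AddSubgroup.zmultiples x) ⊓ G0)
      (inf_le_inf_right _ le_sup_left) (x := z₀) (fun h => hz₀F h.1) ⟨hz₀, hz₀G⟩
      ⟨hrz₀, nsmul_mem hz₀G r⟩
  calc Nat.card Y ≤ Nat.card F * Nat.card (F ⊓ G0 : AddSubgroup G) * (r * r) := hcard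
    _ = (r * Nat.card F) * (r * Nat.card (F ⊓ G0 : AddSubgroup G)) := by ring
    _ ≤ _ := Nat.mul_le_mul h1 h2

/-- **The count.** -/
theorem count (hAN : AN.LiesOverPrime N) (hrN : r ≠ N) (hG : IsG r k A ρ G0) :
    ∀ Y : AddSubgroup ((GQ → G) × G), (∀ z ∈ Y, IsZ N hA AN ρ G0 z.1 z.2) →
      Nat.card Y ≤ Nat.card G * Nat.card G0 := by
  classical
  have hmain : Bd N hA AN ρ G0 ⊤ := by
    let P : AddSubgroup G → Prop := fun F => (∀ σ, ∀ f ∈ F, ρ σ f ∈ F) ∧ Bd N hA AN ρ G0 F
    have hP0 : P ⊥ := by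
      refine ⟨fun σ f hf => ?_, fun Y hY => ?_⟩
      · rw [AddSubgroup.mem_bot] at hf ⊢
        rw [hf, map_zero]
      · have h1 : Y = ⊥ := by
          rw [eq_bot_iff]
          intro z hz
          obtain ⟨-, h2, h3⟩ := hY hz
          rw [AddSubgroup.mem_bot]
          exact Prod.ext (funext fun σ => AddSubgroup.mem_bot.1 (h2 σ)) (AddSubgroup.mem_bot.1 h3)
        rw [h1, AddSubgroup.card_bot, AddSubgroup.card_bot, one_mul]
        exact Nat.card_pos
    obtain ⟨F, hF, hmax⟩ := Set.Finite.exists_maximal (s := {F | P F}) (Set.toFinite _) ⟨⊥, hP0⟩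
    by_cases htop : F = ⊤
    · rw [← htop]; exact hF.2
    exfalso
    -- a line in the quotient
    haveI : Nontrivial (G ⧸ F) := QuotientAddGroup.nontrivial_iff.2 htop
    let ρ' : GQ →* AddMonoid.End (G ⧸ F) :=
      { toFun := fun σ => (QuotientAddGroup.map F F (ρ σ : G →+ G) (fun f hf => hF.1 σ f hf) :
          G ⧸ F →+ G ⧸ F)
        map_one' := by
          apply AddMonoidHom.ext
          intro y
          obtain ⟨y, rfl⟩ := QuotientAddGroup.mk_surjective y
          change ((ρ 1 y : G) : G ⧸ F) = y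
          rw [map_one]
          rfl
        map_mul' := fun σ τ => by
          apply AddMonoidHom.ext
          intro y
          obtain ⟨y, rfl⟩ := QuotientAddGroup.mk_surjective y
          change ((ρ (σ * τ) y : G) : G ⧸ F) = ((ρ σ (ρ τ y) : G) : G ⧸ F)
          rw [map_mul]
          rfl }
    have hρ' : ∀ σ (y : G), ρ' σ (y : G ⧸ F) = ((ρ σ y : G) : G ⧸ F) := fun _ _ => rfl
    obtain ⟨M, hM⟩ := hG.res
    obtain ⟨xb, hxb0, hrxb, hact⟩ := exists_line (V := G ⧸ F) k (fun y => by
      obtain ⟨y, rfl⟩ := QuotientAddGroup.mk_surjective y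
      rw [← QuotientAddGroup.mk_nsmul, hG.tors, QuotientAddGroup.mk_zero]) ρ' M (fun σ => by
      have key : ∀ n : ℕ, ∀ y : G,
          (((ρ' σ - 1) * (ρ' σ - ((cyc r σ).val : AddMonoid.End (G ⧸ F)))) ^ n) (y : G ⧸ F) =
          ((((ρ σ - 1) * (ρ σ - ((cyc r σ).val : AddMonoid.End G))) ^ n) y : G) := by
        intro n
        induction n with
        | zero => intro y; rfl
        | succ n ih =>
          intro y
          rw [pow_succ, pow_succ]
          change (((ρ' σ - 1) * (ρ' σ - ((cyc r σ).val : AddMonoid.End (G ⧸ F)))) ^ n)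
            (((ρ' σ - 1) * (ρ' σ - ((cyc r σ).val : AddMonoid.End (G ⧸ F)))) (y : G ⧸ F)) = _
          have h1 : ((ρ' σ - 1) * (ρ' σ - ((cyc r σ).val : AddMonoid.End (G ⧸ F)))) (y : G ⧸ F) =
              ((((ρ σ - 1) * (ρ σ - ((cyc r σ).val : AddMonoid.End G))) y : G) : G ⧸ F) := by
            rw [← nsmul_one, ← nsmul_one]
            rfl
          rw [h1, ih]
          rfl
      apply AddMonoidHom.ext
      intro y
      obtain ⟨y, rfl⟩ := QuotientAddGroup.mk_surjective y
      exact (key M y).trans (by rw [hM]; rfl))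
    obtain ⟨x, rfl⟩ := QuotientAddGroup.mk_surjective xb
    have hx : x ∉ F := fun h => hxb0 ((QuotientAddGroup.eq_zero_iff _).2 h)
    have hrx : r • x ∈ F := by
      rw [← QuotientAddGroup.eq_zero_iff, QuotientAddGroup.mk_nsmul]
      exact hrxb
    have hact' : (∀ σ, ρ σ x - x ∈ F) ∨ (∀ σ, ρ σ x - (cyc r σ).val • x ∈ F) := by
      rcases hact with h | h
      · left
        intro σ
        rw [← QuotientAddGroup.eq_zero_iff, QuotientAddGroup.mk_sub, sub_eq_zero]
        exact h σ
      · right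
        intro σ
        rw [← QuotientAddGroup.eq_zero_iff, QuotientAddGroup.mk_sub, sub_eq_zero,
          QuotientAddGroup.mk_nsmul]
        exact h σ
    have hF' : P (F ⊔ AddSubgroup.zmultiples x) := by
      refine ⟨?_, ?_⟩
      · intro σ y hy
        obtain ⟨f, hf, n, rfl⟩ := mem_sup_zmultiples hy
        have hxF : x ∈ F ⊔ AddSubgroup.zmultiples x :=
          (le_sup_right (a := F)) (AddSubgroup.mem_zmultiples x)
        rw [map_add, map_zsmul]
        refine add_mem ((le_sup_left (b := AddSubgroup.zmultiples x)) (hF.1 σ f hf))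
          (zsmul_mem ?_ n)
        rcases hact' with h | h
        · rw [show ρ σ x = (ρ σ x - x) + x by abel]
          exact add_mem ((le_sup_left (b := AddSubgroup.zmultiples x)) (h σ)) hxF
        · rw [show ρ σ x = (ρ σ x - (cyc r σ).val • x) + (cyc r σ).val • x by abel]
          exact add_mem ((le_sup_left (b := AddSubgroup.zmultiples x)) (h σ)) (nsmul_mem hxF _)
      · by_cases hE : ∀ z ∈ F ⊔ AddSubgroup.zmultiples x, z ∈ G0 → z ∈ F
        · exact stepE hAN hrN hG hF.1 hx hrx hact' hE hF.2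
        · push Not at hE
          obtain ⟨z₀, h1, h2, h3⟩ := hE
          exact stepM hAN hrN hG hF.1 hx hrx hact' h1 h2 h3 hF.2
    have h1 := hmax hF' le_sup_left
    exact hx (h1 ((le_sup_right (a := F)) (AddSubgroup.mem_zmultiples x)))
  intro Y hY
  have h1 := hmain Y (fun z hz => ⟨hY z hz, fun _ => trivial, trivial⟩)
  rwa [top_inf_eq, AddSubgroup.card_top] at h1

end Fermat.Agent.MazD
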