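import Fermat.Agent.MazD.StepM

/-!
# Valuations of Kummer generators at `r`: the Frobenius argument
-/

set_option autoImplicit false
set_option linter.unusedSectionVars false
set_option linter.style.haveILetI false

noncomputable section

namespace Fermat.Agent.MazD

open Fermat.Agent.Places Fermat.Agent.RedMod Fermat.Agent.FlatRam Fermat.Agent.Flat
  Fermat.Agent.GalRep

local notation "Ω" => AlgebraicClosure ℚ

variable {r : ℕ} [hr : Fact r.Prime]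
  {A : ValuationSubring (AlgebraicClosure ℚ)} {hA : A.LiesOverPrime r}
  {O : Type*} [CommRing O]

/-- the relation `v_f(φ) = t` -/
def VV (hA : A.LiesOverPrime r) (f : GQ → O) (φ : O →+ Additive Ωˣ) (t : ℚ) : Prop :=
  ∃ y : Ωˣ, (rval A r hA).w (y : Ω) = t ∧
    ∀ σ ∈ A.inertiaSubgroupIn ℚ, σ (y : Ω) = ((φ (f σ)).toMul : Ω) * y

theorem VV.add {f f' : GQ → O} {φ : O →+ Additive Ωˣ} {t t' : ℚ} (h : VV hA f φ t)
    (h' : VV hA f' φ t') : VV hA (fun σ => f σ + f' σ) φ (t + t') := by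
  obtain ⟨y, hy, h1⟩ := h
  obtain ⟨z, hz, h2⟩ := h'
  refine ⟨y * z, by rw [Units.val_mul, RVal.w_mul y.ne_zero z.ne_zero, hy, hz], fun σ hσ => ?_⟩
  rw [Units.val_mul, map_mul, h1 σ hσ, h2 σ hσ, map_add, toMul_add, Units.val_mul]
  ring

theorem VV.add_phi {f : GQ → O} {φ φ' : O →+ Additive Ωˣ} {t t' : ℚ} (h : VV hA f φ t)
    (h' : VV hA f φ' t') : VV hA f (φ + φ') (t + t') := by
  obtain ⟨y, hy, h1⟩ := h
  obtain ⟨z, hz, h2⟩ := h'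
  refine ⟨y * z, by rw [Units.val_mul, RVal.w_mul y.ne_zero z.ne_zero, hy, hz], fun σ hσ => ?_⟩
  rw [Units.val_mul, map_mul, h1 σ hσ, h2 σ hσ, AddMonoidHom.add_apply, toMul_add, Units.val_mul]
  ring

theorem VV.neg_phi {f : GQ → O} {φ : O →+ Additive Ωˣ} {t : ℚ} (h : VV hA f φ t) :
    VV hA f (-φ) (-t) := by
  obtain ⟨y, hy, h1⟩ := h
  refine ⟨y⁻¹, by rw [Units.val_inv_eq_inv_val, RVal.w_inv y.ne_zero, hy], fun σ hσ => ?_⟩
  rw [Units.val_inv_eq_inv_val, map_inv₀, h1 σ hσ, AddMonoidHom.neg_apply, toMul_neg,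
        Units.val_inv_eq_inv_val, mul_inv]

theorem VV.comp {f : GQ → O} {φ : O →+ Additive Ωˣ} {t : ℚ} {u : O}
    (h : VV hA (fun σ => u * f σ) φ t) : VV hA f (φ.comp (AddMonoidHom.mulLeft u)) t := h

theorem VV.congr {f f' : GQ → O} {φ φ' : O →+ Additive Ωˣ} {t : ℚ} (h : VV hA f φ t)
    (hf : ∀ σ ∈ A.inertiaSubgroupIn ℚ, φ (f σ) = φ' (f' σ)) : VV hA f' φ' t := by
  obtain ⟨y, hy, h1⟩ := h
  exact ⟨y, hy, fun σ hσ => by rw [← hf σ hσ]; exact h1 σ hσ⟩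

/-- existence by Hilbert 90 -/
theorem VV.exists' {f ε : GQ → O} {φ : O →+ Additive Ωˣ}
    (hc : ∀ σ ∈ A.inertiaSubgroupIn ℚ, ∀ τ ∈ A.inertiaSubgroupIn ℚ, f (σ * τ) = f σ + ε σ * f τ)
    (hε : ∀ σ ∈ A.inertiaSubgroupIn ℚ, ∀ x, ((φ (ε σ * x)).toMul : Ω) = σ ((φ x).toMul : Ω))
    (hl : ∃ L : IntermediateField ℚ Ω, FiniteDimensional ℚ L ∧
      ∀ σ ∈ A.inertiaSubgroupIn ℚ, (∀ x ∈ L, σ x = x) → φ (f σ) = 0) :
    ∃ t, VV hA f φ t := by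
  obtain ⟨L, hL, h1⟩ := hl
  haveI := hL
  obtain ⟨y, hy⟩ := hilbert90 (A.inertiaSubgroupIn ℚ) (fun σ => (φ (f σ)).toMul) (by
    intro σ hσ τ hτ
    rw [hc σ hσ τ hτ, map_add, toMul_add, Units.val_mul, hε σ hσ]) L (by
    intro σ hσ hx
    rw [h1 σ hσ hx]
    rfl)
  exact ⟨_, y, rfl, hy⟩

/-- `Galois` action on the values of a homomorphism of finite level -/
theorem phi_gal {φ : O →+ Additive Ωˣ} {k : ℕ} (hφ : ∀ x, φ ((r : O) ^ k * x) = 0) (σ : GQ)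
    {ε : O} (hε : ∃ z, ε - ((cyc (r ^ k) σ).val : O) = (r : O) ^ k * z) (x : O) :
    ((φ (ε * x)).toMul : Ω) = σ ((φ x).toMul : Ω) := by
  obtain ⟨z, hz⟩ := hε
  have h1 : ((φ x).toMul : Ω) ^ (r ^ k) = 1 := by
    rw [← Units.val_pow_eq_pow_val, ← toMul_nsmul, ← map_nsmul, nsmul_eq_mul, Nat.cast_pow, hφ]
    rfl
  rw [apply_eq_pow_cyc (r ^ k) σ h1, ← Units.val_pow_eq_pow_val, ← toMul_nsmul, ← map_nsmul,
    nsmul_eq_mul]
  have h2 : ε * x = ((cyc (r ^ k) σ).val : O) * x + (r : O) ^ k * (z * x) := by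
    rw [← mul_assoc, ← hz]; ring
  rw [h2, map_add, hφ, add_zero]

theorem w_phi {φ : O →+ Additive Ωˣ} {k : ℕ} (hφ : ∀ x, φ ((r : O) ^ k * x) = 0) (x : O) :
    (rval A r hA).w ((φ x).toMul : Ω) = 0 := by
  have h1 : ((φ x).toMul : Ω) ^ (r ^ k) = 1 := by
    rw [← Units.val_pow_eq_pow_val, ← toMul_nsmul, ← map_nsmul, nsmul_eq_mul, Nat.cast_pow, hφ]
    rfl
  exact RVal.w_of_pow_eq_one (pow_ne_zero k hr.out.ne_zero) h1

/-- coboundaries of elements of `O(1)` have valuation zero -/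
theorem VV.cob {φ : O →+ Additive Ωˣ} {k : ℕ} (hφ : ∀ x, φ ((r : O) ^ k * x) = 0)
    {ε : GQ → O} (hε : ∀ σ, ∃ z, ε σ - ((cyc (r ^ k) σ).val : O) = (r : O) ^ k * z) (x : O) :
    VV hA (fun σ => (ε σ - 1) * x) φ 0 := by
  refine ⟨(φ x).toMul, w_phi hφ x, fun σ _ => ?_⟩
  change σ ((φ x).toMul : Ω) = ((φ ((ε σ - 1) * x)).toMul : Ω) * ((φ x).toMul : Ω)
  rw [sub_mul, one_mul, map_sub, toMul_sub, Units.val_div_eq_div_val, phi_gal hφ σ (hε σ),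
    div_mul_cancel₀ _ (Units.ne_zero _)]

/-- uniqueness modulo integers -/
theorem VV.unique {f : GQ → O} {φ : O →+ Additive Ωˣ} {t t' : ℚ} (h : VV hA f φ t)
    (h' : VV hA f φ t') : ∃ n : ℤ, t - t' = n := by
  obtain ⟨y, hy, h1⟩ := h
  obtain ⟨z, hz, h2⟩ := h'
  obtain ⟨n, hn⟩ := w_int_of_fixed hA (div_ne_zero y.ne_zero z.ne_zero) (fun σ hσ => by
    rw [map_div₀, h1 σ hσ, h2 σ hσ]
    exact mul_div_mul_left _ _ (Units.ne_zero _))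
  rw [RVal.w_div y.ne_zero z.ne_zero, hy, hz] at hn
  exact ⟨n, hn⟩

/-- shifting by integers -/
theorem VV.shift {f : GQ → O} {φ : O →+ Additive Ωˣ} {t : ℚ} (h : VV hA f φ t) (n : ℤ) :
    VV hA f φ (t + n) := by
  obtain ⟨y, hy, h1⟩ := h
  have hr0 : ((r : ℕ) : Ω) ≠ 0 := Nat.cast_ne_zero.2 hr.out.ne_zero
  refine ⟨y * (Units.mk0 _ hr0) ^ n, ?_, fun σ hσ => ?_⟩
  · rw [Units.val_mul, Units.val_zpow_eq_zpow_val, Units.val_mk0,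
      RVal.w_mul y.ne_zero (zpow_ne_zero n hr0), hy, RVal.w_zpow hr0, (rval A r hA).w_p, mul_one]
  · rw [Units.val_mul, Units.val_zpow_eq_zpow_val, Units.val_mk0, map_mul, map_zpow₀,
      map_natCast, h1 σ hσ, mul_assoc]

/-- the Frobenius twist -/
theorem VV.frob {f : GQ → O} {φ : O →+ Additive Ωˣ} {t : ℚ} (h : VV hA f φ t) {k : ℕ}
    (hφ : ∀ x, φ ((r : O) ^ k * x) = 0) {Φ : GQ} (hΦ : Pres A Φ) {ε : O}
    (hε : ∃ z, ε - ((cyc (r ^ k) Φ).val : O) = (r : O) ^ k * z) :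
    VV hA (fun σ => ε * f (Φ⁻¹ * σ * Φ)) φ t := by
  obtain ⟨y, hy, h1⟩ := h
  refine ⟨Units.map (Φ : Ω →* Ω) y, ?_, fun σ hσ => ?_⟩
  · rw [← hy]
    exact hΦ.w_eq hA (y : Ω)
  · have h2 : Φ⁻¹ * σ * Φ ∈ A.inertiaSubgroupIn ℚ := by
      have := conj_mem_inertia hΦ.inv hσ
      rwa [inv_inv] at this
    have h3 := h1 _ h2
    have h4 : Φ ((Φ⁻¹ * σ * Φ) (y : Ω)) = σ (Φ (y : Ω)) := by
      change (Φ * (Φ⁻¹ * σ * Φ)) (y : Ω) = (σ * Φ) (y : Ω)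
      congr 1
      group
    change σ (Φ (y : Ω)) = _ * Φ (y : Ω)
    rw [← h4, h3, map_mul, phi_gal hφ Φ hε]

/-- divisibility -/
theorem exists_div [IsDomain O] {a : O} (ha : a ≠ 0) (har : ∃ m : ℕ, ∃ s, (r : O) ^ m = a * s)
    {ψ : O →+ Additive Ωˣ} {k : ℕ} (hψ : ∀ x, ψ ((r : O) ^ k * x) = 0) :
    ∃ (φ : O →+ Additive Ωˣ) (k' : ℕ), (∀ x, φ ((r : O) ^ k' * x) = 0) ∧ ∀ x, φ (a * x) = ψ x := by
  obtain ⟨φ, hφ⟩ := exists_extend (AddMonoidHom.mulLeft a)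
    (fun x y h => mul_left_cancel₀ ha h) ψ
  obtain ⟨m, s, hs⟩ := har
  refine ⟨φ, k + m, fun x => ?_, fun x => hφ x⟩
  have : (r : O) ^ (k + m) * x = a * ((r : O) ^ k * (s * x)) := by
    rw [pow_add, hs]; ring
  rw [this]
  have h1 := hφ ((r : O) ^ k * (s * x))
  rw [hψ] at h1
  exact h1

end Fermat.Agent.MazD
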