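import Fermat.Agent.FFG.Class
import Fermat.Agent.Kum.Final
import Fermat.Agent.Spec.Main
import Fermat.Agent.MW.DivK

/-!
# Kummer classes as points of `J₀(N)`
-/

set_option autoImplicit false
set_option linter.unusedSectionVars false
set_option linter.style.haveILetI false

noncomputable section

namespace Fermat.Agent.MazD

open AlgebraicCurve Fermat.Agent.RR Fermat.Agent.Curve Fermat.Agent.Kum Fermat.Agent.FFG ModularCurve
  Fermat.Agent.HeckeHom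

local notation "Ω" => AlgebraicClosure ℚ

variable {N m : ℕ} [NeZero m] [NeZero N] (ι : AlgebraicClosure ℚ →+* ℂ)

theorem dm_of_good {x : FK Ω N} (hx : Good m x) : DM Ω m x :=
  ⟨hx.1, (KD.of_dvd (Dvd.intro _ rfl) hx).2⟩

theorem clm_eq_of_cls_eq {x y : FK Ω N} (hx : Good m x) (hy : Good m y)
    (h : cls ι m x = cls ι m y) : clm (dm_of_good hx) = clm (dm_of_good hy) := by
  obtain ⟨z, hz⟩ := exists_mul_pow_of_cls_eq ι hx hy h
  have hz0 : z ≠ 0 := by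
    rintro rfl
    rw [zero_pow (NeZero.ne m), mul_zero] at hz
    exact hy.1 hz
  have h1 := DM.pow_self (K := Ω) (m := m) hz0
  rw [clm_congr (dm_of_good hy) ((dm_of_good hx).mul h1) hz, clm_mul (dm_of_good hx) h1,
    clm_pow hz0, add_zero]

/-- Kummer classes are divisor classes -/
def xToJ (m : ℕ) [NeZero m] : XL N m →+ JZero N :=
  AddMonoidHom.mk' (fun ξ => clm (dm_of_good (exists_cls_eq' (K := Ω) ι ξ).choose_spec.1))
    (fun ξ ξ' => by
      have h := (exists_cls_eq' (K := Ω) ι ξ).choose_spec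
      have h' := (exists_cls_eq' (K := Ω) ι ξ').choose_spec
      have h'' := (exists_cls_eq' (K := Ω) ι (ξ + ξ')).choose_spec
      rw [← clm_mul _ _ (dm_of_good (KD.mul h.1 h'.1))]
      refine clm_eq_of_cls_eq ι h''.1 (KD.mul h.1 h'.1) ?_
      rw [h''.2, cls_mul ι h.1 h'.1, h.2, h'.2])

theorem xToJ_cls {x : FK Ω N} (hx : Good m x) : xToJ ι m (cls ι m x) = clm (dm_of_good hx) := by
  have h := (exists_cls_eq' (K := Ω) ι (cls ι m x)).choose_spec
  exact clm_eq_of_cls_eq ι h.1 hx h.2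

theorem xToJ_injective : Function.Injective (xToJ (N := N) ι m) := by
  rw [injective_iff_map_eq_zero]
  intro ξ hξ
  obtain ⟨x, hx, rfl⟩ := exists_cls_eq' (K := Ω) ι ξ
  rw [xToJ_cls ι hx] at hξ
  obtain ⟨z, rfl⟩ := exists_pow_of_clm _ hξ
  exact cls_eq_zero_of_pow ι hx

theorem xToJ_rho (σ : Ω ≃ₐ[ℚ] Ω) (ξ : XL N m) :
    xToJ ι m (rhoF ι m σ ξ) = σ • xToJ ι m ξ := by
  obtain ⟨x, hx, rfl⟩ := exists_cls_eq' (K := Ω) ι ξ
  rw [rhoF_cls ι σ hx, xToJ_cls ι hx, xToJ_cls ι (KD.gal σ hx), galois_smul_pic0_def]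
  exact clm_smul _ (arithmeticGalois (modularFunctionFieldFull N) σ) _

theorem nsmul_xToJ (ξ : XL N m) : m • xToJ ι m ξ = 0 := by
  obtain ⟨x, hx, rfl⟩ := exists_cls_eq' (K := Ω) ι ξ
  rw [xToJ_cls ι hx]
  exact nsmul_clm _

/-! ### surjectivity -/

theorem divisible_aux {E : IntermediateField Ω (LaurentSeries Ω)} (hE : E = ModPoly.FF Ω N)
    {n : ℕ} (hn : n ≠ 0) (x : Pic0 Ω E) : ∃ y, n • y = x := by
  subst hE
  letI : Algebra Ω ℂ := (RedMod.exists_ιC.some).toAlgebra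
  exact MW.divisible Ω hn x

theorem divisible_J {n : ℕ} (hn : n ≠ 0) (x : JZero N) : ∃ y, n • y = x :=
  divisible_aux (X0Genus.baseChange_eq Ω N) hn x

theorem exists_clm {x : JZero N} (hx : m • x = 0) :
    ∃ (f : FK Ω N) (hf : DM Ω m f), clm hf = x := by
  obtain ⟨D, rfl⟩ := Pic0.mk_surjective x
  rw [Spec.nsmul_mk, Spec.pic0_mk_eq_zero] at hx
  obtain ⟨f, hf, hfD⟩ := Spec.isPrincipal_iff.1 hx
  have hfD' : m • (D : Divisor Ω (Kum.FK Ω N)) = divisor Ω f := hfD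
  have h2 : ∀ w : Place Ω (Kum.FK Ω N), (m : ℤ) * (D : Divisor Ω (Kum.FK Ω N)) w = w.ord f := by
    intro w
    have h3 := DFunLike.congr_fun hfD' w
    rw [divisor_apply, Finsupp.smul_apply, nsmul_eq_mul] at h3
    exact h3
  have h3 : DM Ω m f := ⟨hf, fun v => ⟨_, (h2 v).symm⟩⟩
  refine ⟨f, h3, ?_⟩
  rw [clm]
  congr 1
  exact Subtype.ext (h3.eq_divm h2).symm

theorem clm_of_mul {f : FK Ω N} {c : ℕ} [NeZero c] (h : DM Ω (m * c) f) (h' : DM Ω m f) :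
    clm h' = c • clm h := by
  have h1 : c • clm h = Pic0.mk (c • (⟨divm (K := Ω) (m * c) f, h.degree⟩ : Divisor.degZero)) := by
    rw [clm]; rfl
  rw [h1, clm]
  congr 1
  apply Subtype.ext
  symm
  apply h'.eq_divm
  intro v
  change (m : ℤ) * (c • divm (K := Ω) (m * c) f) v = _
  rw [Finsupp.smul_apply, nsmul_eq_mul, ← mul_assoc, ← h.mul_divm]
  push_cast
  ring

theorem xToJ_surj {x : JZero N} (hx : m • x = 0) : ∃ ξ, xToJ ι m ξ = x := by
  obtain ⟨y, rfl⟩ := divisible_J (NeZero.ne (tb N)) x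
  obtain ⟨f, hf, hf'⟩ := exists_clm (m := m * tb N) (x := y) (by rw [mul_smul]; exact hx)
  have hg : Good m f := hf
  refine ⟨cls ι m f, ?_⟩
  rw [xToJ_cls ι hg, ← hf']
  exact clm_of_mul hf _

/-! ### change of modulus -/

theorem cls_of_dvd {M : ℕ} [NeZero M] (h : m ∣ M) {x : FK Ω N} (hx : Good M x)
    {φ : LZ N} (hφ : cls ι M x = mkX φ) : cls ι m x = mkX φ := by
  obtain ⟨ψ, hψ⟩ := hx.exists_mk ι
  rw [cls_eq ι hx hψ, mkX_eq_iff] at hφ
  rw [hφ] at hψ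
  have h1 := hψ.reduce h
  rw [redZ_redI] at h1
  exact cls_eq ι (hx.of_dvd (Nat.mul_dvd_mul_right h _)) h1

theorem rhoF_of_dvd {M : ℕ} [NeZero M] (h : m ∣ M) (σ : Ω ≃ₐ[ℚ] Ω) {φ ψ : LZ N}
    (hφ : rhoF ι M σ (mkX φ) = mkX ψ) : rhoF ι m σ (mkX φ) = mkX ψ := by
  obtain ⟨x, hx, hx'⟩ := exists_cls_eq' (K := Ω) ι (mkX φ : XL N M)
  rw [← hx', rhoF_cls ι σ hx] at hφ
  rw [← cls_of_dvd ι h hx hx', rhoF_cls ι σ (hx.of_dvd (Nat.mul_dvd_mul_right h _))]
  exact cls_of_dvd ι h (KD.gal σ hx) hφ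

theorem xToJ_mul (c : ℕ) [NeZero c] (φ : LZ N) :
    xToJ ι m (mkX φ) = c • xToJ ι (m * c) (mkX φ) := by
  obtain ⟨x, hx, hx'⟩ := exists_cls_eq' (K := Ω) ι (mkX φ : XL N (m * c))
  have hg : Good m x := hx.of_dvd (Nat.mul_dvd_mul_right (dvd_mul_right _ _) _)
  rw [← hx', xToJ_cls ι hx, ← cls_of_dvd ι (dvd_mul_right m c) hx hx', xToJ_cls ι hg]
  exact clm_of_mul _ _

/-! ### Hecke operators -/

theorem mul_heckeDiv {q : ℕ} [NeZero q]
    {x y : FK Ω N} (hx : DM Ω m x) (hy0 : y ≠ 0)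
    (hxy : Spec.normAlong (heckeAlphaBar Ω N q) (heckeBetaBar Ω N q x) = y)
    (D : Divisor Ω (FK Ω N)) (hD : ∀ v, (m : ℤ) * D v = v.ord x) :
    ∀ v, (m : ℤ) * heckeDivBar (heckeAlphaBarIntegral Ω N q) (heckeBetaBarIntegral Ω N q) D v =
      v.ord y := by
  intro v
  have h1 : (m : ℤ) * heckeDivBar (heckeAlphaBarIntegral Ω N q) (heckeBetaBarIntegral Ω N q) D v =
      heckeDivBar (heckeAlphaBarIntegral Ω N q) (heckeBetaBarIntegral Ω N q) (m • D) v := by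
    rw [map_nsmul, Finsupp.smul_apply, nsmul_eq_mul]
  rw [h1]
  change Divisor.pushforwardAlong (heckeAlphaBar Ω N q) (heckeAlphaBarIntegral Ω N q)
    (Divisor.pullbackAlong (heckeBetaBar Ω N q) (heckeBetaBarIntegral Ω N q) (m • D)) v = _
  have h2 : ∀ w, (m • D) w = w.ord x := fun w => by
    rw [Finsupp.smul_apply, nsmul_eq_mul]; exact hD w
  have h3 : ∀ w, Divisor.pullbackAlong (heckeBetaBar Ω N q) (heckeBetaBarIntegral Ω N q)
      (m • D) w = w.ord (heckeBetaBar Ω N q x) := by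
    intro w
    refine (Divisor.pullbackAlong_apply (heckeBetaBar Ω N q)
      (heckeBetaBarIntegral Ω N q : (heckeBetaBar Ω N q).toRingHom.IsIntegral) (m • D) w).trans ?_
    rw [h2]
    exact (Place.ord_restrictAlong _ _ w x).symm
  have hx0 : heckeBetaBar Ω N q x ≠ 0 := by
    intro h0
    exact hx.1 ((heckeBetaBar Ω N q).injective (h0.trans (map_zero _).symm))
  have h4 := normFormulaAlong_alpha Ω N q
  letI := algebraAlong (heckeAlphaBar Ω N q)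
  haveI := isScalarTower_along (heckeAlphaBar Ω N q)
  haveI := isIntegral_along (heckeAlphaBar Ω N q) (heckeAlphaBarIntegral Ω N q)
  haveI : Module.Finite (FK Ω N) (FK Ω (N * q)) := finiteAlong_heckeAlphaBar Ω N q
  have h5 : Divisor.PushforwardNormFormula Ω (FK Ω N) (FK Ω (N * q)) := h4
  rw [← hxy]
  exact h5 _ hx0 _ h3 v

theorem hecke_clm {q : ℕ} [NeZero q] {x y : FK Ω N} (hx : DM Ω m x) (hy : DM Ω m y)
    (hxy : Spec.normAlong (heckeAlphaBar Ω N q) (heckeBetaBar Ω N q x) = y) :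
    heckeOperatorAlong Ω N q (clm hx) = clm hy := by
  rw [heckeOperatorAlong_eq']
  change Pic0.mk (Pic0.degZeroCorrespondence (heckeBetaBar Ω N q) (heckeAlphaBar Ω N q)
    (heckeBetaBarIntegral Ω N q) (heckeAlphaBarIntegral Ω N q)
    (fundamentalIdentityAlong_beta Ω N q) ⟨divm (K := Ω) m x, hx.degree⟩) = _
  rw [clm]
  congr 1
  apply Subtype.ext
  exact hy.eq_divm (mul_heckeDiv hx hy.1 hxy _ fun v => hx.mul_divm v)

variable {S : Set ℕ}

theorem xToJ_T {q : ℕ} (hq : q.Prime) (hqN : ¬ q ∣ N) (hqS : q ∉ S) (ξ : XL N m) :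
    xToJ ι m (actX N m S (CuspForm.heckeAlgebra.T hq hqN hqS) ξ) =
      heckeOperatorBar N (⟨q, hq⟩ : Nat.Primes) (xToJ ι m ξ) := by
  haveI : NeZero q := ⟨hq.ne_zero⟩
  haveI : Fact q.Prime := ⟨hq⟩
  obtain ⟨ζ', hζ'⟩ : ∃ ζ : Ω, IsPrimitiveRoot ζ q :=
    HasEnoughRootsOfUnity.exists_primitiveRoot Ω q
  obtain ⟨ζ, rfl⟩ : IsUnit ζ' := hζ'.isUnit (NeZero.ne q)
  have hζ : IsPrimitiveRoot ζ q := IsPrimitiveRoot.coe_units_iff.1 hζ'
  obtain ⟨x, hx, rfl⟩ := exists_cls_eq (K := Ω) ι ξ (6 * N)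
  have hx' : Good m x := hx.of_dvd (dvd_mul_right _ _)
  rw [mul_comm] at hx
  have hT : Good m (TTK ι hq hqN hζ x) := KD.TTK ι hq hqN hζ hx
  rw [← cls_TTK ι hq hqN hqS hζ hx, xToJ_cls ι hx', xToJ_cls ι hT]
  symm
  change heckeOperatorAlong Ω N q _ = _
  apply hecke_clm
  apply Subtype.ext
  exact Spec.coe_normAlong_heckeBetaBar Ω N q hqN hζ x

end Fermat.Agent.MazD
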